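import Mathlib.RingTheory.PowerSeries.Derivative
import Mathlib.RingTheory.PowerSeries.Order
import Mathlib.Algebra.Polynomial.Derivative
import Mathlib.Algebra.Polynomial.BigOperators
import Mathlib.LinearAlgebra.Matrix.Determinant.Basic

/-!
# Linear forms in a solution of a linear differential system

For `T f' = Q f` the operator `P ↦ T P' + P Q` on vectors of polynomials corresponds to
`R ↦ T R'` on the forms `R = ∑ P j f j`.
-/

set_option autoImplicit false

noncomputable section

open Finset

namespace FA.SiegelShidlovskii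

section

variable {R : Type*} [CommRing R] {m : ℕ}

/-- The derivation `P ↦ T P' + P Q` on vectors of polynomials. -/
def vecDeriv (T : Polynomial R) (Q : Matrix (Fin m) (Fin m) (Polynomial R))
    (P : Fin m → Polynomial R) : Fin m → Polynomial R :=
  fun j => T * Polynomial.derivative (P j) + ∑ i, P i * Q i j

/-- The vectors got by iterating `vecDeriv`. -/
def iterDeriv (T : Polynomial R) (Q : Matrix (Fin m) (Fin m) (Polynomial R))
    (P : Fin m → Polynomial R) (k : ℕ) : Fin m → Polynomial R :=
  (vecDeriv T Q)^[k] P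

@[simp] theorem iterDeriv_zero (T : Polynomial R) (Q : Matrix (Fin m) (Fin m) (Polynomial R))
    (P : Fin m → Polynomial R) : iterDeriv T Q P 0 = P := rfl

theorem iterDeriv_succ (T : Polynomial R) (Q : Matrix (Fin m) (Fin m) (Polynomial R))
    (P : Fin m → Polynomial R) (k : ℕ) :
    iterDeriv T Q P (k + 1) = vecDeriv T Q (iterDeriv T Q P k) :=
  Function.iterate_succ_apply' _ _ _

theorem vecDeriv_natDegree_le (T : Polynomial R) (Q : Matrix (Fin m) (Fin m) (Polynomial R))
    (P : Fin m → Polynomial R) {n s : ℕ} (hT : T.natDegree ≤ s)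
    (hQ : ∀ i j, (Q i j).natDegree ≤ s) (hP : ∀ j, (P j).natDegree ≤ n) (j : Fin m) :
    (vecDeriv T Q P j).natDegree ≤ n + s := by
  refine Polynomial.natDegree_add_le_of_degree_le ?_ ?_
  · refine Polynomial.natDegree_mul_le.trans ?_
    have := (Polynomial.natDegree_derivative_le (P j)).trans (Nat.sub_le _ _)
    have := hP j
    omega
  · refine Polynomial.natDegree_sum_le_of_forall_le _ _ fun i _ => ?_
    exact Polynomial.natDegree_mul_le.trans (Nat.add_le_add (hP i) (hQ i j))

theorem iterDeriv_natDegree_le (T : Polynomial R) (Q : Matrix (Fin m) (Fin m) (Polynomial R))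
    (P : Fin m → Polynomial R) {n s : ℕ} (hT : T.natDegree ≤ s)
    (hQ : ∀ i j, (Q i j).natDegree ≤ s) (hP : ∀ j, (P j).natDegree ≤ n) (k : ℕ) (j : Fin m) :
    (iterDeriv T Q P k j).natDegree ≤ n + k * s := by
  induction k generalizing j with
  | zero => simpa using hP j
  | succ k ih =>
    rw [iterDeriv_succ, Nat.succ_mul, ← Nat.add_assoc]
    exact vecDeriv_natDegree_le T Q _ hT hQ ih j

/-- A ring homomorphism commuting with derivation commutes with `vecDeriv`. -/
theorem map_iterDeriv {S : Type*} [CommRing S] (φ : Polynomial R →+* Polynomial S)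
    (hφ : ∀ p, φ (Polynomial.derivative p) = Polynomial.derivative (φ p)) (T : Polynomial R)
    (Q : Matrix (Fin m) (Fin m) (Polynomial R)) (P : Fin m → Polynomial R) (k : ℕ) :
    (fun j => φ (iterDeriv T Q P k j)) =
      iterDeriv (φ T) (Q.map φ) (fun j => φ (P j)) k := by
  induction k with
  | zero => rfl
  | succ k ih =>
    funext j
    rw [iterDeriv_succ, iterDeriv_succ, ← ih]
    simp [vecDeriv, hφ, Matrix.map_apply]

end

variable {m : ℕ}

/-- The series `∑ P j f j`. -/
def formSeries (f : Fin m → PowerSeries ℚ) (P : Fin m → Polynomial ℚ) : PowerSeries ℚ :=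
  ∑ j, (P j : PowerSeries ℚ) * f j

/-- `f` solves the system `T f' = Q f`. -/
def IsSolution (T : Polynomial ℚ) (Q : Matrix (Fin m) (Fin m) (Polynomial ℚ))
    (f : Fin m → PowerSeries ℚ) : Prop :=
  ∀ i, (T : PowerSeries ℚ) * PowerSeries.derivative ℚ (f i) =
    ∑ j, (Q i j : PowerSeries ℚ) * f j

variable {T : Polynomial ℚ} {Q : Matrix (Fin m) (Fin m) (Polynomial ℚ)}
  {f : Fin m → PowerSeries ℚ}

theorem coe_polynomial_sum {ι : Type*} (s : Finset ι) (p : ι → Polynomial ℚ) :
    ((∑ i ∈ s, p i : Polynomial ℚ) : PowerSeries ℚ) = ∑ i ∈ s, (p i : PowerSeries ℚ) :=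
  map_sum Polynomial.coeToPowerSeries.ringHom p s

theorem mul_derivative_formSeries (hf : IsSolution T Q f) (P : Fin m → Polynomial ℚ) :
    (T : PowerSeries ℚ) * PowerSeries.derivative ℚ (formSeries f P) =
      formSeries f (vecDeriv T Q P) := by
  simp only [formSeries, vecDeriv, map_sum, Derivation.leibniz, PowerSeries.derivative_coe,
    smul_eq_mul, Polynomial.coe_add, coe_polynomial_sum, Polynomial.coe_mul, Finset.mul_sum,
    add_mul, mul_add, Finset.sum_add_distrib, Finset.sum_mul]
  rw [add_comm]
  congr 1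
  · exact Finset.sum_congr rfl fun j _ => by ring
  · rw [Finset.sum_comm (γ := Fin m)]
    refine Finset.sum_congr rfl fun i _ => ?_
    calc (T : PowerSeries ℚ) * ((P i : PowerSeries ℚ) * PowerSeries.derivative ℚ (f i))
        = (P i : PowerSeries ℚ) * ((T : PowerSeries ℚ) * PowerSeries.derivative ℚ (f i)) := by
          ring
      _ = _ := by
          rw [hf i, Finset.mul_sum]
          exact Finset.sum_congr rfl fun j _ => by ring

theorem X_pow_dvd_derivative {N : ℕ} {g : PowerSeries ℚ} (h : PowerSeries.X ^ N ∣ g) :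
    PowerSeries.X ^ (N - 1) ∣ PowerSeries.derivative ℚ g := by
  rw [PowerSeries.X_pow_dvd_iff] at h ⊢
  intro i hi
  rw [PowerSeries.coeff_derivative, h (i + 1) (by omega), zero_mul]

theorem X_pow_dvd_formSeries (hf : IsSolution T Q f) (P : Fin m → Polynomial ℚ) {N : ℕ}
    (h : PowerSeries.X ^ N ∣ formSeries f P) (k : ℕ) :
    PowerSeries.X ^ (N - k) ∣ formSeries f (iterDeriv T Q P k) := by
  induction k with
  | zero => simpa using h
  | succ k ih =>
    rw [iterDeriv_succ, ← mul_derivative_formSeries hf, Nat.sub_add_eq]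
    exact Dvd.dvd.mul_left (X_pow_dvd_derivative ih) _

theorem formSeries_smul_sum {ι : Type*} (s : Finset ι) (a : ι → Polynomial ℚ)
    (P : ι → Fin m → Polynomial ℚ) :
    formSeries f (fun j => ∑ k ∈ s, a k * P k j) =
      ∑ k ∈ s, (a k : PowerSeries ℚ) * formSeries f (P k) := by
  simp only [formSeries, coe_polynomial_sum, Polynomial.coe_mul, Finset.sum_mul, Finset.mul_sum]
  rw [Finset.sum_comm]
  exact Finset.sum_congr rfl fun k _ => Finset.sum_congr rfl fun j _ => by ring

end FA.SiegelShidlovskii

end
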