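import Mathlib.Data.Real.Basic
import Mathlib.Algebra.Polynomial.Derivative
import Mathlib.Algebra.Order.BigOperators.Group.Finset
import Mathlib.Algebra.Polynomial.BigOperators
import Mathlib.Tactic
import Fermat.Agent.SiegelShidlovskii.System

/-!
# The length of integral polynomials

The sum `l1` of the absolute values of the coefficients, the growth of the iterates of a vector of
polynomials, and the integers `b ^ d P (a / b)`.
-/

set_option autoImplicit false

noncomputable section

open Finset Polynomial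

namespace FA.SiegelShidlovskii

/-- The sum of the absolute values of the coefficients. -/
def l1 (P : ℤ[X]) : ℝ := ∑ i ∈ range (P.natDegree + 1), |(P.coeff i : ℝ)|

theorem l1_nonneg (P : ℤ[X]) : 0 ≤ l1 P := Finset.sum_nonneg fun _ _ => abs_nonneg _

theorem l1_eq_sum (P : ℤ[X]) {N : ℕ} (h : P.natDegree < N) :
    l1 P = ∑ i ∈ range N, |(P.coeff i : ℝ)| := by
  refine Finset.sum_subset (fun i hi => ?_) fun i _ hi => ?_
  · simp only [mem_range] at hi ⊢; omega
  · simp only [mem_range] at hi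
    rw [coeff_eq_zero_of_natDegree_lt (by omega)]
    simp

theorem l1_add_le (P Q : ℤ[X]) : l1 (P + Q) ≤ l1 P + l1 Q := by
  set N := max (P + Q).natDegree (max P.natDegree Q.natDegree) + 1
  rw [l1_eq_sum (P + Q) (show _ < N by omega), l1_eq_sum P (show _ < N by omega),
    l1_eq_sum Q (show _ < N by omega), ← Finset.sum_add_distrib]
  refine Finset.sum_le_sum fun i _ => ?_
  rw [coeff_add]
  push_cast
  exact abs_add_le _ _

theorem l1_sum_le {ι : Type*} (s : Finset ι) (P : ι → ℤ[X]) :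
    l1 (∑ i ∈ s, P i) ≤ ∑ i ∈ s, l1 (P i) := by
  classical
  induction s using Finset.induction_on with
  | empty => simp [l1]
  | insert a s ha ih =>
    rw [Finset.sum_insert ha, Finset.sum_insert ha]
    exact (l1_add_le _ _).trans (add_le_add le_rfl ih)

theorem l1_mul_le (P Q : ℤ[X]) : l1 (P * Q) ≤ l1 P * l1 Q := by
  conv_lhs => rw [P.as_sum_range, Finset.sum_mul]
  refine (l1_sum_le _ _).trans ?_
  rw [l1, Finset.sum_mul]
  refine Finset.sum_le_sum fun i _ => ?_
  have hdeg : (monomial i (P.coeff i) * Q).natDegree < i + (Q.natDegree + 1) :=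
    Nat.lt_succ_of_le (natDegree_mul_le.trans
      (Nat.add_le_add (natDegree_monomial_le _) le_rfl))
  rw [l1_eq_sum _ hdeg, Finset.sum_range_add, Finset.sum_eq_zero fun j hj => by
    rw [mem_range] at hj
    rw [← C_mul_X_pow_eq_monomial, mul_assoc, coeff_C_mul, X_pow_mul, coeff_mul_X_pow',
      if_neg (by omega)]
    simp, zero_add, l1, Finset.mul_sum]
  refine Finset.sum_le_sum fun j _ => ?_
  rw [show i + j = j + i from add_comm i j, coeff_monomial_mul]
  push_cast
  rw [abs_mul]

theorem l1_derivative_le (P : ℤ[X]) : l1 (derivative P) ≤ P.natDegree * l1 P := by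
  rw [l1_eq_sum (derivative P) (show (derivative P).natDegree < P.natDegree + 1 from
    Nat.lt_succ_of_le ((natDegree_derivative_le P).trans (Nat.sub_le _ _))),
    l1_eq_sum P (show P.natDegree < P.natDegree + 1 + 1 by omega), Finset.sum_range_succ' _
      (P.natDegree + 1), mul_add, Finset.mul_sum]
  refine le_trans (Finset.sum_le_sum fun i hi => ?_) (le_add_of_nonneg_right (by positivity))
  rw [coeff_derivative]
  push_cast
  rw [abs_mul, mul_comm, abs_of_nonneg (show (0 : ℝ) ≤ (i : ℝ) + 1 by positivity)]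
  rcases eq_or_ne (P.coeff (i + 1)) 0 with h | h
  · simp [h]
  · refine mul_le_mul_of_nonneg_right ?_ (abs_nonneg _)
    exact_mod_cast le_natDegree_of_ne_zero h

variable {m : ℕ} (T : ℤ[X]) (Q : Matrix (Fin m) (Fin m) ℤ[X])

/-- The growth of the iterates. -/
theorem exists_l1_iterDeriv_le {s : ℕ} (hT : T.natDegree ≤ s)
    (hQ : ∀ i j, (Q i j).natDegree ≤ s) :
    ∃ M : ℝ, 1 ≤ M ∧ ∀ (P : Fin m → ℤ[X]) (n K : ℕ), (∀ j, (P j).natDegree ≤ n) → ∀ k ≤ K,
      ∑ j, l1 (iterDeriv T Q P k j) ≤ (M * ((n : ℝ) + K * s + 1)) ^ k * ∑ j, l1 (P j) := by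
  refine ⟨1 + l1 T + ∑ i, ∑ j, l1 (Q i j), ?_, fun P n K hP k hk => ?_⟩
  · have := l1_nonneg T
    have : (0 : ℝ) ≤ ∑ i, ∑ j, l1 (Q i j) :=
      Finset.sum_nonneg fun _ _ => Finset.sum_nonneg fun _ _ => l1_nonneg _
    linarith
  induction k with
  | zero => simp
  | succ k ih =>
    set S := ∑ j, l1 (iterDeriv T Q P k j)
    have hS : 0 ≤ S := Finset.sum_nonneg fun _ _ => l1_nonneg _
    have hd : ∀ j, ((iterDeriv T Q P k j).natDegree : ℝ) ≤ (n : ℝ) + K * s + 1 := fun j => by
      have h1 := (iterDeriv_natDegree_le T Q P hT hQ hP k j).trans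
        (Nat.add_le_add_left (Nat.mul_le_mul_right s (show k ≤ K by omega)) n)
      have h2 : ((iterDeriv T Q P k j).natDegree : ℝ) ≤ ((n + K * s : ℕ) : ℝ) :=
        Nat.cast_le.2 h1
      push_cast at h2
      linarith
    set W := (n : ℝ) + K * s + 1
    have hW : 1 ≤ W := le_add_of_nonneg_left (by positivity)
    have hstep : ∀ j, l1 (vecDeriv T Q (iterDeriv T Q P k) j) ≤
        l1 T * W * l1 (iterDeriv T Q P k j) + ∑ i, l1 (iterDeriv T Q P k i) * l1 (Q i j) := by
      intro j
      refine (l1_add_le _ _).trans (add_le_add ?_ ((l1_sum_le _ _).trans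
        (Finset.sum_le_sum fun i _ => l1_mul_le _ _)))
      refine (l1_mul_le _ _).trans ?_
      rw [mul_assoc]
      exact mul_le_mul_of_nonneg_left ((l1_derivative_le _).trans
        (mul_le_mul_of_nonneg_right (hd j) (l1_nonneg _))) (l1_nonneg _)
    have hsum : ∑ j, ∑ i, l1 (iterDeriv T Q P k i) * l1 (Q i j) ≤
        S * ∑ i, ∑ j, l1 (Q i j) := by
      rw [Finset.sum_comm, Finset.sum_mul]
      refine Finset.sum_le_sum fun i _ => ?_
      rw [← Finset.mul_sum]
      exact mul_le_mul_of_nonneg_left (Finset.single_le_sum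
        (f := fun i => ∑ j, l1 (Q i j)) (fun _ _ => Finset.sum_nonneg fun _ _ => l1_nonneg _)
        (mem_univ i)) (l1_nonneg _)
    rw [iterDeriv_succ, pow_succ', mul_assoc]
    refine (Finset.sum_le_sum fun j _ => hstep j).trans ?_
    rw [Finset.sum_add_distrib, ← Finset.mul_sum]
    have hQ0 : (0 : ℝ) ≤ ∑ i, ∑ j, l1 (Q i j) :=
      Finset.sum_nonneg fun _ _ => Finset.sum_nonneg fun _ _ => l1_nonneg _
    have hSW : S ≤ W * S := le_mul_of_one_le_left hS hW
    refine le_trans ?_ (mul_le_mul_of_nonneg_left (ih (by omega))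
      (mul_nonneg (by have := l1_nonneg T; linarith) (by linarith)))
    nlinarith [mul_le_mul_of_nonneg_left hSW hQ0]

theorem exists_int_eval (P : ℤ[X]) (a : ℤ) (b : ℕ) (hb : b ≠ 0) {d : ℕ} (hd : P.natDegree ≤ d) :
    ∃ z : ℤ, (z : ℝ) = (b : ℝ) ^ d * eval₂ (Int.castRingHom ℝ) ((a : ℝ) / b) P ∧
      |(z : ℝ)| ≤ (|(a : ℝ)| + b) ^ d * l1 P := by
  refine ⟨∑ i ∈ range (d + 1), P.coeff i * a ^ i * (b : ℤ) ^ (d - i), ?_, ?_⟩
  · rw [eval₂_eq_sum_range' _ (Nat.lt_succ_of_le hd), Finset.mul_sum]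
    push_cast
    refine Finset.sum_congr rfl fun i hi => ?_
    rw [mem_range] at hi
    have : (b : ℝ) ≠ 0 := Nat.cast_ne_zero.2 hb
    rw [eq_intCast, div_pow]
    conv_rhs => rw [show d = (d - i) + i by omega, pow_add]
    field_simp
  · push_cast
    refine (Finset.abs_sum_le_sum_abs _ _).trans ?_
    rw [l1_eq_sum P (Nat.lt_succ_of_le hd), Finset.mul_sum]
    refine Finset.sum_le_sum fun i hi => ?_
    rw [mem_range] at hi
    rw [abs_mul, abs_mul, abs_pow, abs_pow, Nat.abs_cast, mul_assoc, mul_comm]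
    refine mul_le_mul_of_nonneg_right ?_ (abs_nonneg _)
    conv_rhs => rw [show d = i + (d - i) by omega, pow_add]
    gcongr
    · exact le_add_of_nonneg_right (Nat.cast_nonneg _)
    · exact le_add_of_nonneg_left (abs_nonneg _)

end FA.SiegelShidlovskii

end
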