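import Mathlib.NumberTheory.SiegelsLemma
import Mathlib.Data.Nat.Choose.Bounds
import Mathlib.Data.Nat.Choose.Sum
import Fermat.Agent.SiegelShidlovskii.Norms

/-!
# E-functions and the auxiliary form

Siegel's lemma gives, for `n = q p`, polynomials of degree `n` and length `n! exp (O (p))` whose
form vanishes at the origin to order `(m q - 1) p`.
-/

set_option autoImplicit false

noncomputable section

open Finset
open scoped Nat

namespace FA.SiegelShidlovskii

/-- An E-function with rational coefficients, in the strict sense: `f = ∑ a k z ^ k / k!` with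
`|a k| ≤ C ^ (k + 1)` and a common denominator of `a 0, …, a N` at most `C ^ (N + 1)`. -/
def IsEFunction (f : PowerSeries ℚ) : Prop :=
  ∃ C : ℕ, (∀ k, |(k ! : ℚ) * PowerSeries.coeff k f| ≤ (C : ℚ) ^ (k + 1)) ∧
    ∀ N, ∃ d : ℕ, 0 < d ∧ d ≤ C ^ (N + 1) ∧
      ∀ k ≤ N, ∃ z : ℤ, (z : ℚ) = (d : ℚ) * ((k ! : ℚ) * PowerSeries.coeff k f)

variable {m : ℕ} {f : Fin m → PowerSeries ℚ}

/-- Common constants for finitely many E-functions. -/
theorem exists_common_constant (hE : ∀ j, IsEFunction (f j)) :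
    ∃ C : ℕ, 1 ≤ C ∧ (∀ j k, |(k ! : ℚ) * PowerSeries.coeff k (f j)| ≤ (C : ℚ) ^ (k + 1)) ∧
      ∀ N, ∃ d : ℕ, 0 < d ∧ d ≤ C ^ (N + 1) ∧
        ∀ j, ∀ k ≤ N, ∃ z : ℤ, (z : ℚ) = (d : ℚ) * ((k ! : ℚ) * PowerSeries.coeff k (f j)) := by
  choose C hC hd using hE
  choose d hd0 hdC hdz using hd
  have h1 : ∀ j, 1 ≤ C j := fun j => by
    by_contra h
    have := hdC j 0
    rw [show C j = 0 by omega, Nat.zero_add, pow_one] at this
    have := hd0 j 0
    omega
  have hle : ∀ j, C j ≤ ∏ i, C i := fun j => Nat.le_of_dvd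
    (Finset.prod_pos fun i _ => h1 i) (Finset.dvd_prod_of_mem _ (mem_univ j))
  refine ⟨∏ i, C i, (Finset.prod_pos fun i _ => h1 i : 0 < ∏ i, C i), fun j k => (hC j k).trans
    (pow_le_pow_left₀ (Nat.cast_nonneg _) (Nat.cast_le.2 (hle j)) _), fun N => ?_⟩
  refine ⟨∏ i, d i N, Finset.prod_pos fun i _ => hd0 i N, ?_, fun j k hk => ?_⟩
  · rw [← Finset.prod_pow]
    exact Finset.prod_le_prod' fun i _ => hdC i N
  · obtain ⟨z, hz⟩ := hdz j N k hk
    refine ⟨(∏ i ∈ univ.erase j, (d i N : ℤ)) * z, ?_⟩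
    rw [← Finset.mul_prod_erase univ (fun i => d i N) (mem_univ j)]
    push_cast
    rw [hz]
    ring

attribute [local instance] Matrix.seminormedAddCommGroup

/-- **The auxiliary form.** -/
theorem exists_auxiliary (hE : ∀ j, IsEFunction (f j)) (hm : 0 < m) {q : ℕ} (hq : 0 < q) :
    ∃ H : ℝ, 1 ≤ H ∧ ∀ p : ℕ, 0 < p → ∃ P : Fin m → Polynomial ℤ, P ≠ 0 ∧
      (∀ j, (P j).natDegree ≤ q * p) ∧ (∀ j, l1 (P j) ≤ ((q * p)! : ℝ) * H ^ p) ∧
      PowerSeries.X ^ ((m * q - 1) * p) ∣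
        formSeries f (fun j => (P j).map (Int.castRingHom ℚ)) ∧
      ∀ k, |((PowerSeries.coeff k (formSeries f fun j => (P j).map (Int.castRingHom ℚ)) : ℚ) : ℝ)|
        ≤ ((q * p)! : ℝ) * H ^ p * H ^ k / (k ! : ℝ) := by
  obtain ⟨C, hC1, hC, hden⟩ := exists_common_constant hE
  have hC' : (1 : ℝ) ≤ C := by exact_mod_cast hC1
  obtain ⟨G, hG⟩ : ∃ G : ℝ, G = ((m : ℝ) * 2 ^ q * (2 * (C : ℝ) ^ 2) ^ (m * q)) ^ (m * q) :=
    ⟨_, rfl⟩
  have hm' : (1 : ℝ) ≤ m := by exact_mod_cast hm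
  have h2q : (1 : ℝ) ≤ 2 ^ q := one_le_pow₀ one_le_two
  have h2C : (1 : ℝ) ≤ 2 * (C : ℝ) ^ 2 := by
    have : (1 : ℝ) ≤ (C : ℝ) ^ 2 := one_le_pow₀ hC'
    linarith
  have hbase : (1 : ℝ) ≤ (m : ℝ) * 2 ^ q * (2 * (C : ℝ) ^ 2) ^ (m * q) :=
    one_le_mul_of_one_le_of_one_le (one_le_mul_of_one_le_of_one_le hm' h2q) (one_le_pow₀ h2C)
  have hG1 : 1 ≤ G := hG ▸ one_le_pow₀ hbase
  obtain ⟨H, hH⟩ : ∃ H : ℝ, H = (m : ℝ) * C * 2 ^ q * G * (2 * C) := ⟨_, rfl⟩
  have hmC : (1 : ℝ) ≤ (m : ℝ) * C := one_le_mul_of_one_le_of_one_le hm' hC'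
  have h2C' : (1 : ℝ) ≤ 2 * (C : ℝ) := by linarith
  have hH1 : 1 ≤ H := hH ▸ one_le_mul_of_one_le_of_one_le (one_le_mul_of_one_le_of_one_le
    (one_le_mul_of_one_le_of_one_le hmC h2q) hG1) h2C'
  refine ⟨H, hH1, fun p hp => ?_⟩
  set n := q * p with hn
  set N := (m * q - 1) * p with hN
  have hNn : N + p = m * n := by
    have : 1 ≤ m * q := Nat.mul_pos hm hq
    obtain ⟨t, ht⟩ := Nat.exists_eq_add_of_le this
    rw [hN, hn, show m * (q * p) = (m * q) * p by ring, ht, Nat.add_sub_cancel_left]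
    ring
  obtain ⟨d, hd0, hdC, hdz⟩ := hden N
  choose! z hz using hdz
  -- the system
  set A : Matrix (Fin N) (Fin m × Fin (n + 1)) ℤ := Matrix.of fun k x =>
    ((k : ℕ).choose (x.2 : ℕ) : ℤ) * z x.1 ((k : ℕ) - x.2) with hA
  have hzle : ∀ j k, k ≤ N → |(z j k : ℝ)| ≤ (C : ℝ) ^ (N + 1) * (C : ℝ) ^ (N + 1) := by
    intro j k hk
    have h1 : (z j k : ℝ) = (d : ℝ) * (((k ! : ℚ) * PowerSeries.coeff k (f j) : ℚ) : ℝ) := by
      rw [← Rat.cast_intCast, hz j k hk]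
      push_cast
      ring
    rw [h1, abs_mul, Nat.abs_cast]
    refine mul_le_mul (by exact_mod_cast hdC) ?_ (abs_nonneg _) (by positivity)
    have h2 := hC j k
    rw [← Rat.cast_le (K := ℝ), Rat.cast_abs, Rat.cast_pow, Rat.cast_natCast] at h2
    exact h2.trans (pow_le_pow_right₀ hC' (by omega))
  have hentry : ∀ k x, ‖A k x‖ ≤ (2 * (C : ℝ) ^ 2) ^ (m * n) := by
    intro k x
    rw [Int.norm_eq_abs, hA, Matrix.of_apply]
    push_cast
    rw [abs_mul, Nat.abs_cast]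
    calc ((k : ℕ).choose (x.2 : ℕ) : ℝ) * |(z x.1 ((k : ℕ) - x.2) : ℝ)|
        ≤ 2 ^ N * ((C : ℝ) ^ (N + 1) * (C : ℝ) ^ (N + 1)) := by
          refine mul_le_mul ?_ (hzle _ _ (by omega)) (abs_nonneg _) (by positivity)
          exact_mod_cast (Nat.choose_le_two_pow _ _).trans
            (Nat.pow_le_pow_right two_pos k.2.le)
      _ ≤ 2 ^ (N + 1) * ((C : ℝ) ^ (N + 1) * (C : ℝ) ^ (N + 1)) := by
          gcongr
          · norm_num
          · omega
      _ = (2 * (C : ℝ) ^ 2) ^ (N + 1) := by rw [mul_pow, ← pow_mul, ← pow_add]; ring_nf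
      _ ≤ _ := pow_le_pow_right₀ h2C (by omega)
  obtain ⟨x, hx0, hxA, hxn⟩ : ∃ x : Fin m × Fin (n + 1) → ℤ, x ≠ 0 ∧ A.mulVec x = 0 ∧
      ∀ i, |(x i : ℝ)| ≤ G ^ p := by
    rcases Nat.eq_zero_or_pos N with h0 | h0
    · refine ⟨fun _ => 1, fun h => one_ne_zero (congrFun h ((⟨0, hm⟩, 0) : Fin m × Fin (n + 1))),
        funext fun k => absurd k.2 (by omega), fun i => ?_⟩
      simpa using one_le_pow₀ hG1
    obtain ⟨x, hx0, hxA, hxn⟩ := Int.Matrix.exists_ne_zero_int_vec_norm_le A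
      (by simp only [Fintype.card_fin, Fintype.card_prod]; nlinarith) (by simpa using h0)
    refine ⟨x, hx0, hxA, fun i => ?_⟩
    rw [← Int.norm_eq_abs]
    refine (norm_le_pi_norm x i).trans (hxn.trans ?_)
    simp only [Fintype.card_fin, Fintype.card_prod]
    push_cast
    have hnorm : max 1 ‖A‖ ≤ (2 * (C : ℝ) ^ 2) ^ (m * n) :=
      max_le (one_le_pow₀ h2C) ((Matrix.norm_le_iff (by positivity)).2 hentry)
    have hb : (m : ℝ) * ((n : ℝ) + 1) * max 1 ‖A‖ ≤
        ((m : ℝ) * 2 ^ q * (2 * (C : ℝ) ^ 2) ^ (m * q)) ^ p := by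
      rw [mul_pow, mul_pow, ← pow_mul, ← pow_mul,
        show m * q * p = m * n by rw [hn]; ring, ← hn]
      refine mul_le_mul (mul_le_mul (le_self_pow₀ hm' hp.ne') ?_ (by positivity) (by positivity))
        hnorm (by positivity) (by positivity)
      exact_mod_cast (Nat.succ_le_of_lt n.lt_two_pow_self)
    have hb1 : (1 : ℝ) ≤ (m : ℝ) * ((n : ℝ) + 1) * max 1 ‖A‖ :=
      one_le_mul_of_one_le_of_one_le (one_le_mul_of_one_le_of_one_le hm'
        (le_add_of_nonneg_left (Nat.cast_nonneg _))) (le_max_left _ _)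
    have hexp : (N : ℝ) / ((m : ℝ) * ((n : ℝ) + 1) - N) ≤ ((m * q : ℕ) : ℝ) := by
      have h1 : (p : ℝ) ≤ (m : ℝ) * ((n : ℝ) + 1) - N := by
        have : ((N + p : ℕ) : ℝ) = ((m * n : ℕ) : ℝ) := by rw [hNn]
        push_cast at this
        nlinarith
      have hp' : (0 : ℝ) < p := Nat.cast_pos.2 hp
      rw [div_le_iff₀ (by linarith)]
      refine le_trans ?_ (mul_le_mul_of_nonneg_left h1 (Nat.cast_nonneg _))
      rw [← Nat.cast_mul (α := ℝ), Nat.cast_le, hN]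
      exact Nat.mul_le_mul_right _ (Nat.sub_le _ _)
    refine (Real.rpow_le_rpow_of_exponent_le hb1 hexp).trans ?_
    rw [Real.rpow_natCast]
    refine (pow_le_pow_left₀ (zero_le_one.trans hb1) hb _).trans_eq ?_
    rw [hG, ← pow_mul, ← pow_mul, Nat.mul_comm p]
  -- the form
  set P : Fin m → Polynomial ℤ := fun j => ∑ i : Fin (n + 1),
    Polynomial.monomial (i : ℕ) (((n ! / (i : ℕ)! : ℕ) : ℤ) * x (j, i)) with hP
  have hPc : ∀ j (i : Fin (n + 1)), (P j).coeff (i : ℕ) =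
      ((n ! / (i : ℕ)! : ℕ) : ℤ) * x (j, i) := fun j i => by
    simp [hP, Polynomial.finsetSum_coeff, Polynomial.coeff_monomial, Fin.val_inj]
  have hPd : ∀ j, (P j).natDegree ≤ n := fun j => Polynomial.natDegree_sum_le_of_forall_le _ _
    fun i _ => (Polynomial.natDegree_monomial_le _).trans (Nat.le_of_lt_succ i.2)
  have hfac : ∀ i : Fin (n + 1), ((n ! / (i : ℕ)! : ℕ) : ℚ) = (n ! : ℚ) / ((i : ℕ)! : ℚ) :=
    fun i => Nat.cast_div (Nat.factorial_dvd_factorial (Nat.le_of_lt_succ i.2))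
      (Nat.cast_ne_zero.2 (Nat.factorial_ne_zero _))
  have hcoeff : ∀ k, PowerSeries.coeff k (formSeries f fun j => (P j).map (Int.castRingHom ℚ)) =
      (n ! : ℚ) / (k ! : ℚ) * ∑ j, ∑ i : Fin (n + 1), ((k.choose (i : ℕ) : ℕ) : ℚ) *
        (x (j, i) : ℚ) * ((((k - (i : ℕ))! : ℕ) : ℚ) * PowerSeries.coeff (k - i) (f j)) := by
    intro k
    rw [formSeries, map_sum, Finset.mul_sum]
    refine Finset.sum_congr rfl fun j _ => ?_
    rw [show ((P j).map (Int.castRingHom ℚ) : PowerSeries ℚ) * f j = ∑ i : Fin (n + 1),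
        PowerSeries.C (((n ! / (i : ℕ)! : ℕ) : ℚ) * (x (j, i) : ℚ)) *
          (PowerSeries.X ^ (i : ℕ) * f j) by
      simp only [hP, Polynomial.map_sum, Polynomial.map_monomial, coe_polynomial_sum,
        Polynomial.coe_monomial, PowerSeries.monomial_eq_C_mul_X_pow, Finset.sum_mul]
      refine Finset.sum_congr rfl fun i _ => ?_
      rw [eq_intCast, Int.cast_mul, Int.cast_natCast]
      exact mul_assoc _ _ _, map_sum, Finset.mul_sum]
    refine Finset.sum_congr rfl fun i _ => ?_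
    rw [PowerSeries.coeff_C_mul, PowerSeries.coeff_X_pow_mul', hfac]
    split_ifs with hik
    · have h1 := congrArg (fun t : ℕ => (t : ℚ)) (Nat.choose_mul_factorial_mul_factorial hik)
      push_cast at h1
      have : (k ! : ℚ) ≠ 0 := Nat.cast_ne_zero.2 (Nat.factorial_ne_zero _)
      have : ((i : ℕ)! : ℚ) ≠ 0 := Nat.cast_ne_zero.2 (Nat.factorial_ne_zero _)
      field_simp
      rw [← h1]
      ring
    · rw [Nat.choose_eq_zero_of_lt (by omega)]
      simp
  refine ⟨P, fun h0 => hx0 (funext fun i => ?_), hPd, fun j => ?_, ?_, fun k => ?_⟩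
  · have h1 := hPc i.1 i.2
    rw [h0] at h1
    have h2 : ((n ! / (i.2 : ℕ)! : ℕ) : ℤ) ≠ 0 := Nat.cast_ne_zero.2
      (Nat.div_pos (Nat.factorial_le (Nat.le_of_lt_succ i.2.2)) (Nat.factorial_pos _)).ne'
    rw [Pi.zero_apply, Polynomial.coeff_zero] at h1
    exact (mul_eq_zero.1 h1.symm).resolve_left h2
  · rw [l1_eq_sum _ (Nat.lt_succ_of_le (hPd j)), Finset.sum_range]
    refine (Finset.sum_le_card_nsmul _ _ ((n ! : ℝ) * G ^ p) fun i _ => ?_).trans ?_
    · rw [hPc, Int.cast_mul, Int.cast_natCast, abs_mul, Nat.abs_cast]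
      exact mul_le_mul (Nat.cast_le.2 (Nat.div_le_self _ _)) (hxn _) (abs_nonneg _) (by positivity)
    · rw [card_univ, Fintype.card_fin, nsmul_eq_mul, hH, mul_pow, mul_pow, mul_pow, ← pow_mul,
        ← hn]
      have h1 : ((n + 1 : ℕ) : ℝ) ≤ 2 ^ n := by exact_mod_cast Nat.succ_le_of_lt n.lt_two_pow_self
      calc ((n + 1 : ℕ) : ℝ) * ((n ! : ℝ) * G ^ p) ≤ 2 ^ n * ((n ! : ℝ) * G ^ p) := by gcongr
        _ = (n ! : ℝ) * (1 * 2 ^ n * G ^ p * 1) := by ring
        _ ≤ _ := by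
            gcongr
            · exact one_le_pow₀ hmC
            · exact one_le_pow₀ h2C'
  · rw [PowerSeries.X_pow_dvd_iff]
    intro k hk
    rw [hcoeff]
    refine mul_eq_zero_of_right _ ((mul_eq_zero.1 (?_ : (d : ℚ) * _ = 0)).resolve_left
      (Nat.cast_ne_zero.2 hd0.ne'))
    have h1 := congrArg (fun t : ℤ => (t : ℚ)) (congrFun hxA ⟨k, hk⟩)
    simp only [Matrix.mulVec, dotProduct, hA, Matrix.of_apply, Pi.zero_apply, Int.cast_zero,
      Fintype.sum_prod_type] at h1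
    push_cast at h1
    rw [← h1, Finset.mul_sum]
    refine Finset.sum_congr rfl fun j _ => ?_
    rw [Finset.mul_sum]
    refine Finset.sum_congr rfl fun i _ => ?_
    rw [hz j (k - i) (by omega)]
    ring
  · rw [hcoeff]
    push_cast
    rw [abs_mul, abs_div, Nat.abs_cast, Nat.abs_cast, div_mul_eq_mul_div]
    refine div_le_div_of_nonneg_right ?_ (Nat.cast_nonneg _)
    rw [mul_assoc]
    refine mul_le_mul_of_nonneg_left ?_ (Nat.cast_nonneg _)
    refine (Finset.abs_sum_le_sum_abs _ _).trans ((Finset.sum_le_card_nsmul _ _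
      (2 ^ k * (G ^ p * (C : ℝ) ^ (k + 1))) fun j _ => ?_).trans ?_)
    · refine (Finset.abs_sum_le_sum_abs _ _).trans ((Finset.sum_le_sum fun i _ => ?_ :
        _ ≤ ∑ i : Fin (n + 1), (k.choose (i : ℕ) : ℝ) * (G ^ p * (C : ℝ) ^ (k + 1))).trans ?_)
      · rw [abs_mul, abs_mul, Nat.abs_cast, mul_assoc]
        refine mul_le_mul_of_nonneg_left ?_ (Nat.cast_nonneg _)
        refine mul_le_mul (hxn _) ?_ (abs_nonneg _) (by positivity)
        have h2 := hC j (k - i)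
        rw [← Rat.cast_le (K := ℝ), Rat.cast_abs, Rat.cast_pow, Rat.cast_natCast] at h2
        push_cast at h2
        exact h2.trans (pow_le_pow_right₀ hC' (by omega))
      · rw [← Finset.sum_mul]
        refine mul_le_mul_of_nonneg_right ?_ (by positivity)
        rw [Fin.sum_univ_eq_sum_range (fun i => (k.choose i : ℝ)) (n + 1)]
        have h1 : ∑ i ∈ range (n + 1), k.choose i ≤ 2 ^ k := by
          rw [← Nat.sum_range_choose k]
          exact Finset.sum_le_sum_of_ne_zero fun i _ hi => mem_range.2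
            (Nat.lt_succ_of_le (le_of_not_gt fun h => hi (Nat.choose_eq_zero_of_lt h)))
        exact_mod_cast h1
    · rw [card_univ, Fintype.card_fin, nsmul_eq_mul]
      calc (m : ℝ) * (2 ^ k * (G ^ p * (C : ℝ) ^ (k + 1)))
          = ((m : ℝ) * C) * G ^ p * (2 * C) ^ k := by rw [mul_pow, pow_succ]; ring
        _ ≤ ((m : ℝ) * C) ^ p * G ^ p * (2 * C) ^ k := by
            gcongr
            exact le_self_pow₀ hmC hp.ne'
        _ ≤ H ^ p * H ^ k := by
            refine mul_le_mul ?_ (pow_le_pow_left₀ (by positivity) ?_ _) (by positivity)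
              (by positivity)
            · rw [← mul_pow]
              refine pow_le_pow_left₀ (by positivity) ?_ _
              rw [hH]
              calc (m : ℝ) * C * G = (m : ℝ) * C * 1 * G * 1 := by ring
                _ ≤ _ := by gcongr
            · rw [hH]
              exact le_mul_of_one_le_left (by positivity)
                (one_le_mul_of_one_le_of_one_le (one_le_mul_of_one_le_of_one_le hmC h2q) hG1)

end FA.SiegelShidlovskii

end
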