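import Mathlib.Analysis.Analytic.OfScalars
import Mathlib.Analysis.Analytic.Uniqueness
import Mathlib.Analysis.Calculus.SmoothSeries
import Mathlib.Analysis.Calculus.Deriv.Pow
import Mathlib.Analysis.Calculus.IteratedDeriv.Lemmas
import Mathlib.Analysis.SpecificLimits.Normed
import Fermat.Agent.SiegelShidlovskii.System

/-!
# Values of series of exponential growth

Evaluation of the series with `|c k| ≤ A B ^ k / k!`; a solution of `T f' = Q f` whose values
vanish at a point where `T` does not is zero.
-/

set_option autoImplicit false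

noncomputable section

open Finset Filter Topology
open scoped Nat

namespace FA.SiegelShidlovskii

/-- The coefficients grow at most like `A B ^ k / k!`. -/
def ExpGrowth (g : PowerSeries ℚ) : Prop :=
  ∃ A B : ℝ, 0 ≤ B ∧ ∀ k, |((PowerSeries.coeff k g : ℚ) : ℝ)| ≤ A * B ^ k / (k ! : ℝ)

/-- The value of a series at a real point. -/
def val (g : PowerSeries ℚ) (x : ℝ) : ℝ := ∑' k, ((PowerSeries.coeff k g : ℚ) : ℝ) * x ^ k

/-- `v` is the value of `g` at `x`. -/
def HasVal (g : PowerSeries ℚ) (x v : ℝ) : Prop :=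
  HasSum (fun k => ((PowerSeries.coeff k g : ℚ) : ℝ) * x ^ k) v

theorem HasVal.val_eq {g : PowerSeries ℚ} {x v : ℝ} (h : HasVal g x v) : val g x = v :=
  h.tsum_eq

theorem ExpGrowth.hasVal {g : PowerSeries ℚ} (h : ExpGrowth g) (x : ℝ) :
    HasVal g x (val g x) := by
  obtain ⟨A, B, hB, hc⟩ := h
  refine (Summable.of_norm_bounded ((Real.summable_pow_div_factorial (B * |x|)).mul_left A)
    fun k => ?_).hasSum
  rw [Real.norm_eq_abs, abs_mul, abs_pow, mul_pow]
  refine (mul_le_mul_of_nonneg_right (hc k) (by positivity)).trans_eq ?_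
  ring

theorem HasVal.add {g₁ g₂ : PowerSeries ℚ} {x v₁ v₂ : ℝ} (h₁ : HasVal g₁ x v₁)
    (h₂ : HasVal g₂ x v₂) : HasVal (g₁ + g₂) x (v₁ + v₂) := by
  simpa [HasVal, add_mul] using HasSum.add h₁ h₂

theorem HasVal.polynomial_mul {g : PowerSeries ℚ} {x v : ℝ} (h : HasVal g x v)
    (P : Polynomial ℚ) :
    HasVal ((P : PowerSeries ℚ) * g) x (Polynomial.eval₂ (Rat.castHom ℝ) x P * v) := by
  induction P using Polynomial.induction_on' with
  | add p q hp hq =>
    rw [Polynomial.coe_add, add_mul, Polynomial.eval₂_add, add_mul]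
    exact hp.add hq
  | monomial n a =>
    rw [HasVal, Polynomial.eval₂_monomial, ← hasSum_nat_add_iff' n,
      Finset.sum_eq_zero fun i hi => by
        rw [mem_range] at hi
        rw [Polynomial.coe_monomial, PowerSeries.monomial_eq_C_mul_X_pow, mul_assoc,
          PowerSeries.coeff_C_mul, PowerSeries.coeff_X_pow_mul', if_neg (by omega)]
        simp, sub_zero]
    refine (HasSum.mul_left ((a : ℝ) * x ^ n) h).congr_fun fun k => ?_
    rw [Polynomial.coe_monomial, PowerSeries.monomial_eq_C_mul_X_pow, mul_assoc,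
      PowerSeries.coeff_C_mul, PowerSeries.coeff_X_pow_mul', if_pos (Nat.le_add_left n k),
      Nat.add_sub_cancel, pow_add, Rat.cast_mul]
    ring

theorem ExpGrowth.derivative {g : PowerSeries ℚ} (h : ExpGrowth g) :
    ExpGrowth (PowerSeries.derivative ℚ g) := by
  obtain ⟨A, B, hB, hc⟩ := h
  refine ⟨A * B, B, hB, fun k => ?_⟩
  rw [PowerSeries.coeff_derivative]
  push_cast
  rw [abs_mul, abs_of_nonneg (show (0 : ℝ) ≤ (k : ℝ) + 1 by positivity)]
  refine (mul_le_mul_of_nonneg_right (hc (k + 1)) (by positivity)).trans_eq ?_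
  rw [Nat.factorial_succ]
  push_cast
  field_simp
  ring

theorem ExpGrowth.iterate_derivative {g : PowerSeries ℚ} (h : ExpGrowth g) (k : ℕ) :
    ExpGrowth ((PowerSeries.derivative ℚ)^[k] g) := by
  induction k with
  | zero => exact h
  | succ k ih => rw [Function.iterate_succ_apply']; exact ih.derivative

theorem ExpGrowth.hasDerivAt {g : PowerSeries ℚ} (h : ExpGrowth g) (x : ℝ) :
    HasDerivAt (val g) (val (PowerSeries.derivative ℚ g) x) x := by
  have hd := h.derivative
  obtain ⟨A, B, hB, hc⟩ := hd
  set R := |x| + 1 with hR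
  have hd' : ∀ (y : ℝ), HasSum
      (fun k : ℕ => ((PowerSeries.coeff k g : ℚ) : ℝ) * ((k : ℝ) * y ^ (k - 1)))
      (val (PowerSeries.derivative ℚ g) y) := fun y => by
    rw [← hasSum_nat_add_iff' 1, Finset.sum_range_one, Nat.cast_zero, zero_mul, mul_zero,
      sub_zero]
    refine (h.derivative.hasVal y).congr_fun fun k => ?_
    rw [PowerSeries.coeff_derivative, Nat.add_sub_cancel]
    push_cast
    ring
  have hsum : Summable fun k : ℕ =>
      |((PowerSeries.coeff k g : ℚ) : ℝ)| * ((k : ℝ) * R ^ (k - 1)) := by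
    rw [← summable_nat_add_iff 1]
    refine Summable.of_norm_bounded ((Real.summable_pow_div_factorial (B * R)).mul_left A)
      fun k => ?_
    have h1 := hc k
    rw [PowerSeries.coeff_derivative] at h1
    push_cast at h1
    rw [abs_mul, abs_of_nonneg (show (0 : ℝ) ≤ (k : ℝ) + 1 by positivity)] at h1
    rw [Real.norm_eq_abs, abs_of_nonneg (by positivity), Nat.add_sub_cancel, mul_pow]
    push_cast
    rw [← mul_assoc]
    refine (mul_le_mul_of_nonneg_right h1 (by positivity)).trans_eq ?_
    ring
  rw [← (hd' x).tsum_eq]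
  refine hasDerivAt_tsum_of_isPreconnected hsum Metric.isOpen_ball
    (convex_ball (0 : ℝ) R).isPreconnected (fun k y _ => (hasDerivAt_pow k y).const_mul _)
    (fun k y hy => ?_) (Metric.mem_ball_self (by positivity)) (h.hasVal 0).summable
    (by simp [hR])
  rw [Metric.mem_ball, dist_zero_right, Real.norm_eq_abs] at hy
  rw [Real.norm_eq_abs, abs_mul, abs_mul, abs_pow, Nat.abs_cast]
  gcongr

theorem ExpGrowth.iteratedDeriv_val {g : PowerSeries ℚ} (h : ExpGrowth g) (k : ℕ) :
    iteratedDeriv k (val g) = val ((PowerSeries.derivative ℚ)^[k] g) := by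
  induction k with
  | zero => simp
  | succ k ih =>
    rw [iteratedDeriv_succ, ih, Function.iterate_succ_apply']
    exact funext fun x => ((h.iterate_derivative k).hasDerivAt x).deriv

theorem ExpGrowth.eq_zero_of_iteratedDeriv {g : PowerSeries ℚ} (h : ExpGrowth g) {x : ℝ}
    (hx : ∀ k, iteratedDeriv k (val g) x = 0) : g = 0 := by
  set p := FormalMultilinearSeries.ofScalars ℝ fun k => ((PowerSeries.coeff k g : ℚ) : ℝ) with hp
  obtain ⟨A, B, hB, hc⟩ := h
  have hrad : p.radius = ⊤ := FormalMultilinearSeries.radius_eq_top_of_summable_norm p fun r =>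
    Summable.of_norm_bounded ((Real.summable_pow_div_factorial (B * r)).mul_left A) fun k => by
      rw [hp, FormalMultilinearSeries.ofScalars_norm, Real.norm_eq_abs,
        abs_of_nonneg (by positivity), Real.norm_eq_abs, mul_pow]
      refine (mul_le_mul_of_nonneg_right (hc k) (by positivity)).trans_eq ?_
      ring
  have hsumeq : p.sum = val g := funext fun y => by
    rw [FormalMultilinearSeries.sum]
    simp [hp, val, mul_comm]
  have hball : HasFPowerSeriesOnBall (val g) p 0 ⊤ := by
    rw [← hsumeq, ← hrad]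
    exact p.hasFPowerSeriesOnBall (by rw [hrad]; exact ENNReal.zero_lt_top)
  have han : AnalyticOnNhd ℝ (val g) Set.univ := fun y _ =>
    hball.analyticAt_of_mem (by simp)
  have hev : val g =ᶠ[𝓝 x] 0 := by
    filter_upwards [(han x trivial).hasFPowerSeriesAt.eventually_hasSum_sub] with y hy
    simp only [hx, FormalMultilinearSeries.ofScalars_apply_eq, zero_div, zero_smul] at hy
    exact hy.unique hasSum_zero
  have h0 : val g = 0 := funext fun y =>
    han.eqOn_zero_of_preconnected_of_eventuallyEq_zero isPreconnected_univ (Set.mem_univ x) hev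
      (Set.mem_univ y)
  have hpz : p = 0 := hball.hasFPowerSeriesAt.eq_zero_of_eventually (Eventually.of_forall
    fun y => congrFun h0 y)
  ext k
  have := FormalMultilinearSeries.ofScalars_eq_zero (E := ℝ) (c := fun k =>
    ((PowerSeries.coeff k g : ℚ) : ℝ)) k
  rw [← hp, hpz] at this
  simpa using this.1 rfl

variable {m : ℕ} {T : Polynomial ℚ} {Q : Matrix (Fin m) (Fin m) (Polynomial ℚ)}
  {f : Fin m → PowerSeries ℚ}

theorem hasVal_formSeries (hgr : ∀ j, ExpGrowth (f j)) (P : Fin m → Polynomial ℚ) (x : ℝ) :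
    HasVal (formSeries f P) x
      (∑ j, Polynomial.eval₂ (Rat.castHom ℝ) x (P j) * val (f j) x) := by
  have h := hasSum_sum (s := univ) fun j (_ : j ∈ univ) => ((hgr j).hasVal x).polynomial_mul (P j)
  refine h.congr_fun fun k => ?_
  simp [formSeries, Finset.sum_mul]

theorem exists_formSeries_derivative (hf : IsSolution T Q f) (i : Fin m) (k : ℕ) :
    ∃ c : Fin m → Polynomial ℚ, ((T ^ k : Polynomial ℚ) : PowerSeries ℚ) *
      (PowerSeries.derivative ℚ)^[k] (f i) = formSeries f c := by
  induction k with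
  | zero =>
    refine ⟨fun j => if j = i then 1 else 0, ?_⟩
    rw [formSeries, Finset.sum_eq_single i (fun j _ hj => by simp [hj])
      (fun h => absurd (mem_univ i) h)]
    simp
  | succ k ih =>
    obtain ⟨c, hc⟩ := ih
    refine ⟨fun j => vecDeriv T Q c j - Polynomial.C (k : ℚ) * Polynomial.derivative T * c j, ?_⟩
    have h1 := congrArg (fun g => (T : PowerSeries ℚ) * PowerSeries.derivative ℚ g) hc
    simp only [mul_derivative_formSeries hf, Derivation.leibniz, PowerSeries.derivative_coe,
      smul_eq_mul] at h1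
    have h2 : (T * Polynomial.derivative (T ^ k) : Polynomial ℚ) =
        Polynomial.C (k : ℚ) * Polynomial.derivative T * T ^ k := by
      rcases k with _ | k
      · simp
      · rw [Polynomial.derivative_pow, Nat.add_sub_cancel, pow_succ]
        ring
    have h3 := congrArg (fun p : Polynomial ℚ => (p : PowerSeries ℚ)) h2
    simp only [Polynomial.coe_mul] at h3
    have hsub : (formSeries f fun j =>
        vecDeriv T Q c j - Polynomial.C (k : ℚ) * Polynomial.derivative T * c j) =
        formSeries f (vecDeriv T Q c) -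
          ((Polynomial.C (k : ℚ) : Polynomial ℚ) : PowerSeries ℚ) *
            (Polynomial.derivative T : PowerSeries ℚ) * formSeries f c := by
      simp only [formSeries, Polynomial.coe_sub, Polynomial.coe_mul, sub_mul,
        Finset.sum_sub_distrib, Finset.mul_sum, mul_assoc]
    rw [hsub, ← h1, ← hc, Function.iterate_succ_apply', pow_succ, Polynomial.coe_mul]
    linear_combination -((PowerSeries.derivative ℚ)^[k] (f i)) * h3

/-- A nonzero solution has a nonzero value at every ordinary point. -/
theorem exists_val_ne_zero (hf : IsSolution T Q f) (hgr : ∀ j, ExpGrowth (f j))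
    (hne : ∃ j, f j ≠ 0) {α : ℚ} (hα : T.eval α ≠ 0) : ∃ j, val (f j) α ≠ 0 := by
  obtain ⟨i, hi⟩ := hne
  by_contra hall
  push Not at hall
  refine hi ((hgr i).eq_zero_of_iteratedDeriv (x := (α : ℝ)) fun k => ?_)
  rw [(hgr i).iteratedDeriv_val]
  obtain ⟨c, hc⟩ := exists_formSeries_derivative hf i k
  have h1 := (((hgr i).iterate_derivative k).hasVal (α : ℝ)).polynomial_mul (T ^ k)
  rw [hc] at h1
  have h2 := h1.unique (hasVal_formSeries hgr c α)
  simp only [hall, mul_zero, Finset.sum_const_zero, Polynomial.eval₂_pow] at h2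
  refine (mul_eq_zero.1 h2).resolve_left (pow_ne_zero _ ?_)
  rw [show (α : ℝ) = (Rat.castHom ℝ) α from rfl, Polynomial.eval₂_at_apply]
  exact fun h => hα ((Rat.castHom ℝ).injective (h.trans (map_zero _).symm))

end FA.SiegelShidlovskii

end
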