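import Mathlib.Analysis.SpecialFunctions.Exponential
import Fermat.Agent.SiegelShidlovskii.Values
import Fermat.Agent.SiegelShidlovskii.Auxiliary

/-!
# The estimates

The values of the iterates `g ↦ T g'` of a series with a zero of high order are small.
-/

set_option autoImplicit false

noncomputable section

open Finset
open scoped Nat

namespace FA.SiegelShidlovskii

/-- The coefficients under iteration of `g ↦ T g'`. -/
theorem exists_coeff_iterate_le (T : Polynomial ℚ) {s : ℕ} (hT : T.natDegree ≤ s) :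
    ∃ M : ℝ, 1 ≤ M ∧ ∀ (g : ℕ → PowerSeries ℚ) (A H : ℝ), 0 ≤ A → 1 ≤ H →
      (∀ k, g (k + 1) = (T : PowerSeries ℚ) * PowerSeries.derivative ℚ (g k)) →
      (∀ j, |((PowerSeries.coeff j (g 0) : ℚ) : ℝ)| ≤ A * H ^ j / (j ! : ℝ)) →
      ∀ k j, |((PowerSeries.coeff j (g k) : ℚ) : ℝ)| ≤
        A * M ^ k * H ^ (j + k) * ((j : ℝ) + k + 1) ^ (k * s) / (j ! : ℝ) := by
  refine ⟨1 + ∑ i ∈ range (s + 1), |((T.coeff i : ℚ) : ℝ)|, le_add_of_nonneg_right
    (Finset.sum_nonneg fun _ _ => abs_nonneg _), fun g A H hA hH hg h0 k => ?_⟩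
  induction k with
  | zero => simpa using h0
  | succ k ih =>
    intro j
    set M := 1 + ∑ i ∈ range (s + 1), |((T.coeff i : ℚ) : ℝ)|
    have hM : 0 ≤ M := add_nonneg zero_le_one (Finset.sum_nonneg fun _ _ => abs_nonneg _)
    set D := A * M ^ k * H ^ (j + (k + 1)) * ((j : ℝ) + (k + 1 : ℕ) + 1) ^ ((k + 1) * s) /
      (j ! : ℝ) with hD
    have hD0 : 0 ≤ D := by positivity
    rw [hg, PowerSeries.coeff_mul, Finset.Nat.sum_antidiagonal_eq_sum_range_succ_mk]
    push_cast
    refine (Finset.abs_sum_le_sum_abs _ _).trans ((Finset.sum_le_sum fun i hi => ?_ :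
      _ ≤ ∑ i ∈ range (j + 1), |((T.coeff i : ℚ) : ℝ)| * D).trans ?_)
    · rw [mem_range] at hi
      rw [PowerSeries.coeff_derivative, abs_mul]
      push_cast
      rcases le_or_gt i s with his | his
      · refine mul_le_mul_of_nonneg_left ?_ (abs_nonneg _)
        obtain ⟨l, rfl⟩ : ∃ l, j = i + l := ⟨j - i, by omega⟩
        rw [Nat.add_sub_cancel_left, abs_mul,
          abs_of_nonneg (show (0 : ℝ) ≤ (l : ℝ) + 1 by positivity)]
        refine (mul_le_mul_of_nonneg_right (ih (l + 1)) (by positivity)).trans ?_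
        have hfac : ((i + l).descFactorial i : ℝ) * (l ! : ℝ) = ((i + l)! : ℝ) := by
          have h := Nat.factorial_mul_descFactorial (Nat.le_add_right i l)
          rw [Nat.add_sub_cancel_left] at h
          rw [← h, Nat.cast_mul, mul_comm]
        have hbase : ((l + 1 : ℕ) : ℝ) + k + 1 ≤ ((i + l : ℕ) : ℝ) + (k + 1 : ℕ) + 1 := by
          push_cast
          linarith [Nat.cast_nonneg (α := ℝ) i]
        have hdesc : ((i + l).descFactorial i : ℝ) ≤
            (((i + l : ℕ) : ℝ) + (k + 1 : ℕ) + 1) ^ s := by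
          refine le_trans (Nat.cast_le.2 (Nat.descFactorial_le_pow _ _)) ?_
          push_cast
          refine le_trans (pow_le_pow_left₀ (by positivity) ?_ _)
            (pow_le_pow_right₀ ?_ his)
          · linarith [Nat.cast_nonneg (α := ℝ) k]
          · linarith [Nat.cast_nonneg (α := ℝ) k, Nat.cast_nonneg (α := ℝ) i,
              Nat.cast_nonneg (α := ℝ) l]
        rw [Nat.factorial_succ, hD, div_mul_eq_mul_div, div_le_div_iff₀ (by positivity)
          (by positivity), ← hfac, Nat.succ_mul k s, pow_add _ (k * s) s]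
        push_cast at hbase hdesc ⊢
        calc A * M ^ k * H ^ (l + 1 + k) * ((l : ℝ) + 1 + k + 1) ^ (k * s) * ((l : ℝ) + 1) *
              (((i + l).descFactorial i : ℝ) * (l ! : ℝ))
            = A * M ^ k * (H ^ (l + 1 + k) * ((l : ℝ) + 1 + k + 1) ^ (k * s) *
              ((i + l).descFactorial i : ℝ)) * (((l : ℝ) + 1) * (l ! : ℝ)) := by ring
          _ ≤ A * M ^ k * (H ^ (i + l + (k + 1)) * ((i : ℝ) + l + (k + 1) + 1) ^ (k * s) *
              ((i : ℝ) + l + (k + 1) + 1) ^ s) * (((l : ℝ) + 1) * (l ! : ℝ)) := by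
            have : H ^ (l + 1 + k) ≤ H ^ (i + l + (k + 1)) := pow_le_pow_right₀ hH (by omega)
            gcongr
          _ = _ := by ring
      · rw [Polynomial.coeff_eq_zero_of_natDegree_lt (by omega)]
        simp
    · rw [← Finset.sum_mul, hD, pow_succ]
      have hsum : ∑ i ∈ range (j + 1), |((T.coeff i : ℚ) : ℝ)| ≤ M := by
        refine le_trans ?_ (le_add_of_nonneg_left zero_le_one)
        rw [← Finset.sum_filter_of_ne (p := fun i => i ∈ range (s + 1)) fun i _ hi => by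
          by_contra hlt
          rw [mem_range] at hlt
          rw [Polynomial.coeff_eq_zero_of_natDegree_lt (by omega)] at hi
          simp at hi]
        exact Finset.sum_le_sum_of_subset_of_nonneg (fun i hi => (Finset.mem_filter.1 hi).2)
          fun _ _ _ => abs_nonneg _
      refine (mul_le_mul_of_nonneg_right hsum (by positivity)).trans_eq ?_
      push_cast
      ring

/-- A series vanishing to order `G₀` and bounded as above has a small value. -/
theorem abs_le_of_coeff_le {g : PowerSeries ℚ} {x v A H : ℝ} {e k G₀ : ℕ} (hA : 0 ≤ A)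
    (hH : 0 ≤ H) (hv : HasVal g x v) (hzero : ∀ j < G₀, PowerSeries.coeff j g = 0)
    (hc : ∀ j, |((PowerSeries.coeff j g : ℚ) : ℝ)| ≤
      A * H ^ j * ((j : ℝ) + k + 1) ^ e / (j ! : ℝ)) :
    |v| ≤ A * (e ! : ℝ) * Real.exp (k + 1) * ((Real.exp 1 * H * |x|) ^ G₀ / (G₀ ! : ℝ)) *
      Real.exp (Real.exp 1 * H * |x|) := by
  set X := Real.exp 1 * H * |x| with hX
  have hX0 : 0 ≤ X := by positivity
  set C := A * (e ! : ℝ) * Real.exp (k + 1) * (X ^ G₀ / (G₀ ! : ℝ)) with hC
  have hshift : HasSum (fun i => ((PowerSeries.coeff (i + G₀) g : ℚ) : ℝ) * x ^ (i + G₀)) v := by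
    have h1 := (hasSum_nat_add_iff' (f := fun j => ((PowerSeries.coeff j g : ℚ) : ℝ) * x ^ j)
      G₀).2 hv
    rwa [Finset.sum_eq_zero (fun j hj => by rw [hzero j (mem_range.1 hj)]; simp), sub_zero] at h1
  have hexp : HasSum (fun i : ℕ => C * (X ^ i / (i ! : ℝ))) (C * Real.exp X) := by
    refine HasSum.mul_left C ?_
    rw [Real.exp_eq_exp_ℝ]
    exact NormedSpace.expSeries_div_hasSum_exp X
  rw [← hshift.tsum_eq, ← Real.norm_eq_abs]
  refine tsum_of_norm_bounded hexp fun i => ?_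
  rw [Real.norm_eq_abs, abs_mul, abs_pow]
  have h1 : (((i + G₀ : ℕ) : ℝ) + k + 1) ^ e ≤
      (e ! : ℝ) * (Real.exp (k + 1) * Real.exp 1 ^ (i + G₀)) := by
    have h := Real.pow_div_factorial_le_exp _
      (show (0 : ℝ) ≤ ((i + G₀ : ℕ) : ℝ) + k + 1 by positivity) e
    rw [div_le_iff₀ (by positivity)] at h
    refine h.trans_eq ?_
    rw [← Real.exp_nat_mul, ← Real.exp_add, mul_one, mul_comm (e ! : ℝ)]
    congr 2
    ring
  have h2 : ((i + G₀)! : ℝ) ≥ (G₀ ! : ℝ) * (i ! : ℝ) := by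
    rw [ge_iff_le, ← Nat.cast_mul, Nat.cast_le, Nat.mul_comm]
    exact Nat.le_of_dvd (Nat.factorial_pos _) (Nat.factorial_mul_factorial_dvd_factorial_add i G₀)
  calc |((PowerSeries.coeff (i + G₀) g : ℚ) : ℝ)| * |x| ^ (i + G₀)
      ≤ A * H ^ (i + G₀) * ((e ! : ℝ) * (Real.exp (k + 1) * Real.exp 1 ^ (i + G₀))) /
          ((i + G₀)! : ℝ) * |x| ^ (i + G₀) := by
        refine mul_le_mul_of_nonneg_right ((hc _).trans ?_) (by positivity)
        gcongr
    _ = A * (e ! : ℝ) * Real.exp (k + 1) * (X ^ (i + G₀) / ((i + G₀)! : ℝ)) := by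
        rw [hX, mul_pow, mul_pow]; ring
    _ ≤ A * (e ! : ℝ) * Real.exp (k + 1) * (X ^ (i + G₀) / ((G₀ ! : ℝ) * (i ! : ℝ))) := by
        gcongr
    _ = C * (X ^ i / (i ! : ℝ)) := by
        rw [hC, pow_add]; ring

theorem pow_div_factorial_le {x : ℝ} (hx : 0 ≤ x) (g p : ℕ) (hg : 0 < g) (hp : 0 < p) :
    x ^ (g * p) / ((g * p)! : ℝ) ≤ (x * Real.exp 1) ^ (g * p) / ((p : ℝ) ^ p) ^ g := by
  have h := Real.pow_div_factorial_le_exp _ (show (0 : ℝ) ≤ ((g * p : ℕ) : ℝ) by positivity) (g * p)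
  rw [div_le_iff₀ (by positivity)] at h
  have hp' : (0 : ℝ) < p := Nat.cast_pos.2 hp
  rw [div_le_div_iff₀ (by positivity) (by positivity), mul_pow, ← pow_mul, Nat.mul_comm p g,
    mul_assoc]
  refine mul_le_mul_of_nonneg_left (le_trans ?_ (h.trans_eq ?_)) (by positivity)
  · refine pow_le_pow_left₀ hp'.le ?_ _
    exact_mod_cast Nat.le_mul_of_pos_left p hg
  · rw [← Real.exp_nat_mul, mul_one]

theorem det_abs_le {m : ℕ} (M : Matrix (Fin m) (Fin m) ℤ) (w : Fin m → ℝ)
    (h : ∀ i j, |(M i j : ℝ)| ≤ w i) : |(M.det : ℝ)| ≤ (m ! : ℝ) * ∏ i, w i := by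
  rw [Matrix.det_apply]
  push_cast
  refine (Finset.abs_sum_le_sum_abs _ _).trans
    ((Finset.sum_le_card_nsmul _ _ (∏ i, w i) fun σ _ => ?_).trans_eq ?_)
  · rw [Units.smul_def, zsmul_eq_mul]
    push_cast
    rw [abs_mul, Finset.abs_prod]
    have h1 : |((Equiv.Perm.sign σ : ℤ) : ℝ)| = 1 := by
      rcases Int.units_eq_one_or (Equiv.Perm.sign σ) with h | h <;> simp [h]
    rw [h1, one_mul, ← Equiv.prod_comp σ w]
    exact Finset.prod_le_prod (fun i _ => abs_nonneg _) fun i _ => h _ _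
  · rw [card_univ, Fintype.card_perm, Fintype.card_fin, nsmul_eq_mul]

end FA.SiegelShidlovskii

end
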