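import Mathlib.LinearAlgebra.Matrix.Rank
import Mathlib.RingTheory.Localization.Module
import Mathlib.RingTheory.Localization.FractionRing
import Mathlib.RingTheory.Finiteness.Subalgebra
import Mathlib.RingTheory.PowerSeries.Inverse
import Mathlib.Algebra.Polynomial.BigOperators
import Mathlib.LinearAlgebra.Matrix.NonsingularInverse

/-!
# Minors, and quotients of elements of a finite dimensional space of series

Independent rows over a domain have a nonzero maximal minor. If `A x = B y` for polynomials
`A`, `B` and series `x ≠ 0`, `y` of a finitely generated `ℚ`-space, then `A : B` is the ratio of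
polynomials of bounded degree.
-/

set_option autoImplicit false

noncomputable section

open Finset

namespace FA.SiegelShidlovskii

/-- Independent rows over a domain have a nonzero maximal minor. -/
theorem exists_minor {R : Type*} [CommRing R] [IsDomain R] {l : ℕ} {ι : Type*} [Fintype ι]
    {v : Fin l → ι → R} (hv : LinearIndependent R v) :
    ∃ J : Fin l → ι, (Matrix.of fun k j => v k (J j)).det ≠ 0 := by
  classical
  set A : Matrix (Fin l) ι (FractionRing R) :=
    Matrix.of fun k i => algebraMap R (FractionRing R) (v k i) with hA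
  have hrows : LinearIndependent (FractionRing R) A.row := by
    rw [← LinearIndependent.iff_fractionRing R (FractionRing R)]
    exact hv.map' ((Algebra.linearMap R (FractionRing R)).compLeft ι)
      (LinearMap.ker_eq_bot.2 fun a b hab => funext fun i =>
        IsFractionRing.injective R (FractionRing R) (congrFun hab i))
  have hrank : Module.finrank (FractionRing R)
      (Submodule.span (FractionRing R) (Set.range A.col)) = l := by
    rw [← Matrix.rank_eq_finrank_span_cols, Matrix.rank_eq_finrank_span_row,
      finrank_span_eq_card hrows, Fintype.card_fin]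
  obtain ⟨g, hg, -, hgi⟩ :=
    Submodule.exists_fun_fin_finrank_span_eq (FractionRing R) (Set.range A.col)
  choose J hJ using hg
  refine ⟨fun j => J (Fin.cast hrank.symm j), fun h0 => ?_⟩
  have h1 : IsUnit (A.submatrix id fun j => J (Fin.cast hrank.symm j)) := by
    rw [← Matrix.linearIndependent_cols_iff_isUnit]
    have e : (A.submatrix id fun j => J (Fin.cast hrank.symm j)).col =
        g ∘ Fin.cast hrank.symm := funext fun j => (hJ _)
    rw [e]
    exact hgi.comp _ (Fin.cast_injective hrank.symm)
  have h2 : (A.submatrix id fun j => J (Fin.cast hrank.symm j)) =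
      (Matrix.of fun k j => v k (J (Fin.cast hrank.symm j))).map (algebraMap R (FractionRing R)) :=
    rfl
  rw [Matrix.isUnit_iff_isUnit_det, h2, ← RingHom.mapMatrix_apply, ← RingHom.map_det, h0,
    map_zero] at h1
  exact not_isUnit_zero h1

/-- Elements of a finitely generated space of series have quotients of bounded degree among the
rational functions. -/
theorem exists_degree_bound {S : Submodule ℚ (PowerSeries ℚ)} (hS : S.FG) :
    ∃ γ : ℕ, ∀ x ∈ S, ∀ y ∈ S, x ≠ 0 → ∀ A B : Polynomial ℚ,
      (A : PowerSeries ℚ) * x = (B : PowerSeries ℚ) * y →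
      ∃ p q : Polynomial ℚ, q ≠ 0 ∧ p.natDegree ≤ γ ∧ q.natDegree ≤ γ ∧ A * q = B * p := by
  classical
  obtain ⟨gens, rfl⟩ := hS
  -- a maximal independent subfamily over the polynomials
  obtain ⟨t, htI, hmax⟩ := (gens.powerset.filter fun t : Finset (PowerSeries ℚ) =>
      ∀ c : PowerSeries ℚ → Polynomial ℚ, ∑ i ∈ t, (c i : PowerSeries ℚ) * i = 0 →
        ∀ i ∈ t, c i = 0).exists_max_image Finset.card ⟨∅, by simp⟩
  rw [Finset.mem_filter, Finset.mem_powerset] at htI
  have hdep : ∀ g ∈ gens, ∃ d : Polynomial ℚ, d ≠ 0 ∧ ∃ c : PowerSeries ℚ → Polynomial ℚ,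
      (d : PowerSeries ℚ) * g = ∑ i ∈ t, (c i : PowerSeries ℚ) * i := by
    intro g hg
    by_cases hgt : g ∈ t
    · refine ⟨1, one_ne_zero, fun i => if i = g then 1 else 0, ?_⟩
      rw [Finset.sum_eq_single g (fun i _ hi => by simp [hi]) (fun h => absurd hgt h)]
      simp
    · by_contra hno
      have := hmax (insert g t) (Finset.mem_filter.2 ⟨Finset.mem_powerset.2
        (Finset.insert_subset hg htI.1), fun c hc => ?_⟩)
      · rw [Finset.card_insert_of_notMem hgt] at this
        omega
      · rw [Finset.sum_insert hgt] at hc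
        have h0 : c g = 0 := by
          by_contra hcg
          refine hno ⟨c g, hcg, fun i => -c i, ?_⟩
          simp only [Polynomial.coe_neg, neg_mul, Finset.sum_neg_distrib]
          linear_combination hc
        rw [h0, Polynomial.coe_zero, zero_mul, zero_add] at hc
        intro i hi
        rcases Finset.mem_insert.1 hi with rfl | hi
        · exact h0
        · exact htI.2 c hc i hi
  choose! d hd c hc using hdep
  set D := ∏ g ∈ gens, d g with hD
  have hD0 : D ≠ 0 := Finset.prod_ne_zero_iff.2 hd
  set e : PowerSeries ℚ → PowerSeries ℚ → Polynomial ℚ :=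
    fun g i => (∏ h ∈ gens.erase g, d h) * c g i with he
  have hDg : ∀ g ∈ gens, (D : PowerSeries ℚ) * g = ∑ i ∈ t, (e g i : PowerSeries ℚ) * i := by
    intro g hg
    rw [hD, ← Finset.prod_erase_mul _ _ hg, Polynomial.coe_mul, mul_assoc, hc g hg,
      Finset.mul_sum]
    refine Finset.sum_congr rfl fun i _ => ?_
    rw [he, Polynomial.coe_mul, mul_assoc]
  -- coordinates of the elements of the space
  have hcoord : ∀ z ∈ Submodule.span ℚ (gens : Set (PowerSeries ℚ)),
      ∃ u : PowerSeries ℚ → Polynomial ℚ,
        (∀ i ∈ t, (u i).natDegree ≤ gens.sup fun g => t.sup fun i => (e g i).natDegree) ∧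
        (D : PowerSeries ℚ) * z = ∑ i ∈ t, (u i : PowerSeries ℚ) * i := by
    intro z hz
    obtain ⟨a, rfl⟩ := Submodule.mem_span_finset'.1 hz
    refine ⟨fun i => ∑ g : gens, Polynomial.C (a g) * e g i, fun i hi => ?_, ?_⟩
    · refine Polynomial.natDegree_sum_le_of_forall_le _ _ fun g _ => ?_
      refine (Polynomial.natDegree_C_mul_le _ _).trans ?_
      exact (Finset.le_sup (f := fun i => (e g i).natDegree) hi).trans
        (Finset.le_sup (f := fun g => t.sup fun i => (e g i).natDegree) g.2)
    · simp only [Finset.mul_sum, ← Polynomial.coeToPowerSeries.ringHom_apply, map_sum, map_mul,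
        Finset.sum_mul]
      rw [Finset.sum_comm]
      refine Finset.sum_congr rfl fun g _ => ?_
      simp only [Polynomial.coeToPowerSeries.ringHom_apply, Polynomial.coe_C,
        PowerSeries.smul_eq_C_mul]
      rw [mul_left_comm, hDg g g.2, Finset.mul_sum]
      exact Finset.sum_congr rfl fun i _ => by ring
  refine ⟨gens.sup fun g => t.sup fun i => (e g i).natDegree, fun x hx y hy hx0 A B hAB => ?_⟩
  obtain ⟨u, hu, hux⟩ := hcoord x hx
  obtain ⟨w, hw, hwy⟩ := hcoord y hy
  have hzero : ∀ i ∈ t, A * u i - B * w i = 0 := by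
    refine htI.2 (fun i => A * u i - B * w i) ?_
    simp only [Polynomial.coe_sub, Polynomial.coe_mul, sub_mul, mul_assoc,
      Finset.sum_sub_distrib, ← Finset.mul_sum, ← hux, ← hwy]
    linear_combination (D : PowerSeries ℚ) * hAB
  obtain ⟨i, hi, hui⟩ : ∃ i ∈ t, u i ≠ 0 := by
    by_contra hall
    push Not at hall
    rw [Finset.sum_eq_zero fun i hi => by rw [hall i hi, Polynomial.coe_zero, zero_mul],
      mul_eq_zero] at hux
    exact hux.elim (fun h => hD0 (Polynomial.coe_inj.1 (h.trans Polynomial.coe_zero.symm))) hx0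
  exact ⟨w i, u i, hui, hw i hi, hu i hi, sub_eq_zero.1 (hzero i hi)⟩

end FA.SiegelShidlovskii

end
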