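import Mathlib.Data.Nat.Choose.Sum
import Mathlib.RingTheory.PowerSeries.Derivative
import Mathlib.LinearAlgebra.Dimension.Free
import Mathlib.LinearAlgebra.Matrix.Adjugate
import Fermat.Agent.SiegelShidlovskii.System
import Fermat.Agent.SiegelShidlovskii.Minors

/-!
# Shidlovskii's bound for invariant subspaces

If the first `l + 1` iterates of a vector of polynomials are dependent, their common kernel is
spanned, at an ordinary point, by `ℚ`-combinations of the columns of the fundamental matrix; so the
space they span contains a nonzero vector of polynomials of bounded degree.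
-/

set_option autoImplicit false

noncomputable section

open Finset
open scoped Nat

namespace FA.SiegelShidlovskii

/-! ### The fundamental matrix -/

/-- The coefficients of the solution of `Y' = A Y`, `Y(0) = 1`. -/
def fundCoeff {m : ℕ} (A : ℕ → Matrix (Fin m) (Fin m) ℚ) : ℕ → Matrix (Fin m) (Fin m) ℚ
  | 0 => 1
  | k + 1 => (1 / ((k : ℚ) + 1)) • ∑ i : Fin (k + 1), A i * fundCoeff A (k - i)

/-- The fundamental matrix at an ordinary point: its columns solve `T f' = Q f`. -/
theorem exists_fundamental {m : ℕ} (T : Polynomial ℚ) (hT : T.coeff 0 ≠ 0)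
    (Q : Matrix (Fin m) (Fin m) (Polynomial ℚ)) :
    ∃ Y : Matrix (Fin m) (Fin m) (PowerSeries ℚ), IsUnit Y.det ∧
      ∀ c, IsSolution T Q fun i => Y i c := by
  set A : ℕ → Matrix (Fin m) (Fin m) ℚ := fun k => Matrix.of fun i j =>
    PowerSeries.coeff k ((Q i j : PowerSeries ℚ) * (T : PowerSeries ℚ)⁻¹) with hA
  set Y : Matrix (Fin m) (Fin m) (PowerSeries ℚ) :=
    Matrix.of fun i c => PowerSeries.mk fun k => fundCoeff A k i c with hY
  refine ⟨Y, ?_, fun c i => ?_⟩
  · have h1 : Y.map PowerSeries.constantCoeff = 1 := by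
      ext i c
      simp [hY, ← PowerSeries.coeff_zero_eq_constantCoeff_apply, fundCoeff]
    rw [PowerSeries.isUnit_iff_constantCoeff, RingHom.map_det, RingHom.mapMatrix_apply, h1,
      Matrix.det_one]
    exact isUnit_one
  · have hd : PowerSeries.derivative ℚ (Y i c) =
        ∑ r, ((Q i r : PowerSeries ℚ) * (T : PowerSeries ℚ)⁻¹) * Y r c := by
      ext k
      rw [PowerSeries.coeff_derivative, map_sum]
      simp only [PowerSeries.coeff_mul, Finset.Nat.sum_antidiagonal_eq_sum_range_succ_mk]
      simp only [hY, Matrix.of_apply, PowerSeries.coeff_mk]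
      rw [Finset.sum_comm, fundCoeff, Matrix.smul_apply, Matrix.sum_apply, smul_eq_mul,
        Fin.sum_univ_eq_sum_range (fun x => (A x * fundCoeff A (k - x)) i c) (k + 1),
        mul_comm (1 / ((k : ℚ) + 1)), mul_assoc, one_div_mul_cancel (by positivity), mul_one]
      refine Finset.sum_congr rfl fun x _ => ?_
      rw [Matrix.mul_apply]
      simp [hA, PowerSeries.coeff_mul, Finset.Nat.sum_antidiagonal_eq_sum_range_succ_mk]
    rw [hd, Finset.mul_sum]
    refine Finset.sum_congr rfl fun r _ => ?_
    rw [mul_comm (Q i r : PowerSeries ℚ), ← mul_assoc, ← mul_assoc,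
      PowerSeries.mul_inv_cancel _ (by simpa using hT), one_mul]

/-! ### Spaces of series stable under derivation -/

theorem coeff_zero_taylor (c : PowerSeries ℚ) {N r : ℕ} (hr : r ≤ N) :
    PowerSeries.coeff r (∑ i ∈ range (N + 1), PowerSeries.C ((-1 : ℚ) ^ i / (i ! : ℚ)) *
      (PowerSeries.X ^ i * (PowerSeries.derivative ℚ)^[i] c)) =
      PowerSeries.coeff r (PowerSeries.C (PowerSeries.coeff 0 c)) := by
  simp only [map_sum, PowerSeries.coeff_C_mul, PowerSeries.coeff_X_pow_mul']
  rw [← Finset.sum_subset (s₁ := range (r + 1)) (fun i hi => by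
    simp only [mem_range] at hi ⊢; omega) (fun i _ hi => by
    simp only [mem_range] at hi
    rw [if_neg (by omega), mul_zero])]
  have h1 : ∀ i ∈ range (r + 1), (-1 : ℚ) ^ i / (i ! : ℚ) *
      (if i ≤ r then PowerSeries.coeff (r - i) ((PowerSeries.derivative ℚ)^[i] c) else 0) =
      ((((-1 : ℤ) ^ i * (r.choose i : ℤ)) : ℤ) : ℚ) * PowerSeries.coeff r c := by
    intro i hi
    rw [mem_range] at hi
    rw [if_pos (by omega), PowerSeries.coeff_iterate_derivative, Nat.sub_add_cancel (by omega),
      Nat.ascFactorial_eq_factorial_mul_choose, Nat.sub_add_cancel (by omega)]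
    have : (i ! : ℚ) ≠ 0 := Nat.cast_ne_zero.2 (Nat.factorial_ne_zero i)
    push_cast
    field_simp
  rw [Finset.sum_congr rfl h1, ← Finset.sum_mul, ← Int.cast_sum,
    Int.alternating_sum_range_choose, PowerSeries.coeff_C]
  split_ifs with h
  · subst h; simp
  · simp

/-- The coefficients of the elements of a derivation stable space cut out by linear equations
satisfy the equations. -/
theorem coeff_mem_of_stable {m : ℕ} {κ : Type*} (g : κ → Fin m → PowerSeries ℚ)
    (hst : ∀ c : Fin m → PowerSeries ℚ, (∀ k, ∑ j, c j * g k j = 0) →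
      ∀ k, ∑ j, PowerSeries.derivative ℚ (c j) * g k j = 0)
    (n : ℕ) : ∀ c : Fin m → PowerSeries ℚ, (∀ k, ∑ j, c j * g k j = 0) →
      ∀ k, ∑ j, PowerSeries.C (PowerSeries.coeff n (c j)) * g k j = 0 := by
  have h0 : ∀ c : Fin m → PowerSeries ℚ, (∀ k, ∑ j, c j * g k j = 0) →
      ∀ k, ∑ j, PowerSeries.C (PowerSeries.coeff 0 (c j)) * g k j = 0 := by
    intro c hc k
    have hit : ∀ i, ∀ k, ∑ j, (PowerSeries.derivative ℚ)^[i] (c j) * g k j = 0 := fun i => by
      induction i with
      | zero => simpa using hc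
      | succ i ih =>
        simp only [Function.iterate_succ_apply']
        exact hst _ ih
    ext N
    have hS : ∑ j, (∑ i ∈ range (N + 1), PowerSeries.C ((-1 : ℚ) ^ i / (i ! : ℚ)) *
        (PowerSeries.X ^ i * (PowerSeries.derivative ℚ)^[i] (c j))) * g k j = 0 := by
      simp only [Finset.sum_mul, mul_assoc]
      rw [Finset.sum_comm]
      refine Finset.sum_eq_zero fun i _ => ?_
      rw [← Finset.mul_sum, ← Finset.mul_sum, hit i k, mul_zero, mul_zero]
    have h1 := congrArg (PowerSeries.coeff N) hS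
    rw [map_zero] at h1 ⊢
    rw [← h1, map_sum, map_sum]
    refine Finset.sum_congr rfl fun j _ => ?_
    rw [PowerSeries.coeff_mul, PowerSeries.coeff_mul]
    refine Finset.sum_congr rfl fun p hp => ?_
    rw [Finset.mem_antidiagonal] at hp
    rw [coeff_zero_taylor _ (show p.1 ≤ N by omega)]
  induction n with
  | zero => exact h0
  | succ n ih =>
    intro c hc k
    set d : Fin m → PowerSeries ℚ := fun j =>
      PowerSeries.mk fun i => PowerSeries.coeff (i + 1) (c j) with hd
    have hcd : ∀ j, c j = PowerSeries.C (PowerSeries.coeff 0 (c j)) + PowerSeries.X * d j :=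
      fun j => by
        ext i
        rcases i with _ | i
        · simp [hd]
        · simp [hd]
    have hdU : ∀ k, ∑ j, d j * g k j = 0 := fun k => by
      have h1 := hc k
      rw [Finset.sum_congr rfl fun j _ => by rw [hcd j, add_mul, mul_assoc],
        Finset.sum_add_distrib, h0 c hc k, zero_add, ← Finset.mul_sum, mul_eq_zero] at h1
      exact h1.resolve_left PowerSeries.X_ne_zero
    simpa [hd] using ih d hdU k

/-- Determinants of matrices over a space lie in its power. -/
theorem det_mem_pow {o : ℕ} (S : Submodule ℚ (PowerSeries ℚ))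
    (M : Matrix (Fin o) (Fin o) (PowerSeries ℚ)) (hM : ∀ i j, M i j ∈ S) : M.det ∈ S ^ o := by
  rw [Matrix.det_apply]
  refine Submodule.sum_mem _ fun σ _ => ?_
  rw [Units.smul_def]
  refine zsmul_mem ?_ _
  have key : ∀ (n : ℕ) (a : Fin n → PowerSeries ℚ), (∀ i, a i ∈ S) → ∏ i, a i ∈ S ^ n := by
    intro n
    induction n with
    | zero =>
      intro a _
      rw [Finset.univ_eq_empty, Finset.prod_empty, pow_zero]
      exact Submodule.one_le.1 le_rfl
    | succ n ih =>
      intro a ha
      rw [Fin.prod_univ_succ, pow_succ']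
      exact Submodule.mul_mem_mul (ha 0) (ih _ fun i => ha _)
  exact key o _ fun i => hM _ _

/-- A column of `Δ`-multiples of the relations: the key identity. -/
theorem relation_mul_det {l o : ℕ} {R : Type*} [CommRing R] (Δ : R)
    (N : Matrix (Fin l) (Fin o) R) (M : Matrix (Fin o) (Fin o) R) (B : Matrix (Fin l) (Fin o) R)
    (h : Δ • N = -(B * M)) (j : Fin l) (s : Fin o) :
    B j s * M.det = -Δ * (M.updateRow s (N j)).det := by
  have h1 : Δ • (N * M.adjugate) = -(M.det • B) := by
    rw [← Matrix.smul_mul, h, Matrix.neg_mul, Matrix.mul_assoc, Matrix.mul_adjugate,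
      Matrix.mul_smul, Matrix.mul_one]
  have h2 : (N * M.adjugate) j s = (M.updateRow s (N j)).det := by
    rw [← Matrix.cramer_transpose_apply, Matrix.cramer_eq_adjugate_mulVec,
      ← Matrix.adjugate_transpose, Matrix.mulVec, Matrix.mul_apply, dotProduct]
    exact Finset.sum_congr rfl fun r _ => by rw [Matrix.transpose_apply, mul_comm]
  have h3 : (Δ • (N * M.adjugate)) j s = (-(M.det • B)) j s := by rw [h1]
  rw [Matrix.smul_apply, h2, Matrix.neg_apply, Matrix.smul_apply, smul_eq_mul, smul_eq_mul] at h3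
  linear_combination h3

/-- **Shidlovskii's bound.** If the first `l + 1` iterates are dependent and `Δ` is a maximal
minor of the first `l`, then `Δ` times some nonzero vector of bounded degree is a combination of
them. -/
theorem exists_low_degree_combination {m : ℕ} (T : Polynomial ℚ) (hT : T.coeff 0 ≠ 0)
    (Q : Matrix (Fin m) (Fin m) (Polynomial ℚ)) :
    ∃ γ : ℕ, ∀ (P : Fin m → Polynomial ℚ) (l : ℕ) (J : Fin l → Fin m), 0 < l →
      (Matrix.of fun k j : Fin l => iterDeriv T Q P k (J j)).det ≠ 0 →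
      (∃ d : Polynomial ℚ, d ≠ 0 ∧ ∃ a : Fin l → Polynomial ℚ,
        ∀ j, d * iterDeriv T Q P l j = ∑ k, a k * iterDeriv T Q P k j) →
      ∃ c : Fin m → Polynomial ℚ, c ≠ 0 ∧ (∀ j, (c j).natDegree ≤ γ) ∧
        ∃ a : Fin l → Polynomial ℚ, ∀ j,
          (Matrix.of fun k j : Fin l => iterDeriv T Q P k (J j)).det * c j =
            ∑ k, a k * iterDeriv T Q P k j := by
  classical
  obtain ⟨Y, hYu, hY⟩ := exists_fundamental T hT Q
  set S : Submodule ℚ (PowerSeries ℚ) :=
    Submodule.span ℚ (Set.range fun p : Fin m × Fin m => Y p.1 p.2) with hS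
  have hSfg : S.FG := Submodule.fg_span (Set.finite_range _)
  choose γ hγ using fun o : ℕ => exists_degree_bound (hSfg.pow o)
  set Γ := ∑ o ∈ range (m + 1), γ o with hΓ
  refine ⟨m * Γ, fun P l J hl hJ hdep => ?_⟩
  set PJ := Matrix.of fun k j : Fin l => iterDeriv T Q P k (J j) with hPJ
  have hJinj : Function.Injective J := fun j j' hjj => by
    by_contra hne
    exact hJ (Matrix.det_zero_of_column_eq hne fun k => by simp [hPJ, hjj])
  -- the columns off `J`
  set o := Fintype.card {i : Fin m // i ∉ Set.range J} with ho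
  have hom : o ≤ m := (Fintype.card_subtype_le _).trans_eq (Fintype.card_fin m)
  set iO : Fin o → Fin m :=
    fun s => ((Fintype.equivFin {i : Fin m // i ∉ Set.range J}).symm s : Fin m) with hiO
  have heφb : Function.Bijective (Sum.elim J iO) := by
    refine ⟨hJinj.sumElim (Subtype.val_injective.comp (Equiv.injective _)) fun j s h => ?_,
      fun i => ?_⟩
    · exact ((Fintype.equivFin {i : Fin m // i ∉ Set.range J}).symm s).2 ⟨j, h⟩
    · by_cases hi : i ∈ Set.range J
      · obtain ⟨j, rfl⟩ := hi
        exact ⟨.inl j, rfl⟩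
      · exact ⟨.inr (Fintype.equivFin {i : Fin m // i ∉ Set.range J} ⟨i, hi⟩), by simp [hiO]⟩
  set eφ : Fin l ⊕ Fin o ≃ Fin m := Equiv.ofBijective _ heφb with heφ
  have hsplit : ∀ {R : Type} [AddCommMonoid R] (F : Fin m → R),
      ∑ i, F i = ∑ j, F (J j) + ∑ s, F (iO s) := by
    intro R _ F
    rw [← eφ.sum_comp, Fintype.sum_sum_type]
    rfl
  set Δ := PJ.det with hΔ
  -- Cramer: the coordinates off `J` in terms of those on `J`
  set B : Matrix (Fin l) (Fin o) (Polynomial ℚ) :=
    PJ.adjugate * Matrix.of fun (k : Fin l) s => iterDeriv T Q P k (iO s) with hB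
  have hPB : ∀ k : Fin l, ∀ s, ∑ j, PJ k j * B j s = Δ * iterDeriv T Q P k (iO s) := fun k s => by
    have h1 : (PJ * B) k s = (Δ • Matrix.of fun (k : Fin l) s => iterDeriv T Q P k (iO s)) k s := by
      rw [hB, ← Matrix.mul_assoc, Matrix.mul_adjugate, Matrix.smul_mul, Matrix.one_mul]
    simpa [Matrix.mul_apply] using h1
  -- the kernel in the coordinates of the fundamental matrix
  set g : Fin l → Fin m → PowerSeries ℚ :=
    fun k c => formSeries (fun i => Y i c) (iterDeriv T Q P k) with hg
  have hT' : (T : PowerSeries ℚ) ≠ 0 := fun h =>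
    hT (by rw [← Polynomial.coeff_coe T 0, h, map_zero])
  obtain ⟨d, hd, a, hda⟩ := hdep
  have hst : ∀ c : Fin m → PowerSeries ℚ, (∀ k, ∑ j, c j * g k j = 0) →
      ∀ k, ∑ j, PowerSeries.derivative ℚ (c j) * g k j = 0 := by
    intro c hc k
    have hnext : ∑ j, c j * formSeries (fun i => Y i j) (iterDeriv T Q P (k + 1)) = 0 := by
      by_cases hk : (k : ℕ) + 1 < l
      · exact hc ⟨k + 1, hk⟩
      · have hkl : (k : ℕ) + 1 = l := by have := k.2; omega
        rw [hkl]
        refine (mul_eq_zero.1 ?_).resolve_left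
          (fun h : (d : PowerSeries ℚ) = 0 => hd (Polynomial.coe_inj.1
            (h.trans Polynomial.coe_zero.symm)))
        have h1 : ∀ i, (d : PowerSeries ℚ) * formSeries (fun r => Y r i) (iterDeriv T Q P l) =
            ∑ k, (a k : PowerSeries ℚ) * g k i := fun i => by
          rw [hg, ← formSeries_smul_sum]
          simp only [formSeries, Finset.mul_sum, ← hda, Polynomial.coe_mul, mul_assoc]
        rw [Finset.mul_sum, Finset.sum_congr rfl fun i _ => by rw [mul_left_comm, h1 i,
          Finset.mul_sum], Finset.sum_comm]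
        refine Finset.sum_eq_zero fun k' _ => ?_
        rw [Finset.sum_congr rfl fun i _ => mul_left_comm _ _ _, ← Finset.mul_sum, hc k', mul_zero]
    have h2 := congrArg (PowerSeries.derivative ℚ) (hc k)
    rw [map_zero, map_sum] at h2
    refine (mul_eq_zero.1 ?_).resolve_left hT'
    have h3 := congrArg ((T : PowerSeries ℚ) * ·) h2
    simp only [mul_zero, Derivation.leibniz, smul_eq_mul, Finset.mul_sum, mul_add,
      Finset.sum_add_distrib] at h3
    have h4 : ∑ j, (T : PowerSeries ℚ) * (c j * PowerSeries.derivative ℚ (g k j)) = 0 := by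
      rw [← hnext]
      refine Finset.sum_congr rfl fun j _ => ?_
      rw [mul_left_comm, hg, mul_derivative_formSeries (hY j), ← iterDeriv_succ]
    rw [h4, zero_add] at h3
    rw [Finset.mul_sum]
    exact (Finset.sum_congr rfl fun j _ => by ring).trans h3
  -- the constants in the kernel
  let E : Submodule ℚ (Fin m → ℚ) :=
    { carrier := {e | ∀ k, ∑ j, PowerSeries.C (e j) * g k j = 0}
      zero_mem' := fun k => by simp
      add_mem' := fun {x y} hx hy k => by
        simp only [Pi.add_apply, map_add, add_mul, Finset.sum_add_distrib, hx k, hy k, add_zero]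
      smul_mem' := fun t x hx k => by
        simp only [Pi.smul_apply, smul_eq_mul, map_mul, mul_assoc, ← Finset.mul_sum, hx k,
          mul_zero] }
  set b := Module.finBasis ℚ E with hb
  set r := Module.finrank ℚ E
  set y : Fin r → Fin m → PowerSeries ℚ :=
    fun q i => ∑ c, Y i c * PowerSeries.C ((b q : Fin m → ℚ) c) with hy
  have hyS : ∀ q i, y q i ∈ S := fun q i => Submodule.sum_mem _ fun c _ => by
    rw [mul_comm, ← PowerSeries.smul_eq_C_mul]
    exact Submodule.smul_mem _ _ (Submodule.subset_span ⟨(i, c), rfl⟩)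
  have hyker : ∀ q, ∀ k : Fin l, ∑ i, (iterDeriv T Q P k i : PowerSeries ℚ) * y q i = 0 := by
    intro q k
    refine Eq.trans ?_ ((b q).2 k)
    simp only [hy, hg, formSeries, Finset.mul_sum]
    rw [Finset.sum_comm]
    exact Finset.sum_congr rfl fun c _ => Finset.sum_congr rfl fun i _ => by ring
  -- the kernel vectors with one coordinate off `J`
  set w : Fin o → Fin m → PowerSeries ℚ := fun s i => Sum.elim
    (fun j => -(B j s : PowerSeries ℚ)) (fun s' => if s' = s then (Δ : PowerSeries ℚ) else 0)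
    (eφ.symm i) with hw
  have hwJ : ∀ s j, w s (J j) = -(B j s : PowerSeries ℚ) := fun s j => by
    rw [hw]; simp [show eφ.symm (J j) = .inl j from eφ.symm_apply_apply (.inl j)]
  have hwO : ∀ s s', w s (iO s') = if s' = s then (Δ : PowerSeries ℚ) else 0 := fun s s' => by
    rw [hw]; simp [show eφ.symm (iO s') = .inr s' from eφ.symm_apply_apply (.inr s')]
  have hwker : ∀ s, ∀ k : Fin l, ∑ i, (iterDeriv T Q P k i : PowerSeries ℚ) * w s i = 0 := by
    intro s k
    rw [hsplit]
    simp only [hwJ, hwO, mul_ite, mul_zero, Finset.sum_ite_eq', Finset.mem_univ, if_true, mul_neg,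
      Finset.sum_neg_distrib]
    have h1 := congrArg (fun p : Polynomial ℚ => (p : PowerSeries ℚ)) (hPB k s)
    simp only [coe_polynomial_sum, Polynomial.coe_mul, hPJ, Matrix.of_apply] at h1
    rw [h1]
    ring
  have hσ : ∀ s, ∃ σ : Fin r → PowerSeries ℚ, ∀ i, w s i = ∑ q, σ q * y q i := by
    intro s
    set c : Fin m → PowerSeries ℚ := Y⁻¹.mulVec (w s) with hc
    have hYc : Y.mulVec c = w s := by
      rw [hc, Matrix.mulVec_mulVec, Matrix.mul_nonsing_inv _ hYu, Matrix.one_mulVec]
    have hcU : ∀ k, ∑ j, c j * g k j = 0 := fun k => by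
      refine Eq.trans ?_ (hwker s k)
      rw [← hYc]
      simp only [hg, formSeries, Matrix.mulVec, dotProduct, Finset.mul_sum]
      rw [Finset.sum_comm]
      exact Finset.sum_congr rfl fun i _ => Finset.sum_congr rfl fun j _ => by ring
    set e : ℕ → E := fun n => ⟨fun j => PowerSeries.coeff n (c j),
      coeff_mem_of_stable g hst n c hcU⟩ with he
    refine ⟨fun q => PowerSeries.mk fun n => b.repr (e n) q, fun i => ?_⟩
    have hcj : ∀ j, c j = ∑ q, (PowerSeries.mk fun n => b.repr (e n) q) *
        PowerSeries.C ((b q : Fin m → ℚ) j) := fun j => by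
      ext n
      have h1 := congrArg (fun v : E => (v : Fin m → ℚ) j) (b.sum_repr (e n))
      simp only [Submodule.coe_sum, Submodule.coe_smul, Finset.sum_apply, Pi.smul_apply,
        smul_eq_mul] at h1
      rw [map_sum]
      simp only [PowerSeries.coeff_mul_C, PowerSeries.coeff_mk]
      exact h1.symm
    rw [← hYc]
    simp only [Matrix.mulVec, dotProduct, hy, Finset.mul_sum]
    rw [Finset.sum_comm]
    refine Finset.sum_congr rfl fun j _ => ?_
    rw [hcj j, Finset.mul_sum]
    exact Finset.sum_congr rfl fun q _ => by ring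
  choose σ hσ using hσ
  have hΔ0 : (Δ : PowerSeries ℚ) ≠ 0 :=
    fun h => hJ (Polynomial.coe_inj.1 (h.trans Polynomial.coe_zero.symm))
  obtain ⟨K, hK⟩ := exists_minor (v := fun s q => y q (iO s)) (by
    rw [Fintype.linearIndependent_iff]
    intro α hα s'
    have h1 : ∑ s, α s * w s' (iO s) = 0 := by
      simp only [hσ, Finset.mul_sum]
      rw [Finset.sum_comm]
      refine Finset.sum_eq_zero fun q _ => ?_
      have := congrFun hα q
      simp only [Finset.sum_apply, Pi.smul_apply, smul_eq_mul, Pi.zero_apply] at this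
      rw [Finset.sum_congr rfl fun s _ => mul_left_comm _ _ _, ← Finset.mul_sum, this, mul_zero]
    simp only [hwO, mul_ite, mul_zero, Finset.sum_ite_eq', Finset.mem_univ, if_true] at h1
    exact (mul_eq_zero.1 h1).resolve_right hΔ0)
  set M : Matrix (Fin o) (Fin o) (PowerSeries ℚ) := Matrix.of fun s t => y (K t) (iO s) with hM
  set N : Matrix (Fin l) (Fin o) (PowerSeries ℚ) := Matrix.of fun j t => y (K t) (J j) with hN
  have hrel : (Δ : PowerSeries ℚ) • N =
      -(B.map Polynomial.coeToPowerSeries.ringHom * M) := by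
    ext1 j t
    have h1 : ∀ k : Fin l, ∑ j, (PJ k j : PowerSeries ℚ) * y (K t) (J j) =
        -∑ s, (iterDeriv T Q P k (iO s) : PowerSeries ℚ) * y (K t) (iO s) := fun k => by
      have := hyker (K t) k
      rw [hsplit] at this
      simp only [hPJ, Matrix.of_apply]
      linear_combination this
    have h2 : ((PJ.map Polynomial.coeToPowerSeries.ringHom).adjugate *
        (PJ.map Polynomial.coeToPowerSeries.ringHom * N)) j t =
        ((Δ : PowerSeries ℚ) • N) j t := by
      rw [← Matrix.mul_assoc, Matrix.adjugate_mul, ← RingHom.mapMatrix_apply, ← RingHom.map_det,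
        Matrix.smul_mul, Matrix.one_mul]
      rfl
    rw [← h2, ← RingHom.mapMatrix_apply, ← RingHom.map_adjugate]
    simp only [Matrix.neg_apply, Matrix.mul_apply, Matrix.map_apply, RingHom.mapMatrix_apply,
      Polynomial.coeToPowerSeries.ringHom_apply, hN, hM, Matrix.of_apply, h1, hB,
      coe_polynomial_sum, Polynomial.coe_mul, Finset.sum_mul, Finset.mul_sum, mul_neg,
      Finset.sum_neg_distrib, neg_inj]
    rw [Finset.sum_comm]
    exact Finset.sum_congr rfl fun s _ => Finset.sum_congr rfl fun k _ => by ring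
  have hMS : ∀ i j, M i j ∈ S := fun i j => hyS _ _
  have hdeg : ∀ s, ∃ p q : Polynomial ℚ, q ≠ 0 ∧ p.natDegree ≤ Γ ∧ q.natDegree ≤ Γ ∧
      B ⟨0, hl⟩ s * q = -Δ * p := by
    intro s
    have hΓo : γ o ≤ Γ := Finset.single_le_sum (f := γ) (fun _ _ => Nat.zero_le _)
      (mem_range.2 (Nat.lt_succ_of_le hom))
    obtain ⟨p, q, hq, hp', hq', heq⟩ := hγ o M.det (det_mem_pow S M hMS)
      (M.updateRow s (N ⟨0, hl⟩)).det (det_mem_pow S _ fun i j => by
        rw [Matrix.updateRow_apply]
        split_ifs
        · exact hyS _ _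
        · exact hMS _ _) hK (B ⟨0, hl⟩ s) (-Δ) (by
          have := relation_mul_det (Δ : PowerSeries ℚ) N M _ hrel ⟨0, hl⟩ s
          simpa using this)
    exact ⟨p, q, hq, hp'.trans hΓo, hq'.trans hΓo, heq⟩
  choose p q hq hpdeg hqdeg hBq using hdeg
  set c : Fin m → Polynomial ℚ := fun i => Sum.elim
    (fun j => if j = ⟨0, hl⟩ then ∏ s, q s else 0)
    (fun s => -p s * ∏ t ∈ univ.erase s, q t) (eφ.symm i) with hc
  have hcJ : ∀ j, c (J j) = if j = ⟨0, hl⟩ then ∏ s, q s else 0 := fun j => by
    rw [hc]; simp [show eφ.symm (J j) = .inl j from eφ.symm_apply_apply (.inl j)]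
  have hcO : ∀ s, c (iO s) = -p s * ∏ t ∈ univ.erase s, q t := fun s => by
    rw [hc]; simp [show eφ.symm (iO s) = .inr s from eφ.symm_apply_apply (.inr s)]
  have hprod : ∀ u : Finset (Fin o), (∏ t ∈ u, q t).natDegree ≤ #u * Γ := fun u =>
    (Polynomial.natDegree_prod_le _ _).trans
      ((Finset.sum_le_card_nsmul _ _ Γ fun t _ => hqdeg t).trans_eq (smul_eq_mul _ _))
  refine ⟨c, fun h0 => ?_, fun i => ?_, fun k => (∏ s, q s) * PJ.adjugate ⟨0, hl⟩ k, fun i => ?_⟩
  · have := congrFun h0 (J ⟨0, hl⟩)
    rw [hcJ, if_pos rfl, Pi.zero_apply, Finset.prod_eq_zero_iff] at this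
    obtain ⟨s, -, hs⟩ := this
    exact hq s hs
  · obtain ⟨x, rfl⟩ := eφ.surjective i
    rcases x with j | s
    · change (c (J j)).natDegree ≤ _
      rw [hcJ]
      split_ifs
      · exact (hprod _).trans (by
          rw [card_univ, Fintype.card_fin]
          exact Nat.mul_le_mul_right _ hom)
      · simp
    · change (c (iO s)).natDegree ≤ _
      rw [hcO]
      refine Polynomial.natDegree_mul_le.trans ?_
      rw [Polynomial.natDegree_neg]
      refine (Nat.add_le_add (hpdeg s) (hprod _)).trans ?_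
      rw [Finset.card_erase_of_mem (mem_univ _), card_univ, Fintype.card_fin]
      calc Γ + (o - 1) * Γ = (o - 1 + 1) * Γ := by ring
        _ ≤ m * Γ := Nat.mul_le_mul_right _ (by have := s.2; omega)
  · obtain ⟨x, rfl⟩ := eφ.surjective i
    rcases x with j | s
    · change Δ * c (J j) = ∑ k : Fin l, _ * iterDeriv T Q P k (J j)
      have h1 : ∑ k, PJ.adjugate ⟨0, hl⟩ k * PJ k j =
          (Δ • (1 : Matrix (Fin l) (Fin l) (Polynomial ℚ))) ⟨0, hl⟩ j := by
        rw [← Matrix.adjugate_mul, Matrix.mul_apply]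
      have h2 : ∀ k : Fin l, (∏ s, q s) * PJ.adjugate ⟨0, hl⟩ k * iterDeriv T Q P k (J j) =
          (∏ s, q s) * (PJ.adjugate ⟨0, hl⟩ k * PJ k j) := fun k => by
        simp [hPJ, mul_assoc]
      simp only [h2, ← Finset.mul_sum, h1, hcJ, Matrix.smul_apply, Matrix.one_apply, smul_eq_mul]
      rcases eq_or_ne j ⟨0, hl⟩ with rfl | hj
      · simp [mul_comm]
      · rw [if_neg hj, if_neg (Ne.symm hj)]
        simp
    · change Δ * c (iO s) = ∑ k : Fin l, _ * iterDeriv T Q P k (iO s)
      have h1 : ∑ k, PJ.adjugate ⟨0, hl⟩ k * iterDeriv T Q P k (iO s) = B ⟨0, hl⟩ s := by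
        rw [hB, Matrix.mul_apply]; rfl
      simp only [mul_assoc, ← Finset.mul_sum, h1, hcO]
      rw [← Finset.mul_prod_erase univ q (mem_univ s)]
      linear_combination -(∏ t ∈ univ.erase s, q t) * hBq s

end FA.SiegelShidlovskii

end
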