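import Mathlib.Algebra.Polynomial.Eval.Degree
import Mathlib.RingTheory.Artinian.Module
import Mathlib.RingTheory.Polynomial.DegreeLT
import Fermat.Agent.SiegelShidlovskii.Invariant

/-!
# Shidlovskii's lemma

A form `R = ∑ P j f j` of degree `n` which vanishes at the origin to order more than
`(m - 1) n + O (1)` has independent iterates, for functions independent over the polynomials.
-/

set_option autoImplicit false

noncomputable section

open Finset

namespace FA.SiegelShidlovskii

variable {m : ℕ} {T : Polynomial ℚ} {Q : Matrix (Fin m) (Fin m) (Polynomial ℚ)}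
  {f : Fin m → PowerSeries ℚ}

theorem natDegree_det_le {o : ℕ} {R : Type*} [CommRing R]
    (M : Matrix (Fin o) (Fin o) (Polynomial R)) {b : ℕ} (hM : ∀ i j, (M i j).natDegree ≤ b) :
    M.det.natDegree ≤ o * b := by
  rw [Matrix.det_apply]
  refine Polynomial.natDegree_sum_le_of_forall_le _ _ fun σ _ => ?_
  refine (Polynomial.natDegree_smul_le _ _).trans ((Polynomial.natDegree_prod_le _ _).trans ?_)
  refine (Finset.sum_le_card_nsmul _ _ b fun i _ => hM _ _).trans_eq ?_
  rw [card_univ, Fintype.card_fin, smul_eq_mul]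

/-- Combinations of bounded degree of independent functions vanish to bounded order. -/
theorem exists_order_bound (hind : ∀ P : Fin m → Polynomial ℚ, formSeries f P = 0 → P = 0)
    (γ : ℕ) : ∃ N₀ : ℕ, ∀ c : Fin m → Polynomial ℚ, (∀ j, (c j).natDegree ≤ γ) →
      PowerSeries.X ^ N₀ ∣ formSeries f c → c = 0 := by
  let W : ℕ →o (Submodule ℚ (Fin m → Polynomial.degreeLT ℚ (γ + 1)))ᵒᵈ :=
    { toFun := fun N => OrderDual.toDual
        { carrier := {c | PowerSeries.X ^ N ∣ formSeries f fun j => (c j : Polynomial ℚ)}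
          zero_mem' := by simp [formSeries]
          add_mem' := fun {x y} hx hy => by
            have e : (formSeries f fun j => ((x + y) j : Polynomial ℚ)) =
                (formSeries f fun j => (x j : Polynomial ℚ)) +
                  formSeries f fun j => (y j : Polynomial ℚ) := by
              simp [formSeries, add_mul, Finset.sum_add_distrib]
            simp only [Set.mem_ofPred_eq, e]
            exact dvd_add hx hy
          smul_mem' := fun t x hx => by
            have e : (formSeries f fun j => ((t • x) j : Polynomial ℚ)) =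
                PowerSeries.C t * formSeries f fun j => (x j : Polynomial ℚ) := by
              simp [formSeries, Finset.mul_sum, Polynomial.smul_eq_C_mul, mul_assoc]
            simp only [Set.mem_ofPred_eq, e]
            exact hx.mul_left _ }
      monotone' := fun a b hab c hc => (pow_dvd_pow _ hab).trans hc }
  have : Module.Finite ℚ (Polynomial.degreeLT ℚ (γ + 1)) :=
    Module.Finite.equiv (Polynomial.degreeLTEquiv ℚ (γ + 1)).symm
  obtain ⟨N₀, hN₀⟩ := IsArtinian.monotone_stabilizes W
  refine ⟨N₀, fun c hc hdvd => hind c ?_⟩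
  set c' : Fin m → Polynomial.degreeLT ℚ (γ + 1) := fun j => ⟨c j, Polynomial.mem_degreeLT.2
    ((Polynomial.degree_le_natDegree).trans_lt (by exact_mod_cast Nat.lt_succ_of_le (hc j)))⟩
  ext N
  have h1 : c' ∈ OrderDual.ofDual (W (max N₀ (N + 1))) := by
    rw [← hN₀ _ (le_max_left _ _)]
    exact hdvd
  have h2 : PowerSeries.X ^ max N₀ (N + 1) ∣ formSeries f c := h1
  rw [map_zero]
  exact PowerSeries.X_pow_dvd_iff.1 h2 N (by omega)

/-- **Shidlovskii's lemma.** -/
theorem shidlovskii_lemma (hf : IsSolution T Q f)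
    (hind : ∀ P : Fin m → Polynomial ℚ, formSeries f P = 0 → P = 0) {α : ℚ}
    (hα : T.eval α ≠ 0) :
    ∃ C₀ : ℕ, ∀ (n : ℕ) (P : Fin m → Polynomial ℚ) (N : ℕ), P ≠ 0 →
      (∀ j, (P j).natDegree ≤ n) → PowerSeries.X ^ N ∣ formSeries f P →
      (Matrix.of fun k j : Fin m => iterDeriv T Q P k j).det = 0 → N ≤ (m - 1) * n + C₀ := by
  classical
  set φ : Polynomial ℚ →+* Polynomial ℚ :=
    Polynomial.compRingHom (Polynomial.X + Polynomial.C α) with hφ
  set ψ : Polynomial ℚ →+* Polynomial ℚ :=
    Polynomial.compRingHom (Polynomial.X - Polynomial.C α) with hψ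
  have hψφ : ∀ p, ψ (φ p) = p := fun p => by
    rw [hφ, hψ, Polynomial.coe_compRingHom_apply, Polynomial.coe_compRingHom_apply,
      Polynomial.comp_assoc, Polynomial.add_comp, Polynomial.X_comp, Polynomial.C_comp,
      sub_add_cancel, Polynomial.comp_X]
  have hφd : ∀ p, φ (Polynomial.derivative p) = Polynomial.derivative (φ p) := fun p => by
    rw [hφ, Polynomial.coe_compRingHom_apply, Polynomial.coe_compRingHom_apply,
      Polynomial.derivative_comp]
    simp
  have hψdeg : ∀ p, (ψ p).natDegree = p.natDegree := fun p => by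
    rw [hψ, Polynomial.coe_compRingHom_apply, Polynomial.natDegree_comp,
      Polynomial.natDegree_X_sub_C, mul_one]
  obtain ⟨γ, hγ⟩ := exists_low_degree_combination (φ T) (by
    rw [hφ, Polynomial.coe_compRingHom_apply, Polynomial.coeff_zero_eq_eval_zero,
      Polynomial.eval_comp]
    simpa using hα) (Q.map φ)
  obtain ⟨N₀, hN₀⟩ := exists_order_bound hind γ
  obtain ⟨s, hTs, hQs⟩ : ∃ s, T.natDegree ≤ s ∧ ∀ i j, (Q i j).natDegree ≤ s :=
    ⟨T.natDegree + ∑ i, ∑ j, (Q i j).natDegree, Nat.le_add_right _ _, fun i j =>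
      le_trans (le_trans (Finset.single_le_sum (f := fun j => (Q i j).natDegree)
        (fun _ _ => Nat.zero_le _) (mem_univ j)) (Finset.single_le_sum
        (f := fun i => ∑ j, (Q i j).natDegree) (fun _ _ => Nat.zero_le _) (mem_univ i)))
        (Nat.le_add_left _ _)⟩
  refine ⟨m + m * (m * s) + N₀, fun n P N hP hdeg hdvd hdet => ?_⟩
  set Pk := iterDeriv T Q P with hPk
  obtain ⟨v, hv, hvM⟩ := Matrix.exists_vecMul_eq_zero_iff.2 hdet
  have hdep : ∃ l, ¬LinearIndependent (Polynomial ℚ) fun k : Fin (l + 1) => Pk k := by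
    rcases Nat.eq_zero_or_pos m with hm | hm
    · subst hm
      exact absurd (funext fun j => j.elim0) hP
    · refine ⟨m - 1, fun hli => hv ?_⟩
      have h1 := Fintype.linearIndependent_iff.1
        (hli.comp (Fin.cast (show m = m - 1 + 1 by omega)) (Fin.cast_injective _)) v ?_
      · exact funext h1
      · funext j
        have := congrFun hvM j
        simpa [Matrix.vecMul, dotProduct] using this
  set l := Nat.find hdep with hl
  have hlm : l + 1 ≤ m := by
    by_contra hlt
    rcases Nat.eq_zero_or_pos m with hm | hm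
    · subst hm
      exact absurd (funext fun j => j.elim0) hP
    · refine Nat.find_min hdep (m := m - 1) (by omega) fun hli => hv ?_
      have h1 := Fintype.linearIndependent_iff.1
        (hli.comp (Fin.cast (show m = m - 1 + 1 by omega)) (Fin.cast_injective _)) v ?_
      · exact funext h1
      · funext j
        have := congrFun hvM j
        simpa [Matrix.vecMul, dotProduct] using this
  have hl0 : 0 < l := by
    by_contra h0
    have h1 := Nat.find_spec hdep
    rw [← hl, show l = 0 by omega] at h1
    refine h1 (show LinearIndependent (Polynomial ℚ) fun k : Fin 1 => Pk k from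
      Fintype.linearIndependent_iff.2 fun g hg i => ?_)
    obtain ⟨j, hj⟩ : ∃ j, P j ≠ 0 := by
      by_contra hall
      push Not at hall
      exact hP (funext hall)
    have h2 := congrFun hg j
    rw [Fin.sum_univ_one, Pi.smul_apply, smul_eq_mul, Pi.zero_apply, mul_eq_zero] at h2
    rw [Subsingleton.elim i 0]
    exact h2.resolve_right hj
  have hli : LinearIndependent (Polynomial ℚ) fun k : Fin l => Pk k := by
    have h1 := not_not.1 (Nat.find_min hdep (m := l - 1) (by omega))
    exact h1.comp (Fin.cast (show l = l - 1 + 1 by omega)) (Fin.cast_injective _)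
  obtain ⟨d, hd, a, hda⟩ : ∃ d : Polynomial ℚ, d ≠ 0 ∧ ∃ a : Fin l → Polynomial ℚ,
      ∀ j, d * Pk l j = ∑ k, a k * Pk k j := by
    obtain ⟨g, hg, i, hi⟩ := Fintype.not_linearIndependent_iff.1 (Nat.find_spec hdep)
    have hg' : ∀ j, ∑ k : Fin l, g k.castSucc * Pk k j + g (Fin.last l) * Pk l j = 0 := fun j => by
      have := congrFun hg j
      simpa [Fin.sum_univ_castSucc, Finset.sum_apply] using this
    refine ⟨g (Fin.last l), fun h0 => hi ?_, fun k => -g k.castSucc, fun j => ?_⟩
    · have h1 := Fintype.linearIndependent_iff.1 hli (fun k => g k.castSucc) (funext fun j => by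
        have := hg' j
        rw [h0, zero_mul, add_zero] at this
        simpa [Finset.sum_apply] using this)
      rcases Fin.eq_castSucc_or_eq_last i with ⟨i', rfl⟩ | rfl
      · exact h1 i'
      · exact h0
    · rw [Finset.sum_congr rfl fun k _ => neg_mul _ _, Finset.sum_neg_distrib]
      linear_combination hg' j
  obtain ⟨J, hJ⟩ := exists_minor hli
  set Δ := (Matrix.of fun k j : Fin l => Pk k (J j)).det with hΔ
  have hmap : ∀ k j, iterDeriv (φ T) (Q.map φ) (fun j => φ (P j)) k j = φ (Pk k j) := fun k j =>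
    (congrFun (map_iterDeriv φ hφd T Q P k) j).symm
  have hdet' : (Matrix.of fun k j : Fin l =>
      iterDeriv (φ T) (Q.map φ) (fun j => φ (P j)) k (J j)).det = φ Δ := by
    rw [hΔ, RingHom.map_det]
    congr 1
    ext1 k j
    simp [hmap]
  obtain ⟨c', hc'0, hc'd, a', ha'⟩ := hγ (fun j => φ (P j)) l J hl0 (by
    rw [hdet']
    exact fun h => hJ (by rw [← hψφ Δ, h, map_zero]))
    ⟨φ d, fun h => hd (by rw [← hψφ d, h, map_zero]), fun k => φ (a k), fun j => by
      simp only [hmap, ← map_mul, ← map_sum, hda]⟩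
  set c := fun j => ψ (c' j) with hc
  have hrel : ∀ j, Δ * c j = ∑ k, ψ (a' k) * Pk k j := fun j => by
    have h1 := congrArg ψ (ha' j)
    rw [hdet', map_mul, map_sum, hψφ] at h1
    simpa [map_mul, hmap, hψφ] using h1
  have hc0 : c ≠ 0 := fun h => hc'0 (funext fun j => Polynomial.ext fun i => by
    have h1 : (c j).natDegree = (c' j).natDegree := hψdeg _
    have h2 : ψ (c' j) = 0 := congrFun h j
    have h3 : c' j = 0 := by
      rw [hψ, Polynomial.coe_compRingHom_apply] at h2
      exact (Polynomial.comp_eq_zero_iff.1 h2).resolve_right fun h4 => by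
        have := congrArg Polynomial.natDegree h4.2
        rw [Polynomial.natDegree_X_sub_C, Polynomial.natDegree_C] at this
        omega
    rw [h3, Pi.zero_apply])
  -- orders
  have hΔ0 : (Δ : PowerSeries ℚ) ≠ 0 :=
    fun h => hJ (Polynomial.coe_inj.1 (h.trans Polynomial.coe_zero.symm))
  have hdvd' : PowerSeries.X ^ (N - l) ∣ (Δ : PowerSeries ℚ) * formSeries f c := by
    have e : (Δ : PowerSeries ℚ) * formSeries f c =
        ∑ k : Fin l, (ψ (a' k) : PowerSeries ℚ) * formSeries f (Pk k) := by
      rw [← formSeries_smul_sum]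
      simp only [formSeries, Finset.mul_sum, ← hrel, Polynomial.coe_mul, mul_assoc]
    rw [e]
    exact Finset.dvd_sum fun k _ => ((pow_dvd_pow _ (Nat.sub_le_sub_left k.2.le N)).trans
      (X_pow_dvd_formSeries hf P hdvd k)).mul_left _
  have hΔdeg : Δ.natDegree ≤ l * (n + l * s) := natDegree_det_le _ fun k j =>
    (iterDeriv_natDegree_le T Q P hTs hQs hdeg k _).trans
      (Nat.add_le_add_left (Nat.mul_le_mul_right s k.2.le) n)
  have h1 : ((N - l : ℕ) : ℕ∞) ≤ ((Δ : PowerSeries ℚ) * formSeries f c).order :=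
    PowerSeries.nat_le_order _ _ (PowerSeries.X_pow_dvd_iff.1 hdvd')
  rw [PowerSeries.order_mul] at h1
  have h2 : (Δ : PowerSeries ℚ).order ≤ (Δ.natDegree : ℕ∞) := PowerSeries.order_le _ (by
    rw [Polynomial.coeff_coe]
    exact Polynomial.leadingCoeff_ne_zero.2 hJ)
  have h3 : (formSeries f c).order ≤ (N₀ : ℕ∞) := by
    by_contra hlt
    push Not at hlt
    refine hc0 (hN₀ c (fun j => (hψdeg _).trans_le (hc'd j)) ?_)
    exact PowerSeries.X_pow_dvd_iff.2 fun i hi =>
      PowerSeries.coeff_of_lt_order i ((Nat.cast_lt.2 hi).trans hlt)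
  have h4 : N - l ≤ Δ.natDegree + N₀ := by exact_mod_cast h1.trans (add_le_add h2 h3)
  have h5 : l * (n + l * s) ≤ (m - 1) * n + m * (m * s) := by
    rw [Nat.mul_add]
    exact Nat.add_le_add (Nat.mul_le_mul_right _ (by omega))
      (Nat.mul_le_mul (by omega) (Nat.mul_le_mul_right _ (by omega)))
  omega

end FA.SiegelShidlovskii

end
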