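import Mathlib.Algebra.Polynomial.Div
import Mathlib.RingTheory.Coprime.Lemmas
import Mathlib.Algebra.Polynomial.FieldDivision
import Fermat.Agent.SiegelShidlovskii.ZeroEstimate

/-!
# The rank of the forms at a point

When the determinant of the first `m` iterates is not zero, iterates of small index have `m`
independent values at a point `α` of a field of characteristic zero; over `ℚ` one of them can be
replaced by any nonzero row.
-/

set_option autoImplicit false

noncomputable section

open Finset

namespace FA.SiegelShidlovskii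

variable {m : ℕ} {T : Polynomial ℚ} {Q : Matrix (Fin m) (Fin m) (Polynomial ℚ)}

theorem vecDeriv_add {R : Type*} [CommRing R] (T : Polynomial R)
    (Q : Matrix (Fin m) (Fin m) (Polynomial R)) (x y : Fin m → Polynomial R) :
    vecDeriv T Q (x + y) = vecDeriv T Q x + vecDeriv T Q y := by
  funext j
  simp only [vecDeriv, Pi.add_apply, map_add, add_mul, Finset.sum_add_distrib, mul_add]
  ring

theorem vecDeriv_smul {R : Type*} [CommRing R] (T : Polynomial R)
    (Q : Matrix (Fin m) (Fin m) (Polynomial R)) (a : Polynomial R) (x : Fin m → Polynomial R) :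
    vecDeriv T Q (a • x) = a • vecDeriv T Q x + (T * Polynomial.derivative a) • x := by
  funext j
  simp only [vecDeriv, Pi.smul_apply, smul_eq_mul, Pi.add_apply, Polynomial.derivative_mul,
    mul_add, Finset.mul_sum, mul_assoc]
  ring

theorem vecDeriv_zero {R : Type*} [CommRing R] (T : Polynomial R)
    (Q : Matrix (Fin m) (Fin m) (Polynomial R)) : vecDeriv T Q 0 = 0 := by
  funext j
  simp [vecDeriv]

/-- The values of the iterates of index below `m + t` span, `t` the order of the determinant. -/
theorem span_eval_eq_top {K : Type*} [Field K] [CharZero K] {T : Polynomial K}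
    {Q : Matrix (Fin m) (Fin m) (Polynomial K)} (P : Fin m → Polynomial K) {α : K}
    (hα : T.eval α ≠ 0) {t : ℕ} {Δ₁ : Polynomial K} (hΔ₁ : Δ₁.eval α ≠ 0)
    (hΔ : (Matrix.of fun k j : Fin m => iterDeriv T Q P k j).det =
      (Polynomial.X - Polynomial.C α) ^ t * Δ₁) :
    Submodule.span K (Set.range fun k : Fin (m + t) =>
      fun j => (iterDeriv T Q P k j).eval α) = ⊤ := by
  classical
  set Pk := iterDeriv T Q P with hPk
  set s := Polynomial.X - Polynomial.C α with hs
  set A := Matrix.of fun k j : Fin m => Pk k j with hA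
  let M : ℕ → Submodule (Polynomial K) (Fin m → Polynomial K) := fun u =>
    Submodule.span (Polynomial K) (Pk '' Set.Iio (m + u))
  have hstep : ∀ u x, x ∈ M u → vecDeriv T Q x ∈ M (u + 1) := by
    intro u x hx
    have hmono : M u ≤ M (u + 1) := Submodule.span_mono
      (Set.image_mono (Set.Iio_subset_Iio (by omega)))
    induction hx using Submodule.span_induction with
    | mem x hx =>
      obtain ⟨k, hk, rfl⟩ := hx
      rw [Set.mem_Iio] at hk
      rw [hPk, ← iterDeriv_succ]
      exact Submodule.subset_span ⟨k + 1, Set.mem_Iio.2 (by omega), rfl⟩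
    | zero => rw [vecDeriv_zero]; exact Submodule.zero_mem _
    | add x y _ _ hx hy => rw [vecDeriv_add]; exact Submodule.add_mem _ hx hy
    | smul a x hxM hx =>
      rw [vecDeriv_smul]
      exact Submodule.add_mem _ (Submodule.smul_mem _ _ hx)
        (Submodule.smul_mem _ _ (hmono hxM))
  set S := Submodule.span K (Set.range fun k : Fin (m + t) => fun j => (Pk k j).eval α)
  have heval : ∀ x ∈ M t, (fun j => (x j).eval α) ∈ S := by
    intro x hx
    induction hx using Submodule.span_induction with
    | mem x hx =>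
      obtain ⟨k, hk, rfl⟩ := hx
      exact Submodule.subset_span ⟨⟨k, Set.mem_Iio.1 hk⟩, rfl⟩
    | zero =>
      simp only [Pi.zero_apply, Polynomial.eval_zero]
      exact Submodule.zero_mem S
    | add x y _ _ hx hy => simpa using! Submodule.add_mem S hx hy
    | smul a x _ hx => simpa using! Submodule.smul_mem S (a.eval α) hx
  have hsingle : ∀ j, (Pi.single j (1 : K) : Fin m → K) ∈ S := by
    intro j
    -- the iterates of `Δ e_j`
    have hmem0 : (fun i => if i = j then A.det else 0) ∈ M 0 := by
      have e : (fun i => if i = j then A.det else 0) = ∑ k : Fin m, A.adjugate j k • Pk k := by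
        funext i
        have h1 : (A.adjugate * A) j i = (A.det • (1 : Matrix _ _ (Polynomial K))) j i := by
          rw [Matrix.adjugate_mul]
        rw [Matrix.mul_apply, Matrix.smul_apply, Matrix.one_apply] at h1
        simp only [Finset.sum_apply, Pi.smul_apply, smul_eq_mul]
        refine Eq.trans ?_ h1.symm
        rcases eq_or_ne i j with rfl | hij
        · simp
        · simp [hij, Ne.symm hij]
      rw [e]
      exact Submodule.sum_mem _ fun k _ => Submodule.smul_mem _ _
        (Submodule.subset_span ⟨k, Set.mem_Iio.2 (by simp), rfl⟩)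
    have key : ∀ u ≤ t, ∃ (W : Fin m → Polynomial K) (c : K), c ≠ 0 ∧ s ^ (t - u) • W ∈ M u ∧
        ∀ i, (W i).eval α = if i = j then c else 0 := by
      intro u
      induction u with
      | zero =>
        intro _
        refine ⟨fun i => if i = j then Δ₁ else 0, Δ₁.eval α, hΔ₁, ?_, fun i => ?_⟩
        · convert hmem0 using 1
          funext i
          simp only [Nat.sub_zero, Pi.smul_apply, smul_eq_mul, mul_ite, mul_zero]
          rw [hΔ]
        · split_ifs with hij <;> simp [hij]
      | succ u ih =>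
        intro hu
        obtain ⟨W, c, hc, hW, hWe⟩ := ih (by omega)
        refine ⟨Polynomial.C (((t - (u + 1) : ℕ) : K) + 1) • T • W + s • vecDeriv T Q W,
          (((t - (u + 1) : ℕ) : K) + 1) * (T.eval α * c), ?_, ?_, fun i => ?_⟩
        · exact mul_ne_zero (Nat.cast_add_one_ne_zero _) (mul_ne_zero hα hc)
        · have h1 := hstep u _ hW
          convert h1 using 1
          rw [show t - u = t - (u + 1) + 1 by omega, vecDeriv_smul, Polynomial.derivative_pow,
            Nat.add_sub_cancel, hs, Polynomial.derivative_X_sub_C]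
          funext i
          simp only [Pi.smul_apply, Pi.add_apply, smul_eq_mul]
          push_cast
          ring
        · simp [hs, hWe]
    obtain ⟨W, c, hc, hW, hWe⟩ := key t le_rfl
    rw [Nat.sub_self, pow_zero, one_smul] at hW
    have h1 := Submodule.smul_mem S c⁻¹ (heval W hW)
    convert h1 using 1
    funext i
    rw [Pi.smul_apply, hWe, smul_eq_mul]
    rcases eq_or_ne i j with rfl | hij
    · simp [hc]
    · simp [hij]
  refine eq_top_iff.2 fun x _ => ?_
  rw [← Finset.univ_sum_single x]
  refine Submodule.sum_mem _ fun j _ => ?_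
  have h1 := Submodule.smul_mem S (x j) (hsingle j)
  rwa [← Pi.single_smul', smul_eq_mul, mul_one] at h1

/-- Iterates of small index span the values at a point of a field of characteristic zero. -/
theorem exists_spanning {K : Type*} [Field K] [CharZero K] [Algebra ℚ K]
    {f : Fin m → PowerSeries ℚ} (hf : IsSolution T Q f) (hfj : ∀ j, f j ≠ 0) {α : K}
    (hα : Polynomial.aeval α T ≠ 0) (hα0 : α ≠ 0) {s : ℕ} (hT : T.natDegree ≤ s)
    (hQ : ∀ i j, (Q i j).natDegree ≤ s) (hm : 0 < m) :
    ∃ o : ℕ, ∀ (n N : ℕ) (P : Fin m → Polynomial ℚ), (∀ j, (P j).natDegree ≤ n) →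
      PowerSeries.X ^ N ∣ formSeries f P →
      (Matrix.of fun k j : Fin m => iterDeriv T Q P k j).det ≠ 0 →
      ∀ x : Fin m → K, x ∈ Submodule.span K ((fun k : ℕ => fun j =>
        Polynomial.aeval α (iterDeriv T Q P k j)) '' {k | k + N < m * n + (o + 1)}) := by
  classical
  set j₀ : Fin m := ⟨0, hm⟩
  set o := (f j₀).order.toNat with ho
  refine ⟨2 * m + m * (m * s) + o, fun n N P hdeg hdvd hdet x => ?_⟩
  set A := Matrix.of fun k j : Fin m => iterDeriv T Q P k j with hA
  set Δ := A.det with hΔ
  set μ := Polynomial.mapRingHom (algebraMap ℚ K) with hμ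
  have hiter : ∀ k j, iterDeriv (μ T) (Q.map μ) (fun j => μ (P j)) k j = μ (iterDeriv T Q P k j) :=
    fun k j => (congrFun (map_iterDeriv μ
      (fun p => (Polynomial.derivative_map p _).symm) T Q P k) j).symm
  have hΔK : (Matrix.of fun k j : Fin m => iterDeriv (μ T) (Q.map μ) (fun j => μ (P j)) k j).det =
      μ Δ := by
    rw [hΔ, RingHom.map_det, RingHom.mapMatrix_apply]
    congr 1
    ext k j
    simp only [Matrix.of_apply, Matrix.map_apply, hiter, hA]
  have hμi : Function.Injective μ := Polynomial.map_injective _ (algebraMap ℚ K).injective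
  obtain ⟨Δ₁, hfac, hndvd⟩ := Polynomial.exists_eq_pow_rootMultiplicity_mul_and_not_dvd (μ Δ)
    ((map_ne_zero_iff _ hμi).2 hdet) α
  set t := (μ Δ).rootMultiplicity α with ht
  have hspan := span_eval_eq_top (T := μ T) (Q := Q.map μ) (fun j => μ (P j))
    (show (μ T).eval α ≠ 0 by rwa [hμ, Polynomial.coe_mapRingHom, Polynomial.eval_map,
      ← Polynomial.aeval_def]) (t := t) (Δ₁ := Δ₁)
    (fun h0 => hndvd (Polynomial.dvd_iff_isRoot.2 h0)) (hΔK.trans hfac)
  -- the order of the determinant
  have hord : PowerSeries.X ^ (N - m) ∣ (Δ : PowerSeries ℚ) * f j₀ := by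
    have e : (Δ : PowerSeries ℚ) * f j₀ =
        ∑ k : Fin m, (A.adjugate j₀ k : PowerSeries ℚ) * formSeries f (iterDeriv T Q P k) := by
      rw [← formSeries_smul_sum, formSeries, Finset.sum_eq_single j₀]
      · congr 2
        have h1 : (A.adjugate * A) j₀ j₀ = (A.det • (1 : Matrix _ _ (Polynomial ℚ))) j₀ j₀ := by
          rw [Matrix.adjugate_mul]
        rw [Matrix.mul_apply, Matrix.smul_apply, Matrix.one_apply_eq, smul_eq_mul, mul_one] at h1
        exact h1.symm
      · intro i _ hi
        have h1 : (A.adjugate * A) j₀ i = (A.det • (1 : Matrix _ _ (Polynomial ℚ))) j₀ i := by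
          rw [Matrix.adjugate_mul]
        rw [Matrix.mul_apply, Matrix.smul_apply, Matrix.one_apply_ne (Ne.symm hi),
          smul_zero] at h1
        rw [hA] at h1
        simp only [Matrix.of_apply] at h1
        rw [h1, Polynomial.coe_zero, zero_mul]
      · exact fun hn => absurd (mem_univ _) hn
    rw [e]
    exact Finset.dvd_sum fun k _ => ((pow_dvd_pow _ (Nat.sub_le_sub_left k.2.le N)).trans
      (X_pow_dvd_formSeries hf P hdvd k)).mul_left _
  have hX : Polynomial.X ^ (N - m - o) ∣ Δ := by
    rw [Polynomial.X_pow_dvd_iff]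
    intro i hi
    rw [← Polynomial.coeff_coe]
    refine PowerSeries.coeff_of_lt_order i (lt_of_not_ge fun hle => ?_)
    have h1 : ((N - m : ℕ) : ℕ∞) ≤ ((Δ : PowerSeries ℚ) * f j₀).order :=
      PowerSeries.nat_le_order _ _ (PowerSeries.X_pow_dvd_iff.1 hord)
    rw [PowerSeries.order_mul] at h1
    have h2 := h1.trans (add_le_add hle (PowerSeries.coe_toNat_order (hfj j₀)).ge)
    rw [← ho, ← Nat.cast_add, Nat.cast_le] at h2
    omega
  have hcop : IsCoprime ((Polynomial.X - Polynomial.C α) ^ t)
      ((Polynomial.X : Polynomial K) ^ (N - m - o)) := by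
    refine IsCoprime.pow ?_
    have h0 := Polynomial.isCoprime_X_sub_C_of_isUnit_sub (a := α) (b := (0 : K))
      (by simpa using hα0.isUnit)
    simpa using h0
  have htdeg : t + (N - m - o) ≤ Δ.natDegree := by
    have h1 := Polynomial.natDegree_le_of_dvd (hcop.mul_dvd ⟨Δ₁, hfac⟩
      (by simpa [hμ] using map_dvd μ hX)) ((map_ne_zero_iff _ hμi).2 hdet)
    rwa [hμ, Polynomial.coe_mapRingHom,
      Polynomial.natDegree_map_eq_of_injective (algebraMap ℚ K).injective,
      Polynomial.natDegree_mul (pow_ne_zero _ (Polynomial.X_sub_C_ne_zero α))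
        (pow_ne_zero _ Polynomial.X_ne_zero), Polynomial.natDegree_pow,
      Polynomial.natDegree_X_sub_C, mul_one, Polynomial.natDegree_X_pow] at h1
  have hΔdeg : Δ.natDegree ≤ m * (n + m * s) := natDegree_det_le _ fun k j =>
    (iterDeriv_natDegree_le T Q P hT hQ hdeg k _).trans
      (Nat.add_le_add_left (Nat.mul_le_mul_right s k.2.le) n)
  rw [Nat.mul_add] at hΔdeg
  have hle : Submodule.span K (Set.range fun k : Fin (m + t) => fun j =>
      (iterDeriv (μ T) (Q.map μ) (fun j => μ (P j)) k j).eval α) ≤
      Submodule.span K ((fun k : ℕ => fun j =>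
        Polynomial.aeval α (iterDeriv T Q P k j)) ''
          {k | k + N < m * n + (2 * m + m * (m * s) + o + 1)}) := by
    refine Submodule.span_mono ?_
    rintro _ ⟨k, rfl⟩
    refine ⟨k, ?_, funext fun j => ?_⟩
    · have := k.2
      simp only [Set.mem_ofPred_eq]
      omega
    · dsimp only
      rw [hiter, hμ, Polynomial.coe_mapRingHom, Polynomial.eval_map, ← Polynomial.aeval_def]
  exact hle (hspan ▸ Submodule.mem_top)

/-- A row can be completed by values of iterates of small index to an invertible matrix. -/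
theorem exists_completion {f : Fin m → PowerSeries ℚ} (hf : IsSolution T Q f) (hfj : ∀ j, f j ≠ 0)
    {α : ℚ} (hα : T.eval α ≠ 0) (hα0 : α ≠ 0) {s : ℕ} (hT : T.natDegree ≤ s)
    (hQ : ∀ i j, (Q i j).natDegree ≤ s) (hm : 0 < m) :
    ∃ o : ℕ, ∀ (n N : ℕ) (P : Fin m → Polynomial ℚ), (∀ j, (P j).natDegree ≤ n) →
      PowerSeries.X ^ N ∣ formSeries f P →
      (Matrix.of fun k j : Fin m => iterDeriv T Q P k j).det ≠ 0 → ∀ h : Fin m → ℚ, h ≠ 0 →
      ∃ (κ : Fin m → ℕ) (r₀ : Fin m), (∀ r, κ r + N < m * n + (o + 1)) ∧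
        ((Matrix.of fun r j => (iterDeriv T Q P (κ r) j).eval α).updateRow r₀ h).det ≠ 0 := by
  classical
  obtain ⟨o, ho⟩ := exists_spanning (K := ℚ) hf hfj (by simpa using hα) hα0 hT hQ hm
  refine ⟨o, fun n N P hdeg hdvd hdet h hh => ?_⟩
  set S : Set (Fin m → ℚ) :=
    (fun k : ℕ => fun j => (iterDeriv T Q P k j).eval α) '' {k | k + N < m * n + (o + 1)} with hS
  have hspan : Submodule.span ℚ S = ⊤ := eq_top_iff.2 fun x _ => by
    simpa [hS] using ho n N P hdeg hdvd hdet x
  obtain ⟨g, hg, hgspan, hgi⟩ := Submodule.exists_fun_fin_finrank_span_eq ℚ S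
  have hfin : Module.finrank ℚ (Submodule.span ℚ S) = m := by
    rw [hspan, finrank_top, Module.finrank_fin_fun]
  choose κ hκ hκe using hg
  set B := Matrix.of fun r j => (iterDeriv T Q P (κ (Fin.cast hfin.symm r)) j).eval α with hB
  have hBrow : B.row = g ∘ Fin.cast hfin.symm := funext fun r => hκe _
  have hBdet : B.det ≠ 0 := by
    have h1 : LinearIndependent ℚ B.row := hBrow ▸ hgi.comp _ (Fin.cast_injective _)
    rw [Matrix.linearIndependent_rows_iff_isUnit, Matrix.isUnit_iff_isUnit_det] at h1
    exact h1.ne_zero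
  have hmem : h ∈ Submodule.span ℚ (Set.range B.row) := by
    rw [hBrow, show Set.range (g ∘ Fin.cast hfin.symm) = Set.range g from
      (finCongr hfin.symm).surjective.range_comp g, hgspan, hspan]
    exact Submodule.mem_top
  obtain ⟨c, hc⟩ := Submodule.mem_span_range_iff_exists_fun ℚ |>.1 hmem
  obtain ⟨r₀, hr₀⟩ : ∃ r, c r ≠ 0 := by
    by_contra hall
    push Not at hall
    exact hh (by rw [← hc, Finset.sum_eq_zero fun r _ => by rw [hall r, zero_smul]])
  refine ⟨fun r => κ (Fin.cast hfin.symm r), r₀, fun r => ?_, ?_⟩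
  · exact hκ _
  · change (B.updateRow r₀ h).det ≠ 0
    rw [← hc, show ∑ r, c r • B.row r = ∑ r, c r • B r from rfl, Matrix.det_updateRow_sum]
    exact mul_ne_zero hr₀ hBdet

end FA.SiegelShidlovskii

end
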