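import Mathlib.RingTheory.Localization.Integral
import Mathlib.LinearAlgebra.Matrix.NonsingularInverse
import Fermat.Agent.SiegelShidlovskii.Rank
import Fermat.Agent.SiegelShidlovskii.Estimates

/-!
# The theorem of Siegel and Shidlovskii over `ℚ`

With `n = q p`, a relation among the values and `m - 1` of the forms at `α` give a nonzero
integral determinant `Λ` with `|Λ y j| ≤ C ^ p p ^ (- p)`, so the values vanish, which they do not.
-/

set_option autoImplicit false

noncomputable section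

open Finset Filter Topology
open scoped Nat

namespace FA.SiegelShidlovskii

variable {m : ℕ} {f : Fin m → PowerSeries ℚ}

theorem IsEFunction.expGrowth {g : PowerSeries ℚ} (h : IsEFunction g) : ExpGrowth g := by
  obtain ⟨C, hC, -⟩ := h
  refine ⟨C, C, Nat.cast_nonneg _, fun k => ?_⟩
  have h1 := hC k
  rw [← Rat.cast_le (K := ℝ), Rat.cast_abs, Rat.cast_mul, Rat.cast_natCast, Rat.cast_pow,
    Rat.cast_natCast, abs_mul, Nat.abs_cast] at h1
  rw [le_div_iff₀ (by positivity), mul_comm _ (k ! : ℝ), ← pow_succ']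
  exact h1

theorem apply_ne_zero_of_independent
    (hind : ∀ P : Fin m → Polynomial ℚ, formSeries f P = 0 → P = 0) (j : Fin m) : f j ≠ 0 := by
  intro h
  have h1 := congrFun (hind (Pi.single j 1) (by
    rw [formSeries, Finset.sum_eq_single j (fun i _ hi => by simp [hi])
      (fun hn => absurd (mem_univ j) hn), h, mul_zero])) j
  simp at h1

/-- The core: no integral relation among `m ≥ 2` values. -/
theorem eq_zero_of_relation (hm : 2 ≤ m) (T : Polynomial ℤ)
    (Q : Matrix (Fin m) (Fin m) (Polynomial ℤ))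
    (hf : IsSolution (T.map (Int.castRingHom ℚ))
      (Q.map (Polynomial.map (Int.castRingHom ℚ))) f)
    (hE : ∀ j, IsEFunction (f j))
    (hind : ∀ P : Fin m → Polynomial ℚ, formSeries f P = 0 → P = 0)
    {α : ℚ} (hα0 : α ≠ 0) (hα : (T.map (Int.castRingHom ℚ)).eval α ≠ 0) (h : Fin m → ℤ)
    (hrel : ∑ j, (h j : ℝ) * val (f j) α = 0) : h = 0 := by
  classical
  by_contra hh
  obtain ⟨m', rfl⟩ : ∃ m', m = m' + 2 := ⟨m - 2, by omega⟩
  set ι := Int.castRingHom ℚ
  set Tq := T.map ι with hTq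
  set Qq := Q.map (Polynomial.map ι) with hQq
  obtain ⟨s, hTs, hQs⟩ : ∃ s, T.natDegree ≤ s ∧ ∀ i j, (Q i j).natDegree ≤ s :=
    ⟨T.natDegree + ∑ i, ∑ j, (Q i j).natDegree, Nat.le_add_right _ _, fun i j =>
      le_trans (le_trans (Finset.single_le_sum (f := fun j => (Q i j).natDegree)
        (fun _ _ => Nat.zero_le _) (mem_univ j)) (Finset.single_le_sum
        (f := fun i => ∑ j, (Q i j).natDegree) (fun _ _ => Nat.zero_le _) (mem_univ i)))
        (Nat.le_add_left _ _)⟩
  have hTqs : Tq.natDegree ≤ s := Polynomial.natDegree_map_le.trans hTs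
  have hQqs : ∀ i j, (Qq i j).natDegree ≤ s := fun i j =>
    Polynomial.natDegree_map_le.trans (hQs i j)
  have hfj := apply_ne_zero_of_independent hind
  have hgr : ∀ j, ExpGrowth (f j) := fun j => (hE j).expGrowth
  obtain ⟨j₀, hy⟩ := exists_val_ne_zero hf hgr ⟨⟨0, by omega⟩, hfj _⟩ hα
  obtain ⟨c₀, hc₀⟩ := shidlovskii_lemma hf hind hα
  obtain ⟨o, ho⟩ := exists_completion hf hfj hα hα0 hTqs hQqs (by omega)
  obtain ⟨q, hq⟩ : ∃ q, q = 2 * (m' + 2) + 2 * s + 3 := ⟨_, rfl⟩
  obtain ⟨H, hH1, haux⟩ := exists_auxiliary hE (by omega) (show 0 < q by omega)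
  obtain ⟨M₁, hM₁, hl1⟩ := exists_l1_iterDeriv_le T Q hTs hQs
  obtain ⟨M₂, hM₂, hco⟩ := exists_coeff_iterate_le Tq hTqs
  set a := α.num
  set b := α.den with hb
  set x : ℝ := (α : ℝ) with hxdef
  have hxab : x = (a : ℝ) / (b : ℝ) := by rw [hxdef, Rat.cast_def]
  set d₀ := q + 2 * s with hd₀
  obtain ⟨CV, hCV⟩ : ∃ CV : ℝ, CV = (|(a : ℝ)| + b) ^ d₀ *
    (M₁ * ((q : ℝ) + 2 * s + 1)) ^ 2 * (m' + 2) * (q : ℝ) ^ q * H := ⟨_, rfl⟩
  set g₀ := (m' + 2) * q - 3 with hg₀
  obtain ⟨CL, hCL⟩ : ∃ CL : ℝ, CL = (b : ℝ) ^ d₀ * ((q : ℝ) ^ q * H * M₂ ^ 2 * H ^ 2) *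
    ((2 * s : ℕ) : ℝ) ^ (2 * s) *
    Real.exp 1 ^ 3 * (Real.exp 1 * H * |x| * Real.exp 1) ^ g₀ *
    Real.exp (Real.exp 1 * H * |x|) := ⟨_, rfl⟩
  set Hh : ℝ := 1 + ∑ j, |(h j : ℝ)| with hHh
  set K : ℝ := ((m' + 2 : ℕ) : ℝ) * ((m' + 2)! : ℝ) * Hh with hK
  have hb0 : b ≠ 0 := α.den_nz
  have hb1 : (1 : ℝ) ≤ b := Nat.one_le_cast.2 (Nat.one_le_iff_ne_zero.2 hb0)
  have hq1 : (1 : ℝ) ≤ (q : ℝ) ^ q := one_le_pow₀ (Nat.one_le_cast.2 (by omega))
  have hH0 : 0 ≤ H := by linarith
  have hM₂0 : 0 ≤ M₂ := by linarith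
  have hCL0 : 0 ≤ CL := by rw [hCL]; positivity
  have hCV0 : 0 ≤ CV := by
    have : 0 ≤ M₁ := by linarith
    rw [hCV]
    positivity
  have hHh0 : 0 ≤ Hh := add_nonneg zero_le_one (Finset.sum_nonneg fun _ _ => abs_nonneg _)
  suffices hmain : ∀ᶠ p : ℕ in atTop,
      |val (f j₀) α| ≤ K * (CV ^ m' * CL / (p : ℝ)) ^ p by
    have hhalf : ∀ᶠ p : ℕ in atTop, CV ^ m' * CL / (p : ℝ) ≤ 1 / 2 :=
      (tendsto_const_div_atTop_nhds_zero_nat _).eventually (eventually_le_nhds (by norm_num))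
    have hlim : Tendsto (fun p : ℕ => K * (1 / 2 : ℝ) ^ p) atTop (𝓝 0) := by
      simpa using (tendsto_pow_atTop_nhds_zero_of_lt_one (show (0 : ℝ) ≤ 1 / 2 by norm_num)
        (by norm_num)).const_mul K
    refine hy (abs_nonpos_iff.1 (ge_of_tendsto hlim ?_))
    filter_upwards [hmain, hhalf] with p hp hp2
    exact hp.trans (mul_le_mul_of_nonneg_left (pow_le_pow_left₀ (by positivity) hp2 _)
      (by positivity))
  filter_upwards [eventually_ge_atTop (c₀ + o + 2)] with p hp
  have hp0 : 0 < p := by omega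
  have hp1 : (1 : ℝ) ≤ p := Nat.one_le_cast.2 (by omega)
  obtain ⟨P, hP0, hPd, hPl, hPdvd, hPc⟩ := haux p hp0
  set n := q * p with hn
  set N := ((m' + 2) * q - 1) * p with hN
  set Pq : Fin (m' + 2) → Polynomial ℚ := fun j => (P j).map ι with hPq
  have hPqd : ∀ j, (Pq j).natDegree ≤ n := fun j => Polynomial.natDegree_map_le.trans (hPd j)
  have hNn : N + p = (m' + 2) * n := by
    have : 1 ≤ (m' + 2) * q := Nat.mul_pos (by omega) (by omega)
    obtain ⟨t, ht⟩ := Nat.exists_eq_add_of_le this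
    rw [hN, hn, show (m' + 2) * (q * p) = ((m' + 2) * q) * p by ring, ht,
      Nat.add_sub_cancel_left]
    ring
  have hdet : (Matrix.of fun k j : Fin (m' + 2) => iterDeriv Tq Qq Pq k j).det ≠ 0 := by
    intro h0
    have h1 := hc₀ n Pq N (fun h => hP0 (funext fun j => Polynomial.map_injective ι
      (Int.cast_injective) (by simpa [hPq] using congrFun h j))) hPqd hPdvd h0
    rw [show m' + 2 - 1 = m' + 1 by omega] at h1
    have : 2 * p ≤ n := Nat.mul_le_mul_right p (by omega)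
    have e : (m' + 2) * n = (m' + 1) * n + n := by ring
    omega
  obtain ⟨κ, r₀, hκ, hκdet⟩ := ho n N Pq hPqd hPdvd hdet (fun j => (h j : ℚ))
    (fun h0 => hh (funext fun j => Int.cast_eq_zero.1 (congrFun h0 j)))
  have hκ2 : ∀ r, κ r ≤ 2 * p := fun r => by have := hκ r; omega
  -- the integral matrix
  set d := p * d₀ with hd
  have hmapk : ∀ k j, iterDeriv Tq Qq Pq k j = (iterDeriv T Q P k j).map ι := fun k j =>
    (congrFun (map_iterDeriv (Polynomial.mapRingHom ι)
      (fun p => (Polynomial.derivative_map p ι).symm) T Q P k) j).symm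
  have hdeg : ∀ r j, (iterDeriv T Q P (κ r) j).natDegree ≤ d := fun r j => by
    refine (iterDeriv_natDegree_le T Q P hTs hQs hPd _ j).trans ?_
    calc n + κ r * s ≤ n + 2 * p * s := Nat.add_le_add_left (Nat.mul_le_mul_right s (hκ2 r)) n
      _ = d := by rw [hn, hd, hd₀]; ring
  choose z hz hzle using fun r j => exists_int_eval (iterDeriv T Q P (κ r) j) a b hb0 (hdeg r j)
  set G := (Matrix.of z).updateRow r₀ h with hG
  have hevalq : ∀ R : Polynomial ℤ, Polynomial.eval₂ (Int.castRingHom ℝ) ((a : ℝ) / b) R =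
      (((R.map ι).eval α : ℚ) : ℝ) := fun R => by
    rw [← hxab, hxdef, ← eq_ratCast (Rat.castHom ℝ) α, Polynomial.eval_map,
      ← eq_ratCast (Rat.castHom ℝ) (Polynomial.eval₂ ι α R), Polynomial.hom_eval₂]
    congr 1
  have hGdet : G.det ≠ 0 := by
    intro h0
    have h1 : G.map (Int.castRingHom ℚ) =
        Matrix.diagonal (fun r => if r = r₀ then (1 : ℚ) else (b : ℚ) ^ d) *
          (Matrix.of fun r j => (iterDeriv Tq Qq Pq (κ r) j).eval α).updateRow r₀
            fun j => (h j : ℚ) := by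
      ext r j
      rw [Matrix.diagonal_mul, Matrix.map_apply, hG, Matrix.updateRow_apply, Matrix.updateRow_apply]
      split_ifs with hr
      · simp
      · apply Rat.cast_injective (α := ℝ)
        push_cast
        simp only [Matrix.of_apply]
        rw [eq_intCast, Rat.cast_intCast, hz, hevalq, hmapk]
    have h2 := congrArg Matrix.det h1
    rw [← RingHom.mapMatrix_apply, ← RingHom.map_det, h0, map_zero, Matrix.det_mul,
      Matrix.det_diagonal] at h2
    refine hκdet ((mul_eq_zero.1 h2.symm).resolve_left (Finset.prod_ne_zero_iff.2 fun r _ => ?_))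
    split_ifs
    · exact one_ne_zero
    · exact pow_ne_zero _ (Nat.cast_ne_zero.2 hb0)
  -- bounds for the entries and for the forms
  set y : Fin (m' + 2) → ℝ := fun j => val (f j) α
  have hfac : (n ! : ℝ) ≤ ((q : ℝ) ^ q) ^ p * ((p : ℝ) ^ p) ^ q := by
    have h1 : (n ! : ℝ) ≤ ((n ^ n : ℕ) : ℝ) := Nat.cast_le.2 n.factorial_le_pow
    push_cast [hn] at h1
    rw [mul_pow, ← hn] at h1
    rwa [← pow_mul, ← pow_mul, Nat.mul_comm p q, ← hn]
  obtain ⟨V, hV⟩ : ∃ V : ℝ, V = CV ^ p * ((p : ℝ) ^ p) ^ (q + 2) := ⟨_, rfl⟩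
  obtain ⟨L, hL⟩ : ∃ L : ℝ, L = CL ^ p * ((p : ℝ) ^ p) ^ (q + 2 * s) / ((p : ℝ) ^ p) ^ g₀ :=
    ⟨_, rfl⟩
  have hentry : ∀ r j, |(z r j : ℝ)| ≤ V := by
    intro r j
    refine (hzle r j).trans ?_
    set W := M₁ * ((n : ℝ) + (2 * p : ℕ) * s + 1)
    have hW1 : 1 ≤ W := one_le_mul_of_one_le_of_one_le hM₁
      (le_add_of_nonneg_left (by positivity))
    have hW : W ≤ M₁ * ((q : ℝ) + 2 * s + 1) * p := by
      rw [mul_assoc]
      refine mul_le_mul_of_nonneg_left ?_ (by linarith)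
      push_cast [hn]
      nlinarith [Nat.cast_nonneg (α := ℝ) s]
    have hl : l1 (iterDeriv T Q P (κ r) j) ≤
        W ^ (2 * p) * ((m' + 2 : ℕ) * ((n ! : ℝ) * H ^ p)) := by
      refine (Finset.single_le_sum (f := fun j => l1 (iterDeriv T Q P (κ r) j))
        (fun i _ => l1_nonneg _) (mem_univ j)).trans ((hl1 P n (2 * p) hPd _ (hκ2 r)).trans ?_)
      refine mul_le_mul (pow_le_pow_right₀ hW1 (hκ2 r)) ?_
        (Finset.sum_nonneg fun _ _ => l1_nonneg _) (by positivity)
      refine (Finset.sum_le_card_nsmul _ _ _ fun i _ => hPl i).trans_eq ?_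
      rw [card_univ, Fintype.card_fin, nsmul_eq_mul]
    calc (|(a : ℝ)| + b) ^ d * l1 (iterDeriv T Q P (κ r) j)
        ≤ (|(a : ℝ)| + b) ^ d * ((M₁ * ((q : ℝ) + 2 * s + 1) * p) ^ (2 * p) *
            (((m' + 2 : ℕ) : ℝ) ^ p * (((q : ℝ) ^ q) ^ p * ((p : ℝ) ^ p) ^ q * H ^ p))) := by
          refine mul_le_mul_of_nonneg_left (hl.trans ?_) (by positivity)
          refine mul_le_mul (pow_le_pow_left₀ (by linarith) hW _) ?_ (by positivity)
            (by have : 0 ≤ M₁ := by linarith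
                positivity)
          refine mul_le_mul (le_self_pow₀ (Nat.one_le_cast.2 (by omega)) hp0.ne')
            (mul_le_mul_of_nonneg_right hfac (by positivity)) (by positivity) (by positivity)
      _ = V := by
          rw [hV, hCV, hd, Nat.mul_comm p d₀, pow_mul _ d₀ p, Nat.mul_comm 2 p]
          push_cast
          simp only [mul_pow, ← pow_mul, pow_add]
          ring
  have hform : ∀ r, |∑ j, (z r j : ℝ) * y j| ≤ L := by
    intro r
    set R : ℕ → PowerSeries ℚ := fun k => formSeries f (iterDeriv Tq Qq Pq k) with hR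
    have hval : ∑ j, (z r j : ℝ) * y j = (b : ℝ) ^ d * val (R (κ r)) α := by
      rw [(hasVal_formSeries hgr (iterDeriv Tq Qq Pq (κ r)) (α : ℝ)).val_eq, Finset.mul_sum]
      refine Finset.sum_congr rfl fun j _ => ?_
      rw [hz, hevalq, ← hmapk, mul_assoc, show (α : ℝ) = Rat.castHom ℝ α from rfl,
        Polynomial.eval₂_at_apply]
      rfl
    have hcoeff := hco R ((n ! : ℝ) * H ^ p) H (by positivity) hH1
      (fun k => by rw [hR]; simp only [iterDeriv_succ, mul_derivative_formSeries hf])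
      (fun j => by simpa [hR] using hPc j) (κ r)
    have hgN : g₀ * p + 2 * p = N := by
      rw [hN, ← Nat.add_mul]
      congr 1
      have : 3 ≤ (m' + 2) * q := le_trans (by omega) (Nat.le_mul_of_pos_left q (by omega))
      omega
    have hzero : ∀ i < g₀ * p, PowerSeries.coeff i (R (κ r)) = 0 := fun i hi =>
      PowerSeries.X_pow_dvd_iff.1 (X_pow_dvd_formSeries hf Pq hPdvd (κ r)) i
        (by have := hκ2 r; omega)
    have hv := abs_le_of_coeff_le (A := (n ! : ℝ) * H ^ p * M₂ ^ (2 * p) * H ^ (2 * p))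
      (H := H) (e := 2 * p * s) (k := 2 * p) (G₀ := g₀ * p) (x := x) (by positivity) hH0
      (hasVal_formSeries hgr (iterDeriv Tq Qq Pq (κ r)) x) hzero (fun i => by
        refine (hcoeff i).trans (div_le_div_of_nonneg_right ?_ (Nat.cast_nonneg _))
        rw [pow_add H i (κ r)]
        calc (n ! : ℝ) * H ^ p * M₂ ^ κ r * (H ^ i * H ^ κ r) *
              ((i : ℝ) + κ r + 1) ^ (κ r * s)
            ≤ (n ! : ℝ) * H ^ p * M₂ ^ (2 * p) * (H ^ i * H ^ (2 * p)) *
              ((i : ℝ) + (2 * p : ℕ) + 1) ^ (2 * p * s) := by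
              have h2 : (κ r : ℝ) ≤ ((2 * p : ℕ) : ℝ) := Nat.cast_le.2 (hκ2 r)
              have h3 : ((i : ℝ) + κ r + 1) ^ (κ r * s) ≤
                  ((i : ℝ) + (2 * p : ℕ) + 1) ^ (2 * p * s) :=
                (pow_le_pow_left₀ (by positivity) (by linarith) _).trans
                  (pow_le_pow_right₀ (le_add_of_nonneg_left (by positivity))
                    (Nat.mul_le_mul_right s (hκ2 r)))
              gcongr
              all_goals first | exact hH1 | exact hκ2 r
          _ = _ := by ring)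
    rw [← (hasVal_formSeries hgr (iterDeriv Tq Qq Pq (κ r)) x).val_eq] at hv
    rw [hval, abs_mul, abs_pow, Nat.abs_cast]
    have h1 : ((2 * p * s)! : ℝ) ≤ (((2 * s : ℕ) : ℝ) ^ (2 * s)) ^ p * ((p : ℝ) ^ p) ^ (2 * s) := by
      have h1 : ((2 * p * s)! : ℝ) ≤ (((2 * p * s) ^ (2 * p * s) : ℕ) : ℝ) :=
        Nat.cast_le.2 (Nat.factorial_le_pow _)
      refine h1.trans_eq ?_
      rw [show 2 * p * s = 2 * s * p by ring]
      push_cast
      rw [← pow_mul, ← pow_mul, Nat.mul_comm p (2 * s), ← mul_pow]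
    have h2 : Real.exp (((2 * p : ℕ) : ℝ) + 1) ≤ (Real.exp 1 ^ 3) ^ p := by
      rw [← pow_mul, ← Real.exp_nat_mul, mul_one, Real.exp_le_exp]
      push_cast
      linarith
    have h3 := pow_div_factorial_le (x := Real.exp 1 * H * |x|) (by positivity) g₀ p
      (by
        have : 3 < (m' + 2) * q := lt_of_lt_of_le (by omega) (Nat.le_mul_of_pos_left q (by omega))
        omega) hp0
    calc (b : ℝ) ^ d * |val (R (κ r)) α|
        ≤ (b : ℝ) ^ d * ((((q : ℝ) ^ q) ^ p * ((p : ℝ) ^ p) ^ q * H ^ p * M₂ ^ (2 * p) *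
            H ^ (2 * p)) * ((((2 * s : ℕ) : ℝ) ^ (2 * s)) ^ p * ((p : ℝ) ^ p) ^ (2 * s)) *
            (Real.exp 1 ^ 3) ^ p * ((Real.exp 1 * H * |x| * Real.exp 1) ^ (g₀ * p) /
              ((p : ℝ) ^ p) ^ g₀) * Real.exp (Real.exp 1 * H * |x|) ^ p) := by
          refine mul_le_mul_of_nonneg_left (hv.trans ?_) (by positivity)
          gcongr
          all_goals exact le_self_pow₀ (Real.one_le_exp (by positivity)) hp0.ne'
      _ = L := by
          rw [hL, hCL, hd, Nat.mul_comm p d₀, pow_mul (b : ℝ) d₀ p, Nat.mul_comm g₀ p,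
            Nat.mul_comm 2 p]
          simp only [mul_pow, ← pow_mul, pow_add]
          ring
  -- the determinant times the value
  have hV0 : 0 ≤ V := by rw [hV]; positivity
  have hL0 : 0 ≤ L := by rw [hL]; positivity
  have hadj : ∀ r, r ≠ r₀ → |(G.adjugate j₀ r : ℝ)| ≤ ((m' + 2)! : ℝ) * (Hh * V ^ m') := by
    intro r hr
    rw [Matrix.adjugate_apply]
    refine (det_abs_le _ (fun i => if i = r then 1 else if i = r₀ then Hh else V)
      fun i j => ?_).trans_eq ?_
    · rw [Matrix.updateRow_apply]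
      split_ifs with h1 h2
      · rcases eq_or_ne j j₀ with rfl | hj <;> simp [*]
      · rw [hG, Matrix.updateRow_apply, if_pos h2]
        exact (Finset.single_le_sum (f := fun j => |(h j : ℝ)|) (fun _ _ => abs_nonneg _)
          (mem_univ j)).trans (le_add_of_nonneg_left zero_le_one)
      · rw [hG, Matrix.updateRow_apply, if_neg h2]
        exact hentry i j
    · congr 1
      rw [← Finset.mul_prod_erase univ _ (mem_univ r), if_pos rfl, one_mul,
        ← Finset.mul_prod_erase (univ.erase r) _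
          (Finset.mem_erase.2 ⟨Ne.symm hr, mem_univ r₀⟩), if_neg (Ne.symm hr), if_pos rfl]
      congr 1
      rw [Finset.prod_congr rfl fun i hi => ?_, Finset.prod_const]
      · congr 1
        rw [Finset.card_erase_of_mem (Finset.mem_erase.2 ⟨Ne.symm hr, mem_univ r₀⟩),
          Finset.card_erase_of_mem (mem_univ r), card_univ, Fintype.card_fin]
        omega
      · simp only [Finset.mem_erase] at hi
        rw [if_neg hi.2.1, if_neg hi.1]
  have hid : (G.det : ℝ) * y j₀ =
      ∑ r, (G.adjugate j₀ r : ℝ) * ∑ j, (G r j : ℝ) * y j := by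
    simp only [Finset.mul_sum, ← mul_assoc]
    rw [Finset.sum_comm]
    simp only [← Finset.sum_mul]
    have h1 : ∀ j, ∑ r, (G.adjugate j₀ r : ℝ) * (G r j : ℝ) =
        (((G.det • (1 : Matrix (Fin (m' + 2)) (Fin (m' + 2)) ℤ)) j₀ j : ℤ) : ℝ) := fun j => by
      rw [← Matrix.adjugate_mul, Matrix.mul_apply]
      push_cast
      rfl
    simp only [h1, Matrix.smul_apply, Matrix.one_apply, smul_eq_mul, mul_ite, mul_one, mul_zero]
    rw [Finset.sum_eq_single j₀ (fun j _ hj => by simp [Ne.symm hj])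
      (fun hn => absurd (mem_univ j₀) hn)]
    simp
  have hterm : ∀ r, |(G.adjugate j₀ r : ℝ) * ∑ j, (G r j : ℝ) * y j| ≤
      ((m' + 2)! : ℝ) * (Hh * V ^ m') * L := by
    intro r
    rcases eq_or_ne r r₀ with rfl | hr
    · rw [show ∑ j, (G r j : ℝ) * y j = ∑ j, (h j : ℝ) * val (f j) α from
        Finset.sum_congr rfl fun j _ => by rw [hG, Matrix.updateRow_self], hrel, mul_zero, abs_zero]
      positivity
    · rw [abs_mul]
      refine mul_le_mul (hadj r hr) ?_ (abs_nonneg _) (by positivity)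
      rw [show ∑ j, (G r j : ℝ) * y j = ∑ j, (z r j : ℝ) * y j from
        Finset.sum_congr rfl fun j _ => by rw [hG, Matrix.updateRow_ne hr]; rfl]
      exact hform r
  have hdet1 : (1 : ℝ) ≤ |(G.det : ℝ)| := by exact_mod_cast Int.one_le_abs hGdet
  have htotal : |y j₀| ≤ K * (V ^ m' * L) := by
    refine (le_mul_of_one_le_left (abs_nonneg _) hdet1).trans ?_
    rw [← abs_mul, hid]
    refine (Finset.abs_sum_le_sum_abs _ _).trans
      ((Finset.sum_le_card_nsmul _ _ _ fun r _ => hterm r).trans_eq ?_)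
    rw [card_univ, Fintype.card_fin, nsmul_eq_mul, hK]
    ring
  refine htotal.trans (mul_le_mul_of_nonneg_left ?_ (by positivity))
  have hexp : (q + 2) * m' + (q + 2 * s) + 1 ≤ g₀ := by
    have e : (m' + 2) * q = q * m' + 2 * q := by ring
    have e' : (q + 2) * m' = q * m' + 2 * m' := by ring
    omega
  have hpp : (1 : ℝ) ≤ (p : ℝ) ^ p := one_le_pow₀ hp1
  have e1 : V ^ m' * L = (CV ^ m' * CL) ^ p *
      (((p : ℝ) ^ p) ^ ((q + 2) * m' + (q + 2 * s)) / ((p : ℝ) ^ p) ^ g₀) := by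
    rw [hV, hL, mul_pow, mul_pow, ← pow_mul CV p m', ← pow_mul CV m' p, Nat.mul_comm p m',
      ← pow_mul _ (q + 2) m', pow_add _ ((q + 2) * m')]
    ring
  rw [e1, div_pow, div_eq_mul_inv ((CV ^ m' * CL) ^ p)]
  refine mul_le_mul_of_nonneg_left ?_ (by positivity)
  rw [div_le_iff₀ (by positivity), inv_mul_eq_div, le_div_iff₀ (by positivity), ← pow_succ]
  exact pow_le_pow_right₀ hpp hexp

/-- An integral multiple of a rational polynomial. -/
theorem exists_int_multiple {ι : Type*} [Finite ι] (p : ι → Polynomial ℚ) :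
    ∃ D : ℤ, D ≠ 0 ∧ ∀ i, ∃ r : Polynomial ℤ,
      r.map (Int.castRingHom ℚ) = Polynomial.C (D : ℚ) * p i := by
  classical
  have := Fintype.ofFinite ι
  choose b hb hbe using fun i => IsLocalization.integerNormalization_spec (nonZeroDivisors ℤ) (p i)
  refine ⟨∏ i, b i, Finset.prod_ne_zero_iff.2 fun i _ => nonZeroDivisors.ne_zero (hb i), fun i =>
    ⟨Polynomial.C (∏ j ∈ univ.erase i, b j) *
      IsLocalization.integerNormalization (nonZeroDivisors ℤ) (p i), ?_⟩⟩
  have h1 := hbe i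
  rw [Algebra.smul_def, Polynomial.algebraMap_apply, algebraMap_int_eq] at h1
  rw [Polynomial.map_mul, Polynomial.map_C, h1, ← mul_assoc, ← map_mul, ← map_mul,
    Finset.prod_erase_mul _ _ (mem_univ i)]
  rfl

/-- **The theorem of Siegel and Shidlovskii**, over `ℚ`. -/
theorem linearIndependent_values (T : Polynomial ℚ) (Q : Matrix (Fin m) (Fin m) (Polynomial ℚ))
    (hf : IsSolution T Q f) (hE : ∀ j, IsEFunction (f j))
    (hind : ∀ P : Fin m → Polynomial ℚ, formSeries f P = 0 → P = 0)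
    {α : ℚ} (hα0 : α ≠ 0) (hα : T.eval α ≠ 0) :
    LinearIndependent ℚ fun j => val (f j) α := by
  classical
  rw [Fintype.linearIndependent_iff]
  intro g hg
  obtain ⟨D, hD⟩ := IsLocalization.exist_integer_multiples_of_finite (nonZeroDivisors ℤ) g
  choose h hh using hD
  have hD0 : ((D : ℤ) : ℚ) ≠ 0 := Int.cast_ne_zero.2 (nonZeroDivisors.coe_ne_zero D)
  have hhg : ∀ j, (h j : ℚ) = (D : ℤ) * g j := fun j => by
    rw [← zsmul_eq_mul]
    exact (hh j)
  have hrel : ∑ j, (h j : ℝ) * val (f j) α = 0 := by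
    have h1 : ∀ j, (h j : ℝ) * val (f j) α = ((D : ℤ) : ℝ) * (g j • val (f j) α) := fun j => by
      rw [← Rat.cast_intCast (α := ℝ) (h j), hhg, Rat.smul_def]
      push_cast
      ring
    rw [Finset.sum_congr rfl fun j _ => h1 j, ← Finset.mul_sum, hg, mul_zero]
  suffices h0 : h = 0 by
    intro j
    have h1 := hhg j
    rw [h0, Pi.zero_apply, Int.cast_zero] at h1
    exact (mul_eq_zero.1 h1.symm).resolve_left hD0
  rcases Nat.lt_or_ge m 2 with hm | hm
  · -- one value, which is not zero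
    have hgr : ∀ j, ExpGrowth (f j) := fun j => (hE j).expGrowth
    funext j
    obtain ⟨i, hi⟩ := exists_val_ne_zero hf hgr ⟨j, apply_ne_zero_of_independent hind j⟩ hα
    have : Subsingleton (Fin m) := ⟨fun a b => Fin.ext (by have := a.2; have := b.2; omega)⟩
    rw [Finset.sum_eq_single i (fun b _ hb => absurd (Subsingleton.elim b i) hb)
      (fun hn => absurd (mem_univ i) hn), mul_eq_zero] at hrel
    rw [Subsingleton.elim j i, Pi.zero_apply]
    exact Int.cast_eq_zero.1 (hrel.resolve_right hi)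
  · obtain ⟨E, hE0, hEr⟩ := exists_int_multiple
      (Sum.elim (fun _ : Unit => T) fun ij : Fin m × Fin m => Q ij.1 ij.2)
    choose r hr using hEr
    refine eq_zero_of_relation hm (r (.inl ())) (Matrix.of fun i j => r (.inr (i, j))) ?_ hE hind
      hα0 ?_ h hrel
    · intro i
      have e : ∀ j, ((Matrix.of fun i j => r (Sum.inr (i, j))).map
          (Polynomial.map (Int.castRingHom ℚ))) i j = Polynomial.C (E : ℚ) * Q i j := fun j => by
        rw [Matrix.map_apply, Matrix.of_apply, hr]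
        rfl
      rw [hr]
      simp only [e, Sum.elim_inl, Polynomial.coe_mul, mul_assoc, hf i, Finset.mul_sum]
    · rw [hr, Sum.elim_inl, Polynomial.eval_mul, Polynomial.eval_C]
      exact mul_ne_zero (Int.cast_ne_zero.2 hE0) hα

end FA.SiegelShidlovskii

end
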