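import Mathlib.NumberTheory.NumberField.InfinitePlace.Embeddings
import Mathlib.NumberTheory.NumberField.Norm
import Mathlib.RingTheory.Algebraic.Integral
import Mathlib.RingTheory.Localization.Integral
import Fermat.Agent.SiegelShidlovskii.Norms

/-!
# Algebraic determinants

The lower bound from the norm of a nonzero algebraic integer, values of integral polynomials at
quotients of an algebraic integer by an integer, and bounds for determinants.
-/

set_option autoImplicit false

noncomputable section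

open Finset Polynomial
open scoped Nat

namespace FA.SiegelShidlovskii

variable {K : Type*} [Field K] [NumberField K]

theorem one_le_prod_norm {x : K} (hx : IsIntegral ℤ x) (h0 : x ≠ 0) :
    1 ≤ ∏ σ : K →ₐ[ℚ] ℂ, ‖σ x‖ := by
  rw [← norm_prod, ← Algebra.norm_eq_prod_embeddings ℚ ℂ x]
  obtain ⟨n, hn⟩ := IsIntegrallyClosed.isIntegral_iff.1 (Algebra.isIntegral_norm ℚ hx)
  have hn0 : n ≠ 0 := by
    rintro rfl
    rw [map_zero, eq_comm, Algebra.norm_eq_zero_iff] at hn
    exact h0 hn
  rw [← hn, algebraMap_int_eq, eq_intCast, eq_ratCast, Complex.norm_ratCast, Rat.cast_intCast]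
  exact_mod_cast Int.one_le_abs hn0

theorem exists_integral_eval (P : ℤ[X]) {β : K} (hβ : IsIntegral ℤ β) (b : ℕ) (hb : b ≠ 0) {d : ℕ}
    (hd : P.natDegree ≤ d) :
    ∃ z : K, IsIntegral ℤ z ∧ z = (b : K) ^ d * aeval (β / b) P ∧
      ∀ σ : K →+* ℂ, ‖σ z‖ ≤ (‖σ β‖ + b) ^ d * l1 P := by
  refine ⟨∑ i ∈ range (d + 1), (P.coeff i : K) * β ^ i * (b : K) ^ (d - i),
    IsIntegral.sum _ fun i _ => ?_, ?_, fun σ => ?_⟩
  · refine ((?_ : IsIntegral ℤ (P.coeff i : K)).mul (hβ.pow i)).mul
      ((?_ : IsIntegral ℤ (b : K)).pow (d - i))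
    · simpa using isIntegral_algebraMap (R := ℤ) (A := K) (x := P.coeff i)
    · simpa using isIntegral_algebraMap (R := ℤ) (A := K) (x := (b : ℤ))
  · rw [aeval_eq_sum_range' (Nat.lt_succ_of_le hd), Finset.mul_sum]
    refine Finset.sum_congr rfl fun i hi => ?_
    rw [mem_range] at hi
    have : (b : K) ≠ 0 := Nat.cast_ne_zero.2 hb
    rw [zsmul_eq_mul, div_pow]
    conv_rhs => rw [show d = (d - i) + i by omega, pow_add]
    field_simp
  · rw [map_sum]
    refine (norm_sum_le _ _).trans ?_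
    rw [l1_eq_sum P (Nat.lt_succ_of_le hd), Finset.mul_sum]
    refine Finset.sum_le_sum fun i hi => ?_
    rw [mem_range] at hi
    rw [map_mul, map_mul, map_pow, map_pow, map_intCast, map_natCast, norm_mul, norm_mul,
      norm_pow, norm_pow, Complex.norm_intCast, Complex.norm_natCast, mul_assoc, mul_comm]
    refine mul_le_mul_of_nonneg_right ?_ (abs_nonneg _)
    conv_rhs => rw [show d = i + (d - i) by omega, pow_add]
    gcongr
    · exact le_add_of_nonneg_right (Nat.cast_nonneg _)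
    · exact le_add_of_nonneg_left (norm_nonneg _)

theorem exists_int_scale {ι : Type*} [Finite ι] (x : ι → K) :
    ∃ b : ℕ, b ≠ 0 ∧ ∀ i, IsIntegral ℤ ((b : K) * x i) := by
  classical
  have := Fintype.ofFinite ι
  have : Algebra.IsAlgebraic ℤ K :=
    (IsFractionRing.comap_isAlgebraic_iff (A := ℤ) (K := ℚ) (C := K)).2 inferInstance
  obtain ⟨y, hy0, hy⟩ := Algebra.IsAlgebraic.exists_integral_multiples ℤ (univ.image x)
  refine ⟨y.natAbs, Int.natAbs_ne_zero.2 hy0, fun i => ?_⟩
  have h := hy (x i) (mem_image_of_mem x (mem_univ i))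
  rw [zsmul_eq_mul] at h
  rcases Int.natAbs_eq y with e | e
  · rwa [e, Int.cast_natCast] at h
  · rw [e, Int.cast_neg, Int.cast_natCast, neg_mul] at h
    simpa using h.neg

theorem norm_det_le {m : ℕ} (M : Matrix (Fin m) (Fin m) ℂ) (w : Fin m → ℝ)
    (h : ∀ i j, ‖M i j‖ ≤ w i) : ‖M.det‖ ≤ (m ! : ℝ) * ∏ i, w i := by
  rw [Matrix.det_apply]
  refine (norm_sum_le _ _).trans
    ((Finset.sum_le_card_nsmul _ _ (∏ i, w i) fun σ _ => ?_).trans_eq ?_)
  · have h1 : ‖((Equiv.Perm.sign σ : ℤ) : ℂ)‖ = 1 := by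
      rcases Int.units_eq_one_or (Equiv.Perm.sign σ) with h | h <;> simp [h]
    rw [Units.smul_def, zsmul_eq_mul, norm_mul, h1, one_mul, norm_prod, ← Equiv.prod_comp σ w]
    exact Finset.prod_le_prod (fun i _ => norm_nonneg _) fun i _ => h _ _
  · rw [card_univ, Fintype.card_perm, Fintype.card_fin, nsmul_eq_mul]

end FA.SiegelShidlovskii

end
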