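import Mathlib.Data.Nat.Choose.Central
import Fermat.Agent.SiegelShidlovskii.Main

/-!
# The values of `J₀`

`1`, `J₀`, `J₀'` are E-functions solving a linear system singular only at the origin; over `ℚ` the
Riccati equation of `J₀'/J₀` has no rational solution, as sums of two squares do not vanish.
-/

set_option autoImplicit false

noncomputable section

open Finset
open scoped Nat

namespace FA.SiegelShidlovskii

/-- The series of `J₀`. -/
def besselSeries : PowerSeries ℚ := PowerSeries.mk fun k =>
  if Even k then (-1 : ℚ) ^ (k / 2) / (4 ^ (k / 2) * (((k / 2)! : ℚ)) ^ 2) else 0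

theorem isEFunction_one : IsEFunction (1 : PowerSeries ℚ) := by
  refine ⟨1, fun k => ?_, fun N => ⟨1, one_pos, by simp, fun k _ => ⟨if k = 0 then 1 else 0, ?_⟩⟩⟩
  · rw [PowerSeries.coeff_one]
    split_ifs with h <;> simp [h]
  · rw [PowerSeries.coeff_one]
    split_ifs with h <;> simp [h]

theorem IsEFunction.derivative {g : PowerSeries ℚ} (h : IsEFunction g) :
    IsEFunction (PowerSeries.derivative ℚ g) := by
  obtain ⟨C, hC, hd⟩ := h
  have e : ∀ k, (k ! : ℚ) * PowerSeries.coeff k (PowerSeries.derivative ℚ g) =
      ((k + 1)! : ℚ) * PowerSeries.coeff (k + 1) g := fun k => by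
    rw [PowerSeries.coeff_derivative, Nat.factorial_succ]
    push_cast
    ring
  have hC1 : 1 ≤ C := by
    obtain ⟨d, h0, hle, -⟩ := hd 0
    rw [Nat.zero_add, pow_one] at hle
    omega
  have hC' : (1 : ℚ) ≤ C := Nat.one_le_cast.2 hC1
  refine ⟨C ^ 2, fun k => ?_, fun N => ?_⟩
  · rw [e]
    refine (hC (k + 1)).trans ?_
    push_cast
    rw [← pow_mul]
    exact pow_le_pow_right₀ hC' (by omega)
  · obtain ⟨d, h0, hle, hz⟩ := hd (N + 1)
    refine ⟨d, h0, hle.trans ?_, fun k hk => ?_⟩
    · rw [← pow_mul]
      exact Nat.pow_le_pow_right hC1 (by omega)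
    · obtain ⟨z, hz⟩ := hz (k + 1) (by omega)
      exact ⟨z, by rw [e, hz]⟩

theorem besselSeries_coeff_two_mul (i : ℕ) :
    PowerSeries.coeff (2 * i) besselSeries = (-1 : ℚ) ^ i / (4 ^ i * (i ! : ℚ) ^ 2) := by
  simp [besselSeries]

theorem isEFunction_besselSeries : IsEFunction besselSeries := by
  have key : ∀ k, (k ! : ℚ) * PowerSeries.coeff k besselSeries =
      if Even k then (-1 : ℚ) ^ (k / 2) * ((k / 2).centralBinom : ℚ) / 4 ^ (k / 2) else 0 := by
    intro k
    rw [besselSeries, PowerSeries.coeff_mk]
    split_ifs with h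
    · obtain ⟨i, rfl⟩ := h
      rw [show (i + i) / 2 = i by omega, Nat.centralBinom_eq_two_mul_choose,
        show 2 * i = i + i by omega]
      have h1 := congrArg (fun t : ℕ => (t : ℚ))
        (Nat.choose_mul_factorial_mul_factorial (Nat.le_add_right i i))
      rw [Nat.add_sub_cancel] at h1
      push_cast at h1
      rw [← h1]
      have : (i ! : ℚ) ≠ 0 := Nat.cast_ne_zero.2 (Nat.factorial_ne_zero _)
      field_simp
    · rw [mul_zero]
  refine ⟨4, fun k => ?_, fun N => ⟨4 ^ N, Nat.pow_pos (by norm_num),
    Nat.pow_le_pow_right (by norm_num) (Nat.le_succ _), fun k hk => ?_⟩⟩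
  · rw [key]
    split_ifs
    · rw [abs_div, abs_mul, abs_pow, abs_pow, abs_neg, abs_one, one_pow, one_mul, Nat.abs_cast,
        div_le_iff₀ (by positivity)]
      have h1 : ((k / 2).centralBinom : ℚ) ≤ |(4 : ℚ)| ^ (k / 2) := by
        have h2 : (k / 2).centralBinom ≤ 2 ^ (2 * (k / 2)) := Nat.choose_le_two_pow _ _
        rw [abs_of_pos (by norm_num : (0 : ℚ) < 4), show (4 : ℚ) = 2 ^ 2 by norm_num, ← pow_mul]
        exact_mod_cast h2
      exact h1.trans (le_mul_of_one_le_left (by positivity) (one_le_pow₀ (by norm_num)))
    · simp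
  · refine ⟨if Even k then (-1) ^ (k / 2) * ((k / 2).centralBinom : ℤ) * 4 ^ (N - k / 2) else 0,
      ?_⟩
    rw [key]
    split_ifs
    · push_cast
      rw [show N = (N - k / 2) + k / 2 by omega, pow_add, Nat.add_sub_cancel]
      field_simp
    · simp

theorem besselSeries_equation :
    (PowerSeries.X : PowerSeries ℚ) *
      PowerSeries.derivative ℚ (PowerSeries.derivative ℚ besselSeries) +
      PowerSeries.derivative ℚ besselSeries + PowerSeries.X * besselSeries = 0 := by
  ext k
  rcases k with _ | k
  · simp only [map_add, map_zero, PowerSeries.coeff_zero_X_mul, PowerSeries.coeff_derivative,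
      besselSeries, PowerSeries.coeff_mk]
    simp
  · simp only [map_add, map_zero, PowerSeries.coeff_succ_X_mul, PowerSeries.coeff_derivative,
      besselSeries, PowerSeries.coeff_mk]
    rcases Nat.even_or_odd k with ⟨i, rfl⟩ | ⟨i, rfl⟩
    · rw [if_pos (show Even (i + i + 1 + 1) by exact ⟨i + 1, by omega⟩),
        if_pos (show Even (i + i) from ⟨i, rfl⟩),
        show (i + i + 1 + 1) / 2 = i + 1 by omega, show (i + i) / 2 = i by omega,
        Nat.factorial_succ, pow_succ, pow_succ]
      push_cast
      have : (i ! : ℚ) ≠ 0 := Nat.cast_ne_zero.2 (Nat.factorial_ne_zero _)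
      have : ((i : ℚ) + 1) ≠ 0 := by positivity
      field_simp
      ring
    · rw [if_neg (by rw [Nat.not_even_iff_odd]; exact ⟨i + 1, by omega⟩),
        if_neg (by rw [Nat.not_even_iff_odd]; exact ⟨i, rfl⟩)]
      ring

/-- The system of `1`, `J₀`, `J₀'`. -/
def besselSystem : Matrix (Fin 3) (Fin 3) (Polynomial ℚ) :=
  !![0, 0, 0; 0, 0, Polynomial.X; 0, -Polynomial.X, -1]

/-- `1`, `J₀`, `J₀'`. -/
def besselTriple : Fin 3 → PowerSeries ℚ :=
  ![1, besselSeries, PowerSeries.derivative ℚ besselSeries]

theorem isSolution_besselTriple :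
    IsSolution Polynomial.X besselSystem besselTriple := by
  intro i
  fin_cases i
  · simp [besselTriple, besselSystem, Fin.sum_univ_three]
  · simp [besselTriple, besselSystem, Fin.sum_univ_three]
  · simp [besselTriple, besselSystem, Fin.sum_univ_three]
    linear_combination besselSeries_equation

theorem besselSeries_ne_zero : besselSeries ≠ 0 := fun h => by
  have := congrArg (PowerSeries.coeff 0) h
  simp [besselSeries] at this

/-- `J₀` is not a rational function. -/
theorem bessel_not_rational {p q : Polynomial ℚ}
    (h : (q : PowerSeries ℚ) * besselSeries = (p : PowerSeries ℚ)) : q = 0 := by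
  by_contra hq
  have hp : p ≠ 0 := fun h0 => by
    rw [h0, Polynomial.coe_zero, mul_eq_zero] at h
    exact h.elim (fun h1 => hq (Polynomial.coe_inj.1 (h1.trans Polynomial.coe_zero.symm)))
      besselSeries_ne_zero
  have h1 := congrArg (PowerSeries.derivative ℚ) h
  rw [Derivation.leibniz, smul_eq_mul, smul_eq_mul, PowerSeries.derivative_coe,
    PowerSeries.derivative_coe] at h1
  have h2 := congrArg (PowerSeries.derivative ℚ) h1
  simp only [map_add, Derivation.leibniz, smul_eq_mul, PowerSeries.derivative_coe] at h2
  set p' := Polynomial.derivative p with hp'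
  set q' := Polynomial.derivative q with hq'
  set p'' := Polynomial.derivative p' with hp''
  set q'' := Polynomial.derivative q' with hq''
  set small : Polynomial ℚ := Polynomial.X * (q * q * p'' - 2 * q' * (p' * q - q' * p) -
    q * q'' * p) + q * (p' * q - q' * p) with hsmall
  have hid : Polynomial.X * (q * q * p) + small = 0 := by
    refine Polynomial.coe_inj.1 ?_
    simp only [hsmall, Polynomial.coe_add, Polynomial.coe_mul, Polynomial.coe_sub,
      Polynomial.coe_X, Polynomial.coe_zero, show ((2 : Polynomial ℚ) : PowerSeries ℚ) = 2 from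
        map_ofNat Polynomial.coeToPowerSeries.ringHom 2]
    set J := besselSeries
    set J' := PowerSeries.derivative ℚ J
    set J'' := PowerSeries.derivative ℚ J'
    linear_combination (q : PowerSeries ℚ) * (q : PowerSeries ℚ) * (q : PowerSeries ℚ) *
        besselSeries_equation -
      (PowerSeries.X * (q : PowerSeries ℚ) * (q : PowerSeries ℚ)) * h2 -
      ((q : PowerSeries ℚ) * (q : PowerSeries ℚ) -
        2 * PowerSeries.X * (q' : PowerSeries ℚ) * (q : PowerSeries ℚ)) * h1 -
      (PowerSeries.X * (q : PowerSeries ℚ) * (q : PowerSeries ℚ) -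
        PowerSeries.X * (q : PowerSeries ℚ) * (q'' : PowerSeries ℚ) -
        (q : PowerSeries ℚ) * (q' : PowerSeries ℚ) +
        2 * PowerSeries.X * (q' : PowerSeries ℚ) * (q' : PowerSeries ℚ)) * h
  have d1 : p'.natDegree ≤ p.natDegree :=
    (Polynomial.natDegree_derivative_le p).trans (Nat.sub_le _ _)
  have d2 : q'.natDegree ≤ q.natDegree :=
    (Polynomial.natDegree_derivative_le q).trans (Nat.sub_le _ _)
  have hbig : (Polynomial.X * (q * q * p)).coeff (p.natDegree + 2 * q.natDegree + 1) ≠ 0 := by
    rw [Polynomial.coeff_X_mul, show p.natDegree + 2 * q.natDegree = (q * q * p).natDegree by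
      rw [Polynomial.natDegree_mul (mul_ne_zero hq hq) hp, Polynomial.natDegree_mul hq hq]; omega]
    exact Polynomial.leadingCoeff_ne_zero.2 (mul_ne_zero (mul_ne_zero hq hq) hp)
  refine hbig ?_
  have h0 := congrArg (fun r : Polynomial ℚ => r.coeff (p.natDegree + 2 * q.natDegree + 1)) hid
  have hsm : small.coeff (p.natDegree + 2 * q.natDegree + 1) = 0 := by
    rw [hsmall, Polynomial.coeff_add, Polynomial.coeff_X_mul]
    have hw : (p' * q - q' * p).coeff (p.natDegree + q.natDegree) = 0 ∧
        (p' * q - q' * p).natDegree ≤ p.natDegree + q.natDegree := by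
      refine ⟨?_, Polynomial.natDegree_sub_le_of_le ?_ ?_ |>.trans (le_of_eq (max_self _))⟩
      · have key : ∀ u v : Polynomial ℚ,
            (Polynomial.derivative u * v).coeff (u.natDegree + v.natDegree) = 0 := fun u v => by
          rcases Nat.eq_zero_or_pos u.natDegree with hd | hd
          · simp [Polynomial.derivative_of_natDegree_zero hd]
          · refine Polynomial.coeff_eq_zero_of_natDegree_lt
              (Polynomial.natDegree_mul_le.trans_lt ?_)
            have := Polynomial.natDegree_derivative_le u
            omega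
        rw [hp', hq', Polynomial.coeff_sub, key, Nat.add_comm, key, sub_self]
      · exact Polynomial.natDegree_mul_le.trans (by omega)
      · exact Polynomial.natDegree_mul_le.trans (by omega)
    have e1 : (q * q * p'').coeff (p.natDegree + 2 * q.natDegree) = 0 := by
      rcases Nat.eq_zero_or_pos p.natDegree with hd | hd
      · simp [hp'', hp', Polynomial.derivative_of_natDegree_zero hd]
      · refine Polynomial.coeff_eq_zero_of_natDegree_lt (Polynomial.natDegree_mul_le.trans_lt ?_)
        have h3 := Polynomial.natDegree_derivative_le p'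
        have h4 := Polynomial.natDegree_derivative_le p
        have h5 := Polynomial.natDegree_mul_le (p := q) (q := q)
        rw [← hp''] at h3
        rw [← hp'] at h4
        omega
    have e2 : (2 * q' * (p' * q - q' * p)).coeff (p.natDegree + 2 * q.natDegree) = 0 := by
      rcases Nat.eq_zero_or_pos q.natDegree with hd | hd
      · simp [hq', Polynomial.derivative_of_natDegree_zero hd]
      · refine Polynomial.coeff_eq_zero_of_natDegree_lt (Polynomial.natDegree_mul_le.trans_lt ?_)
        have h3 := Polynomial.natDegree_derivative_le q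
        have h5 := Polynomial.natDegree_mul_le (p := (2 : Polynomial ℚ)) (q := q')
        rw [Polynomial.natDegree_ofNat, Nat.zero_add] at h5
        rw [← hq'] at h3
        have := hw.2
        omega
    have e3 : (q * q'' * p).coeff (p.natDegree + 2 * q.natDegree) = 0 := by
      rcases Nat.eq_zero_or_pos q.natDegree with hd | hd
      · simp [hq'', hq', Polynomial.derivative_of_natDegree_zero hd]
      · refine Polynomial.coeff_eq_zero_of_natDegree_lt (Polynomial.natDegree_mul_le.trans_lt ?_)
        have h3 := Polynomial.natDegree_derivative_le q'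
        have h4 := Polynomial.natDegree_derivative_le q
        have h5 := Polynomial.natDegree_mul_le (p := q) (q := q'')
        rw [← hq''] at h3
        rw [← hq'] at h4
        omega
    have e4 : (q * (p' * q - q' * p)).coeff (p.natDegree + 2 * q.natDegree + 1) = 0 :=
      Polynomial.coeff_eq_zero_of_natDegree_lt (Polynomial.natDegree_mul_le.trans_lt (by
        have := hw.2; omega))
    rw [Polynomial.coeff_sub, Polynomial.coeff_sub, e1, e2, e3, e4]
    ring
  simpa [Polynomial.coeff_add, hsm] using h0

/-- `1`, `J₀`, `J₀'` are independent over the rational functions. -/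
theorem besselTriple_independent (P : Fin 3 → Polynomial ℚ)
    (h : formSeries besselTriple P = 0) : P = 0 := by
  have key : ∀ a b : Polynomial ℚ,
      (a : PowerSeries ℚ) + (b : PowerSeries ℚ) * besselSeries = 0 → a = 0 ∧ b = 0 := by
    intro a b hab
    have hb : b = 0 := bessel_not_rational (p := -a) (by
      rw [Polynomial.coe_neg]; linear_combination hab)
    rw [hb, Polynomial.coe_zero, zero_mul, add_zero] at hab
    exact ⟨Polynomial.coe_inj.1 (hab.trans Polynomial.coe_zero.symm), hb⟩
  have hc : P 2 = 0 := by
    by_contra hc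
    have h' := mul_derivative_formSeries isSolution_besselTriple P
    rw [h, map_zero, mul_zero] at h'
    set a := P 0
    set b := P 1
    set c := P 2
    simp [formSeries, vecDeriv, besselSystem, besselTriple, Fin.sum_univ_three] at h h'
    set E := Polynomial.X * (c * c) + Polynomial.X * (b * b) -
      (Polynomial.X * (Polynomial.derivative b * c - b * Polynomial.derivative c) + b * c) with hE
    have hE0 : E = 0 := by
      refine (key (c * (Polynomial.X * Polynomial.derivative a) -
        (Polynomial.X * b + Polynomial.X * Polynomial.derivative c - c) * a) (-E) ?_).2 |>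
          neg_eq_zero.1
      simp only [hE, Polynomial.coe_add, Polynomial.coe_mul, Polynomial.coe_sub,
        Polynomial.coe_neg, Polynomial.coe_X]
      linear_combination -(c : PowerSeries ℚ) * h' -
        (PowerSeries.X * (b : PowerSeries ℚ) + PowerSeries.X *
          ((Polynomial.derivative c : Polynomial ℚ) : PowerSeries ℚ) - (c : PowerSeries ℚ)) * h
    set D := max b.natDegree c.natDegree with hD
    have h0 : E.coeff (2 * D + 1) = 0 := by rw [hE0, Polynomial.coeff_zero]
    have hsq : ∀ r : Polynomial ℚ, r.natDegree ≤ D →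
        (r * r).coeff (2 * D) = r.coeff D * r.coeff D := fun r hr => by
      rw [two_mul, Polynomial.coeff_mul_add_eq_of_natDegree_le hr hr]
    have hbc : (b * c).coeff (2 * D + 1) = 0 :=
      Polynomial.coeff_eq_zero_of_natDegree_lt (Polynomial.natDegree_mul_le.trans_lt (by omega))
    have hw : (Polynomial.derivative b * c - b * Polynomial.derivative c).coeff (2 * D) = 0 := by
      rcases Nat.eq_zero_or_pos D with hD0 | hD0
      · rw [Polynomial.derivative_of_natDegree_zero (show b.natDegree = 0 by omega),
          Polynomial.derivative_of_natDegree_zero (show c.natDegree = 0 by omega)]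
        simp
      · rw [Polynomial.coeff_sub, Polynomial.coeff_eq_zero_of_natDegree_lt,
          Polynomial.coeff_eq_zero_of_natDegree_lt, sub_zero]
        · refine Polynomial.natDegree_mul_le.trans_lt ?_
          have := Polynomial.natDegree_derivative_le c
          omega
        · refine Polynomial.natDegree_mul_le.trans_lt ?_
          have := Polynomial.natDegree_derivative_le b
          omega
    rw [hE, Polynomial.coeff_sub, Polynomial.coeff_add, Polynomial.coeff_add,
      Polynomial.coeff_X_mul, Polynomial.coeff_X_mul, Polynomial.coeff_X_mul, hbc, hw,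
      hsq b (le_max_left _ _), hsq c (le_max_right _ _), add_zero, sub_zero] at h0
    obtain ⟨hcD, hbD⟩ := mul_self_add_mul_self_eq_zero.1 h0
    rcases max_choice b.natDegree c.natDegree with hmax | hmax
    · rw [hD, hmax] at hbD
      have hb0 : b = 0 := Polynomial.leadingCoeff_eq_zero.1 hbD
      rw [hb0, Polynomial.natDegree_zero] at hmax
      rw [hD, hb0, Polynomial.natDegree_zero, hmax] at hcD
      refine hc (Polynomial.leadingCoeff_eq_zero.1 ?_)
      rw [Polynomial.leadingCoeff, show c.natDegree = 0 by omega]
      exact hcD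
    · rw [hD, hmax] at hcD
      exact hc (Polynomial.leadingCoeff_eq_zero.1 hcD)
  simp [formSeries, besselTriple, Fin.sum_univ_three, hc] at h
  obtain ⟨ha, hb⟩ := key _ _ h
  funext i
  fin_cases i <;> simp [ha, hb, hc]

theorem val_besselSeries (x : ℝ) :
    val besselSeries x = ∑' l : ℕ, (-1) ^ l * (x / 2) ^ (2 * l) / ((l ! : ℝ)) ^ 2 := by
  refine ((mul_right_injective₀ (two_ne_zero : (2 : ℕ) ≠ 0)).tsum_eq ?_).symm.trans ?_
  · intro k hk
    rw [Function.mem_support] at hk
    by_contra hodd
    refine hk ?_
    have : ¬Even k := fun ⟨i, hi⟩ => hodd ⟨i, by simp only; omega⟩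
    simp [besselSeries, this]
  · refine tsum_congr fun l => ?_
    rw [besselSeries_coeff_two_mul]
    push_cast
    rw [div_pow, pow_mul (2 : ℝ), show (2 : ℝ) ^ 2 = 4 by norm_num]
    ring

/-- **Siegel**: at a rational `α ≠ 0`, `1`, `J₀ α`, `J₀' α` are linearly independent over `ℚ`. -/
theorem linearIndependent_bessel {α : ℚ} (hα : α ≠ 0) :
    LinearIndependent ℚ (![1, ∑' l : ℕ, (-1) ^ l * ((α : ℝ) / 2) ^ (2 * l) / ((l ! : ℝ)) ^ 2,
      deriv (fun x : ℝ => ∑' l : ℕ, (-1) ^ l * (x / 2) ^ (2 * l) / ((l ! : ℝ)) ^ 2) α] :
      Fin 3 → ℝ) := by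
  have hE : ∀ j, IsEFunction (besselTriple j) := fun j => by
    fin_cases j
    · exact isEFunction_one
    · exact isEFunction_besselSeries
    · exact isEFunction_besselSeries.derivative
  have h := linearIndependent_values Polynomial.X besselSystem isSolution_besselTriple hE
    besselTriple_independent hα (by simpa using hα)
  have e : (fun x : ℝ => ∑' l : ℕ, (-1) ^ l * (x / 2) ^ (2 * l) / ((l ! : ℝ)) ^ 2) =
      val besselSeries := funext fun x => (val_besselSeries x).symm
  convert h using 1
  funext j
  fin_cases j
  · simp only [besselTriple, val, Fin.zero_eta, Matrix.cons_val_zero]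
    rw [tsum_eq_single 0 fun k hk => by simp [PowerSeries.coeff_one, hk]]
    simp
  · simp [besselTriple, val_besselSeries]
  · simp only [besselTriple, e, Fin.reduceFinMk, Matrix.cons_val_two, Matrix.tail_cons,
      Matrix.head_cons]
    exact (isEFunction_besselSeries.expGrowth.hasDerivAt _).deriv

end FA.SiegelShidlovskii

end
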