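import Mathlib.Analysis.Normed.Ring.InfiniteSum
import Mathlib.Analysis.Normed.Module.FiniteDimension
import Mathlib.Data.Nat.Choose.Sum
import Fermat.Agent.SiegelShidlovskii.Bessel

/-!
# Products of E-functions

E-functions are closed under products, by the binomial convolution, and values are multiplicative.
-/

set_option autoImplicit false

noncomputable section

open Finset
open scoped Nat

namespace FA.SiegelShidlovskii

theorem factorial_mul_coeff_mul (g h : PowerSeries ℚ) (n : ℕ) :
    (n ! : ℚ) * PowerSeries.coeff n (g * h) = ∑ i ∈ range (n + 1), (n.choose i : ℚ) *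
      (((i ! : ℚ) * PowerSeries.coeff i g) * (((n - i)! : ℚ) * PowerSeries.coeff (n - i) h)) := by
  rw [PowerSeries.coeff_mul, Finset.Nat.sum_antidiagonal_eq_sum_range_succ_mk, Finset.mul_sum]
  refine Finset.sum_congr rfl fun i hi => ?_
  rw [mem_range] at hi
  rw [← Nat.choose_mul_factorial_mul_factorial (show i ≤ n by omega)]
  push_cast
  ring

theorem IsEFunction.mul {g h : PowerSeries ℚ} (hg : IsEFunction g) (hh : IsEFunction h) :
    IsEFunction (g * h) := by
  obtain ⟨A, hA, hAd⟩ := hg
  obtain ⟨B, hB, hBd⟩ := hh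
  refine ⟨(A * B + 1) * (A + B + 1), fun n => ?_, fun N => ?_⟩
  · rw [factorial_mul_coeff_mul]
    refine (Finset.abs_sum_le_sum_abs _ _).trans ?_
    calc ∑ i ∈ range (n + 1), |(n.choose i : ℚ) * (((i ! : ℚ) * PowerSeries.coeff i g) *
          (((n - i)! : ℚ) * PowerSeries.coeff (n - i) h))|
        ≤ ∑ i ∈ range (n + 1), (A * B : ℚ) * ((A : ℚ) ^ i * (B : ℚ) ^ (n - i) *
            (n.choose i : ℚ)) := Finset.sum_le_sum fun i _ => by
          rw [abs_mul, abs_mul ((i ! : ℚ) * _), Nat.abs_cast]
          refine (mul_le_mul_of_nonneg_left (mul_le_mul (hA i) (hB (n - i)) (abs_nonneg _)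
            (by positivity)) (Nat.cast_nonneg _)).trans_eq ?_
          ring
      _ = (A * B : ℚ) * ((A : ℚ) + B) ^ n := by rw [← Finset.mul_sum, add_pow]
      _ ≤ _ := by
          push_cast
          rw [mul_pow, pow_succ ((A : ℚ) * B + 1), pow_succ ((A : ℚ) + B + 1)]
          have h0 : (1 : ℚ) ≤ (A : ℚ) * B + 1 := le_add_of_nonneg_left (by positivity)
          refine mul_le_mul ?_ ?_ (by positivity) (by positivity)
          · exact (le_add_of_nonneg_right zero_le_one).trans
              (le_mul_of_one_le_left (by positivity) (one_le_pow₀ h0))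
          · exact (pow_le_pow_left₀ (by positivity) (le_add_of_nonneg_right zero_le_one) n).trans
              (le_mul_of_one_le_right (by positivity) (le_add_of_nonneg_left (by positivity)))
  · obtain ⟨d, hd0, hd, hdz⟩ := hAd N
    obtain ⟨e, he0, he, hez⟩ := hBd N
    refine ⟨d * e, Nat.mul_pos hd0 he0, ?_, fun k hk => ?_⟩
    · refine (Nat.mul_le_mul hd he).trans ?_
      rw [← mul_pow]
      exact Nat.pow_le_pow_left ((Nat.le_succ _).trans (Nat.le_mul_of_pos_right _ (by omega))) _
    · choose z hz using fun i : Fin (k + 1) => hdz i (by have := i.isLt; omega)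
      choose w hw using fun i : Fin (k + 1) => hez (k - i) (by omega)
      refine ⟨∑ i : Fin (k + 1), (k.choose i : ℤ) * (z i * w i), ?_⟩
      rw [factorial_mul_coeff_mul, Finset.sum_range, Finset.mul_sum]
      push_cast
      refine Finset.sum_congr rfl fun i _ => ?_
      rw [hz, hw]
      ring

theorem IsEFunction.pow {g : PowerSeries ℚ} (hg : IsEFunction g) (n : ℕ) :
    IsEFunction (g ^ n) := by
  induction n with
  | zero => simpa using isEFunction_one
  | succ n ih => rw [pow_succ]; exact ih.mul hg

theorem val_mul {g h : PowerSeries ℚ} (hg : IsEFunction g) (hh : IsEFunction h) (x : ℝ) :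
    val (g * h) x = val g x * val h x := by
  rw [val, val, val, tsum_mul_tsum_eq_tsum_sum_antidiagonal_of_summable_norm
    (summable_norm_iff.2 (hg.expGrowth.hasVal x).summable)
    (summable_norm_iff.2 (hh.expGrowth.hasVal x).summable)]
  refine tsum_congr fun n => ?_
  rw [PowerSeries.coeff_mul, Rat.cast_sum, Finset.sum_mul]
  refine Finset.sum_congr rfl fun p hp => ?_
  rw [← mem_antidiagonal.1 hp, pow_add]
  push_cast
  ring

theorem val_one (x : ℝ) : val (1 : PowerSeries ℚ) x = 1 := by
  rw [val, tsum_eq_single 0 fun k hk => by simp [PowerSeries.coeff_one, hk]]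
  simp

theorem val_pow {g : PowerSeries ℚ} (hg : IsEFunction g) (x : ℝ) (n : ℕ) :
    val (g ^ n) x = val g x ^ n := by
  induction n with
  | zero => simp [val_one]
  | succ n ih => rw [pow_succ, val_mul (hg.pow n) hg, ih, pow_succ]

end FA.SiegelShidlovskii

end
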