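import Mathlib.Analysis.Complex.Basic
import Fermat.Agent.SiegelShidlovskii.EFunctionMul

/-!
# Complex values of series of exponential growth

Evaluation at complex points; a nonzero solution of `T f' = Q f` has a nonzero value wherever `T`
does not vanish.
-/

set_option autoImplicit false

noncomputable section

open Finset Filter Topology
open scoped Nat

namespace FA.SiegelShidlovskii

/-- The value of a series at a complex point. -/
def cval (g : PowerSeries ℚ) (z : ℂ) : ℂ := ∑' k, ((PowerSeries.coeff k g : ℚ) : ℂ) * z ^ k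

/-- `v` is the value of `g` at the complex point `z`. -/
def CHasVal (g : PowerSeries ℚ) (z v : ℂ) : Prop :=
  HasSum (fun k => ((PowerSeries.coeff k g : ℚ) : ℂ) * z ^ k) v

theorem CHasVal.cval_eq {g : PowerSeries ℚ} {z v : ℂ} (h : CHasVal g z v) : cval g z = v :=
  h.tsum_eq

theorem ExpGrowth.summable_norm {g : PowerSeries ℚ} (h : ExpGrowth g) (z : ℂ) :
    Summable fun k => ‖((PowerSeries.coeff k g : ℚ) : ℂ) * z ^ k‖ := by
  obtain ⟨A, B, hB, hc⟩ := h
  refine Summable.of_nonneg_of_le (fun k => norm_nonneg _) (fun k => ?_)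
    ((Real.summable_pow_div_factorial (B * ‖z‖)).mul_left A)
  rw [norm_mul, norm_pow, Complex.norm_ratCast, mul_pow]
  refine (mul_le_mul_of_nonneg_right (hc k) (by positivity)).trans_eq ?_
  ring

theorem ExpGrowth.chasVal {g : PowerSeries ℚ} (h : ExpGrowth g) (z : ℂ) :
    CHasVal g z (cval g z) :=
  (h.summable_norm z).of_norm.hasSum

theorem CHasVal.add {g₁ g₂ : PowerSeries ℚ} {z v₁ v₂ : ℂ} (h₁ : CHasVal g₁ z v₁)
    (h₂ : CHasVal g₂ z v₂) : CHasVal (g₁ + g₂) z (v₁ + v₂) := by
  simpa [CHasVal, add_mul] using HasSum.add h₁ h₂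

theorem CHasVal.polynomial_mul {g : PowerSeries ℚ} {z v : ℂ} (h : CHasVal g z v)
    (P : Polynomial ℚ) :
    CHasVal ((P : PowerSeries ℚ) * g) z (Polynomial.eval₂ (Rat.castHom ℂ) z P * v) := by
  induction P using Polynomial.induction_on' with
  | add p q hp hq =>
    rw [Polynomial.coe_add, add_mul, Polynomial.eval₂_add, add_mul]
    exact hp.add hq
  | monomial n a =>
    rw [CHasVal, Polynomial.eval₂_monomial, ← hasSum_nat_add_iff' n,
      Finset.sum_eq_zero fun i hi => by
        rw [mem_range] at hi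
        rw [Polynomial.coe_monomial, PowerSeries.monomial_eq_C_mul_X_pow, mul_assoc,
          PowerSeries.coeff_C_mul, PowerSeries.coeff_X_pow_mul', if_neg (by omega)]
        simp, sub_zero]
    refine (HasSum.mul_left ((a : ℂ) * z ^ n) h).congr_fun fun k => ?_
    rw [Polynomial.coe_monomial, PowerSeries.monomial_eq_C_mul_X_pow, mul_assoc,
      PowerSeries.coeff_C_mul, PowerSeries.coeff_X_pow_mul', if_pos (Nat.le_add_left n k),
      Nat.add_sub_cancel, pow_add, Rat.cast_mul]
    ring

theorem chasVal_formSeries {m : ℕ} {f : Fin m → PowerSeries ℚ} (hgr : ∀ j, ExpGrowth (f j))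
    (P : Fin m → Polynomial ℚ) (z : ℂ) :
    CHasVal (formSeries f P) z
      (∑ j, Polynomial.eval₂ (Rat.castHom ℂ) z (P j) * cval (f j) z) := by
  have h := hasSum_sum (s := univ) fun j (_ : j ∈ univ) =>
    ((hgr j).chasVal z).polynomial_mul (P j)
  refine h.congr_fun fun k => ?_
  simp [formSeries, Finset.sum_mul]

theorem cval_ofReal (g : PowerSeries ℚ) (x : ℝ) : cval g (x : ℂ) = (val g x : ℂ) := by
  rw [val, cval, Complex.ofReal_tsum]
  exact tsum_congr fun k => by push_cast; ring

theorem CHasVal.exists_abs {g : PowerSeries ℚ} {z v : ℂ} (h : CHasVal g z v) :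
    ∃ w, HasVal (PowerSeries.mk fun k => |PowerSeries.coeff k g|) ‖z‖ w ∧ ‖v‖ ≤ |w| := by
  have hs := summable_norm_iff.2 h.summable
  refine ⟨_, ?_, (((norm_tsum_le_tsum_norm hs).trans' (le_of_eq (congrArg norm
    h.tsum_eq.symm))).trans (le_abs_self _))⟩
  refine hs.hasSum.congr_fun fun k => ?_
  rw [norm_mul, norm_pow, Complex.norm_ratCast, PowerSeries.coeff_mk, Rat.cast_abs]

theorem ExpGrowth.chasDerivAt {g : PowerSeries ℚ} (h : ExpGrowth g) (z : ℂ) :
    HasDerivAt (cval g) (cval (PowerSeries.derivative ℚ g) z) z := by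
  have hd := h.derivative
  obtain ⟨A, B, hB, hc⟩ := hd
  set R := ‖z‖ + 1 with hR
  have hd' : ∀ (y : ℂ), HasSum
      (fun k : ℕ => ((PowerSeries.coeff k g : ℚ) : ℂ) * ((k : ℂ) * y ^ (k - 1)))
      (cval (PowerSeries.derivative ℚ g) y) := fun y => by
    rw [← hasSum_nat_add_iff' 1, Finset.sum_range_one, Nat.cast_zero, zero_mul, mul_zero,
      sub_zero]
    refine (h.derivative.chasVal y).congr_fun fun k => ?_
    rw [PowerSeries.coeff_derivative, Nat.add_sub_cancel]
    push_cast
    ring
  have hsum : Summable fun k : ℕ =>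
      ‖((PowerSeries.coeff k g : ℚ) : ℂ)‖ * ((k : ℝ) * R ^ (k - 1)) := by
    rw [← summable_nat_add_iff 1]
    refine Summable.of_norm_bounded ((Real.summable_pow_div_factorial (B * R)).mul_left A)
      fun k => ?_
    have h1 := hc k
    rw [PowerSeries.coeff_derivative] at h1
    push_cast at h1
    rw [abs_mul, abs_of_nonneg (show (0 : ℝ) ≤ (k : ℝ) + 1 by positivity)] at h1
    rw [Real.norm_eq_abs, abs_of_nonneg (by positivity), Nat.add_sub_cancel, mul_pow,
      Complex.norm_ratCast]
    push_cast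
    rw [← mul_assoc]
    refine (mul_le_mul_of_nonneg_right h1 (by positivity)).trans_eq ?_
    ring
  rw [← (hd' z).tsum_eq]
  refine hasDerivAt_tsum_of_isPreconnected hsum Metric.isOpen_ball
    (convex_ball (0 : ℂ) R).isPreconnected (fun k y _ => (hasDerivAt_pow k y).const_mul _)
    (fun k y hy => ?_) (Metric.mem_ball_self (by positivity)) (h.chasVal 0).summable
    (by simp [hR])
  rw [Metric.mem_ball, dist_zero_right] at hy
  rw [norm_mul, norm_mul, norm_pow, Complex.norm_natCast]
  gcongr

theorem ExpGrowth.iteratedDeriv_cval {g : PowerSeries ℚ} (h : ExpGrowth g) (k : ℕ) :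
    iteratedDeriv k (cval g) = cval ((PowerSeries.derivative ℚ)^[k] g) := by
  induction k with
  | zero => simp
  | succ k ih =>
    rw [iteratedDeriv_succ, ih, Function.iterate_succ_apply']
    exact funext fun z => ((h.iterate_derivative k).chasDerivAt z).deriv

theorem ExpGrowth.eq_zero_of_iteratedDeriv_cval {g : PowerSeries ℚ} (h : ExpGrowth g) {z : ℂ}
    (hz : ∀ k, iteratedDeriv k (cval g) z = 0) : g = 0 := by
  set p := FormalMultilinearSeries.ofScalars ℂ fun k => ((PowerSeries.coeff k g : ℚ) : ℂ) with hp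
  obtain ⟨A, B, hB, hc⟩ := h
  have hrad : p.radius = ⊤ := FormalMultilinearSeries.radius_eq_top_of_summable_norm p fun r =>
    Summable.of_norm_bounded ((Real.summable_pow_div_factorial (B * r)).mul_left A) fun k => by
      rw [hp, FormalMultilinearSeries.ofScalars_norm, Complex.norm_ratCast, Real.norm_eq_abs,
        abs_of_nonneg (by positivity), mul_pow]
      refine (mul_le_mul_of_nonneg_right (hc k) (by positivity)).trans_eq ?_
      ring
  have hsumeq : p.sum = cval g := funext fun y => by
    rw [FormalMultilinearSeries.sum]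
    simp [hp, cval, mul_comm]
  have hball : HasFPowerSeriesOnBall (cval g) p 0 ⊤ := by
    rw [← hsumeq, ← hrad]
    exact p.hasFPowerSeriesOnBall (by rw [hrad]; exact ENNReal.zero_lt_top)
  have han : AnalyticOnNhd ℂ (cval g) Set.univ := fun y _ =>
    hball.analyticAt_of_mem (by simp)
  have hev : cval g =ᶠ[𝓝 z] 0 := by
    filter_upwards [(han z trivial).hasFPowerSeriesAt.eventually_hasSum_sub] with y hy
    simp only [hz, FormalMultilinearSeries.ofScalars_apply_eq, zero_div, zero_smul] at hy
    exact hy.unique hasSum_zero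
  have h0 : cval g = 0 := funext fun y =>
    han.eqOn_zero_of_preconnected_of_eventuallyEq_zero isPreconnected_univ (Set.mem_univ z) hev
      (Set.mem_univ y)
  have hpz : p = 0 := hball.hasFPowerSeriesAt.eq_zero_of_eventually (Eventually.of_forall
    fun y => congrFun h0 y)
  ext k
  have := FormalMultilinearSeries.ofScalars_eq_zero (E := ℂ) (c := fun k =>
    ((PowerSeries.coeff k g : ℚ) : ℂ)) k
  rw [← hp, hpz] at this
  simpa using this.1 rfl

/-- A nonzero solution has a nonzero value at every complex ordinary point. -/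
theorem exists_cval_ne_zero {m : ℕ} {T : Polynomial ℚ} {Q : Matrix (Fin m) (Fin m) (Polynomial ℚ)}
    {f : Fin m → PowerSeries ℚ} (hf : IsSolution T Q f) (hgr : ∀ j, ExpGrowth (f j))
    (hne : ∃ j, f j ≠ 0) {z : ℂ} (hz : Polynomial.eval₂ (Rat.castHom ℂ) z T ≠ 0) :
    ∃ j, cval (f j) z ≠ 0 := by
  obtain ⟨i, hi⟩ := hne
  by_contra hall
  push Not at hall
  refine hi ((hgr i).eq_zero_of_iteratedDeriv_cval (z := z) fun k => ?_)
  rw [(hgr i).iteratedDeriv_cval]
  obtain ⟨c, hc⟩ := exists_formSeries_derivative hf i k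
  have h1 := (((hgr i).iterate_derivative k).chasVal z).polynomial_mul (T ^ k)
  rw [hc] at h1
  have h2 := h1.unique (chasVal_formSeries hgr c z)
  simp only [hall, mul_zero, Finset.sum_const_zero, Polynomial.eval₂_pow] at h2
  exact (mul_eq_zero.1 h2).resolve_left (pow_ne_zero _ hz)

theorem cval_mul {g h : PowerSeries ℚ} (hg : IsEFunction g) (hh : IsEFunction h) (z : ℂ) :
    cval (g * h) z = cval g z * cval h z := by
  rw [cval, cval, cval, tsum_mul_tsum_eq_tsum_sum_antidiagonal_of_summable_norm
    (hg.expGrowth.summable_norm z) (hh.expGrowth.summable_norm z)]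
  refine tsum_congr fun n => ?_
  rw [PowerSeries.coeff_mul, Rat.cast_sum, Finset.sum_mul]
  refine Finset.sum_congr rfl fun p hp => ?_
  rw [← mem_antidiagonal.1 hp, pow_add]
  push_cast
  ring

theorem cval_one (z : ℂ) : cval (1 : PowerSeries ℚ) z = 1 := by
  rw [cval, tsum_eq_single 0 fun k hk => by simp [PowerSeries.coeff_one, hk]]
  simp

theorem cval_pow {g : PowerSeries ℚ} (hg : IsEFunction g) (z : ℂ) (n : ℕ) :
    cval (g ^ n) z = cval g z ^ n := by
  induction n with
  | zero => simp [cval_one]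
  | succ n ih => rw [pow_succ, cval_mul (hg.pow n) hg, ih, pow_succ]

end FA.SiegelShidlovskii

end
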