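import Mathlib.LinearAlgebra.Dimension.Constructions
import Fermat.Agent.SiegelShidlovskii.ComplexValues
import Fermat.Agent.SiegelShidlovskii.AlgebraicPoints

/-!
# The theorem of Siegel and Shidlovskii at algebraic points

With `l` relations over `K` among the values at `α`, `R = m - l` of the forms give a nonzero
algebraic integral determinant whose conjugates are at most `C ^ p p ^ (R q p)`, one of them
smaller by `p ^ ((m q - 1) p)`; so `m ≤ [K : ℚ] R`.
-/

set_option autoImplicit false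

noncomputable section

open Finset Filter Topology
open scoped Nat

namespace FA.SiegelShidlovskii

variable {m : ℕ} {f : Fin m → PowerSeries ℚ} {K : Type*} [Field K] [NumberField K]

/-- Independent rows completed by values of iterates of small index. -/
theorem exists_complement {S : Set (Fin m → K)} (hS : Submodule.span K S = ⊤) {l : ℕ}
    {h : Fin l → Fin m → K} (hli : LinearIndependent K h) :
    l ≤ m ∧ ∃ g : Fin (m - l) → Fin m → K, (∀ r, g r ∈ S) ∧
      LinearIndependent K (Sum.elim h g) := by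
  classical
  set W := Submodule.span K (Set.range h) with hW
  have hWdim : Module.finrank K W = l := by
    rw [hW, finrank_span_eq_card hli, Fintype.card_fin]
  have hl : l ≤ m := by
    have h1 := Submodule.finrank_le W
    rwa [hWdim, Module.finrank_fin_fun] at h1
  have hquot : Module.finrank K ((Fin m → K) ⧸ W) = m - l := by
    have h1 := Submodule.finrank_quotient_add_finrank W
    rw [hWdim, Module.finrank_fin_fun] at h1
    omega
  have hspan : Submodule.span K (W.mkQ '' S) = ⊤ := by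
    rw [Submodule.span_image, hS, Submodule.map_top, Submodule.range_mkQ]
  obtain ⟨u, hu, -, hui⟩ := Submodule.exists_fun_fin_finrank_span_eq K (W.mkQ '' S)
  have hfin : Module.finrank K (Submodule.span K (W.mkQ '' S)) = m - l := by
    rw [hspan, finrank_top, hquot]
  choose g hg hge using hu
  refine ⟨hl, fun r => g (Fin.cast hfin.symm r), fun r => hg _, ?_⟩
  refine LinearIndependent.sumElim_of_quotient (M' := W)
    (f := fun i => ⟨h i, Submodule.subset_span ⟨i, rfl⟩⟩) (LinearIndependent.of_comp W.subtype hli)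
    _ ?_
  have e : (Submodule.Quotient.mk (p := W) ∘ fun r => g (Fin.cast hfin.symm r)) =
      u ∘ Fin.cast hfin.symm := funext fun r => hge _
  rw [e]
  exact hui.comp _ (Fin.cast_injective _)

/-- The core, for integral coefficients. -/
theorem le_mul_of_int_relations (ψ : K →+* ℂ) (T : Polynomial ℤ)
    (Q : Matrix (Fin m) (Fin m) (Polynomial ℤ))
    (hf : IsSolution (T.map (Int.castRingHom ℚ))
      (Q.map (Polynomial.map (Int.castRingHom ℚ))) f)
    (hE : ∀ j, IsEFunction (f j))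
    (hind : ∀ P : Fin m → Polynomial ℚ, formSeries f P = 0 → P = 0)
    {α : K} (hα0 : α ≠ 0) (hα : Polynomial.aeval α T ≠ 0) (hm : 0 < m) {l : ℕ}
    (h : Fin l → Fin m → K) (hint : ∀ i j, IsIntegral ℤ (h i j)) (hli : LinearIndependent K h)
    (hrel : ∀ i, ∑ j, ψ (h i j) * cval (f j) (ψ α) = 0) :
    m ≤ Module.finrank ℚ K * (m - l) := by
  classical
  set ι := Int.castRingHom ℚ
  set Tq := T.map ι with hTq
  set Qq := Q.map (Polynomial.map ι) with hQq
  have hae : ∀ R : Polynomial ℤ, Polynomial.aeval α (R.map ι) = Polynomial.aeval α R := fun R => by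
    rw [show ι = algebraMap ℤ ℚ from rfl, Polynomial.aeval_map_algebraMap]
  obtain ⟨s, hTs, hQs⟩ : ∃ s, T.natDegree ≤ s ∧ ∀ i j, (Q i j).natDegree ≤ s :=
    ⟨T.natDegree + ∑ i, ∑ j, (Q i j).natDegree, Nat.le_add_right _ _, fun i j =>
      le_trans (le_trans (Finset.single_le_sum (f := fun j => (Q i j).natDegree)
        (fun _ _ => Nat.zero_le _) (mem_univ j)) (Finset.single_le_sum
        (f := fun i => ∑ j, (Q i j).natDegree) (fun _ _ => Nat.zero_le _) (mem_univ i)))
        (Nat.le_add_left _ _)⟩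
  have hTqs : Tq.natDegree ≤ s := Polynomial.natDegree_map_le.trans hTs
  have hQqs : ∀ i j, (Qq i j).natDegree ≤ s := fun i j =>
    Polynomial.natDegree_map_le.trans (hQs i j)
  have hTq0 : Tq ≠ 0 := fun h0 => hα (by rw [← hae, ← hTq, h0, map_zero])
  have hfj := apply_ne_zero_of_independent hind
  have hgr : ∀ j, ExpGrowth (f j) := fun j => (hE j).expGrowth
  set x : ℂ := ψ α with hxdef
  have hev : ∀ R : Polynomial ℚ, Polynomial.eval₂ (Rat.castHom ℂ) x R =
      ψ (Polynomial.aeval α R) := fun R => by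
    rw [Polynomial.aeval_def, Polynomial.hom_eval₂, ← hxdef]
    congr 1
    exact RingHom.ext fun r => (map_ratCast ψ r).symm
  obtain ⟨j₀, hy⟩ := exists_cval_ne_zero hf hgr ⟨⟨0, hm⟩, hfj _⟩ (z := x)
    (by rw [hev, hTq, hae]; exact fun h0 => hα (ψ.injective (h0.trans (map_zero ψ).symm)))
  set y : Fin m → ℂ := fun j => cval (f j) x
  obtain ⟨o, ho⟩ := exists_spanning (K := K) hf hfj (α := α) (by rwa [hTq, hae]) hα0 hTqs hQqs hm
  obtain ⟨α₀, hα₀⟩ : ∃ α₀ : ℚ, Tq.eval α₀ ≠ 0 := by
    by_contra hall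
    push Not at hall
    exact hTq0 (Polynomial.funext fun r => by rw [hall r, Polynomial.eval_zero])
  obtain ⟨c₀, hc₀⟩ := shidlovskii_lemma hf hind hα₀
  by_contra hlt
  push Not at hlt
  set D := Module.finrank ℚ K with hD
  have hD0 : 0 < D := Module.finrank_pos
  obtain ⟨R, hR⟩ : ∃ R, R = m - l := ⟨_, rfl⟩
  rw [← hR] at hlt
  obtain ⟨q, hq⟩ : ∃ q, q = 2 * m + 2 * s + 3 := ⟨_, rfl⟩
  obtain ⟨H, hH1, haux⟩ := exists_auxiliary hE hm (show 0 < q by omega)
  obtain ⟨M₁, hM₁, hl1⟩ := exists_l1_iterDeriv_le T Q hTs hQs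
  obtain ⟨M₂, hM₂, hco⟩ := exists_coeff_iterate_le Tq hTqs
  obtain ⟨b, hb0, hβ⟩ := exists_int_scale fun _ : Unit => α
  set β := (b : K) * α with hβdef
  replace hβ : IsIntegral ℤ β := hβ ()
  have hαβ : β / (b : K) = α := by
    rw [hβdef, mul_div_cancel_left₀ _ (Nat.cast_ne_zero.2 hb0)]
  set d₀ := q + 2 * s with hd₀
  obtain ⟨A, hA, hA1⟩ : ∃ A : ℝ, (∀ σ : K →+* ℂ, ‖σ β‖ + b ≤ A) ∧ 1 ≤ A :=
    ⟨(∑ σ : K →+* ℂ, ‖σ β‖) + b, fun σ => add_le_add_left
      (Finset.single_le_sum (f := fun σ : K →+* ℂ => ‖σ β‖) (fun _ _ => norm_nonneg _)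
        (mem_univ σ)) _, le_add_of_nonneg_of_le (Finset.sum_nonneg fun _ _ => norm_nonneg _)
      (Nat.one_le_cast.2 (Nat.one_le_iff_ne_zero.2 hb0))⟩
  obtain ⟨CV, hCV⟩ : ∃ CV : ℝ, CV = A ^ d₀ *
    (M₁ * ((q : ℝ) + 2 * s + 1)) ^ 2 * m * (q : ℝ) ^ q * H := ⟨_, rfl⟩
  set g₀ := m * q - 3 with hg₀
  obtain ⟨CL, hCL⟩ : ∃ CL : ℝ, CL = (b : ℝ) ^ d₀ * ((q : ℝ) ^ q * H * M₂ ^ 2 * H ^ 2) *
    ((2 * s : ℕ) : ℝ) ^ (2 * s) *
    Real.exp 1 ^ 3 * (Real.exp 1 * H * ‖x‖ * Real.exp 1) ^ g₀ *
    Real.exp (Real.exp 1 * H * ‖x‖) := ⟨_, rfl⟩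
  obtain ⟨Hh, hHh, hHh1⟩ : ∃ Hh : ℝ, (∀ (σ : K →+* ℂ) i j, ‖σ (h i j)‖ ≤ Hh) ∧ 1 ≤ Hh :=
    ⟨1 + ∑ u : (K →+* ℂ) × Fin l × Fin m, ‖u.1 (h u.2.1 u.2.2)‖, fun σ i j =>
      (Finset.single_le_sum (f := fun u : (K →+* ℂ) × Fin l × Fin m => ‖u.1 (h u.2.1 u.2.2)‖)
        (fun _ _ => norm_nonneg _) (mem_univ (σ, i, j))).trans (le_add_of_nonneg_left zero_le_one),
      le_add_of_nonneg_right (Finset.sum_nonneg fun _ _ => norm_nonneg _)⟩
  set B : ℝ := (m ! : ℝ) * Hh ^ l with hB
  set K₀ : ℝ := (m : ℝ) * B * B ^ (D - 1) with hK₀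
  have hB0 : 0 ≤ B := by rw [hB]; positivity
  have hH0 : 0 ≤ H := by linarith
  have hM₂0 : 0 ≤ M₂ := by linarith
  have hA0 : 0 ≤ A := by linarith
  have hCL0 : 0 ≤ CL := by rw [hCL]; positivity
  have hCV0 : 0 ≤ CV := by
    have : 0 ≤ M₁ := by linarith
    rw [hCV]
    positivity
  set w := R * D - 1 with hw
  suffices hmain : ∀ᶠ p : ℕ in atTop, ‖y j₀‖ ≤ K₀ * (CV ^ w * CL / (p : ℝ)) ^ p by
    have hhalf : ∀ᶠ p : ℕ in atTop, CV ^ w * CL / (p : ℝ) ≤ 1 / 2 :=
      (tendsto_const_div_atTop_nhds_zero_nat _).eventually (eventually_le_nhds (by norm_num))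
    have hlim : Tendsto (fun p : ℕ => K₀ * (1 / 2 : ℝ) ^ p) atTop (𝓝 0) := by
      simpa using (tendsto_pow_atTop_nhds_zero_of_lt_one (show (0 : ℝ) ≤ 1 / 2 by norm_num)
        (by norm_num)).const_mul K₀
    refine hy (norm_le_zero_iff.1 (ge_of_tendsto hlim ?_))
    filter_upwards [hmain, hhalf] with p hp hp2
    exact hp.trans (mul_le_mul_of_nonneg_left (pow_le_pow_left₀ (by positivity) hp2 _)
      (by positivity))
  filter_upwards [eventually_ge_atTop (c₀ + o + 2)] with p hp
  have hp0 : 0 < p := by omega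
  have hp1 : (1 : ℝ) ≤ p := Nat.one_le_cast.2 (by omega)
  obtain ⟨P, hP0, hPd, hPl, hPdvd, hPc⟩ := haux p hp0
  set n := q * p with hn
  set N := (m * q - 1) * p with hN
  set Pq : Fin m → Polynomial ℚ := fun j => (P j).map ι with hPq
  have hPqd : ∀ j, (Pq j).natDegree ≤ n := fun j => Polynomial.natDegree_map_le.trans (hPd j)
  have hmq : 3 < m * q := lt_of_lt_of_le (by omega) (Nat.le_mul_of_pos_left q hm)
  have hNn : N + p = m * n := by
    obtain ⟨t, ht⟩ := Nat.exists_eq_add_of_le (show 1 ≤ m * q by omega)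
    rw [hN, hn, show m * (q * p) = (m * q) * p by ring, ht, Nat.add_sub_cancel_left]
    ring
  have hdet : (Matrix.of fun k j : Fin m => iterDeriv Tq Qq Pq k j).det ≠ 0 := by
    intro h0
    have h1 := hc₀ n Pq N (fun h => hP0 (funext fun j => Polynomial.map_injective ι
      (Int.cast_injective) (by simpa [hPq] using congrFun h j))) hPqd hPdvd h0
    have : 2 * p ≤ n := Nat.mul_le_mul_right p (by omega)
    have e : m * n = (m - 1) * n + n := by
      rw [show m = m - 1 + 1 by omega, Nat.add_sub_cancel]; ring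
    omega
  have hspan := ho n N Pq hPqd hPdvd hdet
  obtain ⟨hlm, g, hg, hgi⟩ := exists_complement (eq_top_iff.2 fun x _ => hspan x) hli
  choose κ hκ hκe using hg
  have hκ2 : ∀ r, κ r ≤ 2 * p := fun r => by
    have h1 : κ r + N < m * n + (o + 1) := hκ r
    omega
  -- the integral matrix
  set d := p * d₀ with hd
  have hmapk : ∀ k j, iterDeriv Tq Qq Pq k j = (iterDeriv T Q P k j).map ι := fun k j =>
    (congrFun (map_iterDeriv (Polynomial.mapRingHom ι)
      (fun p => (Polynomial.derivative_map p ι).symm) T Q P k) j).symm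
  have hdeg : ∀ r j, (iterDeriv T Q P (κ r) j).natDegree ≤ d := fun r j => by
    refine (iterDeriv_natDegree_le T Q P hTs hQs hPd _ j).trans ?_
    calc n + κ r * s ≤ n + 2 * p * s := Nat.add_le_add_left (Nat.mul_le_mul_right s (hκ2 r)) n
      _ = d := by rw [hn, hd, hd₀]; ring
  choose z hzi hz hzle using fun r j =>
    exists_integral_eval (iterDeriv T Q P (κ r) j) hβ b hb0 (hdeg r j)
  let e : Fin m ≃ Fin l ⊕ Fin (m - l) :=
    (finCongr (Nat.add_sub_cancel' hlm).symm).trans finSumFinEquiv.symm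
  set G : Matrix (Fin m) (Fin m) K := Matrix.of fun i => Sum.elim h z (e i) with hG
  have hGdet : G.det ≠ 0 := by
    have hgz : ∀ r, z r = (b : K) ^ d • g r := fun r => funext fun j => by
      rw [← hκe r, Pi.smul_apply, smul_eq_mul, hz, hαβ]
      dsimp only
      rw [hmapk, hae]
    set u : Fin l ⊕ Fin (m - l) → Kˣ := Sum.elim (fun _ => 1)
      fun _ => Units.mk0 ((b : K) ^ d) (pow_ne_zero _ (Nat.cast_ne_zero.2 hb0))
    have h1 : Sum.elim h z = u • Sum.elim h g := funext fun v => by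
      rcases v with i | r
      · simp [u]
      · simp only [Pi.smul_apply', Units.smul_def, u, Sum.elim_inr, Units.val_mk0, hgz]
    have h2 : LinearIndependent K G.row := by
      have h3 := (hgi.units_smul u).comp e e.injective
      rw [← h1] at h3
      exact h3
    rw [Matrix.linearIndependent_rows_iff_isUnit, Matrix.isUnit_iff_isUnit_det] at h2
    exact h2.ne_zero
  have hGint : IsIntegral ℤ G.det := by
    refine IsIntegral.det fun i j => ?_
    rw [hG, Matrix.of_apply]
    rcases e i with i | r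
    · exact hint i j
    · exact hzi r j
  -- bounds for the entries and for the forms
  have hfac : (n ! : ℝ) ≤ ((q : ℝ) ^ q) ^ p * ((p : ℝ) ^ p) ^ q := by
    have h1 : (n ! : ℝ) ≤ ((n ^ n : ℕ) : ℝ) := Nat.cast_le.2 n.factorial_le_pow
    push_cast [hn] at h1
    rw [mul_pow, ← hn] at h1
    rwa [← pow_mul, ← pow_mul, Nat.mul_comm p q, ← hn]
  obtain ⟨V, hV⟩ : ∃ V : ℝ, V = CV ^ p * ((p : ℝ) ^ p) ^ (q + 2) := ⟨_, rfl⟩
  obtain ⟨L, hL⟩ : ∃ L : ℝ, L = CL ^ p * ((p : ℝ) ^ p) ^ (q + 2 * s) / ((p : ℝ) ^ p) ^ g₀ :=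
    ⟨_, rfl⟩
  have hentry : ∀ (σ : K →+* ℂ) r j, ‖σ (z r j)‖ ≤ V := by
    intro σ r j
    refine (hzle r j σ).trans ((mul_le_mul_of_nonneg_right
      (pow_le_pow_left₀ (by positivity) (hA σ) _) (l1_nonneg _)).trans ?_)
    set W := M₁ * ((n : ℝ) + (2 * p : ℕ) * s + 1)
    have hW1 : 1 ≤ W := one_le_mul_of_one_le_of_one_le hM₁
      (le_add_of_nonneg_left (by positivity))
    have hW : W ≤ M₁ * ((q : ℝ) + 2 * s + 1) * p := by
      rw [mul_assoc]
      refine mul_le_mul_of_nonneg_left ?_ (by linarith)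
      push_cast [hn]
      nlinarith [Nat.cast_nonneg (α := ℝ) s]
    have hl : l1 (iterDeriv T Q P (κ r) j) ≤ W ^ (2 * p) * ((m : ℝ) * ((n ! : ℝ) * H ^ p)) := by
      refine (Finset.single_le_sum (f := fun j => l1 (iterDeriv T Q P (κ r) j))
        (fun i _ => l1_nonneg _) (mem_univ j)).trans ((hl1 P n (2 * p) hPd _ (hκ2 r)).trans ?_)
      refine mul_le_mul (pow_le_pow_right₀ hW1 (hκ2 r)) ?_
        (Finset.sum_nonneg fun _ _ => l1_nonneg _) (by positivity)
      refine (Finset.sum_le_card_nsmul _ _ _ fun i _ => hPl i).trans_eq ?_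
      rw [card_univ, Fintype.card_fin, nsmul_eq_mul]
    calc A ^ d * l1 (iterDeriv T Q P (κ r) j)
        ≤ A ^ d * ((M₁ * ((q : ℝ) + 2 * s + 1) * p) ^ (2 * p) *
            ((m : ℝ) ^ p * (((q : ℝ) ^ q) ^ p * ((p : ℝ) ^ p) ^ q * H ^ p))) := by
          refine mul_le_mul_of_nonneg_left (hl.trans ?_) (by positivity)
          refine mul_le_mul (pow_le_pow_left₀ (by linarith) hW _) ?_ (by positivity)
            (by have : 0 ≤ M₁ := by linarith
                positivity)
          refine mul_le_mul (le_self_pow₀ (Nat.one_le_cast.2 hm) hp0.ne')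
            (mul_le_mul_of_nonneg_right hfac (by positivity)) (by positivity) (by positivity)
      _ = V := by
          rw [hV, hCV, hd, Nat.mul_comm p d₀, pow_mul _ d₀ p, Nat.mul_comm 2 p]
          simp only [mul_pow, ← pow_mul, pow_add]
          ring
  have hform : ∀ r, ‖∑ j, ψ (z r j) * y j‖ ≤ L := by
    intro r
    set F : ℕ → PowerSeries ℚ := fun k => formSeries f (iterDeriv Tq Qq Pq k) with hF
    have hval : ∑ j, ψ (z r j) * y j = (b : ℂ) ^ d * cval (F (κ r)) x := by
      rw [(chasVal_formSeries hgr (iterDeriv Tq Qq Pq (κ r)) x).cval_eq, Finset.mul_sum]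
      refine Finset.sum_congr rfl fun j _ => ?_
      rw [hev, hmapk, hae, hz, hαβ, map_mul, map_pow, map_natCast, mul_assoc]
    have hcoeff := hco F ((n ! : ℝ) * H ^ p) H (by positivity) hH1
      (fun k => by rw [hF]; simp only [iterDeriv_succ, mul_derivative_formSeries hf])
      (fun j => by simpa [hF] using hPc j) (κ r)
    have hgN : g₀ * p + 2 * p = N := by
      rw [hN, ← Nat.add_mul]
      congr 1
      omega
    have hzero : ∀ i < g₀ * p, PowerSeries.coeff i (F (κ r)) = 0 := fun i hi =>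
      PowerSeries.X_pow_dvd_iff.1 (X_pow_dvd_formSeries hf Pq hPdvd (κ r)) i
        (by have := hκ2 r; omega)
    obtain ⟨v, hv', hvle⟩ :=
      (chasVal_formSeries hgr (iterDeriv Tq Qq Pq (κ r)) x).exists_abs
    rw [← (chasVal_formSeries hgr (iterDeriv Tq Qq Pq (κ r)) x).cval_eq] at hvle
    have hv := abs_le_of_coeff_le (A := (n ! : ℝ) * H ^ p * M₂ ^ (2 * p) * H ^ (2 * p))
      (H := H) (e := 2 * p * s) (k := 2 * p) (G₀ := g₀ * p) (x := ‖x‖) (by positivity) hH0
      hv' (fun i hi => by rw [PowerSeries.coeff_mk, hzero i hi, abs_zero])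
      (fun i => by
        rw [PowerSeries.coeff_mk, Rat.cast_abs, abs_abs]
        refine (hcoeff i).trans (div_le_div_of_nonneg_right ?_ (Nat.cast_nonneg _))
        rw [pow_add H i (κ r)]
        calc (n ! : ℝ) * H ^ p * M₂ ^ κ r * (H ^ i * H ^ κ r) *
              ((i : ℝ) + κ r + 1) ^ (κ r * s)
            ≤ (n ! : ℝ) * H ^ p * M₂ ^ (2 * p) * (H ^ i * H ^ (2 * p)) *
              ((i : ℝ) + (2 * p : ℕ) + 1) ^ (2 * p * s) := by
              have h2 : (κ r : ℝ) ≤ ((2 * p : ℕ) : ℝ) := Nat.cast_le.2 (hκ2 r)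
              have h3 : ((i : ℝ) + κ r + 1) ^ (κ r * s) ≤
                  ((i : ℝ) + (2 * p : ℕ) + 1) ^ (2 * p * s) :=
                (pow_le_pow_left₀ (by positivity) (by linarith) _).trans
                  (pow_le_pow_right₀ (le_add_of_nonneg_left (by positivity))
                    (Nat.mul_le_mul_right s (hκ2 r)))
              gcongr
              all_goals first | exact hH1 | exact hκ2 r
          _ = _ := by ring)
    rw [abs_norm] at hv
    replace hv := hvle.trans hv
    rw [hval, norm_mul, norm_pow, Complex.norm_natCast]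
    have h1 : ((2 * p * s)! : ℝ) ≤ (((2 * s : ℕ) : ℝ) ^ (2 * s)) ^ p * ((p : ℝ) ^ p) ^ (2 * s) := by
      have h1 : ((2 * p * s)! : ℝ) ≤ (((2 * p * s) ^ (2 * p * s) : ℕ) : ℝ) :=
        Nat.cast_le.2 (Nat.factorial_le_pow _)
      refine h1.trans_eq ?_
      rw [show 2 * p * s = 2 * s * p by ring]
      push_cast
      rw [← pow_mul, ← pow_mul, Nat.mul_comm p (2 * s), ← mul_pow]
    have h2 : Real.exp (((2 * p : ℕ) : ℝ) + 1) ≤ (Real.exp 1 ^ 3) ^ p := by
      rw [← pow_mul, ← Real.exp_nat_mul, mul_one, Real.exp_le_exp]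
      push_cast
      linarith
    have h3 := pow_div_factorial_le (x := Real.exp 1 * H * ‖x‖) (by positivity) g₀ p
      (by omega) hp0
    calc (b : ℝ) ^ d * ‖cval (F (κ r)) x‖
        ≤ (b : ℝ) ^ d * ((((q : ℝ) ^ q) ^ p * ((p : ℝ) ^ p) ^ q * H ^ p * M₂ ^ (2 * p) *
            H ^ (2 * p)) * ((((2 * s : ℕ) : ℝ) ^ (2 * s)) ^ p * ((p : ℝ) ^ p) ^ (2 * s)) *
            (Real.exp 1 ^ 3) ^ p * ((Real.exp 1 * H * ‖x‖ * Real.exp 1) ^ (g₀ * p) /
              ((p : ℝ) ^ p) ^ g₀) * Real.exp (Real.exp 1 * H * ‖x‖) ^ p) := by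
          refine mul_le_mul_of_nonneg_left (hv.trans ?_) (by positivity)
          gcongr
          all_goals exact le_self_pow₀ (Real.one_le_exp (by positivity)) hp0.ne'
      _ = L := by
          rw [hL, hCL, hd, Nat.mul_comm p d₀, pow_mul (b : ℝ) d₀ p, Nat.mul_comm g₀ p,
            Nat.mul_comm 2 p]
          simp only [mul_pow, ← pow_mul, pow_add]
          ring
  have hV0 : 0 ≤ V := by rw [hV]; positivity
  have hL0 : 0 ≤ L := by rw [hL]; positivity
  have hR1 : 0 < R := by
    by_contra h0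
    have hz0 : ∀ i, ∑ j, (G.map ψ) i j * y j = 0 := fun i => by
      rw [hG]
      simp only [Matrix.map_apply, Matrix.of_apply]
      rcases e i with i | r
      · exact hrel i
      · exact absurd r.2 (by omega)
    exact hy (congrFun (Matrix.eq_zero_of_mulVec_eq_zero
      (M := G.map ψ) (by rw [← RingHom.mapMatrix_apply, ← RingHom.map_det];
                         exact fun h0 => hGdet (ψ.injective (h0.trans (map_zero ψ).symm)))
      (funext hz0)) j₀)
  -- the conjugates of the determinant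
  have hconj : ∀ σ : K →+* ℂ, ‖σ G.det‖ ≤ B * V ^ R := by
    intro σ
    rw [RingHom.map_det]
    refine (norm_det_le _ (fun i => Sum.elim (fun _ => Hh) (fun _ => V) (e i))
      fun i j => ?_).trans_eq ?_
    · rw [RingHom.mapMatrix_apply, Matrix.map_apply, hG, Matrix.of_apply]
      rcases e i with i | r
      · exact hHh σ i j
      · exact hentry σ r j
    · rw [e.prod_comp, Fintype.prod_sum_type]
      simp [hB, hR, mul_assoc]
  -- the determinant times the value
  have hterm : ∀ i, ‖(G.map ψ).adjugate j₀ i * ∑ j, (G.map ψ) i j * y j‖ ≤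
      B * V ^ (R - 1) * L := by
    intro i
    obtain ⟨v, hv⟩ : ∃ v, v = e i := ⟨_, rfl⟩
    rcases v with i' | r
    · rw [show ∑ j, (G.map ψ) i j * y j = 0 by
        simp only [Matrix.map_apply, hG, Matrix.of_apply, ← hv]
        exact hrel i', mul_zero, norm_zero]
      positivity
    · rw [norm_mul]
      refine mul_le_mul ?_ ?_ (norm_nonneg _) (by positivity)
      · rw [Matrix.adjugate_apply]
        refine (norm_det_le _ (fun a => Sum.elim (fun _ => Hh) (Function.update (fun _ => V) r 1)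
          (e a)) fun a j => ?_).trans_eq ?_
        · rw [Matrix.updateRow_apply]
          split_ifs with h1
          · subst h1
            rw [← hv, Sum.elim_inr, Function.update_self]
            rcases eq_or_ne j j₀ with rfl | hj <;> simp [*]
          · rw [Matrix.map_apply, hG, Matrix.of_apply]
            obtain ⟨v', hv'⟩ : ∃ v', v' = e a := ⟨_, rfl⟩
            rw [← hv']
            rcases v' with a' | r'
            · exact hHh ψ a' j
            · have h2 : r' ≠ r := fun h2 => h1 (e.injective (by rw [← hv', ← hv, h2]))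
              simp only [Sum.elim_inr, Function.update_of_ne h2]
              exact hentry ψ r' j
        · rw [e.prod_comp, Fintype.prod_sum_type]
          simp only [Sum.elim_inl, Sum.elim_inr]
          rw [Finset.prod_update_of_mem (mem_univ r)]
          simp [hB, hR, mul_assoc, Finset.card_sdiff]
      · simp only [Matrix.map_apply, hG, Matrix.of_apply, ← hv]
        exact hform r
  have hid : (G.map ψ).det * y j₀ =
      ∑ i, (G.map ψ).adjugate j₀ i * ∑ j, (G.map ψ) i j * y j := by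
    have h1 := congrFun (congrArg (fun M => Matrix.mulVec M y)
      (Matrix.adjugate_mul (G.map ψ))) j₀
    simp only [← Matrix.mulVec_mulVec, Matrix.smul_mulVec, Matrix.one_mulVec] at h1
    rw [Pi.smul_apply, smul_eq_mul] at h1
    exact h1.symm
  have hdety : ‖ψ G.det‖ * ‖y j₀‖ ≤ (m : ℝ) * (B * V ^ (R - 1) * L) := by
    rw [← norm_mul, RingHom.map_det, RingHom.mapMatrix_apply, hid]
    refine (norm_sum_le _ _).trans
      ((Finset.sum_le_card_nsmul _ _ _ fun i _ => hterm i).trans_eq ?_)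
    rw [card_univ, Fintype.card_fin, nsmul_eq_mul]
  have hnorm : 1 ≤ ‖ψ G.det‖ * (B * V ^ R) ^ (D - 1) := by
    refine (one_le_prod_norm hGint hGdet).trans ?_
    rw [← Finset.mul_prod_erase univ _ (mem_univ ψ.toRatAlgHom)]
    refine mul_le_mul_of_nonneg_left ((Finset.prod_le_prod (fun σ _ => norm_nonneg _)
      (fun σ _ => hconj σ.toRingHom)).trans_eq ?_) (norm_nonneg _)
    rw [Finset.prod_const, Finset.card_erase_of_mem (mem_univ _), card_univ, AlgHom.card]
  have htotal : ‖y j₀‖ ≤ K₀ * (V ^ w * L) := by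
    refine (le_mul_of_one_le_left (norm_nonneg _) hnorm).trans ?_
    rw [mul_right_comm]
    refine (mul_le_mul_of_nonneg_right hdety (by positivity)).trans_eq ?_
    obtain ⟨D', hD'⟩ := Nat.exists_eq_add_of_le (show 1 ≤ D by omega)
    rw [hK₀, hw, show R * D - 1 = R - 1 + R * (D - 1) by
      rw [hD', Nat.add_sub_cancel_left, Nat.mul_add, Nat.mul_one]; omega, pow_add, mul_pow,
      ← pow_mul]
    ring
  refine htotal.trans (mul_le_mul_of_nonneg_left ?_ (by positivity))
  have hexp : (q + 2) * w + (q + 2 * s) + 1 ≤ g₀ := by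
    obtain ⟨m', hm'⟩ := Nat.exists_eq_add_of_le (show w + 2 ≤ m by
      have h1 : 0 < R * D := Nat.mul_pos hR1 hD0
      rw [Nat.mul_comm D R] at hlt
      omega)
    have e : m * q = q * w + 2 * q + q * m' := by rw [hm']; ring
    have e' : (q + 2) * w = q * w + 2 * w := by ring
    omega
  have hpp : (1 : ℝ) ≤ (p : ℝ) ^ p := one_le_pow₀ hp1
  have e1 : V ^ w * L = (CV ^ w * CL) ^ p *
      (((p : ℝ) ^ p) ^ ((q + 2) * w + (q + 2 * s)) / ((p : ℝ) ^ p) ^ g₀) := by
    rw [hV, hL, mul_pow, mul_pow, ← pow_mul CV p w, ← pow_mul CV w p, Nat.mul_comm p w,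
      ← pow_mul _ (q + 2) w, pow_add _ ((q + 2) * w)]
    ring
  rw [e1, div_pow, div_eq_mul_inv ((CV ^ w * CL) ^ p)]
  refine mul_le_mul_of_nonneg_left ?_ (by positivity)
  rw [div_le_iff₀ (by positivity), inv_mul_eq_div, le_div_iff₀ (by positivity), ← pow_succ]
  exact pow_le_pow_right₀ hpp hexp

/-- **The theorem of Siegel and Shidlovskii at algebraic points**: `l` independent relations over
`K` among the `m` values leave `m ≤ [K : ℚ] (m - l)`. -/
theorem le_mul_of_relations (ψ : K →+* ℂ) (T : Polynomial ℚ)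
    (Q : Matrix (Fin m) (Fin m) (Polynomial ℚ)) (hf : IsSolution T Q f)
    (hE : ∀ j, IsEFunction (f j))
    (hind : ∀ P : Fin m → Polynomial ℚ, formSeries f P = 0 → P = 0)
    {α : K} (hα0 : α ≠ 0) (hα : Polynomial.aeval α T ≠ 0) (hm : 0 < m) {l : ℕ}
    (h : Fin l → Fin m → K) (hli : LinearIndependent K h)
    (hrel : ∀ i, ∑ j, ψ (h i j) * cval (f j) (ψ α) = 0) :
    m ≤ Module.finrank ℚ K * (m - l) := by
  classical
  obtain ⟨E, hE0, hEr⟩ := exists_int_multiple
    (Sum.elim (fun _ : Unit => T) fun ij : Fin m × Fin m => Q ij.1 ij.2)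
  choose r hr using hEr
  obtain ⟨c, hc0, hc⟩ := exists_int_scale fun u : Fin l × Fin m => h u.1 u.2
  refine le_mul_of_int_relations ψ (r (.inl ())) (Matrix.of fun i j => r (.inr (i, j))) ?_ hE hind
    hα0 ?_ hm (fun i j => (c : K) * h i j) (fun i j => hc (i, j)) ?_ fun i => ?_
  · intro i
    have e : ∀ j, ((Matrix.of fun i j => r (Sum.inr (i, j))).map
        (Polynomial.map (Int.castRingHom ℚ))) i j = Polynomial.C (E : ℚ) * Q i j := fun j => by
      rw [Matrix.map_apply, Matrix.of_apply, hr]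
      rfl
    rw [hr]
    simp only [e, Sum.elim_inl, Polynomial.coe_mul, mul_assoc, hf i, Finset.mul_sum]
  · rw [← Polynomial.aeval_map_algebraMap ℚ, algebraMap_int_eq, hr, Sum.elim_inl, map_mul,
      Polynomial.aeval_C]
    exact mul_ne_zero ((map_ne_zero _).2 (Int.cast_ne_zero.2 hE0)) hα
  · exact hli.units_smul fun _ => Units.mk0 (c : K) (Nat.cast_ne_zero.2 hc0)
  · simp only [map_mul, mul_assoc, ← Finset.mul_sum, hrel, mul_zero]

end FA.SiegelShidlovskii

end
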