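import Mathlib.Analysis.SpecificLimits.Normed
import Mathlib.FieldTheory.IntermediateField.Adjoin.Algebra
import Mathlib.RingTheory.AlgebraicIndependent.Transcendental
import Mathlib.Algebra.MvPolynomial.PDeriv
import Fermat.Agent.SiegelShidlovskii.AlgebraicMain

/-!
# Algebraic independence of values of E-functions

The monomials of degree at most `D` in `f` solve a linear system; an algebraic relation of degree
`e` among the values gives a relation for each monomial of degree `D`, too many for large `D`.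
-/

set_option autoImplicit false

noncomputable section

open Finset Filter Topology

namespace FA.SiegelShidlovskii

variable {k : ℕ}

/-- The exponents of degree at most `D`. -/
def degreeIndex (k D : ℕ) : Finset (Fin k →₀ ℕ) :=
  (((Fintype.piFinset fun _ : Fin k => range (D + 1))).map
    Finsupp.equivFunOnFinite.symm.toEmbedding).filter fun μ => ∑ i, μ i ≤ D

theorem mem_degreeIndex {D : ℕ} {μ : Fin k →₀ ℕ} : μ ∈ degreeIndex k D ↔ ∑ i, μ i ≤ D := by
  simp only [degreeIndex, mem_filter, mem_map_equiv, Fintype.mem_piFinset, mem_range,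
    Equiv.symm_symm]
  refine and_iff_right_of_imp fun h i => Nat.lt_succ_of_le ?_
  exact (Finset.single_le_sum (f := fun i => μ i) (fun _ _ => Nat.zero_le _) (mem_univ i)).trans h

theorem card_degreeIndex_le (k D : ℕ) : (degreeIndex k D).card ≤ (D + 1) ^ k := by
  refine (Finset.card_filter_le _ _).trans_eq ?_
  simp

theorem card_degreeIndex_pos (k D : ℕ) : 0 < (degreeIndex k D).card :=
  Finset.card_pos.2 ⟨0, mem_degreeIndex.2 (by simp)⟩

/-- The sizes grow slower than any geometric sequence. -/
theorem exists_degreeIndex_ratio (k e d : ℕ) (hd : 0 < d) :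
    ∃ D, (d - 1) * (degreeIndex k (D + e)).card < d * (degreeIndex k D).card := by
  rcases Nat.eq_or_lt_of_le (show 1 ≤ d from hd) with h1 | h1
  · exact ⟨0, by rw [← h1]; simpa using card_degreeIndex_pos k 0⟩
  by_contra hall
  push Not at hall
  have hd1 : (0 : ℝ) < ((d - 1 : ℕ) : ℝ) := Nat.cast_pos.2 (by omega)
  set r : ℝ := (d : ℝ) / ((d - 1 : ℕ) : ℝ) with hr
  have hr1 : 1 < r := by rw [hr, one_lt_div hd1, Nat.cast_lt]; omega
  have hgrow : ∀ j, r ^ j ≤ ((degreeIndex k (j * e)).card : ℝ) := by
    intro j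
    induction j with
    | zero => simpa using (Nat.one_le_cast (α := ℝ)).2 (card_degreeIndex_pos k 0)
    | succ j ih =>
      rw [Nat.succ_mul, pow_succ, hr, mul_div_assoc', div_le_iff₀ hd1, ← hr]
      refine (mul_le_mul_of_nonneg_right ih (Nat.cast_nonneg _)).trans ?_
      rw [← Nat.cast_mul, ← Nat.cast_mul, Nat.cast_le, Nat.mul_comm,
        Nat.mul_comm _ (d - 1)]
      exact hall _
  have hlim : Tendsto (fun j : ℕ => r * ((e : ℝ) + 1) ^ k * (((j + 1 : ℕ) : ℝ) ^ k / r ^ (j + 1)))
      atTop (𝓝 0) := by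
    have h := ((tendsto_pow_const_div_const_pow_of_one_lt k hr1).comp
      (tendsto_add_atTop_nat 1)).const_mul (r * ((e : ℝ) + 1) ^ k)
    rw [mul_zero] at h
    exact h
  obtain ⟨j, hj⟩ := (hlim.eventually (eventually_lt_nhds zero_lt_one)).exists
  have h2 : ((degreeIndex k (j * e)).card : ℝ) ≤ (((j + 1 : ℕ) : ℝ) * ((e : ℝ) + 1)) ^ k := by
    refine (Nat.cast_le.2 (card_degreeIndex_le k (j * e))).trans ?_
    push_cast
    refine pow_le_pow_left₀ (by positivity) ?_ _
    nlinarith [Nat.cast_nonneg (α := ℝ) j, Nat.cast_nonneg (α := ℝ) e]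
  have h3 := (hgrow j).trans h2
  rw [pow_succ, mul_pow] at *
  have hr0 : (0 : ℝ) < r ^ j := pow_pos (by linarith) j
  rw [mul_div_assoc', div_lt_one (by positivity)] at hj
  nlinarith

theorem derivative_aeval_eq_sum (f : Fin k → PowerSeries ℚ) (p : MvPolynomial (Fin k) ℚ) :
    PowerSeries.derivative ℚ (MvPolynomial.aeval f p) =
      ∑ i, MvPolynomial.aeval f (MvPolynomial.pderiv i p) * PowerSeries.derivative ℚ (f i) := by
  induction p using MvPolynomial.induction_on with
  | C a => simp
  | add p q hp hq => simp only [map_add, hp, hq, add_mul, Finset.sum_add_distrib]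
  | mul_X p j hp =>
    have hX : ∑ i, MvPolynomial.aeval f p *
        MvPolynomial.aeval f (MvPolynomial.pderiv i (MvPolynomial.X j : MvPolynomial (Fin k) ℚ)) *
          PowerSeries.derivative ℚ (f i) =
        MvPolynomial.aeval f p * PowerSeries.derivative ℚ (f j) := by
      rw [Finset.sum_eq_single j]
      · simp
      · intro i _ hi
        simp [MvPolynomial.pderiv_X_of_ne (Ne.symm hi)]
      · exact fun hn => absurd (mem_univ _) hn
    simp only [map_mul, MvPolynomial.aeval_X, Derivation.leibniz, smul_eq_mul,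
      map_add, add_mul, Finset.sum_add_distrib, hX, hp, Finset.mul_sum]
    congr 1
    exact Finset.sum_congr rfl fun i _ => by ring

/-- The product `f ^ μ`. -/
def monomialSeries (f : Fin k → PowerSeries ℚ) (μ : Fin k →₀ ℕ) : PowerSeries ℚ :=
  ∏ i, f i ^ μ i

theorem aeval_monomial_eq (f : Fin k → PowerSeries ℚ) (μ : Fin k →₀ ℕ) (r : ℚ) :
    MvPolynomial.aeval f (MvPolynomial.monomial μ r) =
      algebraMap ℚ (PowerSeries ℚ) r * monomialSeries f μ := by
  rw [MvPolynomial.aeval_monomial, Finsupp.prod_fintype _ _ (by simp), monomialSeries]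

theorem monomialSeries_add (f : Fin k → PowerSeries ℚ) (μ ν : Fin k →₀ ℕ) :
    monomialSeries f (μ + ν) = monomialSeries f μ * monomialSeries f ν := by
  simp [monomialSeries, pow_add, Finset.prod_mul_distrib]

theorem monomialSeries_single (f : Fin k → PowerSeries ℚ) (j : Fin k) :
    monomialSeries f (Finsupp.single j 1) = f j := by
  rw [monomialSeries, Finset.prod_eq_single j (fun i _ hi => by simp [hi.symm])
    (fun hn => absurd (mem_univ _) hn)]
  simp

theorem monomialSeries_spec {f : Fin k → PowerSeries ℚ} (hE : ∀ i, IsEFunction (f i))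
    (μ : Fin k →₀ ℕ) (z : ℂ) : IsEFunction (monomialSeries f μ) ∧
      cval (monomialSeries f μ) z = ∏ i, cval (f i) z ^ μ i := by
  classical
  rw [monomialSeries]
  refine Finset.induction_on univ ?_ fun a s ha ih => ?_
  · simp [isEFunction_one, cval_one]
  · simp only [Finset.prod_insert ha]
    exact ⟨((hE a).pow _).mul ih.1, by rw [cval_mul ((hE a).pow _) ih.1, cval_pow (hE a), ih.2]⟩

theorem sum_sub_single {μ : Fin k →₀ ℕ} {i : Fin k} (h : μ i ≠ 0) :
    ∑ x, (μ - Finsupp.single i 1 : Fin k →₀ ℕ) x + 1 = ∑ x, μ x := by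
  have e : μ - Finsupp.single i 1 + Finsupp.single i 1 = μ :=
    tsub_add_cancel_of_le (Finsupp.single_le_iff.2 (Nat.one_le_iff_ne_zero.2 h))
  conv_rhs => rw [← e]
  simp only [Finsupp.add_apply, Finset.sum_add_distrib]
  simp [Finsupp.single_apply]

/-- The system of the monomials of degree at most `D`. -/
def degreeSystem {D n : ℕ} (e : Fin n ≃ degreeIndex k D) (q : Fin k → Polynomial ℚ)
    (Q : Matrix (Fin k) (Fin k) (Polynomial ℚ)) : Matrix (Fin n) (Fin n) (Polynomial ℚ) :=
  fun a b => ∑ i, ((if (e b : Fin k →₀ ℕ) = (e a : Fin k →₀ ℕ) - Finsupp.single i 1 then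
      Polynomial.C (((e a : Fin k →₀ ℕ) i : ℕ) : ℚ) * q i else 0) +
    ∑ j, (if (e b : Fin k →₀ ℕ) =
        (e a : Fin k →₀ ℕ) - Finsupp.single i 1 + Finsupp.single j 1 then
      Polynomial.C (((e a : Fin k →₀ ℕ) i : ℕ) : ℚ) * Q i j else 0))

theorem isSolution_degreeSystem {D n : ℕ} (e : Fin n ≃ degreeIndex k D)
    {f : Fin k → PowerSeries ℚ} {T : Polynomial ℚ} {q : Fin k → Polynomial ℚ}
    {Q : Matrix (Fin k) (Fin k) (Polynomial ℚ)}
    (hf : ∀ i, (T : PowerSeries ℚ) * PowerSeries.derivative ℚ (f i) =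
      (q i : PowerSeries ℚ) + ∑ j, (Q i j : PowerSeries ℚ) * f j) :
    IsSolution T (degreeSystem e q Q) fun b => monomialSeries f (e b) := by
  classical
  intro a
  obtain ⟨μ, hμ⟩ : ∃ μ, μ = (e a : Fin k →₀ ℕ) := ⟨_, rfl⟩
  have hmem : ∑ x, μ x ≤ D := by rw [hμ]; exact mem_degreeIndex.1 (e a).2
  have key : ∀ (ν : Fin k →₀ ℕ) (c : Polynomial ℚ), (c ≠ 0 → ∑ x, ν x ≤ D) →
      ∑ b, ((if (e b : Fin k →₀ ℕ) = ν then c else 0 : Polynomial ℚ) : PowerSeries ℚ) *
        monomialSeries f (e b) = (c : PowerSeries ℚ) * monomialSeries f ν := by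
    intro ν c hc
    by_cases h0 : c = 0
    · simp [h0]
    rw [e.sum_comp (fun x : degreeIndex k D =>
      ((if (x : Fin k →₀ ℕ) = ν then c else 0 : Polynomial ℚ) : PowerSeries ℚ) *
        monomialSeries f x), Finset.sum_eq_single ⟨ν, mem_degreeIndex.2 (hc h0)⟩]
    · simp
    · intro x _ hx
      rw [if_neg fun h => hx (Subtype.ext h)]
      simp
    · exact fun h => absurd (mem_univ _) h
  have hone : monomialSeries f μ = MvPolynomial.aeval f (MvPolynomial.monomial μ (1 : ℚ)) := by
    rw [aeval_monomial_eq, map_one, one_mul]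
  change (T : PowerSeries ℚ) * PowerSeries.derivative ℚ (monomialSeries f (e a)) =
    ∑ b, ((degreeSystem e q Q a b : Polynomial ℚ) : PowerSeries ℚ) * monomialSeries f (e b)
  simp only [degreeSystem, ← hμ, coe_polynomial_sum, Polynomial.coe_add, Finset.sum_mul, add_mul]
  rw [Finset.sum_comm, hone, derivative_aeval_eq_sum, Finset.mul_sum]
  refine Finset.sum_congr rfl fun i _ => ?_
  rw [Finset.sum_add_distrib, Finset.sum_comm (s := (univ : Finset (Fin n)))
    (t := (univ : Finset (Fin k)))]
  have hi : Polynomial.C ((μ i : ℕ) : ℚ) ≠ 0 → μ i ≠ 0 := fun h h0 => h (by simp [h0])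
  rw [key _ _ fun h => by
    have := sum_sub_single (hi (left_ne_zero_of_mul h))
    omega]
  rw [MvPolynomial.pderiv_monomial, aeval_monomial_eq, one_mul, mul_left_comm, hf i, mul_add,
    Finset.mul_sum]
  congr 1
  · rw [Polynomial.coe_mul, Polynomial.coe_C]
    change PowerSeries.C _ * _ * _ = _
    ring
  · refine Finset.sum_congr rfl fun j _ => ?_
    rw [key _ _ fun h => by
      have := sum_sub_single (hi (left_ne_zero_of_mul h))
      have hs : ∑ x, (Finsupp.single j 1 : Fin k →₀ ℕ) x = 1 := by simp [Finsupp.single_apply]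
      simp only [Finsupp.add_apply, Finset.sum_add_distrib]
      rw [hs]
      omega, monomialSeries_add, monomialSeries_single, Polynomial.coe_mul, Polynomial.coe_C]
    change PowerSeries.C _ * _ * _ = _
    ring

theorem independent_monomialSeries {D n : ℕ} (e : Fin n ≃ degreeIndex k D)
    {f : Fin k → PowerSeries ℚ} (hind : ∀ p : MvPolynomial (Fin k) (Polynomial ℚ),
      MvPolynomial.eval₂ Polynomial.coeToPowerSeries.ringHom f p = 0 → p = 0)
    (P : Fin n → Polynomial ℚ) (h : formSeries (fun b => monomialSeries f (e b)) P = 0) :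
    P = 0 := by
  classical
  have h1 := hind (∑ b, MvPolynomial.monomial (e b : Fin k →₀ ℕ) (P b)) (by
    rw [MvPolynomial.eval₂_sum, ← h, formSeries]
    refine Finset.sum_congr rfl fun b _ => ?_
    rw [MvPolynomial.eval₂_monomial, Finsupp.prod_fintype _ _ (by simp), monomialSeries]
    rfl)
  funext b
  have h2 := congrArg (MvPolynomial.coeff (e b : Fin k →₀ ℕ)) h1
  rw [MvPolynomial.coeff_zero, MvPolynomial.coeff_sum, Finset.sum_eq_single b] at h2
  · simpa using h2
  · intro c _ hc
    rw [MvPolynomial.coeff_monomial, if_neg]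
    exact fun hs => hc (e.injective (Subtype.ext hs))
  · exact fun hn => absurd (mem_univ _) hn

/-- **The theorem of Siegel and Shidlovskii**: algebraically independent E-functions have
algebraically independent values at algebraic points. -/
theorem algebraicIndependent_values {f : Fin k → PowerSeries ℚ} (T : Polynomial ℚ)
    (q : Fin k → Polynomial ℚ) (Q : Matrix (Fin k) (Fin k) (Polynomial ℚ))
    (hf : ∀ i, (T : PowerSeries ℚ) * PowerSeries.derivative ℚ (f i) =
      (q i : PowerSeries ℚ) + ∑ j, (Q i j : PowerSeries ℚ) * f j)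
    (hE : ∀ i, IsEFunction (f i))
    (hind : ∀ p : MvPolynomial (Fin k) (Polynomial ℚ),
      MvPolynomial.eval₂ Polynomial.coeToPowerSeries.ringHom f p = 0 → p = 0)
    {α : ℂ} (hα : IsAlgebraic ℚ α) (hα0 : α ≠ 0) (hT : Polynomial.aeval α T ≠ 0) :
    AlgebraicIndependent ℚ fun i => cval (f i) α := by
  classical
  rw [algebraicIndependent_iff]
  intro p hp
  by_contra hp0
  set K := IntermediateField.adjoin ℚ ({α} : Set ℂ) with hK
  have : FiniteDimensional ℚ K := IntermediateField.adjoin.finiteDimensional hα.isIntegral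
  have : NumberField K := { to_charZero := inferInstance, to_finiteDimensional := this }
  set a : K := ⟨α, IntermediateField.mem_adjoin_simple_self ℚ α⟩ with ha
  set e₀ := p.totalDegree with he₀
  set d := Module.finrank ℚ K with hd
  obtain ⟨D, hD⟩ := exists_degreeIndex_ratio k e₀ d Module.finrank_pos
  obtain ⟨e⟩ : Nonempty (Fin (degreeIndex k (D + e₀)).card ≃ degreeIndex k (D + e₀)) :=
    ⟨(degreeIndex k (D + e₀)).equivFin.symm⟩
  obtain ⟨e'⟩ : Nonempty (Fin (degreeIndex k D).card ≃ degreeIndex k D) :=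
    ⟨(degreeIndex k D).equivFin.symm⟩
  have hdeg : ∀ i ν, ¬ ∑ x, ν x ≤ D + e₀ → MvPolynomial.coeff ν
      (MvPolynomial.monomial (e' i : Fin k →₀ ℕ) (1 : ℚ) * p) = 0 := by
    intro i ν hν
    refine MvPolynomial.coeff_eq_zero_of_totalDegree_lt ?_
    have hsum : ∀ μ : Fin k →₀ ℕ, ∑ x ∈ μ.support, μ x = ∑ x, μ x := fun μ =>
      Finset.sum_subset (subset_univ _) fun x _ hx => Finsupp.notMem_support_iff.1 hx
    rw [hsum]
    refine lt_of_le_of_lt (MvPolynomial.totalDegree_mul _ _) ?_
    rw [MvPolynomial.totalDegree_monomial _ one_ne_zero, Finsupp.sum, hsum]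
    have := mem_degreeIndex.1 (e' i).2
    omega
  set h : Fin (degreeIndex k D).card → Fin (degreeIndex k (D + e₀)).card → K := fun i b =>
    algebraMap ℚ K (MvPolynomial.coeff (e b : Fin k →₀ ℕ)
      (MvPolynomial.monomial (e' i : Fin k →₀ ℕ) (1 : ℚ) * p)) with hh
  have hli : LinearIndependent K h := by
    rw [Fintype.linearIndependent_iff]
    intro c hc i
    set S : MvPolynomial (Fin k) K := ∑ j, MvPolynomial.monomial (e' j : Fin k →₀ ℕ) (c j) with hS
    have hSp : S * MvPolynomial.map (algebraMap ℚ K) p = 0 := by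
      refine MvPolynomial.ext _ _ fun ν => ?_
      have h1 : MvPolynomial.coeff ν (S * MvPolynomial.map (algebraMap ℚ K) p) = ∑ j, c j *
          algebraMap ℚ K (MvPolynomial.coeff ν
            (MvPolynomial.monomial (e' j : Fin k →₀ ℕ) (1 : ℚ) * p)) := by
        rw [hS, Finset.sum_mul, MvPolynomial.coeff_sum]
        refine Finset.sum_congr rfl fun j _ => ?_
        rw [← MvPolynomial.coeff_map, map_mul, MvPolynomial.map_monomial, map_one,
          ← MvPolynomial.coeff_C_mul, ← mul_assoc, MvPolynomial.C_mul_monomial, mul_one]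
      rw [h1, MvPolynomial.coeff_zero]
      by_cases hν : ∑ x, ν x ≤ D + e₀
      · have h2 := congrFun hc (e.symm ⟨ν, mem_degreeIndex.2 hν⟩)
        rw [Finset.sum_apply] at h2
        simpa only [hh, Pi.smul_apply, smul_eq_mul, Pi.zero_apply, Equiv.apply_symm_apply] using h2
      · simp [hdeg _ ν hν]
    rcases mul_eq_zero.1 hSp with h3 | h3
    · have h4 := congrArg (MvPolynomial.coeff (e' i : Fin k →₀ ℕ)) h3
      rw [hS, MvPolynomial.coeff_zero, MvPolynomial.coeff_sum, Finset.sum_eq_single i] at h4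
      · simpa using h4
      · intro j _ hj
        rw [MvPolynomial.coeff_monomial, if_neg]
        exact fun hs => hj (e'.injective (Subtype.ext hs))
      · exact fun hn => absurd (mem_univ _) hn
    · exact absurd ((map_eq_zero_iff _ (MvPolynomial.map_injective _
        (algebraMap ℚ K).injective)).1 h3) hp0
  have hrel : ∀ i, ∑ b, algebraMap K ℂ (h i b) *
      cval (monomialSeries f (e b : Fin k →₀ ℕ)) (algebraMap K ℂ a) = 0 := by
    intro i
    set r := MvPolynomial.monomial (e' i : Fin k →₀ ℕ) (1 : ℚ) * p with hr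
    have h1 : r = ∑ x : degreeIndex k (D + e₀),
        MvPolynomial.monomial (x : Fin k →₀ ℕ) (MvPolynomial.coeff (x : Fin k →₀ ℕ) r) := by
      ext ν
      rw [MvPolynomial.coeff_sum]
      by_cases hν : ∑ x, ν x ≤ D + e₀
      · rw [Finset.sum_eq_single ⟨ν, mem_degreeIndex.2 hν⟩]
        · simp
        · intro x _ hx
          rw [MvPolynomial.coeff_monomial, if_neg fun hs => hx (Subtype.ext hs)]
        · exact fun hn => absurd (mem_univ _) hn
      · rw [hdeg i ν hν, Finset.sum_eq_zero]
        intro x _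
        rw [MvPolynomial.coeff_monomial, if_neg]
        exact fun hs => hν (hs ▸ mem_degreeIndex.1 x.2)
    have h2 : MvPolynomial.aeval (fun i => cval (f i) α) r = 0 := by
      rw [hr, map_mul, hp, mul_zero]
    rw [h1, map_sum, ← e.sum_comp] at h2
    refine Eq.trans (Finset.sum_congr rfl fun b _ => ?_) h2
    rw [MvPolynomial.aeval_monomial, Finsupp.prod_fintype _ _ (by simp),
      (monomialSeries_spec hE _ _).2, hh, ← IsScalarTower.algebraMap_apply]
    rfl
  have hmain := le_mul_of_relations (f := fun b => monomialSeries f (e b : Fin k →₀ ℕ))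
    (algebraMap K ℂ) T (degreeSystem e q Q) (isSolution_degreeSystem e hf)
    (fun b => (monomialSeries_spec hE _ α).1) (independent_monomialSeries e hind)
    (α := a) (fun h0 => hα0 (congrArg (algebraMap K ℂ) h0)) (fun h0 => hT ?_)
    (card_degreeIndex_pos _ _) h hli hrel
  · replace hmain : (degreeIndex k (D + e₀)).card ≤
        d * ((degreeIndex k (D + e₀)).card - (degreeIndex k D).card) := by
      rw [hd]; convert hmain
    rw [Nat.mul_sub] at hmain
    have := card_degreeIndex_pos k (D + e₀)
    rw [Nat.sub_mul, Nat.one_mul] at hD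
    omega
  · rw [show α = algebraMap K ℂ a from rfl, Polynomial.aeval_algebraMap_apply, h0, map_zero]

end FA.SiegelShidlovskii

end
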