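import Mathlib.LinearAlgebra.FreeModule.PID
import Mathlib.RingTheory.PowerSeries.Basic
import Fermat.Agent.SiegelShidlovskii.AlgebraicIndependence

/-!
# The rank theorem for dependent solutions

A basis of the `ℚ[z]`-module spanned by a solution of `T f' = Q f` solves a system of the same
shape, so the values of the solution span at least the rank of that module over `[K : ℚ]`.
-/

set_option autoImplicit false

noncomputable section

open Finset
open scoped Nat

namespace FA.SiegelShidlovskii

theorem IsEFunction.add {g h : PowerSeries ℚ} (hg : IsEFunction g) (hh : IsEFunction h) :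
    IsEFunction (g + h) := by
  obtain ⟨A, hA, hAd⟩ := hg
  obtain ⟨B, hB, hBd⟩ := hh
  obtain ⟨-, -, hA0, -⟩ := hAd 0
  obtain ⟨-, -, hB0, -⟩ := hBd 0
  refine ⟨(A + B + 1) ^ 2, fun k => ?_, fun N => ?_⟩
  · rw [map_add, mul_add]
    refine (abs_add_le _ _).trans ((add_le_add (hA k) (hB k)).trans ?_)
    push_cast
    rw [← pow_mul, show 2 * (k + 1) = (k + 1) + (k + 1) by ring, pow_add _ (k + 1) (k + 1)]
    have hA' : (A : ℚ) ^ (k + 1) ≤ ((A : ℚ) + B + 1) ^ (k + 1) :=
      pow_le_pow_left₀ (Nat.cast_nonneg _) (by linarith [Nat.cast_nonneg (α := ℚ) B]) _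
    have hB' : (B : ℚ) ^ (k + 1) ≤ ((A : ℚ) + B + 1) ^ (k + 1) :=
      pow_le_pow_left₀ (Nat.cast_nonneg _) (by linarith [Nat.cast_nonneg (α := ℚ) A]) _
    rcases Nat.eq_zero_or_pos (A + B) with h0 | h0
    · obtain ⟨rfl, rfl⟩ : A = 0 ∧ B = 0 := by omega
      simp
    · have h2 : (2 : ℚ) ≤ ((A : ℚ) + B + 1) ^ (k + 1) := by
        have h1 : (1 : ℚ) ≤ (A : ℚ) + B := by exact_mod_cast h0
        exact le_trans (by linarith) (le_self_pow₀ (by linarith) k.succ_ne_zero)
      nlinarith
  · obtain ⟨a, ha0, ha, haz⟩ := hAd N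
    obtain ⟨b, hb0, hb, hbz⟩ := hBd N
    refine ⟨a * b, Nat.mul_pos ha0 hb0, ?_, fun k hk => ?_⟩
    · rw [← pow_mul, show 2 * (N + 1) = (N + 1) + (N + 1) by ring, pow_add _ (N + 1) (N + 1)]
      exact Nat.mul_le_mul (ha.trans (Nat.pow_le_pow_left (by omega) _))
        (hb.trans (Nat.pow_le_pow_left (by omega) _))
    · obtain ⟨x, hx⟩ := haz k hk
      obtain ⟨y, hy⟩ := hbz k hk
      refine ⟨b * x + a * y, ?_⟩
      push_cast
      rw [map_add, hx, hy]
      ring

theorem isEFunction_C (c : ℚ) : IsEFunction (PowerSeries.C c) := by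
  refine ⟨c.num.natAbs + c.den, fun k => ?_, fun N => ⟨c.den, c.den_pos, ?_, fun k _ => ?_⟩⟩
  · have h1 : (1 : ℚ) ≤ ((c.num.natAbs + c.den : ℕ) : ℚ) :=
      Nat.one_le_cast.2 (le_add_left c.den_pos)
    rw [PowerSeries.coeff_C]
    split_ifs with hk
    · subst hk
      rw [Nat.factorial_zero, Nat.cast_one, one_mul, zero_add, pow_one]
      have h2 : |c| ≤ (c.num.natAbs : ℚ) := by
        conv_lhs => rw [← Rat.num_div_den c]
        rw [abs_div, Nat.abs_cast, Nat.cast_natAbs, Int.cast_abs]
        exact div_le_self (abs_nonneg _) (Nat.one_le_cast.2 c.den_pos)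
      exact h2.trans (by push_cast; linarith [Nat.cast_nonneg (α := ℚ) c.den])
    · rw [mul_zero, abs_zero]
      exact pow_nonneg (zero_le_one.trans h1) _
  · exact le_trans (Nat.le_add_left _ _) (Nat.le_self_pow N.succ_ne_zero _)
  · rw [PowerSeries.coeff_C]
    split_ifs with hk
    · subst hk
      exact ⟨c.num, by rw [Nat.factorial_zero, Nat.cast_one, one_mul, mul_comm, Rat.mul_den_eq_num]⟩
    · exact ⟨0, by simp⟩

theorem isEFunction_X : IsEFunction (PowerSeries.X : PowerSeries ℚ) := by
  refine ⟨1, fun k => ?_, fun N => ⟨1, one_pos, by simp, fun k _ => ⟨if k = 1 then 1 else 0, ?_⟩⟩⟩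
  all_goals rw [PowerSeries.coeff_X]; split_ifs with h <;> simp [h]

theorem isEFunction_coe (P : Polynomial ℚ) : IsEFunction (P : PowerSeries ℚ) := by
  induction P using Polynomial.induction_on with
  | C a => rw [Polynomial.coe_C]; exact isEFunction_C a
  | add p q hp hq => rw [Polynomial.coe_add]; exact hp.add hq
  | monomial n a h =>
    rw [pow_succ, ← mul_assoc, Polynomial.coe_mul, Polynomial.coe_X]
    exact h.mul isEFunction_X

theorem IsEFunction.formSeries {m : ℕ} {f : Fin m → PowerSeries ℚ} (hE : ∀ j, IsEFunction (f j))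
    (P : Fin m → Polynomial ℚ) : IsEFunction (formSeries f P) := by
  refine Finset.sum_induction _ IsEFunction (fun a b => IsEFunction.add) ?_ fun j _ =>
    (isEFunction_coe (P j)).mul (hE j)
  simpa using isEFunction_C 0

theorem polynomial_smul_series (P : Polynomial ℚ) (g : PowerSeries ℚ) :
    P • g = (P : PowerSeries ℚ) * g := rfl

theorem exists_formSeries_of_mem_span {m : ℕ} {f : Fin m → PowerSeries ℚ} {x : PowerSeries ℚ}
    (hx : x ∈ Submodule.span (Polynomial ℚ) (Set.range f)) :
    ∃ P : Fin m → Polynomial ℚ, x = formSeries f P := by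
  obtain ⟨P, rfl⟩ := (Submodule.mem_span_range_iff_exists_fun (Polynomial ℚ)).1 hx
  exact ⟨P, by simp only [polynomial_smul_series]; rfl⟩

theorem formSeries_mem_span {m : ℕ} (f : Fin m → PowerSeries ℚ) (P : Fin m → Polynomial ℚ) :
    formSeries f P ∈ Submodule.span (Polynomial ℚ) (Set.range f) :=
  Submodule.sum_mem _ fun j _ => by
    rw [← polynomial_smul_series]
    exact Submodule.smul_mem _ _ (Submodule.subset_span ⟨j, rfl⟩)

/-- **The rank theorem for dependent solutions.** -/
theorem card_le_mul_finrank_values {m : ℕ} {f : Fin m → PowerSeries ℚ} (T : Polynomial ℚ)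
    (Q : Matrix (Fin m) (Fin m) (Polynomial ℚ)) (hf : IsSolution T Q f)
    (hE : ∀ j, IsEFunction (f j)) {K : Type*} [Field K] [NumberField K] [Algebra K ℂ] {α : K}
    (hα0 : α ≠ 0) (hα : Polynomial.aeval α T ≠ 0) {σ : Finset (Fin m)}
    (hσ : ∀ P : Fin m → Polynomial ℚ, (∀ j ∉ σ, P j = 0) → formSeries f P = 0 → P = 0) :
    σ.card ≤ Module.finrank ℚ K * Module.finrank K
      (Submodule.span K (Set.range fun j => cval (f j) (algebraMap K ℂ α))) := by
  classical
  set M := Submodule.span (Polynomial ℚ) (Set.range f) with hM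
  have : Module.Finite (Polynomial ℚ) M := Module.Finite.span_of_finite _ (Set.finite_range f)
  have : Module.IsTorsionFree (Polynomial ℚ) (PowerSeries ℚ) :=
    Module.IsTorsionFree.of_smul_eq_zero fun P x h => by
      rw [polynomial_smul_series, mul_eq_zero] at h
      exact h.imp_left fun h' => Polynomial.coe_inj.1 (h'.trans Polynomial.coe_zero.symm)
  obtain ⟨r, b⟩ := Module.basisOfFiniteTypeTorsionFree' (R := Polynomial ℚ) (M := M)
  set u : Fin r → PowerSeries ℚ := fun i => (b i : PowerSeries ℚ) with hu
  have hu' : ∀ x ∈ M, ∃ P : Fin r → Polynomial ℚ, x = formSeries u P := fun x hx => by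
    refine ⟨fun i => b.repr ⟨x, hx⟩ i, ?_⟩
    have h := congrArg (fun y : M => (y : PowerSeries ℚ)) (b.sum_repr ⟨x, hx⟩)
    simp only [Submodule.coe_sum, Submodule.coe_smul, polynomial_smul_series] at h
    exact h.symm
  choose C hC using fun i => exists_formSeries_of_mem_span (b i).2
  -- the independent functions
  have hcard : σ.card ≤ r := by
    have hli : LinearIndependent (Polynomial ℚ)
        (fun j : σ => (⟨f j, Submodule.subset_span ⟨j, rfl⟩⟩ : M)) := by
      rw [Fintype.linearIndependent_iff]
      intro g hg j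
      have h := congrArg (fun y : M => (y : PowerSeries ℚ)) hg
      simp only [Submodule.coe_sum, Submodule.coe_smul, polynomial_smul_series,
        ZeroMemClass.coe_zero] at h
      have h0 := hσ (fun i => if hi : i ∈ σ then g ⟨i, hi⟩ else 0) (fun i hi => dif_neg hi) (by
        rw [← h, formSeries, ← Finset.sum_subset (subset_univ σ) (fun i _ hi => by simp [hi]),
          ← Finset.sum_coe_sort σ]
        exact Finset.sum_congr rfl fun i _ => by rw [dif_pos i.2])
      simpa using congrFun h0 j
    have h := hli.fintype_card_le_finrank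
    rwa [Fintype.card_coe, Module.finrank_eq_card_basis b, Fintype.card_fin] at h
  refine hcard.trans ?_
  rcases Nat.eq_zero_or_pos r with hr | hr
  · rw [hr]
    exact Nat.zero_le _
  -- the system of the basis
  have hTd : ∀ i, (T : PowerSeries ℚ) * PowerSeries.derivative ℚ (u i) ∈ M := fun i => by
    rw [hu]
    dsimp only
    rw [hC i, formSeries, map_sum, Finset.mul_sum]
    refine Submodule.sum_mem _ fun j _ => ?_
    rw [Derivation.leibniz, smul_eq_mul, smul_eq_mul, PowerSeries.derivative_coe, mul_add,
      mul_left_comm (T : PowerSeries ℚ), hf j, mul_left_comm (T : PowerSeries ℚ) (f j),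
      mul_comm (f j), ← Polynomial.coe_mul]
    refine Submodule.add_mem _ ?_ ?_
    · rw [← polynomial_smul_series]
      exact Submodule.smul_mem _ _ (formSeries_mem_span f (Q j))
    · rw [← polynomial_smul_series]
      exact Submodule.smul_mem _ _ (Submodule.subset_span ⟨j, rfl⟩)
  choose R hR using fun i => hu' _ (hTd i)
  have hindu : ∀ P : Fin r → Polynomial ℚ, formSeries u P = 0 → P = 0 := fun P hP => by
    refine funext (Fintype.linearIndependent_iff.1 b.linearIndependent P ?_)
    apply Subtype.ext
    simp only [Submodule.coe_sum, Submodule.coe_smul, polynomial_smul_series,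
      ZeroMemClass.coe_zero]
    exact hP
  have hEu : ∀ i, IsEFunction (u i) := fun i => by
    rw [hu]
    dsimp only
    rw [hC i]
    exact IsEFunction.formSeries hE _
  set z := algebraMap K ℂ α with hz
  set v : Fin r → ℂ := fun i => cval (u i) z with hv
  have hspan : Submodule.span K (Set.range v) ≤
      Submodule.span K (Set.range fun j => cval (f j) z) := by
    rw [Submodule.span_le]
    rintro _ ⟨i, rfl⟩
    simp only [hv, hu]
    rw [hC i, (chasVal_formSeries (fun j => (hE j).expGrowth) (C i) z).cval_eq]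
    refine Submodule.sum_mem _ fun j _ => ?_
    have e : Polynomial.eval₂ (Rat.castHom ℂ) z (C i j) =
        algebraMap K ℂ (Polynomial.aeval α (C i j)) := by
      rw [Polynomial.aeval_def, Polynomial.hom_eval₂, hz]
      congr 1
      exact Subsingleton.elim _ _
    rw [e, ← Algebra.smul_def]
    exact Submodule.smul_mem _ _ (Submodule.subset_span ⟨j, rfl⟩)
  set L := Fintype.linearCombination K v
  have h1 := LinearMap.finrank_range_add_finrank_ker L
  rw [Module.finrank_fin_fun, Fintype.range_linearCombination K v] at h1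
  set c := Module.finBasis K (LinearMap.ker L)
  have h2 := le_mul_of_relations (algebraMap K ℂ) T R (f := u) (fun i => hR i) hEu hindu hα0 hα hr
    (fun i => (c i : Fin r → K)) (c.linearIndependent.map' _ (Submodule.ker_subtype _))
    fun i => by
      have h : Fintype.linearCombination K v (c i : Fin r → K) = 0 := LinearMap.mem_ker.1 (c i).2
      rw [Fintype.linearCombination_apply] at h
      simpa only [Algebra.smul_def] using! h
  refine h2.trans (Nat.mul_le_mul_left _ ?_)
  have : FiniteDimensional K (Submodule.span K (Set.range fun j => cval (f j) z)) :=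
    FiniteDimensional.span_of_finite K (Set.finite_range _)
  have := Submodule.finrank_mono hspan
  omega

end FA.SiegelShidlovskii

end
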