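import Mathlib.Data.Nat.Choose.Factorization
import Fermat.Agent.Apery.Chebyshev
import Fermat.Agent.SiegelShidlovskii.Bessel

/-!
# Siegel's functions `K_λ`

`K_λ z = ∑ (-1) ^ i (z / 2) ^ (2 i) / (i! (λ + 1) … (λ + i))` for rational `λ` no negative integer.
A product of `n` terms of an arithmetic progression of step `b` prime to them divides
`n! lcm (1, …, M)`, so `K_λ` is an E-function.
-/

set_option autoImplicit false

noncomputable section

open Finset
open scoped Nat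

namespace FA.SiegelShidlovskii

theorem prod_progression_dvd {a : ℤ} {b : ℕ} (hab : Int.gcd a b = 1) {i M : ℕ}
    (hne : ∀ j ∈ Icc 1 i, a + (j : ℤ) * b ≠ 0)
    (hM : ∀ j ∈ Icc 1 i, (a + (j : ℤ) * b).natAbs ≤ M) :
    ∏ j ∈ Icc 1 i, (a + (j : ℤ) * b).natAbs ∣ i ! * Nat.lcmUpto M := by
  have hx0 : ∀ j ∈ Icc 1 i, (a + (j : ℤ) * b).natAbs ≠ 0 := fun j hj =>
    Int.natAbs_ne_zero.2 (hne j hj)
  have hprod : ∏ j ∈ Icc 1 i, (a + (j : ℤ) * b).natAbs ≠ 0 := Finset.prod_ne_zero_iff.2 hx0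
  refine (Nat.factorization_prime_le_iff_dvd hprod
    (mul_ne_zero i.factorial_ne_zero (Nat.lcmUpto_pos M).ne')).1 fun p hp => ?_
  set B := M + i + 1 with hB
  have hlt : ∀ x, x ≤ M → x < p ^ B := fun x hx =>
    lt_of_le_of_lt hx ((show M < B by omega).trans (Nat.lt_pow_self hp.one_lt))
  rw [Nat.factorization_prod hx0, Finsupp.finsetSum_apply,
    Nat.factorization_mul i.factorial_ne_zero (Nat.lcmUpto_pos M).ne', Finsupp.add_apply,
    Nat.factorization_factorial hp (b := B)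
      (lt_of_le_of_lt (Nat.log_le_self p i) (by omega)),
    Finset.sum_congr rfl fun j hj => Nat.factorization_eq_card_pow_dvd_of_lt hp
      (Nat.pos_of_ne_zero (hx0 j hj)) (hlt _ (hM j hj))]
  simp only [Finset.card_filter]
  rw [Finset.sum_comm]
  have hlcm : #((Ico 1 B).filter fun k => p ^ k ≤ M) ≤ (Nat.lcmUpto M).factorization p := by
    refine (Finset.card_le_card (t := Icc 1 ((Nat.lcmUpto M).factorization p)) fun k hk => ?_).trans
      (by simp)
    rw [mem_filter, mem_Ico] at hk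
    refine mem_Icc.2 ⟨hk.1.1, (hp.pow_dvd_iff_le_factorization (Nat.lcmUpto_pos M).ne').1 ?_⟩
    exact Finset.dvd_lcm (f := id)
      (mem_Icc.2 ⟨hp.pos.trans_le (Nat.le_self_pow (by omega) p), hk.2⟩)
  refine le_trans ?_ (Nat.add_le_add_left hlcm _)
  rw [Finset.card_filter, ← Finset.sum_add_distrib]
  refine Finset.sum_le_sum fun k hk => ?_
  rw [← Finset.card_filter]
  rcases Finset.eq_empty_or_nonempty
      ((Icc 1 i).filter fun j : ℕ => p ^ k ∣ (a + (j : ℤ) * b).natAbs) with h0 | ⟨j₀, hj₀⟩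
  · simp [h0]
  rw [mem_filter] at hj₀
  have hk1 : 1 ≤ k := (mem_Ico.1 hk).1
  rw [if_pos ((Nat.le_of_dvd (Nat.pos_of_ne_zero (hx0 j₀ hj₀.1)) hj₀.2).trans (hM j₀ hj₀.1))]
  have hcop : Int.gcd ((p ^ k : ℕ) : ℤ) b = 1 := by
    rw [Int.gcd_natCast_natCast]
    refine Nat.Coprime.pow_left k ((hp.coprime_iff_not_dvd).2 fun hpb => hp.one_lt.ne' ?_)
    have h1 : (p : ℤ) ∣ a + (j₀ : ℤ) * b :=
      Int.natCast_dvd.2 ((dvd_pow_self p (by omega)).trans hj₀.2)
    have h2 : (p : ℤ) ∣ a := by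
      have h3 : (p : ℤ) ∣ (j₀ : ℤ) * b := (Int.natCast_dvd_natCast.2 hpb).mul_left _
      simpa using dvd_sub h1 h3
    have h3 := Int.dvd_gcd h2 (Int.natCast_dvd_natCast.2 hpb)
    rw [hab] at h3
    exact Nat.eq_one_of_dvd_one h3
  refine (Finset.card_le_card_of_injOn (t := range (i / p ^ k + 1)) (fun j => (j - 1) / p ^ k)
    (fun j hj => ?_) fun j hj j' hj' he => ?_).trans (by simp)
  · simp only [Finset.coe_filter, mem_Icc, Set.mem_ofPred_eq] at hj
    exact mem_coe.2 (mem_range.2 (Nat.lt_succ_of_le (Nat.div_le_div_right (by omega))))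
  · simp only [Finset.coe_filter, mem_Icc, Set.mem_ofPred_eq] at hj hj'
    dsimp only at he
    have h1 : ((p ^ k : ℕ) : ℤ) ∣ ((j : ℤ) - j') * b := by
      have h := dvd_sub (Int.natCast_dvd.2 hj.2) (Int.natCast_dvd.2 hj'.2)
      rwa [show a + (j : ℤ) * b - (a + (j' : ℤ) * b) = ((j : ℤ) - j') * b by ring] at h
    have h2 := Int.dvd_of_dvd_mul_left_of_gcd_one h1 hcop
    have hpk : 0 < p ^ k := pow_pos hp.pos k
    have h3 : |(j : ℤ) - j'| < ((p ^ k : ℕ) : ℤ) := by
      have e1 := Nat.mod_lt (j - 1) hpk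
      have e2 := Nat.mod_lt (j' - 1) hpk
      have e3 := Nat.div_add_mod (j - 1) (p ^ k)
      have e4 := Nat.div_add_mod (j' - 1) (p ^ k)
      rw [he] at e3
      generalize (j - 1) % p ^ k = r₁ at e1 e3
      generalize (j' - 1) % p ^ k = r₂ at e2 e4
      rw [abs_lt]
      constructor <;> omega
    have := Int.eq_zero_of_abs_lt_dvd h2 h3
    omega

theorem prod_Icc_self_eq_factorial (n : ℕ) : ∏ j ∈ Icc 1 n, j = n ! := by
  induction n with
  | zero => simp
  | succ n ih => rw [Finset.prod_Icc_succ_top (by omega), ih, Nat.factorial_succ, mul_comm]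

/-- The product `(λ + 1) … (λ + n)`. -/
def risingProd (lam : ℚ) (n : ℕ) : ℚ := ∏ j ∈ Icc 1 n, (lam + j)

theorem risingProd_succ (lam : ℚ) (n : ℕ) :
    risingProd lam (n + 1) = risingProd lam n * (lam + (n + 1 : ℕ)) := by
  rw [risingProd, risingProd, Finset.prod_Icc_succ_top (by omega)]

theorem risingProd_ne_zero {lam : ℚ} (hlam : ∀ m : ℕ, lam ≠ -((m : ℚ) + 1)) (n : ℕ) :
    risingProd lam n ≠ 0 :=
  Finset.prod_ne_zero_iff.2 fun j hj h => hlam (j - 1) (by
    rw [mem_Icc] at hj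
    rw [Nat.cast_sub hj.1, Nat.cast_one]
    linarith)

/-- The series of `K_λ`. -/
def kSeries (lam : ℚ) : PowerSeries ℚ := PowerSeries.mk fun k =>
  if Even k then (-1 : ℚ) ^ (k / 2) / (4 ^ (k / 2) * ((k / 2)! : ℚ) * risingProd lam (k / 2)) else 0

theorem kSeries_ne_zero (lam : ℚ) : kSeries lam ≠ 0 := fun h => by
  have := congrArg (PowerSeries.coeff 0) h
  simp [kSeries, risingProd] at this

theorem kSeries_equation {lam : ℚ} (hlam : ∀ m : ℕ, lam ≠ -((m : ℚ) + 1)) :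
    PowerSeries.X * PowerSeries.derivative ℚ (PowerSeries.derivative ℚ (kSeries lam)) +
      PowerSeries.C (2 * lam + 1) * PowerSeries.derivative ℚ (kSeries lam) +
      PowerSeries.X * kSeries lam = 0 := by
  ext k
  rcases k with _ | k
  · rw [(PowerSeries.coeff 0).map_add, (PowerSeries.coeff 0).map_add,
      (PowerSeries.coeff 0).map_zero,
      PowerSeries.coeff_C_mul, PowerSeries.coeff_derivative, kSeries, PowerSeries.coeff_mk]
    simp
  · rw [(PowerSeries.coeff (k + 1)).map_add, (PowerSeries.coeff (k + 1)).map_add,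
      (PowerSeries.coeff (k + 1)).map_zero, PowerSeries.coeff_succ_X_mul, PowerSeries.coeff_C_mul,
      PowerSeries.coeff_succ_X_mul]
    simp only [PowerSeries.coeff_derivative, kSeries, PowerSeries.coeff_mk]
    rcases Nat.even_or_odd k with ⟨i, rfl⟩ | ⟨i, rfl⟩
    · rw [if_pos (show Even (i + i + 1 + 1) from ⟨i + 1, by omega⟩),
        if_pos (show Even (i + i) from ⟨i, rfl⟩),
        show (i + i + 1 + 1) / 2 = i + 1 by omega, show (i + i) / 2 = i by omega,
        Nat.factorial_succ, pow_succ, pow_succ, risingProd_succ]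
      push_cast
      have : (i ! : ℚ) ≠ 0 := Nat.cast_ne_zero.2 (Nat.factorial_ne_zero _)
      have : ((i : ℚ) + 1) ≠ 0 := Nat.cast_add_one_ne_zero i
      have : risingProd lam i ≠ 0 := risingProd_ne_zero hlam i
      have : lam + ((i : ℚ) + 1) ≠ 0 := fun h => hlam i (by linarith)
      field_simp
      ring
    · rw [if_neg (by rw [Nat.not_even_iff_odd]; exact ⟨i + 1, by omega⟩),
        if_neg (by rw [Nat.not_even_iff_odd]; exact ⟨i, rfl⟩)]
      ring

/-- The quotients `i! / ((λ + 1) … (λ + i))` and their common denominators grow geometrically. -/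
theorem exists_risingProd_bounds {lam : ℚ} (hlam : ∀ m : ℕ, lam ≠ -((m : ℚ) + 1)) :
    ∃ A : ℕ, 1 ≤ A ∧ (∀ i, |(i ! : ℚ) / risingProd lam i| ≤ (A : ℚ) ^ i) ∧
      ∀ N, ∃ D : ℕ, 0 < D ∧ D ≤ A ^ (N + 1) ∧
        ∀ i ≤ N, ∃ z : ℤ, (z : ℚ) = (D : ℚ) * ((i ! : ℚ) / risingProd lam i) := by
  set a := lam.num with ha
  set b := lam.den with hb
  have hb0 : (b : ℚ) ≠ 0 := Nat.cast_ne_zero.2 lam.den_nz
  have hab : Int.gcd a b = 1 := by rw [Int.gcd]; exact lam.reduced
  have hfac : ∀ j : ℕ, lam + j = ((a + (j : ℤ) * b : ℤ) : ℚ) / b := fun j => by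
    have h1 : lam = (a : ℚ) / b := (Rat.num_div_den lam).symm
    rw [h1]
    push_cast
    field_simp
  have hne : ∀ (i : ℕ), ∀ j ∈ Icc 1 i, a + (j : ℤ) * b ≠ 0 := fun i j hj h => by
    have h1 := hfac j
    rw [h, Int.cast_zero, zero_div] at h1
    exact Finset.prod_ne_zero_iff.1 (risingProd_ne_zero hlam i) j hj h1
  have key : ∀ i, (i ! : ℚ) / risingProd lam i =
      (i ! : ℚ) * (b : ℚ) ^ i / ∏ j ∈ Icc 1 i, ((a + (j : ℤ) * b : ℤ) : ℚ) := fun i => by
    rw [risingProd, Finset.prod_congr rfl fun j _ => hfac j, Finset.prod_div_distrib,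
      Finset.prod_const, Nat.card_Icc, Nat.add_sub_cancel, div_div_eq_mul_div]
  obtain ⟨C₀, hC₀, hlcm⟩ := Apery.exists_lcmUpto_le
  obtain ⟨C₁, hC₁⟩ : ∃ C₁ : ℕ, ∀ n, Nat.lcmUpto n ≤ C₁ * 4 ^ n := ⟨⌈C₀⌉₊, fun n => by
    rw [← Nat.cast_le (α := ℝ)]
    push_cast
    exact (hlcm n).trans (mul_le_mul (Nat.le_ceil _) (pow_le_pow_left₀ (by norm_num)
      (by norm_num) n) (by positivity) (Nat.cast_nonneg _))⟩
  set A := (1 + a.natAbs) * ((C₁ + 1) * 4 ^ a.natAbs) * 4 ^ b with hA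
  have hA1 : 1 ≤ A := Nat.one_le_iff_ne_zero.2 (by rw [hA]; positivity)
  refine ⟨A, hA1, fun i => ?_, fun N =>
    ⟨Nat.lcmUpto (a.natAbs + N * b), Nat.lcmUpto_pos _, ?_, fun i hiN => ?_⟩⟩
  · rw [key, abs_div, abs_mul, Nat.abs_cast, abs_pow, Nat.abs_cast, Finset.abs_prod]
    refine le_trans ?_ (pow_le_pow_left₀ (Nat.cast_nonneg _)
      (Nat.cast_le.2 (show 1 + a.natAbs ≤ A by
        rw [hA, mul_assoc]; exact Nat.le_mul_of_pos_right _ (by positivity))) i)
    have hpos : 0 < ∏ j ∈ Icc 1 i, |((a + (j : ℤ) * b : ℤ) : ℚ)| :=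
      Finset.prod_pos fun j hj => abs_pos.2 (Int.cast_ne_zero.2 (hne i j hj))
    rw [div_le_iff₀ hpos]
    have e : (i ! : ℚ) * (b : ℚ) ^ i = ∏ j ∈ Icc 1 i, ((j : ℚ) * b) := by
      rw [Finset.prod_mul_distrib, Finset.prod_const, Nat.card_Icc, Nat.add_sub_cancel,
        ← Nat.cast_prod, prod_Icc_self_eq_factorial]
    have e' : ((1 + a.natAbs : ℕ) : ℚ) ^ i = ∏ _j ∈ Icc 1 i, ((1 + a.natAbs : ℕ) : ℚ) := by
      rw [Finset.prod_const, Nat.card_Icc, Nat.add_sub_cancel]
    rw [e, e', ← Finset.prod_mul_distrib]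
    refine Finset.prod_le_prod (fun j _ => by positivity) fun j hj => ?_
    set x : ℤ := a + (j : ℤ) * b
    have hx : 1 ≤ x.natAbs := Nat.one_le_iff_ne_zero.2 (Int.natAbs_ne_zero.2 (hne i j hj))
    have h3 : j * b ≤ (1 + a.natAbs) * x.natAbs := by
      have h4 : j * b ≤ x.natAbs + a.natAbs := by
        have h5 := Int.natAbs_sub_le x a
        rw [show x - a = ((j * b : ℕ) : ℤ) by push_cast; ring, Int.natAbs_natCast] at h5
        exact h5
      refine h4.trans ?_
      rw [add_mul, one_mul]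
      exact Nat.add_le_add_left (Nat.le_mul_of_pos_right _ hx) _
    have h5 : ((j * b : ℕ) : ℚ) ≤ (((1 + a.natAbs) * x.natAbs : ℕ) : ℚ) := Nat.cast_le.2 h3
    rw [Nat.cast_mul, Nat.cast_mul, Nat.cast_natAbs, Int.cast_abs] at h5
    exact h5
  · refine (hC₁ _).trans ?_
    rw [pow_add, mul_comm N b, pow_mul, pow_succ, ← mul_assoc, mul_comm]
    refine Nat.mul_le_mul (Nat.pow_le_pow_left ?_ N) ?_
    · exact Nat.le_mul_of_pos_left _ (by positivity)
    · refine le_trans ?_ (Nat.le_mul_of_pos_right _ (by positivity))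
      refine le_trans ?_ (Nat.le_mul_of_pos_left _ (by positivity))
      exact Nat.mul_le_mul_right _ (Nat.le_succ _)
  · rw [key]
    have hdvd := prod_progression_dvd (M := a.natAbs + N * b) hab (hne i) fun j hj => by
      rw [mem_Icc] at hj
      refine (Int.natAbs_add_le _ _).trans (Nat.add_le_add_left ?_ _)
      rw [Int.natAbs_mul, Int.natAbs_natCast, Int.natAbs_natCast]
      exact Nat.mul_le_mul_right _ (by omega)
    obtain ⟨w, hw⟩ := hdvd
    obtain ⟨w', hw'⟩ : ∃ w' : ℤ, ((i ! * Nat.lcmUpto (a.natAbs + N * b) : ℕ) : ℤ) =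
        (∏ j ∈ Icc 1 i, (a + (j : ℤ) * b)) * w' := by
      have h1 : (∏ j ∈ Icc 1 i, (a + (j : ℤ) * b)).natAbs =
          ∏ j ∈ Icc 1 i, (a + (j : ℤ) * b).natAbs :=
        Finset.induction_on (Icc 1 i) (by simp) fun x s hx ih => by
          simp [Finset.prod_insert hx, Int.natAbs_mul, ih]
      exact Int.dvd_natCast.2 ⟨w, by rw [h1]; exact hw⟩
    refine ⟨(b : ℤ) ^ i * w', ?_⟩
    have hP : (∏ j ∈ Icc 1 i, ((a + (j : ℤ) * b : ℤ) : ℚ)) ≠ 0 :=
      Finset.prod_ne_zero_iff.2 fun j hj => Int.cast_ne_zero.2 (hne i j hj)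
    have hw'' := congrArg (fun t : ℤ => (t : ℚ)) hw'
    simp only [Int.cast_mul, Int.cast_natCast, Nat.cast_mul, Int.cast_prod] at hw''
    push_cast at hw'' hP ⊢
    field_simp
    linear_combination -hw''

theorem isEFunction_kSeries {lam : ℚ} (hlam : ∀ m : ℕ, lam ≠ -((m : ℚ) + 1)) :
    IsEFunction (kSeries lam) := by
  have hk : ∀ k, (k ! : ℚ) * PowerSeries.coeff k (kSeries lam) = if Even k then
      (-1 : ℚ) ^ (k / 2) * ((k / 2).centralBinom : ℚ) / 4 ^ (k / 2) *
        (((k / 2)! : ℚ) / risingProd lam (k / 2)) else 0 := by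
    intro k
    rw [kSeries, PowerSeries.coeff_mk]
    split_ifs with h
    · obtain ⟨i, rfl⟩ := h
      rw [show (i + i) / 2 = i by omega, Nat.centralBinom_eq_two_mul_choose,
        show 2 * i = i + i by omega]
      have h1 := congrArg (fun t : ℕ => (t : ℚ))
        (Nat.choose_mul_factorial_mul_factorial (Nat.le_add_right i i))
      rw [Nat.add_sub_cancel] at h1
      push_cast at h1
      rw [← h1]
      have : (i ! : ℚ) ≠ 0 := Nat.cast_ne_zero.2 (Nat.factorial_ne_zero _)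
      have := risingProd_ne_zero hlam i
      field_simp
    · rw [mul_zero]
  obtain ⟨A, hA1, hle, hden⟩ := exists_risingProd_bounds hlam
  refine ⟨4 * A, fun k => ?_, fun N => ?_⟩
  · rw [hk]
    split_ifs with h
    · obtain ⟨i, rfl⟩ := h
      rw [show (i + i) / 2 = i by omega, abs_mul, abs_div, abs_mul, abs_pow, abs_neg, abs_one,
        one_pow, one_mul, Nat.abs_cast, abs_pow, abs_of_pos (by norm_num : (0 : ℚ) < 4)]
      have h1 : ((i).centralBinom : ℚ) / 4 ^ i ≤ 1 := by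
        rw [div_le_one (by positivity)]
        have h2 : i.centralBinom ≤ 2 ^ (2 * i) := Nat.choose_le_two_pow _ _
        rw [show (4 : ℚ) = 2 ^ 2 by norm_num, ← pow_mul]
        exact_mod_cast h2
      refine (mul_le_mul h1 (hle i) (abs_nonneg _) zero_le_one).trans ?_
      rw [one_mul]
      refine (pow_le_pow_left₀ (Nat.cast_nonneg _) (Nat.cast_le.2 (show A ≤ 4 * A by omega))
        i).trans (pow_le_pow_right₀ (Nat.one_le_cast.2 (by omega)) (by omega))
    · rw [abs_zero]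
      positivity
  · obtain ⟨D, hD0, hD, hz⟩ := hden N
    refine ⟨4 ^ N * D, Nat.mul_pos (by positivity) hD0, ?_, fun k hkN => ?_⟩
    · rw [mul_pow]
      exact Nat.mul_le_mul (Nat.pow_le_pow_right (by norm_num) N.le_succ) hD
    rw [hk]
    split_ifs with h
    · obtain ⟨i, rfl⟩ := h
      obtain ⟨z, hz⟩ := hz i (by omega)
      refine ⟨(-1) ^ i * (i.centralBinom : ℤ) * 4 ^ (N - i) * z, ?_⟩
      rw [show (i + i) / 2 = i by omega]
      push_cast
      rw [hz, show N = (N - i) + i by omega, pow_add, Nat.add_sub_cancel]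
      field_simp
    · exact ⟨0, by simp⟩

end FA.SiegelShidlovskii

end
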