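import Mathlib.RingTheory.PowerSeries.Exp
import Mathlib.Analysis.SpecialFunctions.Exponential
import Fermat.Agent.SiegelShidlovskii.AlgebraicIndependence
import Fermat.Agent.SiegelShidlovskii.KFunction

/-!
# The series `φ_λ` and the exponential

`φ_λ z = ∑ z ^ n / ((λ + 1) … (λ + n))` satisfies `z φ' = (z - λ) φ + λ`. For rational `λ` not an
integer an operator on relations shows that `φ_λ`, `exp` are algebraically independent over
`ℚ(X)`, so their values at algebraic `α ≠ 0` are algebraically independent.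
-/

set_option autoImplicit false

noncomputable section

open Finset
open scoped Nat

namespace FA.SiegelShidlovskii

/-- The series `φ_λ`. -/
def phiSeries (lam : ℚ) : PowerSeries ℚ := PowerSeries.mk fun k => (risingProd lam k)⁻¹

theorem phiSeries_equation {lam : ℚ} (hlam : ∀ m : ℕ, lam ≠ -((m : ℚ) + 1)) :
    PowerSeries.X * PowerSeries.derivative ℚ (phiSeries lam) =
      (PowerSeries.X - PowerSeries.C lam) * phiSeries lam + PowerSeries.C lam := by
  ext k
  rw [sub_mul, map_add, map_sub, PowerSeries.coeff_C_mul]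
  rcases k with _ | k
  · simp [phiSeries, risingProd]
  rw [PowerSeries.coeff_succ_X_mul, PowerSeries.coeff_succ_X_mul, PowerSeries.coeff_derivative,
    PowerSeries.coeff_C, if_neg k.succ_ne_zero, add_zero]
  simp only [phiSeries, PowerSeries.coeff_mk, risingProd_succ]
  push_cast
  have := risingProd_ne_zero hlam k
  have : lam + ((k : ℚ) + 1) ≠ 0 := fun h => hlam k (by linarith)
  field_simp
  ring

theorem isEFunction_phiSeries {lam : ℚ} (hlam : ∀ m : ℕ, lam ≠ -((m : ℚ) + 1)) :
    IsEFunction (phiSeries lam) := by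
  obtain ⟨A, hA1, hle, hden⟩ := exists_risingProd_bounds hlam
  have e : ∀ k, (k ! : ℚ) * PowerSeries.coeff k (phiSeries lam) = (k ! : ℚ) / risingProd lam k :=
    fun k => by rw [phiSeries, PowerSeries.coeff_mk, div_eq_mul_inv]
  refine ⟨A, fun k => ?_, fun N => ?_⟩
  · rw [e]
    exact (hle k).trans (pow_le_pow_right₀ (Nat.one_le_cast.2 hA1) k.le_succ)
  · obtain ⟨D, hD0, hD, hz⟩ := hden N
    exact ⟨D, hD0, hD, fun k hk => by rw [e]; exact hz k hk⟩

theorem isEFunction_exp : IsEFunction (PowerSeries.exp ℚ) := by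
  have e : ∀ k, (k ! : ℚ) * PowerSeries.coeff k (PowerSeries.exp ℚ) = 1 := fun k => by
    rw [PowerSeries.coeff_exp]
    simp [Nat.factorial_ne_zero]
  exact ⟨1, fun k => by rw [e]; simp, fun N => ⟨1, one_pos, by simp, fun k _ => ⟨1, by
    rw [e]; simp⟩⟩⟩

/-- `φ_λ` is no rational function. -/
theorem phiSeries_mul_ne_polynomial {lam : ℚ} (hlam : ∀ m : ℕ, lam ≠ -((m : ℚ) + 1))
    {r : Polynomial ℚ} (hr : r ≠ 0) (a : Polynomial ℚ) :
    (r : PowerSeries ℚ) * phiSeries lam ≠ (a : PowerSeries ℚ) := by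
  intro h
  set d := r.natDegree
  set q : Polynomial ℚ := ∑ j ∈ range (d + 1), Polynomial.C (r.coeff j) *
    ∏ i ∈ range j, (Polynomial.X + Polynomial.C (lam - (i : ℚ))) with hq
  have hrec : ∀ m j : ℕ, (risingProd lam m)⁻¹ =
      (risingProd lam (m + j))⁻¹ * ∏ i ∈ range j, (((m + j : ℕ) : ℚ) + (lam - (i : ℚ))) := by
    intro m j
    induction j generalizing m with
    | zero => simp
    | succ j ih =>
      have hR := risingProd_ne_zero hlam (m + j)
      rw [ih m, show m + (j + 1) = m + j + 1 by ring, risingProd_succ, Finset.prod_range_succ',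
        mul_inv]
      have hne : lam + ((m + j + 1 : ℕ) : ℚ) ≠ 0 := fun h => hlam (m + j) (by
        push_cast at h ⊢; linarith)
      push_cast at hne ⊢
      rw [Finset.prod_congr rfl fun i (_ : i ∈ range j) => show
        ((m : ℚ) + j + 1 + (lam - ((i : ℚ) + 1))) = (m : ℚ) + j + (lam - i) by ring]
      field_simp
      ring
  have hroot : ∀ k : ℕ, max d a.natDegree < k → q.eval (k : ℚ) = 0 := fun k hk => by
    have h1 := congrArg (PowerSeries.coeff k) h
    rw [Polynomial.coeff_coe, Polynomial.coeff_eq_zero_of_natDegree_lt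
      ((le_max_right _ _).trans_lt hk), PowerSeries.coeff_mul,
      Finset.Nat.sum_antidiagonal_eq_sum_range_succ_mk] at h1
    rw [← Finset.sum_subset (Finset.range_subset_range.2 (show d + 1 ≤ k.succ by omega))
      fun j _ hj => by
        rw [Finset.mem_range, not_lt] at hj
        rw [Polynomial.coeff_coe, Polynomial.coeff_eq_zero_of_natDegree_lt (by omega), zero_mul]]
      at h1
    have h3 : (risingProd lam k)⁻¹ * q.eval (k : ℚ) = 0 := ?_
    · exact (mul_eq_zero.1 h3).resolve_left (inv_ne_zero (risingProd_ne_zero hlam k))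
    rw [hq, Polynomial.eval_finsetSum, Finset.mul_sum]
    refine Eq.trans (Finset.sum_congr rfl fun j hj => ?_) h1
    rw [Finset.mem_range] at hj
    simp only [Polynomial.coeff_coe, phiSeries, PowerSeries.coeff_mk, Polynomial.eval_mul,
      Polynomial.eval_C, Polynomial.eval_prod, Polynomial.eval_add, Polynomial.eval_X]
    conv_rhs => rw [hrec (k - j) j, show k - j + j = k by omega]
    ring
  have hq0 : q = 0 := Polynomial.eq_zero_of_infinite_isRoot q ((Set.infinite_coe_iff.1
    (Infinite.of_injective (fun i : ℕ => (⟨((max d a.natDegree + 1 + i : ℕ) : ℚ), by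
      exact hroot _ (by omega)⟩ : {x : ℚ // q.IsRoot x})) fun i j hij => by
        have := congrArg Subtype.val hij
        simpa using this)))
  have hmonic : ∀ j, (∏ i ∈ range j, (Polynomial.X + Polynomial.C (lam - (i : ℚ)))).Monic ∧
      (∏ i ∈ range j, (Polynomial.X + Polynomial.C (lam - (i : ℚ)))).natDegree = j := fun j => by
    refine ⟨Polynomial.monic_prod_of_monic _ _ fun i _ => Polynomial.monic_X_add_C _, ?_⟩
    rw [Polynomial.natDegree_prod_of_monic _ _ fun i _ => Polynomial.monic_X_add_C _,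
      Finset.sum_congr rfl fun i _ => Polynomial.natDegree_X_add_C _]
    simp
  refine Polynomial.leadingCoeff_ne_zero.2 hr ?_
  have h2 := congrArg (fun u : Polynomial ℚ => u.coeff d) hq0
  simp only [hq, Polynomial.finsetSum_coeff, Polynomial.coeff_C_mul, Polynomial.coeff_zero] at h2
  rw [Finset.sum_eq_single d (fun j hj hjd => by
    rw [Finset.mem_range] at hj
    rw [Polynomial.coeff_eq_zero_of_natDegree_lt
      (p := ∏ i ∈ range j, (Polynomial.X + Polynomial.C (lam - (i : ℚ))))
      (by rw [(hmonic j).2]; omega), mul_zero])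
    (by simp)] at h2
  have h3 : (∏ i ∈ range d, (Polynomial.X + Polynomial.C (lam - (i : ℚ)))).coeff d = 1 := by
    have := (hmonic d).1.coeff_natDegree
    rwa [(hmonic d).2] at this
  rwa [h3, mul_one] at h2

/-- The logarithmic derivative of a quotient of series. -/
theorem eq_zero_of_quotient_equation {lam : ℚ} (hlam : ∀ t : ℤ, lam ≠ t) {r w : PowerSeries ℚ}
    (hr : r ≠ 0) (h : PowerSeries.X * (PowerSeries.derivative ℚ w * r -
      w * PowerSeries.derivative ℚ r) = (PowerSeries.X - PowerSeries.C lam) * w * r) : w = 0 := by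
  by_contra hw
  obtain ⟨o, w₁, hw₁, rfl⟩ : ∃ (o : ℕ) (w₁ : PowerSeries ℚ),
      PowerSeries.constantCoeff w₁ ≠ 0 ∧ w = PowerSeries.X ^ o * w₁ :=
    ⟨w.order.toNat, _, fun e => hw (PowerSeries.constantCoeff_divXPowOrder_eq_zero_iff.1 e),
      (PowerSeries.X_pow_order_mul_divXPowOrder).symm⟩
  obtain ⟨s, r₁, hr₁, rfl⟩ : ∃ (s : ℕ) (r₁ : PowerSeries ℚ),
      PowerSeries.constantCoeff r₁ ≠ 0 ∧ r = PowerSeries.X ^ s * r₁ :=
    ⟨r.order.toNat, _, fun e => hr (PowerSeries.constantCoeff_divXPowOrder_eq_zero_iff.1 e),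
      (PowerSeries.X_pow_order_mul_divXPowOrder).symm⟩
  have hX : ∀ n : ℕ, PowerSeries.X * PowerSeries.derivative ℚ (PowerSeries.X ^ n : PowerSeries ℚ) =
      (n : PowerSeries ℚ) * (PowerSeries.X : PowerSeries ℚ) ^ n := fun n => by
    rcases n with _ | n
    · simp
    · rw [Derivation.leibniz_pow, PowerSeries.derivative_X, Nat.add_sub_cancel, smul_eq_mul,
        nsmul_eq_mul, mul_one, pow_succ]
      ring
  have h1 : PowerSeries.X ^ (o + s) *
      (PowerSeries.X * (PowerSeries.derivative ℚ w₁ * r₁ - w₁ * PowerSeries.derivative ℚ r₁) +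
        ((o : PowerSeries ℚ) - (s : PowerSeries ℚ) - PowerSeries.X + PowerSeries.C lam) *
          w₁ * r₁) = 0 := by
    simp only [Derivation.leibniz, smul_eq_mul] at h
    rw [pow_add]
    linear_combination h - PowerSeries.X ^ s * w₁ * r₁ * hX o + PowerSeries.X ^ o * w₁ * r₁ * hX s
  have h2 := congrArg PowerSeries.constantCoeff
    ((mul_eq_zero.1 h1).resolve_left (pow_ne_zero _ (PowerSeries.X_ne_zero (R := ℚ))))
  simp only [map_add, map_sub, map_mul, map_natCast, PowerSeries.constantCoeff_X, map_zero,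
    PowerSeries.constantCoeff_C, zero_mul, zero_add, sub_zero, mul_eq_zero, hw₁, hr₁,
    or_false] at h2
  exact hlam ((s : ℤ) - o) (by push_cast; linarith)

/-- The coefficient of `Y ^ μ₀ E ^ μ₁` in the derivative of `r Y ^ μ₀ E ^ μ₁`. -/
def gammaWeight (lam : ℚ) (μ : Fin 2 →₀ ℕ) (r : Polynomial ℚ) : Polynomial ℚ :=
  Polynomial.X * Polynomial.derivative r +
    (Polynomial.C ((μ 0 + μ 1 : ℕ) : ℚ) * Polynomial.X - Polynomial.C ((μ 0 : ℚ) * lam)) * r

/-- The operator induced by `z d/dz` on relations. -/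
def gammaOp (lam : ℚ) (p : MvPolynomial (Fin 2) (Polynomial ℚ)) :
    MvPolynomial (Fin 2) (Polynomial ℚ) :=
  ∑ μ ∈ p.support, (MvPolynomial.monomial μ (gammaWeight lam μ (p.coeff μ)) +
    MvPolynomial.monomial (μ - Finsupp.single 0 1)
      (Polynomial.C ((μ 0 : ℚ) * lam) * p.coeff μ))

theorem coeff_gammaOp (lam : ℚ) (p : MvPolynomial (Fin 2) (Polynomial ℚ)) (ν : Fin 2 →₀ ℕ) :
    (gammaOp lam p).coeff ν = gammaWeight lam ν (p.coeff ν) +
      Polynomial.C (((ν 0 : ℚ) + 1) * lam) * p.coeff (ν + Finsupp.single 0 1) := by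
  classical
  rw [gammaOp, MvPolynomial.coeff_sum]
  simp only [MvPolynomial.coeff_add, MvPolynomial.coeff_monomial, Finset.sum_add_distrib]
  congr 1
  · rw [Finset.sum_ite_eq']
    split_ifs with h
    · rfl
    · rw [MvPolynomial.notMem_support_iff.1 h]
      simp [gammaWeight]
  · rw [Finset.sum_eq_single (ν + Finsupp.single 0 1)]
    · rw [if_pos (by simp)]
      simp
    · intro μ _ hμ
      split_ifs with h
      · by_cases h0 : μ 0 = 0
        · simp [h0]
        · refine absurd ?_ hμ
          rw [← h, tsub_add_cancel_of_le (Finsupp.single_le_iff.2 (Nat.one_le_iff_ne_zero.2 h0))]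
      · rfl
    · intro h
      rw [MvPolynomial.notMem_support_iff.1 h]
      simp

theorem eval₂_gammaOp {lam : ℚ} (hlam : ∀ m : ℕ, lam ≠ -((m : ℚ) + 1))
    (p : MvPolynomial (Fin 2) (Polynomial ℚ)) :
    MvPolynomial.eval₂ Polynomial.coeToPowerSeries.ringHom
        ![phiSeries lam, PowerSeries.exp ℚ] (gammaOp lam p) =
      PowerSeries.X * PowerSeries.derivative ℚ (MvPolynomial.eval₂
        Polynomial.coeToPowerSeries.ringHom ![phiSeries lam, PowerSeries.exp ℚ] p) := by
  classical
  conv_rhs => rw [p.as_sum]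
  rw [gammaOp, MvPolynomial.eval₂_sum, MvPolynomial.eval₂_sum, map_sum, Finset.mul_sum]
  refine Finset.sum_congr rfl fun μ _ => ?_
  have hpr : ∀ (ν : Fin 2 →₀ ℕ) (c : Polynomial ℚ), MvPolynomial.eval₂
      Polynomial.coeToPowerSeries.ringHom ![phiSeries lam, PowerSeries.exp ℚ]
      (MvPolynomial.monomial ν c) =
      (c : PowerSeries ℚ) * (phiSeries lam ^ ν 0 * PowerSeries.exp ℚ ^ ν 1) := fun ν c => by
    rw [MvPolynomial.eval₂_monomial, Finsupp.prod_fintype _ _ (by simp), Fin.prod_univ_two]
    rfl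
  have hφ := phiSeries_equation hlam
  rw [MvPolynomial.eval₂_add, hpr, hpr, hpr]
  simp only [gammaWeight, Derivation.leibniz, Derivation.leibniz_pow, smul_eq_mul, nsmul_eq_mul,
    PowerSeries.derivative_coe, PowerSeries.derivative_exp, Polynomial.coe_add, Polynomial.coe_mul,
    Polynomial.coe_sub, Polynomial.coe_C, Polynomial.coe_X, Finsupp.tsub_apply,
    Finsupp.single_eq_same, Finsupp.single_eq_of_ne (by decide : (1 : Fin 2) ≠ 0), tsub_zero,
    Nat.cast_add]
  simp only [map_mul, map_natCast, map_add]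
  rcases μ 0 with _ | n <;> rcases μ 1 with _ | m <;>
    simp only [Nat.add_sub_cancel, Nat.zero_sub, pow_zero, pow_succ, Nat.cast_zero,
      Nat.cast_succ] <;>
    first
    | linear_combination (-(((n : PowerSeries ℚ) + 1) *
        ((p.coeff μ : Polynomial ℚ) : PowerSeries ℚ) *
        phiSeries lam ^ n)) * hφ
    | linear_combination (-(((n : PowerSeries ℚ) + 1) *
        ((p.coeff μ : Polynomial ℚ) : PowerSeries ℚ) *
        phiSeries lam ^ n * PowerSeries.exp ℚ ^ m * PowerSeries.exp ℚ)) * hφ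
    | ring

/-- The exponents under a support. -/
def gammaShadow (p : MvPolynomial (Fin 2) (Polynomial ℚ)) : Finset (ℕ × ℕ) :=
  p.support.biUnion fun μ => (range (μ 0 + 1)).image fun i => (i, μ 1)

theorem mem_gammaShadow {p : MvPolynomial (Fin 2) (Polynomial ℚ)} {x : ℕ × ℕ} :
    x ∈ gammaShadow p ↔ ∃ μ, p.coeff μ ≠ 0 ∧ x.1 ≤ μ 0 ∧ x.2 = μ 1 := by
  simp only [gammaShadow, mem_biUnion, mem_image, mem_range, MvPolynomial.mem_support_iff,
    Nat.lt_succ_iff]
  constructor
  · rintro ⟨μ, h, i, hi, rfl⟩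
    exact ⟨μ, h, hi, rfl⟩
  · rintro ⟨μ, h, hi, he⟩
    exact ⟨μ, h, x.1, hi, Prod.ext rfl he.symm⟩

/-- **`φ_λ` and `exp` are algebraically independent over `ℚ(X)`.** -/
theorem phiSeries_eval₂_eq_zero {lam : ℚ} (hlam : ∀ t : ℤ, lam ≠ t)
    (p : MvPolynomial (Fin 2) (Polynomial ℚ))
    (hp : MvPolynomial.eval₂ Polynomial.coeToPowerSeries.ringHom
      ![phiSeries lam, PowerSeries.exp ℚ] p = 0) : p = 0 := by
  classical
  have hlam' : ∀ m : ℕ, lam ≠ -((m : ℚ) + 1) := fun m h => hlam (-((m : ℤ) + 1)) (by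
    push_cast; exact h)
  induction hN : (gammaShadow p).card using Nat.strong_induction_on generalizing p with
  | _ N ih =>
  by_contra hp0
  -- every pivot on top of its column gives proportional coefficients
  have key : ∀ π : Fin 2 →₀ ℕ, p.coeff π ≠ 0 → (∀ μ, p.coeff μ ≠ 0 → μ 1 = π 1 → μ 0 ≤ π 0) →
      ∀ ν, p.coeff π * (gammaWeight lam ν (p.coeff ν) +
        Polynomial.C (((ν 0 : ℚ) + 1) * lam) * p.coeff (ν + Finsupp.single 0 1)) =
          gammaWeight lam π (p.coeff π) * p.coeff ν := by
    intro π hπ htop ν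
    set s := MvPolynomial.C (p.coeff π) * gammaOp lam p -
      MvPolynomial.C (gammaWeight lam π (p.coeff π)) * p with hs
    have hsev : MvPolynomial.eval₂ Polynomial.coeToPowerSeries.ringHom
        ![phiSeries lam, PowerSeries.exp ℚ] s = 0 := by
      simp only [hs, MvPolynomial.eval₂_sub, MvPolynomial.eval₂_mul, eval₂_gammaOp hlam', hp,
        map_zero, mul_zero, sub_zero]
    have hco : ∀ μ, s.coeff μ = p.coeff π * (gammaWeight lam μ (p.coeff μ) +
        Polynomial.C (((μ 0 : ℚ) + 1) * lam) * p.coeff (μ + Finsupp.single 0 1)) -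
          gammaWeight lam π (p.coeff π) * p.coeff μ := fun μ => by
      rw [hs, MvPolynomial.coeff_sub, MvPolynomial.coeff_C_mul, MvPolynomial.coeff_C_mul,
        coeff_gammaOp]
    have hup : p.coeff (π + Finsupp.single 0 1) = 0 := by
      by_contra h
      have := htop _ h (by simp)
      simp at this
    have hzero : ∀ μ, μ 1 = π 1 → π 0 ≤ μ 0 → s.coeff μ = 0 := by
      intro μ h1 h0
      rcases eq_or_lt_of_le h0 with h | h
      · obtain rfl : μ = π := Finsupp.ext fun i => by fin_cases i <;> simp [h, h1]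
        rw [hco, hup]
        ring
      · have e1 : p.coeff μ = 0 := by
          by_contra h'
          exact absurd (htop μ h' h1) h.not_ge
        have e2 : p.coeff (μ + Finsupp.single 0 1) = 0 := by
          by_contra h'
          have := htop _ h' (by simp [h1])
          simp at this
          omega
        rw [hco, e1, e2]
        simp [gammaWeight]
    have hsub : gammaShadow s ⊂ gammaShadow p := by
      refine Finset.ssubset_iff_of_subset (fun x hx => ?_) |>.2
        ⟨(π 0, π 1), mem_gammaShadow.2 ⟨π, hπ, le_rfl, rfl⟩, fun hx => ?_⟩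
      · obtain ⟨μ, hμ, hx1, hx2⟩ := mem_gammaShadow.1 hx
        rw [hco] at hμ
        by_cases e1 : p.coeff μ = 0
        · by_cases e2 : p.coeff (μ + Finsupp.single 0 1) = 0
          · exact absurd (by simp [e1, e2, gammaWeight]) hμ
          · exact mem_gammaShadow.2 ⟨_, e2, hx1.trans (by simp), by simp [hx2]⟩
        · exact mem_gammaShadow.2 ⟨μ, e1, hx1, hx2⟩
      · obtain ⟨μ, hμ, hx1, hx2⟩ := mem_gammaShadow.1 hx
        exact hμ (hzero μ hx2.symm hx1)
    have hs0 := ih _ (hN ▸ Finset.card_lt_card hsub) s hsev rfl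
    have := hco ν
    rw [hs0, MvPolynomial.coeff_zero, eq_comm, sub_eq_zero] at this
    exact this
  -- no column reaches positive degree in `φ`
  have hflat : ∀ μ, p.coeff μ ≠ 0 → μ 0 = 0 := by
    intro μ hμ
    obtain ⟨π, hπ', hmax⟩ := Finset.exists_max_image (p.support.filter fun ν => ν 1 = μ 1)
      (fun ν => ν 0) ⟨μ, by simp [hμ]⟩
    simp only [mem_filter, MvPolynomial.mem_support_iff] at hπ' hmax
    refine Nat.eq_zero_of_le_zero ((hmax μ ⟨hμ, rfl⟩).trans_eq ?_)
    by_contra hn
    obtain ⟨n, hn⟩ := Nat.exists_eq_succ_of_ne_zero hn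
    set ν := π - Finsupp.single 0 1 with hν
    have hν' : ν + Finsupp.single 0 1 = π :=
      tsub_add_cancel_of_le (Finsupp.single_le_iff.2 (by omega))
    have h := key π hπ'.1 (fun ρ h1 h2 => hmax ρ ⟨h1, h2.trans hπ'.2⟩) ν
    rw [hν'] at h
    have e0 : ν 0 = n := by simp [hν, hn]
    have e1 : ν 1 = π 1 := by simp [hν]
    have hr : ((p.coeff π : Polynomial ℚ) : PowerSeries ℚ) ≠ 0 :=
      fun e => hπ'.1 (Polynomial.coe_inj.1 (e.trans Polynomial.coe_zero.symm))
    have h' := congrArg (fun u : Polynomial ℚ => (u : PowerSeries ℚ)) h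
    simp only [gammaWeight, e0, e1, hn, Polynomial.coe_add, Polynomial.coe_mul, Polynomial.coe_sub,
      Polynomial.coe_C, Polynomial.coe_X, Nat.cast_add, Nat.cast_succ, map_add, map_mul, map_one,
      Polynomial.coe_one,
      ← PowerSeries.derivative_coe] at h'
    have hw := eq_zero_of_quotient_equation hlam (r := ((p.coeff π : Polynomial ℚ) : PowerSeries ℚ))
      (w := ((p.coeff ν : Polynomial ℚ) : PowerSeries ℚ) + ((n : PowerSeries ℚ) + 1) *
        phiSeries lam *
        ((p.coeff π : Polynomial ℚ) : PowerSeries ℚ)) hr (by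
      simp only [map_add, Derivation.leibniz, smul_eq_mul, Derivation.map_natCast,
        Derivation.map_one_eq_zero]
      simp only [map_natCast] at h'
      linear_combination h' + ((n : PowerSeries ℚ) + 1) *
        ((p.coeff π : Polynomial ℚ) : PowerSeries ℚ) ^ 2 *
        phiSeries_equation hlam')
    refine phiSeries_mul_ne_polynomial hlam'
      (r := Polynomial.C ((n : ℚ) + 1) * p.coeff π) ?_ (-p.coeff ν) ?_
    · exact mul_ne_zero (by rw [Ne, Polynomial.C_eq_zero]; positivity) hπ'.1
    · rw [Polynomial.coe_mul, Polynomial.coe_C, Polynomial.coe_neg, map_add, map_natCast, map_one]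
      linear_combination hw
  -- the columns have one and the same exponent
  obtain ⟨π, hπ⟩ := MvPolynomial.ne_zero_iff.1 hp0
  have hone : p = MvPolynomial.monomial π (p.coeff π) := by
    refine MvPolynomial.ext _ _ fun ν => ?_
    rw [MvPolynomial.coeff_monomial]
    split_ifs with hνπ
    · rw [hνπ]
    by_contra hν
    have h := key π hπ (fun ρ h1 _ => (hflat ρ h1).le.trans (Nat.zero_le _)) ν
    have e : p.coeff (ν + Finsupp.single 0 1) = 0 := by
      by_contra h'
      simpa using hflat _ h'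
    rw [e, mul_zero, add_zero] at h
    have hne : (ν 1 : ℚ) - π 1 ≠ 0 := sub_ne_zero.2 fun h' => hνπ (Finsupp.ext fun i => by
      fin_cases i
      · exact (hflat π hπ).trans (hflat ν hν).symm
      · exact (Nat.cast_injective h').symm)
    simp only [gammaWeight, hflat π hπ, hflat ν hν, zero_add, Nat.cast_zero, zero_mul, map_zero,
      sub_zero] at h
    have h2 : Polynomial.C ((ν 1 : ℚ) - π 1) * (p.coeff ν * p.coeff π) =
        p.coeff ν * Polynomial.derivative (p.coeff π) -
          p.coeff π * Polynomial.derivative (p.coeff ν) := by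
      refine mul_left_cancel₀ Polynomial.X_ne_zero ?_
      rw [map_sub]
      linear_combination h
    have hd := congrArg Polynomial.degree h2
    rw [Polynomial.degree_mul, Polynomial.degree_C hne, zero_add, Polynomial.degree_mul] at hd
    refine (lt_of_le_of_lt (Polynomial.degree_sub_le _ _) (max_lt ?_ ?_)).ne hd.symm
    · rw [Polynomial.degree_mul]
      exact WithBot.add_lt_add_left (Polynomial.degree_ne_bot.2 hν)
        (Polynomial.degree_derivative_lt hπ)
    · rw [Polynomial.degree_mul, add_comm (p.coeff ν).degree]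
      exact WithBot.add_lt_add_left (Polynomial.degree_ne_bot.2 hπ)
        (Polynomial.degree_derivative_lt hν)
  rw [hone, MvPolynomial.eval₂_monomial, Finsupp.prod_fintype _ _ (by simp), Fin.prod_univ_two,
    hflat π hπ, pow_zero, one_mul, mul_eq_zero] at hp
  refine hp.elim (fun e => hπ (Polynomial.coe_inj.1 (e.trans Polynomial.coe_zero.symm)))
    fun e => ?_
  have := congrArg PowerSeries.constantCoeff e
  simp [PowerSeries.constantCoeff_exp] at this

theorem cval_phiSeries (lam : ℚ) (z : ℂ) :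
    cval (phiSeries lam) z = ∑' n : ℕ, z ^ n / ∏ j ∈ Icc 1 n, ((lam : ℂ) + j) := by
  refine tsum_congr fun n => ?_
  rw [phiSeries, PowerSeries.coeff_mk, risingProd]
  push_cast
  ring

theorem cval_exp (z : ℂ) : cval (PowerSeries.exp ℚ) z = Complex.exp z := by
  rw [Complex.exp_eq_exp_ℂ, NormedSpace.exp_eq_tsum_div]
  refine tsum_congr fun n => ?_
  rw [PowerSeries.coeff_exp]
  simp
  ring

/-- **Shidlovskii**: `φ_λ α` and `exp α` are algebraically independent. -/
theorem algebraicIndependent_phiSeries {lam : ℚ} (hlam : ∀ t : ℤ, lam ≠ t) {α : ℂ}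
    (hα : IsAlgebraic ℚ α) (hα0 : α ≠ 0) :
    AlgebraicIndependent ℚ ![cval (phiSeries lam) α, Complex.exp α] := by
  have hlam' : ∀ m : ℕ, lam ≠ -((m : ℚ) + 1) := fun m h => hlam (-((m : ℤ) + 1)) (by
    push_cast; exact h)
  have hE : ∀ i, IsEFunction (![phiSeries lam, PowerSeries.exp ℚ] i) := by
    intro i
    fin_cases i
    · exact isEFunction_phiSeries hlam'
    · exact isEFunction_exp
  have h := algebraicIndependent_values Polynomial.X ![Polynomial.C lam, 0]
    !![Polynomial.X - Polynomial.C lam, 0; 0, Polynomial.X]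
    (f := ![phiSeries lam, PowerSeries.exp ℚ]) (fun i => ?_) hE
    (phiSeries_eval₂_eq_zero hlam) hα hα0 (by simpa using hα0)
  · rw [← cval_exp]
    convert h using 1
    funext i
    fin_cases i <;> rfl
  · fin_cases i
    · simp [Fin.sum_univ_two, phiSeries_equation hlam', add_comm]
    · simp [Fin.sum_univ_two, PowerSeries.derivative_exp]

end FA.SiegelShidlovskii

end
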