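import Mathlib.Analysis.Complex.Basic
import Mathlib.LinearAlgebra.Dimension.Finite
import Mathlib.RingTheory.Algebraic.Integral
import Fermat.Agent.SiegelShidlovskii.AlgebraicIndependence

/-!
# The span of the monomials in finitely many numbers

If all of `v₁, …, v_k` are algebraic over `ℚ (v_U)` then the monomials of degree at most `D` in
them span, over a field of coefficients, a space of dimension at most `E (A D + 1) ^ |U|`.
-/

set_option autoImplicit false

noncomputable section

open Finset

namespace FA.SiegelShidlovskii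

variable {k : ℕ} (K : Type*) [Field K] [Algebra K ℂ] (v : Fin k → ℂ)
  (U : Finset (Fin k))

/-- The span of the monomials in `v_U` with exponents at most `n`. -/
def boxSpan (n : ℕ) : Submodule K ℂ :=
  Submodule.span K (Set.range fun β : U → Fin (n + 1) => ∏ j : U, v j ^ (β j : ℕ))

theorem boxSpan_mul (a b : ℕ) : boxSpan K v U a * boxSpan K v U b ≤ boxSpan K v U (a + b) := by
  rw [boxSpan, boxSpan, Submodule.span_mul_span, Submodule.span_le, boxSpan]
  rintro _ ⟨_, ⟨β, rfl⟩, _, ⟨γ, rfl⟩, rfl⟩
  refine Submodule.subset_span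
    ⟨fun j => ⟨(β j : ℕ) + (γ j : ℕ), by have := (β j).2; have := (γ j).2; omega⟩, ?_⟩
  simp [pow_add, Finset.prod_mul_distrib]

theorem one_mem_boxSpan (n : ℕ) : (1 : ℂ) ∈ boxSpan K v U n :=
  Submodule.subset_span ⟨fun _ => 0, by simp⟩

theorem boxSpan_mono {a b : ℕ} (h : a ≤ b) : boxSpan K v U a ≤ boxSpan K v U b := fun x hx => by
  obtain ⟨c, rfl⟩ := Nat.exists_eq_add_of_le h
  simpa using boxSpan_mul K v U a c (Submodule.mul_mem_mul hx (one_mem_boxSpan K v U c))

theorem exists_mem_boxSpan {y : ℂ}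
    (hy : y ∈ Algebra.adjoin ℚ (v '' (U : Set (Fin k)))) : ∃ a, y ∈ boxSpan K v U a := by
  classical
  induction hy using Algebra.adjoin_induction with
  | mem x hx =>
    obtain ⟨i, hi, rfl⟩ := hx
    refine ⟨1, Submodule.subset_span ⟨fun j => if (j : Fin k) = i then 1 else 0, ?_⟩⟩
    dsimp only
    rw [Finset.prod_eq_single ⟨i, hi⟩]
    · simp
    · intro j _ hj
      rw [if_neg fun h => hj (Subtype.ext h)]
      simp
    · exact fun h => absurd (mem_univ _) h
  | algebraMap q =>
    refine ⟨0, ?_⟩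
    have h : algebraMap ℚ ℂ q = (q : K) • (1 : ℂ) := by
      rw [Algebra.smul_def, mul_one, map_ratCast, eq_ratCast]
    rw [h]
    exact Submodule.smul_mem _ _ (one_mem_boxSpan K v U 0)
  | add x y _ _ hx hy =>
    obtain ⟨a, ha⟩ := hx
    obtain ⟨b, hb⟩ := hy
    exact ⟨a + b, Submodule.add_mem _ (boxSpan_mono K v U (Nat.le_add_right a b) ha)
      (boxSpan_mono K v U (Nat.le_add_left b a) hb)⟩
  | mul x y _ _ hx hy =>
    obtain ⟨a, ha⟩ := hx
    obtain ⟨b, hb⟩ := hy
    exact ⟨a + b, boxSpan_mul K v U a b (Submodule.mul_mem_mul ha hb)⟩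

/-- **The spans of the monomials grow with the transcendence degree.** -/
theorem exists_finrank_monomial_span_le
    (halg : ∀ i, IsAlgebraic (Algebra.adjoin ℚ (v '' (U : Set (Fin k)))) (v i)) :
    ∃ A E : ℕ, ∀ D, Module.finrank K (Submodule.span K (Set.range fun μ : degreeIndex k D =>
      ∏ i, v i ^ (μ : Fin k →₀ ℕ) i)) ≤ E * (A * D + 1) ^ U.card := by
  classical
  set S := Algebra.adjoin ℚ (v '' (U : Set (Fin k)))
  choose p hp0 hp using halg
  set e : Fin k → ℕ := fun i => (p i).natDegree with he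
  set lc : Fin k → ℂ := fun i => ((p i).leadingCoeff : S) with hlc
  have hlc0 : ∀ i, lc i ≠ 0 := fun i => by
    simp only [hlc, ne_eq, ZeroMemClass.coe_eq_zero, Polynomial.leadingCoeff_eq_zero]
    exact hp0 i
  have hrel : ∀ i, lc i * v i ^ e i = -∑ j ∈ range (e i), ((p i).coeff j : ℂ) * v i ^ j := by
    intro i
    have h := hp i
    rw [Polynomial.aeval_eq_sum_range, Finset.sum_range_succ] at h
    simp only [Subalgebra.smul_def, smul_eq_mul, Polynomial.coeff_natDegree] at h
    rw [eq_neg_iff_add_eq_zero, add_comm]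
    exact h
  have he0 : ∀ i, 0 < e i := fun i => Nat.pos_of_ne_zero fun h => by
    have h1 := hrel i
    rw [h, pow_zero, mul_one, Finset.range_zero, Finset.sum_empty, neg_zero] at h1
    exact hlc0 i h1
  set c := ∏ i, lc i with hc
  have hc0 : c ≠ 0 := Finset.prod_ne_zero_iff.2 fun i _ => hlc0 i
  have hmem : ∀ (i : Fin k) (j : ℕ),
      (∏ l ∈ univ.erase i, lc l) * ((p i).coeff j : ℂ) ∈
        Algebra.adjoin ℚ (v '' (U : Set (Fin k))) :=
    fun i j => Subalgebra.mul_mem _ (Subalgebra.prod_mem _ fun l _ => (p l).leadingCoeff.2)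
      ((p i).coeff j).2
  choose a ha using fun i j => exists_mem_boxSpan K v U (hmem i j)
  obtain ⟨a₀, ha₀⟩ : ∃ a₀, c ∈ boxSpan K v U a₀ :=
    exists_mem_boxSpan K v U (Subalgebra.prod_mem _ fun l _ => (p l).leadingCoeff.2)
  set A := a₀ + ∑ i, ∑ j ∈ range (e i), a i j with hA
  set γset := Set.range fun γ : (∀ i, Fin (e i)) => ∏ i, v i ^ (γ i : ℕ) with hγ
  set G := Submodule.span K γset with hG
  have hcA : c ∈ boxSpan K v U A := boxSpan_mono K v U (Nat.le_add_right _ _) ha₀
  -- multiplication by `c v_i`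
  have hstep : ∀ i, ∀ g ∈ G, c * v i * g ∈ boxSpan K v U A * G := by
    intro i g hg
    induction hg using Submodule.span_induction with
    | zero => simp
    | add x y _ _ hx hy => rw [mul_add]; exact Submodule.add_mem _ hx hy
    | smul r x _ hx => rw [mul_smul_comm]; exact Submodule.smul_mem _ r hx
    | mem x hx =>
      obtain ⟨γ, rfl⟩ := hx
      have hγi : ∀ n : Fin (e i), ∏ l, v l ^ ((Function.update γ i n l : Fin (e l)) : ℕ) =
          v i ^ (n : ℕ) * ∏ l ∈ univ.erase i, v l ^ (γ l : ℕ) := fun n => by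
        rw [← Finset.mul_prod_erase _ _ (mem_univ i), Function.update_self]
        exact congrArg _ (Finset.prod_congr rfl fun l hl => by
          rw [Function.update_of_ne (Finset.ne_of_mem_erase hl)])
      rcases Nat.lt_or_ge ((γ i : ℕ) + 1) (e i) with hlt | hge
      · have h : c * v i * ∏ l, v l ^ (γ l : ℕ) =
            c * ∏ l, v l ^ ((Function.update γ i ⟨_, hlt⟩ l : Fin (e l)) : ℕ) := by
          rw [hγi, ← Finset.mul_prod_erase _ (fun l => v l ^ (γ l : ℕ)) (mem_univ i)]
          dsimp only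
          ring
        rw [h]
        exact Submodule.mul_mem_mul hcA (Submodule.subset_span ⟨_, rfl⟩)
      · have hei : (γ i : ℕ) + 1 = e i := le_antisymm (γ i).2 hge
        have h : c * v i * ∏ l, v l ^ (γ l : ℕ) = -∑ j ∈ (range (e i)).attach,
            ((∏ l ∈ univ.erase i, lc l) * ((p i).coeff (j : ℕ) : ℂ)) *
              ∏ l, v l ^ ((Function.update γ i ⟨j, mem_range.1 j.2⟩ l : Fin (e l)) : ℕ) := by
          simp only [hγi]
          rw [Finset.sum_attach (range (e i)) fun j => (∏ l ∈ univ.erase i, lc l) *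
            ((p i).coeff j : ℂ) * (v i ^ j * ∏ l ∈ univ.erase i, v l ^ (γ l : ℕ))]
          have h1 := hrel i
          nth_rw 1 [← hei] at h1
          rw [pow_succ] at h1
          rw [hc, ← Finset.mul_prod_erase _ lc (mem_univ i),
            ← Finset.mul_prod_erase _ (fun l => v l ^ (γ l : ℕ)) (mem_univ i)]
          calc _ = (∏ l ∈ univ.erase i, lc l) * (lc i * (v i ^ (γ i : ℕ) * v i)) *
                ∏ l ∈ univ.erase i, v l ^ (γ l : ℕ) := by ring
            _ = _ := by
              rw [h1, mul_neg, neg_mul, Finset.mul_sum, Finset.sum_mul]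
              exact congrArg _ (Finset.sum_congr rfl fun j _ => by ring)
        rw [h]
        refine Submodule.neg_mem _ (Submodule.sum_mem _ fun j _ => Submodule.mul_mem_mul
          (boxSpan_mono K v U ?_ (ha i j)) (Submodule.subset_span ⟨_, rfl⟩))
        refine le_trans ?_ (Nat.le_add_left _ _)
        exact (Finset.single_le_sum (fun _ _ => Nat.zero_le _) j.2).trans
          (Finset.single_le_sum (f := fun i => ∑ j ∈ range (e i), a i j)
            (fun _ _ => Nat.zero_le _) (mem_univ i))
  -- the monomials of degree at most `D`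
  have hD : ∀ (D : ℕ) (μ : Fin k →₀ ℕ), ∑ i, μ i ≤ D →
      c ^ D * ∏ i, v i ^ μ i ∈ boxSpan K v U (A * D) * G := by
    intro D
    induction D with
    | zero =>
      intro μ hμ
      have h : ∀ i, μ i = 0 := fun i => Nat.eq_zero_of_le_zero
        ((Finset.single_le_sum (fun _ _ => Nat.zero_le _) (mem_univ i)).trans hμ)
      simp only [h, pow_zero, Finset.prod_const_one, mul_one]
      refine (one_mul (1 : ℂ)) ▸ Submodule.mul_mem_mul (one_mem_boxSpan K v U _)
        (Submodule.subset_span ⟨fun i => ⟨0, he0 i⟩, by simp⟩)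
    | succ D ih =>
      intro μ hμ
      have hmul : ∀ (x : ℂ), (∀ g ∈ G, x * g ∈ boxSpan K v U A * G) →
          ∀ y ∈ boxSpan K v U (A * D) * G, x * y ∈ boxSpan K v U (A * (D + 1)) * G := by
        intro x hx y hy
        have hle : boxSpan K v U (A * D) * (boxSpan K v U A * G) ≤
            boxSpan K v U (A * (D + 1)) * G := by
          rw [← mul_assoc, Nat.mul_succ]
          exact mul_le_mul_left (boxSpan_mul K v U _ _) _
        refine Submodule.mul_induction_on hy (fun m hm g hg => ?_) fun y z hy hz => ?_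
        · rw [mul_left_comm]
          exact hle (Submodule.mul_mem_mul hm (hx g hg))
        · rw [mul_add x y z]
          exact Submodule.add_mem _ hy hz
      by_cases hμ0 : μ = 0
      · subst hμ0
        rw [pow_succ', mul_assoc]
        exact hmul c (fun g hg => Submodule.mul_mem_mul hcA hg) _ (ih 0 (by simp))
      obtain ⟨i, hi⟩ := Finsupp.ne_iff.1 hμ0
      have h := sum_sub_single (μ := μ) (i := i) hi
      have e' : μ - Finsupp.single i 1 + Finsupp.single i 1 = μ :=
        tsub_add_cancel_of_le (Finsupp.single_le_iff.2 (Nat.one_le_iff_ne_zero.2 hi))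
      have hprod : ∏ x, v x ^ μ x =
          (∏ x, v x ^ (μ - Finsupp.single i 1 : Fin k →₀ ℕ) x) * v i := by
        conv_lhs => rw [← e']
        simp only [Finsupp.add_apply, pow_add, Finset.prod_mul_distrib]
        congr 1
        rw [Finset.prod_eq_single i (fun x _ hx => by simp [Ne.symm hx])
          (fun hn => absurd (mem_univ _) hn)]
        simp
      rw [hprod, show ∀ x : ℂ, c ^ (D + 1) * (x * v i) = c * v i * (c ^ D * x) from
        fun x => by ring]
      exact hmul _ (hstep i) _ (ih _ (by omega))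
  refine ⟨A, ∏ i, e i, fun D => ?_⟩
  set W := Submodule.span K (Set.range fun μ : degreeIndex k D =>
    ∏ i, v i ^ (μ : Fin k →₀ ℕ) i)
  have hle : W.map (LinearMap.mulLeft K (c ^ D)) ≤ boxSpan K v U (A * D) * G := by
    rw [Submodule.map_span, Submodule.span_le]
    rintro _ ⟨_, ⟨μ, rfl⟩, rfl⟩
    exact hD D μ (mem_degreeIndex.1 μ.2)
  have hinj : Function.Injective (LinearMap.mulLeft K (c ^ D)) :=
    mul_right_injective₀ (pow_ne_zero _ hc0)
  have hspan : boxSpan K v U (A * D) * G = Submodule.span K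
      (Set.range fun x : (U → Fin (A * D + 1)) × (∀ i, Fin (e i)) =>
        (∏ j : U, v j ^ (x.1 j : ℕ)) * ∏ i, v i ^ (x.2 i : ℕ)) := by
    rw [boxSpan, hG, hγ, Submodule.span_mul_span]
    congr 1
    ext y
    constructor
    · rintro ⟨_, ⟨β, rfl⟩, _, ⟨γ, rfl⟩, rfl⟩
      exact ⟨(β, γ), rfl⟩
    · rintro ⟨⟨β, γ⟩, rfl⟩
      exact ⟨_, ⟨β, rfl⟩, _, ⟨γ, rfl⟩, rfl⟩
  rw [← LinearEquiv.finrank_eq (Submodule.equivMapOfInjective _ hinj W).symm]
  rw [hspan] at hle
  have : FiniteDimensional K (Submodule.span K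
      (Set.range fun x : (U → Fin (A * D + 1)) × (∀ i, Fin (e i)) =>
        (∏ j : U, v j ^ (x.1 j : ℕ)) * ∏ i, v i ^ (x.2 i : ℕ))) :=
    FiniteDimensional.span_of_finite K (Set.finite_range _)
  refine (Submodule.finrank_mono hle).trans ((finrank_range_le_card _).trans_eq ?_)
  simp [mul_comm]

end FA.SiegelShidlovskii

end
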