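import Mathlib.RingTheory.AlgebraicIndependent.AlgebraicClosure
import Mathlib.RingTheory.AlgebraicIndependent.TranscendenceBasis
import Fermat.Agent.SiegelShidlovskii.DependentRank
import Fermat.Agent.SiegelShidlovskii.ValueSpan

/-!
# The second fundamental theorem of Shidlovskii

A relation among some functions, divided by a power of the minimal polynomial of `α`, gives one
among their values; `t` independent functions have `(D + 1) ^ t` independent monomials, while the
monomials in values of transcendence degree `s` span `O (D ^ s)` dimensions. So the degrees agree.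
-/

set_option autoImplicit false

noncomputable section

open Finset

namespace FA.SiegelShidlovskii

variable {k : ℕ}

/-- The transcendence degree of a finitely generated algebra is attained by the generators. -/
theorem exists_card_eq_trdeg_adjoin {R B : Type*} [CommRing R] [CommRing B] [IsDomain B]
    [Algebra R B] [FaithfulSMul R B] (x : Fin k → B) :
    ∃ U : Finset (Fin k), AlgebraicIndepOn R x (U : Set (Fin k)) ∧
      (∀ i, IsAlgebraic (Algebra.adjoin R (x '' (U : Set (Fin k)))) (x i)) ∧
      Algebra.trdeg R (Algebra.adjoin R (Set.range x)) = U.card ∧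
      ∀ U' : Finset (Fin k), AlgebraicIndepOn R x (U' : Set (Fin k)) → U'.card ≤ U.card := by
  classical
  have : Nontrivial R := (FaithfulSMul.algebraMap_injective R B).isDomain (algebraMap R B)
    |>.toNontrivial
  obtain ⟨U, hU, hmax⟩ := Finset.exists_max_image
    ((univ : Finset (Fin k)).powerset.filter fun U : Finset (Fin k) =>
      AlgebraicIndepOn R x (U : Set (Fin k))) Finset.card
    ⟨∅, by
      rw [mem_filter, Finset.coe_empty]
      exact ⟨mem_powerset.2 (subset_univ _), algebraicIndependent_empty_type_iff.2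
        (FaithfulSMul.algebraMap_injective R B)⟩⟩
  rw [mem_filter] at hU
  have hmax' : ∀ U' : Finset (Fin k), AlgebraicIndepOn R x (U' : Set (Fin k)) → U'.card ≤ U.card :=
    fun U' h => hmax U' (mem_filter.2 ⟨mem_powerset.2 (subset_univ _), h⟩)
  have halg : ∀ i, IsAlgebraic (Algebra.adjoin R (x '' (U : Set (Fin k)))) (x i) := fun i => by
    by_cases hi : i ∈ U
    · exact isAlgebraic_algebraMap
        (⟨x i, Algebra.subset_adjoin ⟨i, hi, rfl⟩⟩ : Algebra.adjoin R (x '' (U : Set (Fin k))))
    by_contra h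
    have h1 := hmax' (insert i U) (by rw [Finset.coe_insert]; exact hU.2.insert h)
    rw [Finset.card_insert_of_notMem hi] at h1
    omega
  refine ⟨U, hU.2, halg, ?_, hmax'⟩
  set A := Algebra.adjoin R (Set.range x) with hA
  set z : U → A := fun i => ⟨x i, Algebra.subset_adjoin ⟨_, rfl⟩⟩ with hz
  have hzi : AlgebraicIndependent R z := AlgebraicIndependent.of_comp A.val hU.2
  have hmap : (Algebra.adjoin R (Set.range z)).map A.val =
      Algebra.adjoin R (x '' (U : Set (Fin k))) := by
    rw [AlgHom.map_adjoin, ← Set.range_comp, Set.image_eq_range]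
    rfl
  have hbasis : IsTranscendenceBasis R z := hzi.isTranscendenceBasis_iff_isAlgebraic.2 ⟨fun a => by
    have ha : IsAlgebraic (Algebra.adjoin R (x '' (U : Set (Fin k)))) (a : B) := by
      have hle : A ≤ (Subalgebra.algebraicClosure (Algebra.adjoin R (x '' (U : Set (Fin k))))
          B).restrictScalars R := Algebra.adjoin_le (by rintro _ ⟨i, rfl⟩; exact halg i)
      exact hle a.2
    refine IsAlgebraic.of_ringHom_of_comp_eq
      (((A.val.comp (Algebra.adjoin R (Set.range z)).val).codRestrict
        (Algebra.adjoin R (x '' (U : Set (Fin k))))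
        fun y => by rw [← hmap]; exact Subalgebra.mem_map.2 ⟨(y : A), y.2, rfl⟩).toRingHom)
      A.val.toRingHom ha (fun y => ?_) Subtype.coe_injective rfl
    obtain ⟨w, hw, hwy⟩ := Subalgebra.mem_map.1
      (show (y : B) ∈ (Algebra.adjoin R (Set.range z)).map A.val by rw [hmap]; exact y.2)
    exact ⟨⟨w, hw⟩, Subtype.ext hwy⟩⟩
  have h := hbasis.lift_cardinalMk_eq_trdeg
  rw [Cardinal.mk_coe_finset, Cardinal.lift_natCast, eq_comm, Cardinal.lift_eq_nat_iff] at h
  exact h

variable {f : Fin k → PowerSeries ℚ}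

theorem cval_aeval (hE : ∀ i, IsEFunction (f i)) (α : ℂ)
    (p : MvPolynomial (Fin k) (Polynomial ℚ)) :
    IsEFunction (MvPolynomial.aeval f p) ∧ cval (MvPolynomial.aeval f p) α =
      MvPolynomial.eval₂ (Polynomial.eval₂RingHom (Rat.castHom ℂ) α) (fun i => cval (f i) α) p := by
  induction p using MvPolynomial.induction_on with
  | C P =>
    rw [MvPolynomial.aeval_C, MvPolynomial.eval₂_C]
    refine ⟨isEFunction_coe P, ?_⟩
    have h := (isEFunction_one.expGrowth.chasVal α).polynomial_mul P
    rw [mul_one, cval_one, mul_one] at h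
    exact h.cval_eq
  | add p q hp hq =>
    rw [map_add, MvPolynomial.eval₂_add, ← hp.2, ← hq.2]
    exact ⟨hp.1.add hq.1, ((hp.1.expGrowth.chasVal α).add (hq.1.expGrowth.chasVal α)).cval_eq⟩
  | mul_X p i hp =>
    rw [map_mul, MvPolynomial.aeval_X, MvPolynomial.eval₂_mul, MvPolynomial.eval₂_X, ← hp.2]
    exact ⟨hp.1.mul (hE i), cval_mul hp.1 (hE i) α⟩

/-- Functions with algebraically independent values are algebraically independent. -/
theorem algebraicIndepOn_of_values (hE : ∀ i, IsEFunction (f i)) {α : ℂ} (hα : IsAlgebraic ℚ α)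
    {S : Finset (Fin k)}
    (hS : AlgebraicIndepOn ℚ (fun i => cval (f i) α) (S : Set (Fin k))) :
    AlgebraicIndepOn (Polynomial ℚ) f (S : Set (Fin k)) := by
  classical
  set K := IntermediateField.adjoin ℚ ({α} : Set ℂ)
  have : FiniteDimensional ℚ K := IntermediateField.adjoin.finiteDimensional hα.isIntegral
  set a : K := ⟨α, IntermediateField.mem_adjoin_simple_self ℚ α⟩ with ha
  have hK : AlgebraicIndependent K fun i : (S : Set (Fin k)) => cval (f i) α :=
    AlgebraicIndependent.extendScalars K hS
  refine (algebraicIndependent_comp_subtype (x := f)).2 fun p hp h0 => ?_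
  by_contra hne
  obtain ⟨μ₀, hμ₀⟩ := MvPolynomial.ne_zero_iff.1 hne
  induction hn : (p.coeff μ₀).natDegree using Nat.strong_induction_on generalizing p with
  | _ n ih =>
  by_cases hall : ∀ μ, Polynomial.aeval α (p.coeff μ) = 0
  · choose q hq using fun μ => minpoly.dvd ℚ α (hall μ)
    set p' : MvPolynomial (Fin k) (Polynomial ℚ) :=
      ∑ μ ∈ p.support, MvPolynomial.monomial μ (q μ) with hp'
    have hpp : p = MvPolynomial.C (minpoly ℚ α) * p' := by
      conv_lhs => rw [p.as_sum]
      rw [hp', Finset.mul_sum]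
      exact Finset.sum_congr rfl fun μ _ => by rw [MvPolynomial.C_mul_monomial, ← hq]
    have hmin : minpoly ℚ α ≠ 0 := minpoly.ne_zero hα.isIntegral
    have hsupp : p' ∈ MvPolynomial.supported (Polynomial ℚ) (S : Set (Fin k)) := by
      refine Subalgebra.sum_mem _ fun μ hμ => MvPolynomial.mem_supported.2 fun i hi => ?_
      refine MvPolynomial.mem_supported.1 hp (Finset.mem_coe.2 ?_)
      rw [MvPolynomial.mem_vars_iff_mem_support]
      refine ⟨μ, hμ, ?_⟩
      by_cases hqμ : q μ = 0
      · simp [hqμ] at hi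
      · rwa [MvPolynomial.vars_monomial hqμ] at hi
    have hc : p.coeff μ₀ = minpoly ℚ α * p'.coeff μ₀ := by
      conv_lhs => rw [hpp, MvPolynomial.coeff_C_mul]
    have h0' : MvPolynomial.aeval f p' = 0 := by
      rw [hpp, map_mul, MvPolynomial.aeval_C, mul_eq_zero] at h0
      exact h0.resolve_left fun e => hmin (Polynomial.coe_inj.1 (e.trans Polynomial.coe_zero.symm))
    have hc0 : p'.coeff μ₀ ≠ 0 := right_ne_zero_of_mul (hc ▸ hμ₀)
    refine ih _ ?_ p' hsupp h0' (MvPolynomial.ne_zero_iff.2 ⟨μ₀, hc0⟩) hc0 rfl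
    rw [← hn, hc, Polynomial.natDegree_mul hmin hc0]
    have := minpoly.natDegree_pos hα.isIntegral
    omega
  · push Not at hall
    obtain ⟨μ, hμ⟩ := hall
    set P := MvPolynomial.map (Polynomial.aeval a : Polynomial ℚ →ₐ[ℚ] K).toRingHom p with hP
    have hsupp : P ∈ MvPolynomial.supported K (S : Set (Fin k)) :=
      MvPolynomial.mem_supported.2 fun i hi =>
        MvPolynomial.mem_supported.1 hp (Finset.mem_coe.2 (MvPolynomial.vars_map p _ hi))
    have hcomp : (algebraMap K ℂ).comp (Polynomial.aeval a : Polynomial ℚ →ₐ[ℚ] K).toRingHom =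
        Polynomial.eval₂RingHom (Rat.castHom ℂ) α := by
      refine Polynomial.ringHom_ext (fun r => ?_) ?_
      · simp
      · simp [ha]
    have hP0 := (algebraicIndependent_comp_subtype (x := fun i => cval (f i) α)).1 hK P hsupp (by
      rw [hP, MvPolynomial.aeval_def, MvPolynomial.eval₂_map, hcomp,
        ← (cval_aeval hE α p).2, h0]
      simp [cval])
    refine hμ ?_
    have h1 := congrArg (fun Q : MvPolynomial (Fin k) K => (algebraMap K ℂ) (Q.coeff μ)) hP0
    simp only [hP, MvPolynomial.coeff_map, MvPolynomial.coeff_zero, map_zero] at h1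
    rw [← RingHom.comp_apply, hcomp] at h1
    rwa [Polynomial.aeval_def, show algebraMap ℚ ℂ = Rat.castHom ℂ from Subsingleton.elim _ _]

/-- Some values are as independent as the functions. -/
theorem exists_values_of_algebraicIndepOn (T : Polynomial ℚ) (q : Fin k → Polynomial ℚ)
    (Q : Matrix (Fin k) (Fin k) (Polynomial ℚ))
    (hf : ∀ i, (T : PowerSeries ℚ) * PowerSeries.derivative ℚ (f i) =
      (q i : PowerSeries ℚ) + ∑ j, (Q i j : PowerSeries ℚ) * f j)
    (hE : ∀ i, IsEFunction (f i)) {α : ℂ} (hα : IsAlgebraic ℚ α) (hα0 : α ≠ 0)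
    (hT : Polynomial.aeval α T ≠ 0) {U : Finset (Fin k)}
    (hU : ∀ i, IsAlgebraic (Algebra.adjoin ℚ ((fun i => cval (f i) α) '' (U : Set (Fin k))))
      (cval (f i) α))
    {S : Finset (Fin k)} (hS : AlgebraicIndepOn (Polynomial ℚ) f (S : Set (Fin k))) :
    S.card ≤ U.card := by
  classical
  set K := IntermediateField.adjoin ℚ ({α} : Set ℂ)
  have : FiniteDimensional ℚ K := IntermediateField.adjoin.finiteDimensional hα.isIntegral
  have : NumberField K := { to_charZero := inferInstance, to_finiteDimensional := this }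
  set a : K := ⟨α, IntermediateField.mem_adjoin_simple_self ℚ α⟩ with ha
  obtain ⟨A, E, hAE⟩ := exists_finrank_monomial_span_le K (fun i => cval (f i) α) U hU
  set d := Module.finrank ℚ K
  by_contra hlt
  push Not at hlt
  set t := S.card with ht
  set D := d * E * (A * t + 1) ^ U.card with hD
  obtain ⟨e⟩ : Nonempty (Fin (degreeIndex k (t * D)).card ≃ degreeIndex k (t * D)) :=
    ⟨(degreeIndex k (t * D)).equivFin.symm⟩
  set g := fun b => monomialSeries f (e b : Fin k →₀ ℕ) with hg
  -- the exponents on `S`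
  set Φ : (S → Fin (D + 1)) → Fin (degreeIndex k (t * D)).card := fun β => e.symm
    ⟨Finsupp.equivFunOnFinite.symm fun i => if h : i ∈ S then (β ⟨i, h⟩ : ℕ) else 0, by
      rw [mem_degreeIndex]
      calc ∑ i, (Finsupp.equivFunOnFinite.symm
            (fun i => if h : i ∈ S then (β ⟨i, h⟩ : ℕ) else 0) : Fin k →₀ ℕ) i
          ≤ ∑ i, if i ∈ S then D else 0 := Finset.sum_le_sum fun i _ => by
            simp only [Finsupp.coe_equivFunOnFinite_symm]
            split_ifs with h
            · exact Nat.lt_succ_iff.1 (β ⟨i, h⟩).2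
            · exact le_rfl
        _ = t * D := by simp [ht]⟩ with hΦ
  have hΦi : Function.Injective Φ := fun β γ h => funext fun ⟨i, hi⟩ => Fin.ext (by
    have h1 := congrArg (fun μ : Fin k →₀ ℕ => μ i) (congrArg Subtype.val (e.symm.injective h))
    simpa [hi] using h1)
  set σ : Finset (Fin (degreeIndex k (t * D)).card) := univ.image Φ with hσ
  have hσS : ∀ b ∈ σ, ((e b : Fin k →₀ ℕ).support : Set (Fin k)) ⊆ (S : Set (Fin k)) := by
    intro b hb
    obtain ⟨β, -, rfl⟩ := mem_image.1 hb
    intro i hi
    simp only [hΦ, Equiv.apply_symm_apply, mem_coe, Finsupp.mem_support_iff,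
      Finsupp.coe_equivFunOnFinite_symm, ne_eq] at hi
    by_contra hiS
    exact hi (dif_neg hiS)
  have hind : ∀ P : Fin (degreeIndex k (t * D)).card → Polynomial ℚ,
      (∀ b ∉ σ, P b = 0) → formSeries g P = 0 → P = 0 := by
    intro P hP h
    have h1 := (algebraicIndependent_comp_subtype (x := f)).1 hS
      (∑ b, MvPolynomial.monomial (e b : Fin k →₀ ℕ) (P b))
      (Subalgebra.sum_mem _ fun b _ => MvPolynomial.mem_supported.2 (by
        by_cases hb : P b = 0
        · simp [hb]
        · rw [MvPolynomial.vars_monomial hb]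
          exact hσS b (by_contra fun hbσ => hb (hP b hbσ))))
      (by
        rw [map_sum, ← h, formSeries]
        refine Finset.sum_congr rfl fun b _ => ?_
        rw [MvPolynomial.aeval_monomial, Finsupp.prod_fintype _ _ (by simp)]
        rfl)
    funext b
    have h2 := congrArg (MvPolynomial.coeff (e b : Fin k →₀ ℕ)) h1
    rw [MvPolynomial.coeff_zero, MvPolynomial.coeff_sum, Finset.sum_eq_single b] at h2
    · simpa using h2
    · intro c _ hc
      rw [MvPolynomial.coeff_monomial, if_neg]
      exact fun hs => hc (e.injective (Subtype.ext hs))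
    · exact fun hn => absurd (mem_univ _) hn
  have h1 := card_le_mul_finrank_values (f := g) T (degreeSystem e q Q)
    (isSolution_degreeSystem e hf) (fun b => (monomialSeries_spec hE _ α).1) (K := K) (α := a)
    (fun h0 => hα0 (congrArg (algebraMap K ℂ) h0)) (fun h0 => hT (by
      rw [show α = algebraMap K ℂ a from rfl, Polynomial.aeval_algebraMap_apply, h0, map_zero]))
    hind
  have hrange : (Set.range fun j => cval (g j) (algebraMap K ℂ a)) =
      Set.range fun μ : degreeIndex k (t * D) =>
        ∏ i, cval (f i) α ^ (μ : Fin k →₀ ℕ) i := by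
    have h2 : (fun j => cval (g j) (algebraMap K ℂ a)) = (fun μ : degreeIndex k (t * D) =>
        ∏ i, cval (f i) α ^ (μ : Fin k →₀ ℕ) i) ∘ e :=
      funext fun b => (monomialSeries_spec hE _ _).2
    rw [h2, EquivLike.range_comp]
  rw [hσ, Finset.card_image_of_injective _ hΦi, Finset.card_univ, Fintype.card_fun,
    Fintype.card_fin, Fintype.card_coe, hrange] at h1
  have h2 := h1.trans (Nat.mul_le_mul_left _ (hAE (t * D)))
  have h3 : (A * (t * D) + 1) ^ U.card ≤ (A * t + 1) ^ U.card * (D + 1) ^ U.card := by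
    rw [← mul_pow]
    exact Nat.pow_le_pow_left (by nlinarith) _
  have h4 : (D + 1) ^ (U.card + 1) ≤ (D + 1) ^ t := Nat.pow_le_pow_right D.succ_pos hlt
  have h5 : d * (E * (A * (t * D) + 1) ^ U.card) ≤ D * (D + 1) ^ U.card := by
    calc _ ≤ d * (E * ((A * t + 1) ^ U.card * (D + 1) ^ U.card)) :=
          Nat.mul_le_mul_left _ (Nat.mul_le_mul_left _ h3)
      _ = _ := by rw [hD]; ring
  have h6 : 0 < (D + 1) ^ U.card := pow_pos D.succ_pos _
  rw [pow_succ] at h4
  nlinarith

/-- **The second fundamental theorem of Shidlovskii.** -/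
theorem trdeg_values_eq (T : Polynomial ℚ) (q : Fin k → Polynomial ℚ)
    (Q : Matrix (Fin k) (Fin k) (Polynomial ℚ))
    (hf : ∀ i, (T : PowerSeries ℚ) * PowerSeries.derivative ℚ (f i) =
      (q i : PowerSeries ℚ) + ∑ j, (Q i j : PowerSeries ℚ) * f j)
    (hE : ∀ i, IsEFunction (f i)) {α : ℂ} (hα : IsAlgebraic ℚ α) (hα0 : α ≠ 0)
    (hT : Polynomial.aeval α T ≠ 0) :
    Algebra.trdeg ℚ (Algebra.adjoin ℚ (Set.range fun i => cval (f i) α)) =
      Algebra.trdeg (Polynomial ℚ) (Algebra.adjoin (Polynomial ℚ) (Set.range f)) := by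
  have : FaithfulSMul (Polynomial ℚ) (PowerSeries ℚ) :=
    (faithfulSMul_iff_algebraMap_injective _ _).2 fun P R h => Polynomial.coe_inj.1 h
  obtain ⟨U, hU, hUalg, hUeq, -⟩ := exists_card_eq_trdeg_adjoin (R := ℚ) fun i => cval (f i) α
  obtain ⟨S, hS, -, hSeq, hSmax⟩ := exists_card_eq_trdeg_adjoin (R := Polynomial ℚ) f
  have h1 := exists_values_of_algebraicIndepOn T q Q hf hE hα hα0 hT hUalg hS
  have h2 := hSmax U (algebraicIndepOn_of_values hE hα hU)
  rw [hUeq, hSeq, le_antisymm h1 h2]

end FA.SiegelShidlovskii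

end
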