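import Mathlib.Analysis.Complex.RealDeriv
import Mathlib.Analysis.SpecialFunctions.Integrability.Basic
import Mathlib.MeasureTheory.Integral.IntervalIntegral.FundThmCalculus
import Fermat.Agent.Transcendence.HermiteLindemann
import Fermat.Agent.SiegelShidlovskii.IncompleteGamma

/-!
# The incomplete gamma integral and the Gaussian integral

`∫₀ˣ t ^ (s - 1) exp (-t) dt = x ^ s exp (-x) φ_s x / s` for rational `s > 0`, and
`∫₀ᵅ exp (-t²) dt = α exp (-α²) φ_(1/2) (α²)`; hence both are transcendental at algebraic points.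
-/

set_option autoImplicit false

noncomputable section

open Finset MeasureTheory
open scoped Nat

namespace FA.SiegelShidlovskii

theorem ExpGrowth.hasDerivAt_val {g : PowerSeries ℚ} (hg : ExpGrowth g) (x : ℝ) :
    HasDerivAt (val g) (val (PowerSeries.derivative ℚ g) x) x := by
  have h := (hg.chasDerivAt (x : ℂ)).real_of_complex
  simpa [cval_ofReal] using h

theorem val_phiSeries_equation {lam : ℚ} (hlam : ∀ m : ℕ, lam ≠ -((m : ℚ) + 1)) (x : ℝ) :
    x * val (PowerSeries.derivative ℚ (phiSeries lam)) x =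
      (x - lam) * val (phiSeries lam) x + lam := by
  have hg := (isEFunction_phiSeries hlam).expGrowth
  have h1 := (hg.derivative.chasVal (x : ℂ)).polynomial_mul Polynomial.X
  have h2 := ((hg.chasVal (x : ℂ)).polynomial_mul (Polynomial.X - Polynomial.C lam)).add
    ((isEFunction_one.expGrowth.chasVal (x : ℂ)).polynomial_mul (Polynomial.C lam))
  rw [Polynomial.coe_X, phiSeries_equation hlam] at h1
  rw [Polynomial.coe_sub, Polynomial.coe_X, Polynomial.coe_C, mul_one] at h2
  have h := h1.unique h2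
  rw [cval_one, mul_one] at h
  simp only [Polynomial.eval₂_X, Polynomial.eval₂_sub, Polynomial.eval₂_C, cval_ofReal,
    eq_ratCast] at h
  exact_mod_cast h

theorem ne_neg_nat_of_pos {s : ℚ} (hs : 0 < s) (m : ℕ) : s ≠ -((m : ℚ) + 1) := fun h => by
  linarith [Nat.cast_nonneg (α := ℚ) m]

theorem integral_gaussian_eq (α : ℝ) : ∫ t in (0 : ℝ)..α, Real.exp (-t ^ 2) =
    α * Real.exp (-α ^ 2) * val (phiSeries (1 / 2)) (α ^ 2) := by
  have hlam := ne_neg_nat_of_pos (s := 1 / 2) (by norm_num)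
  rw [intervalIntegral.integral_eq_sub_of_hasDerivAt
    (f := fun t : ℝ => t * Real.exp (-t ^ 2) * val (phiSeries (1 / 2)) (t ^ 2)) (fun t _ => ?_)
    (Continuous.intervalIntegrable (by fun_prop) _ _)]
  · simp
  have h1 := ((isEFunction_phiSeries hlam).expGrowth.hasDerivAt_val (t ^ 2)).comp t
    (hasDerivAt_pow 2 t)
  have h2 := ((hasDerivAt_id t).mul (hasDerivAt_pow 2 t).neg.exp).mul h1
  have h3 := val_phiSeries_equation hlam (t ^ 2)
  refine HasDerivAt.congr_deriv h2 ?_
  simp only [Function.comp_apply, Pi.mul_apply, id_eq, Nat.cast_ofNat, Nat.add_one_sub_one,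
    pow_one, one_mul]
  push_cast at h3
  linear_combination (2 * Real.exp (-t ^ 2)) * h3

theorem integral_incompleteGamma_eq {s : ℚ} (hs : 0 < s) {x : ℝ} (hx : 0 ≤ x) :
    ∫ t in (0 : ℝ)..x, t ^ ((s : ℝ) - 1) * Real.exp (-t) =
      x ^ (s : ℝ) * Real.exp (-x) * val (phiSeries s) x / s := by
  have hs' : (0 : ℝ) < s := Rat.cast_pos.2 hs
  have hlam := ne_neg_nat_of_pos hs
  have hd := (isEFunction_phiSeries hlam).expGrowth
  rw [intervalIntegral.integral_eq_sub_of_hasDerivAt_of_le hx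
    (f := fun t : ℝ => t ^ (s : ℝ) * Real.exp (-t) * val (phiSeries s) t / s) ?_ (fun t ht => ?_)
    ((intervalIntegral.intervalIntegrable_rpow' (by linarith)).mul_continuousOn
      (Continuous.continuousOn (by fun_prop)))]
  · simp [Real.zero_rpow hs'.ne']
  · exact (((Real.continuous_rpow_const hs'.le).mul (by fun_prop)).mul
      (continuous_iff_continuousAt.2 fun y => (hd.hasDerivAt_val y).continuousAt)
        |>.div_const _).continuousOn
  have ht0 : t ≠ 0 := ht.1.ne'
  have h2 := (((Real.hasDerivAt_rpow_const (p := (s : ℝ)) (Or.inl ht0)).mul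
    (hasDerivAt_neg t).exp).mul (hd.hasDerivAt_val t)).div_const (s : ℝ)
  refine HasDerivAt.congr_deriv h2 ?_
  have h3 := val_phiSeries_equation hlam t
  simp only [Pi.mul_apply]
  rw [Real.rpow_sub_one ht0]
  field_simp
  linear_combination (t ^ (s : ℝ)) * h3

theorem algebraicIndependent_pair_div {a E c : ℂ} (h : AlgebraicIndependent ℚ ![a, E])
    (hc : IsAlgebraic ℚ c) (hc0 : c ≠ 0) : AlgebraicIndependent ℚ ![c * a / E, E] := by
  have h1 : AlgebraicIndependent ℚ (fun _ : Unit => E) :=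
    h.comp (fun _ : Unit => (1 : Fin 2)) (Function.injective_of_subsingleton _)
  have hE : E ≠ 0 := h.ne_zero 1
  have h2 : AlgebraicIndependent ℚ (fun o : Option Unit => o.elim (c * a / E) fun _ => E) := by
    rw [h1.option_iff_transcendental]
    intro hq
    refine h.transcendental_adjoin (i := 0) (s := {1}) (by simp) ?_
    rw [Set.image_singleton]
    rw [Set.range_const] at hq
    set R := Algebra.adjoin ℚ ({E} : Set ℂ)
    have hE' : IsAlgebraic R E :=
      isAlgebraic_algebraMap (⟨E, Algebra.subset_adjoin rfl⟩ : R)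
    have hc' : IsAlgebraic R c := hc.extendScalars (algebraMap ℚ R).injective
    change IsAlgebraic R a
    rw [show a = c * a / E * E * c⁻¹ by field_simp]
    exact (hq.mul hE').mul hc'.inv
  have h3 := h2.comp ![none, some ()] (by
    intro i j hij
    fin_cases i <;> fin_cases j <;> simp_all)
  convert h3 using 1
  funext i
  fin_cases i <;> rfl

theorem isAlgebraic_ofReal_iff' {x : ℝ} : IsAlgebraic ℚ (x : ℂ) ↔ IsAlgebraic ℚ x :=
  isAlgebraic_algHom_iff (Complex.ofRealAm.restrictScalars ℚ) Complex.ofReal_injective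

theorem algebraicIndependent_pair_ofReal {a E : ℝ}
    (h : AlgebraicIndependent ℚ ![(a : ℂ), (E : ℂ)]) : AlgebraicIndependent ℚ ![a, E] := by
  refine AlgebraicIndependent.of_comp (Complex.ofRealAm.restrictScalars ℚ) ?_
  convert h using 1
  funext i
  fin_cases i <;> rfl

/-- **`∫₀ᵅ exp (-t²) dt` and `exp α²` are algebraically independent.** -/
theorem algebraicIndependent_gaussian {α : ℝ} (hα : IsAlgebraic ℚ α) (hα0 : α ≠ 0) :
    AlgebraicIndependent ℚ ![∫ t in (0 : ℝ)..α, Real.exp (-t ^ 2), Real.exp (α ^ 2)] := by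
  have hα' : IsAlgebraic ℚ (α : ℂ) := isAlgebraic_ofReal_iff'.2 hα
  have h := algebraicIndependent_pair_div (algebraicIndependent_phiSeries (lam := 1 / 2)
    (fun t ht => by
      have : (((2 * t : ℤ)) : ℚ) = ((1 : ℤ) : ℚ) := by push_cast; linarith
      rw [Int.cast_inj] at this
      omega) (hα'.pow 2) (pow_ne_zero 2 (Complex.ofReal_ne_zero.2 hα0))) hα'
    (Complex.ofReal_ne_zero.2 hα0)
  refine algebraicIndependent_pair_ofReal ?_
  convert h using 2
  · rw [integral_gaussian_eq, ← Complex.ofReal_pow, cval_ofReal, ← Complex.ofReal_exp,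
      ← Complex.ofReal_mul, ← Complex.ofReal_div, Real.exp_neg]
    norm_num
    ring
  · push_cast
    rfl

theorem isAlgebraic_rpow_ratCast {x : ℝ} (hx : IsAlgebraic ℚ x) (hx0 : 0 ≤ x) {s : ℚ}
    (hs : 0 ≤ s) : IsAlgebraic ℚ (x ^ (s : ℝ)) := by
  refine IsAlgebraic.of_pow s.den_pos ?_
  have h : (s : ℝ) * (s.den : ℝ) = ((s.num.toNat : ℕ) : ℝ) := by
    have h1 := congrArg (fun q : ℚ => (q : ℝ)) (Rat.mul_den_eq_num s)
    push_cast at h1
    rw [h1, ← Int.cast_natCast, Int.toNat_of_nonneg (Rat.num_nonneg.2 hs)]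
  rw [← Real.rpow_natCast, ← Real.rpow_mul hx0, h, Real.rpow_natCast]
  exact hx.pow _

/-- **The incomplete gamma value and `exp x` are algebraically independent.** -/
theorem algebraicIndependent_incompleteGamma {s : ℚ} (hs : 0 < s) (hint : ∀ t : ℤ, s ≠ t)
    {x : ℝ} (hx : IsAlgebraic ℚ x) (hx0 : 0 < x) :
    AlgebraicIndependent ℚ
      ![∫ t in (0 : ℝ)..x, t ^ ((s : ℝ) - 1) * Real.exp (-t), Real.exp x] := by
  have h := algebraicIndependent_pair_div (algebraicIndependent_phiSeries hint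
    (isAlgebraic_ofReal_iff'.2 hx) (Complex.ofReal_ne_zero.2 hx0.ne'))
    (c := ((x ^ (s : ℝ) * ((s : ℝ))⁻¹ : ℝ) : ℂ))
    (isAlgebraic_ofReal_iff'.2 ((isAlgebraic_rpow_ratCast hx hx0.le hs.le).mul
      (isAlgebraic_algebraMap s).inv))
    (Complex.ofReal_ne_zero.2 (mul_ne_zero (Real.rpow_pos_of_pos hx0 _).ne'
      (inv_ne_zero (Rat.cast_ne_zero.2 hs.ne'))))
  refine algebraicIndependent_pair_ofReal ?_
  convert h using 2
  · rw [integral_incompleteGamma_eq hs hx0.le, cval_ofReal, ← Complex.ofReal_exp,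
      ← Complex.ofReal_mul, ← Complex.ofReal_div, Real.exp_neg]
    congr 1
    ring
  · push_cast
    rfl

theorem mul_pow_val_phiSeries_natCast (n : ℕ) (x : ℝ) :
    x ^ (n + 1) * val (phiSeries ((n + 1 : ℕ) : ℚ)) x =
      ((n + 1)! : ℝ) * (Real.exp x - ∑ k ∈ range (n + 1), x ^ k / (k ! : ℝ)) := by
  have hR : ∀ k, risingProd ((n + 1 : ℕ) : ℚ) k * ((n + 1)! : ℚ) = ((k + (n + 1))! : ℚ) := by
    intro k
    induction k with
    | zero => simp [risingProd]
    | succ k ih =>
      rw [risingProd_succ, show k + 1 + (n + 1) = (k + (n + 1)) + 1 by ring,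
        Nat.factorial_succ (k + (n + 1)), Nat.cast_mul, ← ih]
      push_cast
      ring
  rw [Real.exp_eq_exp_ℝ, NormedSpace.exp_eq_tsum_div]
  dsimp only
  rw [← (Real.summable_pow_div_factorial x).sum_add_tsum_nat_add (n + 1), add_sub_cancel_left,
    ← tsum_mul_left, val, ← tsum_mul_left]
  refine tsum_congr fun k => ?_
  have h := congrArg (fun q : ℚ => (q : ℝ)) (hR k)
  simp only [Rat.cast_mul, Rat.cast_natCast] at h
  have h1 := Rat.cast_ne_zero (α := ℝ) |>.2
    (risingProd_ne_zero (ne_neg_nat_of_pos (s := ((n + 1 : ℕ) : ℚ)) (by positivity)) k)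
  have h2 : ((n + 1)! : ℝ) ≠ 0 := Nat.cast_ne_zero.2 (Nat.factorial_ne_zero _)
  rw [phiSeries, PowerSeries.coeff_mk, ← h, Rat.cast_inv]
  field_simp
  ring

/-- **The incomplete gamma values are transcendental.** -/
theorem transcendental_incompleteGamma {s : ℚ} (hs : 0 < s) {x : ℝ} (hx : IsAlgebraic ℚ x)
    (hx0 : 0 < x) :
    Transcendental ℚ (∫ t in (0 : ℝ)..x, t ^ ((s : ℝ) - 1) * Real.exp (-t)) := by
  by_cases hint : ∀ t : ℤ, s ≠ t
  · exact (algebraicIndependent_incompleteGamma hs hint hx hx0).transcendental 0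
  push Not at hint
  obtain ⟨t, rfl⟩ := hint
  obtain ⟨n, rfl⟩ : ∃ n : ℕ, t = ((n + 1 : ℕ) : ℤ) :=
    ⟨(t - 1).toNat, by have := Int.cast_pos.1 hs; omega⟩
  intro hc
  rw [integral_incompleteGamma_eq hs hx0.le, Int.cast_natCast, Rat.cast_natCast,
    Real.rpow_natCast, mul_right_comm, mul_pow_val_phiSeries_natCast] at hc
  set P := ∑ k ∈ range (n + 1), x ^ k / (k ! : ℝ) with hP
  have hP0 : 0 < P := Finset.sum_pos (fun k _ => by positivity) (by simp)
  have hPa : IsAlgebraic ℚ P := by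
    rw [hP, ← Subalgebra.mem_algebraicClosure]
    exact Subalgebra.sum_mem _ fun k _ =>
      (hx.pow k).mul (isAlgebraic_natCast (k !)).inv
  have he : Real.exp (-x) * Real.exp x = 1 := by rw [← Real.exp_add, neg_add_cancel, Real.exp_zero]
  have hfac : ((n + 1)! : ℝ) = ((n + 1 : ℕ) : ℝ) * (n ! : ℝ) := by
    rw [Nat.factorial_succ, Nat.cast_mul]
  have hn : (n ! : ℝ) ≠ 0 := Nat.cast_ne_zero.2 (Nat.factorial_ne_zero _)
  have hneg : IsAlgebraic ℚ (Real.exp (-x)) := by
    rw [show Real.exp (-x) = (1 - ((n + 1)! : ℝ) * (Real.exp x - P) * Real.exp (-x) /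
        ((n + 1 : ℕ) : ℝ) * (n ! : ℝ)⁻¹) * P⁻¹ by
      rw [hfac]
      push_cast
      field_simp
      linear_combination he]
    exact (isAlgebraic_one.sub (hc.mul (isAlgebraic_natCast _).inv)).mul hPa.inv
  refine HermiteLindemann.transcendental_exp (a := ((-x : ℝ) : ℂ))
    (Complex.ofReal_ne_zero.2 (neg_ne_zero.2 hx0.ne')) (isAlgebraic_ofReal_iff'.2 hx.neg) ?_
  rw [← Complex.ofReal_exp]
  exact isAlgebraic_ofReal_iff'.2 hneg

end FA.SiegelShidlovskii

end
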