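import Fermat.Agent.SiegelShidlovskii.BesselFunctional
import Fermat.Agent.SiegelShidlovskii.AlgebraicIndependence

/-!
# `J₀` at algebraic points

`J₀` and `J₀'` satisfy a linear system singular only at the origin, so their values at an
algebraic `α ≠ 0` are algebraically independent.
-/

set_option autoImplicit false

noncomputable section

open Finset
open scoped Nat

namespace FA.SiegelShidlovskii

theorem cval_besselSeries (z : ℂ) :
    cval besselSeries z = ∑' l : ℕ, (-1) ^ l * (z / 2) ^ (2 * l) / ((l ! : ℂ)) ^ 2 := by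
  refine ((mul_right_injective₀ (two_ne_zero : (2 : ℕ) ≠ 0)).tsum_eq ?_).symm.trans ?_
  · intro k hk
    rw [Function.mem_support] at hk
    by_contra hodd
    refine hk ?_
    have : ¬Even k := fun ⟨i, hi⟩ => hodd ⟨i, by simp only; omega⟩
    simp [besselSeries, this]
  · refine tsum_congr fun l => ?_
    rw [besselSeries_coeff_two_mul]
    push_cast
    rw [div_pow, pow_mul (2 : ℂ), show (2 : ℂ) ^ 2 = 4 by norm_num]
    ring

theorem eval₂_eq_zero_of_relEvalOf {Y : PowerSeries ℚ}
    (hY : ∀ p : RelRing, relEvalOf Y p = 0 → p = 0) (p : MvPolynomial (Fin 2) (Polynomial ℚ))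
    (hp : MvPolynomial.eval₂ Polynomial.coeToPowerSeries.ringHom
      ![Y, PowerSeries.derivative ℚ Y] p = 0) : p = 0 := by
  let toRel : MvPolynomial (Fin 2) (Polynomial ℚ) →+* RelRing :=
    MvPolynomial.eval₂Hom (Polynomial.aeval (MvPolynomial.X 2 : RelRing)).toRingHom
      ![MvPolynomial.X 1, MvPolynomial.X 0]
  let ev : RelRing →ₐ[ℚ] MvPolynomial (Fin 2) (Polynomial ℚ) := MvPolynomial.aeval
    ![MvPolynomial.X 1, MvPolynomial.X 0, MvPolynomial.C Polynomial.X]
  have hinv : ev.toRingHom.comp toRel = RingHom.id _ := by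
    refine MvPolynomial.ringHom_ext (fun r => ?_) fun i => ?_
    · have h2 : (ev.comp (Polynomial.aeval (MvPolynomial.X 2 : RelRing))).toRingHom =
          MvPolynomial.C := by
        refine Polynomial.ringHom_ext (fun a => ?_) ?_
        · simp [ev]
        · simp [ev]
      simpa [toRel] using RingHom.congr_fun h2 r
    · fin_cases i <;> simp [toRel, ev]
  have hev : (relEvalOf Y).toRingHom.comp toRel = MvPolynomial.eval₂Hom
      Polynomial.coeToPowerSeries.ringHom
      ![Y, PowerSeries.derivative ℚ Y] := by
    refine MvPolynomial.ringHom_ext (fun r => ?_) fun i => ?_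
    · have h2 : ((relEvalOf Y).comp (Polynomial.aeval (MvPolynomial.X 2 : RelRing))).toRingHom =
          Polynomial.coeToPowerSeries.ringHom := by
        refine Polynomial.ringHom_ext (fun a => ?_) ?_
        · simp [relEvalOf]
        · simp [relEvalOf]
      simpa [toRel] using RingHom.congr_fun h2 r
    · fin_cases i <;> simp [toRel, relEvalOf]
  have h := hY _ ((RingHom.congr_fun hev p).trans hp)
  have h' := RingHom.congr_fun hinv p
  rw [RingHom.comp_apply, h, map_zero, RingHom.id_apply] at h'
  exact h'.symm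

theorem bessel_eval₂_eq_zero (p : MvPolynomial (Fin 2) (Polynomial ℚ))
    (hp : MvPolynomial.eval₂ Polynomial.coeToPowerSeries.ringHom
      ![besselSeries, PowerSeries.derivative ℚ besselSeries] p = 0) : p = 0 :=
  eval₂_eq_zero_of_relEvalOf (fun _ => relEval_eq_zero) p hp

/-- **Siegel**: `J₀ α`, `J₀' α` are algebraically independent for every algebraic `α ≠ 0`. -/
theorem algebraicIndependent_bessel_complex {α : ℂ} (hα : IsAlgebraic ℚ α) (hα0 : α ≠ 0) :
    AlgebraicIndependent ℚ ![∑' l : ℕ, (-1) ^ l * (α / 2) ^ (2 * l) / ((l ! : ℂ)) ^ 2,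
      deriv (fun z : ℂ => ∑' l : ℕ, (-1) ^ l * (z / 2) ^ (2 * l) / ((l ! : ℂ)) ^ 2) α] := by
  have hE : ∀ i, IsEFunction (![besselSeries, PowerSeries.derivative ℚ besselSeries] i) := by
    intro i
    fin_cases i
    · exact isEFunction_besselSeries
    · exact isEFunction_besselSeries.derivative
  have h := algebraicIndependent_values Polynomial.X (fun _ : Fin 2 => 0)
    !![0, Polynomial.X; -Polynomial.X, -1]
    (f := ![besselSeries, PowerSeries.derivative ℚ besselSeries]) (fun i => ?_) hE
    bessel_eval₂_eq_zero hα hα0 (by simpa using hα0)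
  · have e : (fun z : ℂ => ∑' l : ℕ, (-1) ^ l * (z / 2) ^ (2 * l) / ((l ! : ℂ)) ^ 2) =
        cval besselSeries := funext fun z => (cval_besselSeries z).symm
    rw [← cval_besselSeries, e, (isEFunction_besselSeries.expGrowth.chasDerivAt α).deriv]
    convert h using 1
    funext i
    fin_cases i <;> rfl
  · fin_cases i
    · simp [Fin.sum_univ_two]
    · simp [Fin.sum_univ_two]
      linear_combination besselSeries_equation

end FA.SiegelShidlovskii

end
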