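import Mathlib.RingTheory.AlgebraicIndependent.Transcendental
import Fermat.Agent.SiegelShidlovskii.BesselAlgebraic

/-!
# Bessel functions of integral order

`z ^ n J_n` is an integral combination of `J₀` and `z J₁`; hence `J_n α` is transcendental for
algebraic `α ≠ 0`, and a common zero of `J_n` and `J_(n+m)`, being a zero of a Lommel polynomial,
can only be the origin.
-/

set_option autoImplicit false

noncomputable section

open Finset
open scoped Nat

namespace FA.SiegelShidlovskii

/-- The Bessel function of the first kind of order `n`. -/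
def besselC (n : ℕ) (z : ℂ) : ℂ :=
  ∑' l : ℕ, (-1) ^ l * (z / 2) ^ (2 * l + n) / ((l ! : ℂ) * ((l + n)! : ℂ))

theorem hasSum_besselC (n : ℕ) (z : ℂ) :
    HasSum (fun l : ℕ => (-1) ^ l * (z / 2) ^ (2 * l + n) / ((l ! : ℂ) * ((l + n)! : ℂ)))
      (besselC n z) := by
  refine (Summable.of_norm_bounded
    ((Real.summable_pow_div_factorial (‖z / 2‖ ^ 2)).mul_left (‖z / 2‖ ^ n)) fun l => ?_).hasSum
  rw [norm_div, norm_mul, norm_pow, norm_neg, norm_one, one_pow, one_mul, norm_pow, norm_mul,
    Complex.norm_natCast, Complex.norm_natCast, pow_add, pow_mul, mul_comm ((‖z / 2‖ ^ 2) ^ l),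
    mul_div_assoc]
  refine mul_le_mul_of_nonneg_left ?_ (by positivity)
  gcongr
  exact le_mul_of_one_le_right (Nat.cast_nonneg _) (Nat.one_le_cast.2 (Nat.factorial_pos _))

theorem besselC_recurrence (n : ℕ) (z : ℂ) :
    z * (besselC n z + besselC (n + 2) z) = 2 * ((n : ℂ) + 1) * besselC (n + 1) z := by
  set g : ℕ → ℂ := fun l => if l = 0 then 0 else
    (-1) ^ (l - 1) * (z / 2) ^ (2 * (l - 1) + (n + 2)) / (((l - 1)! : ℂ) * ((l - 1 + (n + 2))! : ℂ))
    with hg
  have h2 : HasSum g (besselC (n + 2) z) := by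
    have h := (hasSum_nat_add_iff (f := g) 1).1 ((hasSum_besselC (n + 2) z).congr_fun fun l => by
      simp [hg])
    simpa [hg] using h
  refine (((hasSum_besselC n z).add h2).mul_left z).unique
    (((hasSum_besselC (n + 1) z).mul_left (2 * ((n : ℂ) + 1))).congr_fun fun l => ?_)
  rcases l with _ | l
  · simp only [hg, if_pos, add_zero, mul_zero, zero_add, Nat.factorial_succ, pow_succ]
    push_cast
    have h1 : (n ! : ℂ) ≠ 0 := Nat.cast_ne_zero.2 (Nat.factorial_ne_zero _)
    have h2 : ((n : ℂ) + 1) ≠ 0 := Nat.cast_add_one_ne_zero n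
    field_simp
  · simp only [hg, Nat.succ_ne_zero, if_false, Nat.add_sub_cancel]
    rw [show l + 1 + (n + 1) = (l + n + 1) + 1 by ring, show l + 1 + n = l + n + 1 by ring,
      show l + (n + 2) = (l + n + 1) + 1 by ring, show 2 * (l + 1) + n = 2 * l + n + 2 by ring,
      show 2 * l + (n + 2) = 2 * l + n + 2 by ring,
      show 2 * (l + 1) + (n + 1) = 2 * l + n + 2 + 1 by ring, Nat.factorial_succ l,
      Nat.factorial_succ (l + n + 1), pow_succ _ (2 * l + n + 2), pow_succ _ l]
    push_cast
    have h1 : ((l + n + 1)! : ℂ) ≠ 0 := Nat.cast_ne_zero.2 (Nat.factorial_ne_zero _)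
    have h2 : (l ! : ℂ) ≠ 0 := Nat.cast_ne_zero.2 (Nat.factorial_ne_zero _)
    have h3 : ((l : ℂ) + 1) ≠ 0 := Nat.cast_add_one_ne_zero l
    have h4 : ((l : ℂ) + (n : ℂ) + 1 + 1) ≠ 0 := by exact_mod_cast (Nat.succ_ne_zero (l + n + 1))
    field_simp
    ring

theorem besselC_zero (z : ℂ) : besselC 0 z = cval besselSeries z := by
  rw [cval_besselSeries, besselC]
  exact tsum_congr fun l => by rw [Nat.add_zero, Nat.add_zero, sq]

theorem besselC_one (z : ℂ) : besselC 1 z = -cval (PowerSeries.derivative ℚ besselSeries) z := by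
  have hinj : Function.Injective fun l : ℕ => 2 * l + 1 := fun a b h => by simp only at h; omega
  rw [besselC, cval, ← tsum_neg]
  refine Eq.trans ?_ (hinj.tsum_eq ?_)
  · refine tsum_congr fun l => ?_
    rw [PowerSeries.coeff_derivative, show 2 * l + 1 + 1 = 2 * (l + 1) by ring,
      besselSeries_coeff_two_mul, Nat.factorial_succ, pow_succ _ l, pow_succ _ l]
    push_cast
    have h2 : (l ! : ℂ) ≠ 0 := Nat.cast_ne_zero.2 (Nat.factorial_ne_zero _)
    have h3 : ((l : ℂ) + 1) ≠ 0 := Nat.cast_add_one_ne_zero l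
    rw [div_pow, pow_succ (2 : ℂ), pow_mul (2 : ℂ), show (2 : ℂ) ^ 2 = 4 by norm_num]
    field_simp
    ring
  · intro k hk
    rw [Function.mem_support] at hk
    by_contra hodd
    refine hk ?_
    have : ¬Even (k + 1) := fun ⟨i, hi⟩ => hodd ⟨i - 1, by simp only; omega⟩
    simp [besselSeries, PowerSeries.coeff_derivative, this]

theorem transcendental_combination {x : Fin 2 → ℂ} (hx : AlgebraicIndependent ℚ x) {a b : ℂ}
    (ha : IsAlgebraic ℚ a) (hb : IsAlgebraic ℚ b) (hab : a ≠ 0 ∨ b ≠ 0) :
    Transcendental ℚ (a * x 0 + b * x 1) := by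
  have key : ∀ (i j : Fin 2) (a b : ℂ), i ≠ j → IsAlgebraic ℚ a → IsAlgebraic ℚ b → a ≠ 0 →
      Transcendental ℚ (a * x i + b * x j) := fun i j a b hij ha hb ha0 hc => by
    set R := Algebra.adjoin ℚ (x '' {j})
    have hj : IsAlgebraic R (x j) :=
      isAlgebraic_algebraMap (⟨x j, Algebra.subset_adjoin ⟨j, rfl, rfl⟩⟩ : R)
    refine hx.transcendental_adjoin (i := i) (s := {j}) (by simpa using hij) ?_
    rw [show x i = (a * x i + b * x j - b * x j) * a⁻¹ by field_simp; ring]
    have up : ∀ {c : ℂ}, IsAlgebraic ℚ c → IsAlgebraic R c := fun hc =>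
      hc.extendScalars (algebraMap ℚ R).injective
    exact ((up hc).sub ((up hb).mul hj)).mul (up ha.inv)
  rcases hab with h | h
  · exact key 0 1 a b (by decide) ha hb h
  · rw [add_comm]
    exact key 1 0 b a (by decide) hb ha h

theorem algebraicIndependent_cval {α : ℂ} (hα : IsAlgebraic ℚ α) (hα0 : α ≠ 0) :
    AlgebraicIndependent ℚ
      ![cval besselSeries α, cval (PowerSeries.derivative ℚ besselSeries) α] := by
  have h := algebraicIndependent_bessel_complex hα hα0
  have e : (fun z : ℂ => ∑' l : ℕ, (-1) ^ l * (z / 2) ^ (2 * l) / ((l ! : ℂ)) ^ 2) =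
      cval besselSeries := funext fun z => (cval_besselSeries z).symm
  rwa [← cval_besselSeries, e, (isEFunction_besselSeries.expGrowth.chasDerivAt α).deriv] at h

/-- The coefficient of `J₀` in `z ^ n J_n`. -/
def besselA : ℕ → Polynomial ℤ
  | 0 => 1
  | 1 => 0
  | n + 2 => Polynomial.C (2 * ((n : ℤ) + 1)) * besselA (n + 1) - Polynomial.X ^ 2 * besselA n

/-- The coefficient of `J₁` in `z ^ n J_n`. -/
def besselB : ℕ → Polynomial ℤ
  | 0 => 0
  | 1 => Polynomial.X
  | n + 2 => Polynomial.C (2 * ((n : ℤ) + 1)) * besselB (n + 1) - Polynomial.X ^ 2 * besselB n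

theorem pow_mul_besselC (z : ℂ) : ∀ n, z ^ n * besselC n z =
    Polynomial.aeval z (besselA n) * besselC 0 z + Polynomial.aeval z (besselB n) * besselC 1 z
  | 0 => by simp [besselA, besselB]
  | 1 => by simp [besselA, besselB]
  | n + 2 => by
    have h := besselC_recurrence n z
    have h0 := pow_mul_besselC z n
    have h1 := pow_mul_besselC z (n + 1)
    simp only [besselA, besselB, map_sub, map_mul, map_pow, Polynomial.aeval_X, map_add,
      map_natCast, map_ofNat, map_one]
    linear_combination z ^ (n + 1) * h + 2 * ((n : ℂ) + 1) * h1 - z ^ 2 * h0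

theorem besselA_mul_besselB_sub (n : ℕ) :
    besselA n * besselB (n + 1) - besselA (n + 1) * besselB n = Polynomial.X ^ (2 * n + 1) := by
  induction n with
  | zero => simp [besselA, besselB]
  | succ n ih =>
    simp only [besselA, besselB]
    linear_combination Polynomial.X ^ 2 * ih

/-- **`J_n α` is transcendental.** -/
theorem transcendental_besselC (n : ℕ) {α : ℂ} (hα : IsAlgebraic ℚ α) (hα0 : α ≠ 0) :
    Transcendental ℚ (besselC n α) := by
  intro hc
  have hint : ∀ P : Polynomial ℤ, IsAlgebraic ℚ (Polynomial.aeval α P) := fun P => by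
    induction P using Polynomial.induction_on' with
    | add p q hp hq => rw [map_add]; exact hp.add hq
    | monomial k c =>
      rw [Polynomial.aeval_monomial, algebraMap_int_eq, eq_intCast]
      exact (isAlgebraic_intCast c).mul (hα.pow k)
  have hne : Polynomial.aeval α (besselA n) ≠ 0 ∨ -Polynomial.aeval α (besselB n) ≠ 0 := by
    by_contra h
    push Not at h
    rw [neg_eq_zero] at h
    have h1 := congrArg (Polynomial.aeval α) (besselA_mul_besselB_sub n)
    rw [map_sub, map_mul, map_mul, h.1, h.2, map_pow, Polynomial.aeval_X, zero_mul, mul_zero,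
      sub_zero, eq_comm, pow_eq_zero_iff (by omega)] at h1
    exact hα0 h1
  refine transcendental_combination (algebraicIndependent_cval hα hα0) (hint _) (hint _).neg hne ?_
  have h := pow_mul_besselC α n
  rw [besselC_zero, besselC_one, mul_neg, ← neg_mul] at h
  simp only [Matrix.cons_val_zero, Matrix.cons_val_one]
  rw [← h]
  exact (hα.pow n).mul hc

/-- Consecutive Bessel functions have no common zero but the origin. -/
theorem besselC_succ_ne_zero {z : ℂ} (hz : z ≠ 0) : ∀ n, besselC n z = 0 →
    besselC (n + 1) z ≠ 0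
  | 0 => fun h0 h1 => by
    rw [besselC_zero] at h0
    rw [besselC_one, neg_eq_zero] at h1
    have hgr : ∀ j, ExpGrowth (![besselSeries, PowerSeries.derivative ℚ besselSeries] j) := by
      intro j
      fin_cases j
      · exact isEFunction_besselSeries.expGrowth
      · exact isEFunction_besselSeries.derivative.expGrowth
    have hf : IsSolution Polynomial.X !![0, Polynomial.X; -Polynomial.X, -1]
        ![besselSeries, PowerSeries.derivative ℚ besselSeries] := by
      intro i
      fin_cases i
      · simp [Fin.sum_univ_two]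
      · simp [Fin.sum_univ_two]
        linear_combination besselSeries_equation
    obtain ⟨j, hj⟩ := exists_cval_ne_zero hf hgr ⟨0, besselSeries_ne_zero⟩ (z := z)
      (by simpa using hz)
    fin_cases j
    · exact hj h0
    · exact hj h1
  | n + 1 => fun h0 h1 => besselC_succ_ne_zero hz n (by
    have h := besselC_recurrence n z
    rw [h1, h0, add_zero, mul_zero, mul_eq_zero] at h
    exact h.resolve_left hz) h0

/-- The Lommel polynomials of order `n`. -/
def lommel (n : ℕ) : ℕ → Polynomial ℤ
  | 0 => 0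
  | 1 => 1
  | j + 2 => Polynomial.C (2 * ((n : ℤ) + j + 1)) * lommel n (j + 1) -
      Polynomial.X ^ 2 * lommel n j

theorem lommel_eval_zero_pos (n : ℕ) : ∀ j, 0 < (lommel n (j + 1)).eval 0
  | 0 => by simp [lommel]
  | j + 1 => by
    simp only [lommel, Polynomial.eval_sub, Polynomial.eval_mul, Polynomial.eval_C,
      Polynomial.eval_pow, Polynomial.eval_X]
    rw [zero_pow (by norm_num), zero_mul, sub_zero]
    exact mul_pos (by positivity) (lommel_eval_zero_pos n j)

theorem pow_mul_besselC_add {n : ℕ} {z : ℂ} (h : besselC n z = 0) : ∀ j,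
    z ^ j * besselC (n + j) z = Polynomial.aeval z (lommel n j) * (z * besselC (n + 1) z)
  | 0 => by simp [lommel, h]
  | 1 => by simp [lommel]
  | j + 2 => by
    have h' := besselC_recurrence (n + j) z
    have h0 := pow_mul_besselC_add h j
    have h1 := pow_mul_besselC_add h (j + 1)
    simp only [← add_assoc] at h1 ⊢
    simp only [lommel, map_sub, map_mul, map_pow, Polynomial.aeval_X, map_add,
      map_natCast, map_ofNat, map_one]
    push_cast at h'
    linear_combination z ^ (j + 1) * h' + 2 * ((n : ℂ) + j + 1) * h1 - z ^ 2 * h0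

/-- **Bourget's hypothesis.** -/
theorem besselC_add_ne_zero {n m : ℕ} (hm : 0 < m) {z : ℂ} (hz : z ≠ 0) (h : besselC n z = 0) :
    besselC (n + m) z ≠ 0 := by
  intro h'
  have h1 := pow_mul_besselC_add h m
  rw [h', mul_zero, eq_comm, mul_eq_zero] at h1
  have h2 : Polynomial.aeval z (lommel n m) = 0 :=
    h1.resolve_right (mul_ne_zero hz (besselC_succ_ne_zero hz n h))
  refine transcendental_besselC n (α := z)
    ⟨(lommel n m).map (algebraMap ℤ ℚ), ?_, by rwa [Polynomial.aeval_map_algebraMap]⟩ hz
    (by rw [h]; exact isAlgebraic_zero)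
  obtain ⟨j, rfl⟩ : ∃ j, m = j + 1 := ⟨m - 1, by omega⟩
  refine fun h3 => (lommel_eval_zero_pos n j).ne' ?_
  rw [Polynomial.map_eq_zero_iff (algebraMap ℤ ℚ).injective_int] at h3
  rw [h3, Polynomial.eval_zero]

end FA.SiegelShidlovskii

end
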