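import Mathlib.Algebra.ContinuedFractions.Computation.TerminatesIffRat
import Fermat.Agent.PeriodicFractions.Serret
import Fermat.Agent.SiegelShidlovskii.BesselOrders

/-!
# Continued fractions with partial quotients in arithmetic progression

`[0; b, 2 b, 3 b, …] = I₁ (2 / b) / I₀ (2 / b)` for the modified Bessel functions
`I_n t = i ^ (- n) J_n (i t)`, so it is transcendental.
-/

set_option autoImplicit false

noncomputable section

open Finset
open scoped Nat
open FA.PeriodicFractions

namespace FA.SiegelShidlovskii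

/-- The modified Bessel function of order `n`. -/
def besselI (n : ℕ) (t : ℝ) : ℝ :=
  ∑' l : ℕ, (t / 2) ^ (2 * l + n) / ((l ! : ℝ) * ((l + n)! : ℝ))

theorem summable_besselI (n : ℕ) (t : ℝ) :
    Summable fun l : ℕ => (t / 2) ^ (2 * l + n) / ((l ! : ℝ) * ((l + n)! : ℝ)) := by
  refine Summable.of_norm_bounded
    ((Real.summable_pow_div_factorial (|t / 2| ^ 2)).mul_left (|t / 2| ^ n)) fun l => ?_
  rw [norm_div, norm_mul, norm_pow, Real.norm_natCast, Real.norm_natCast, Real.norm_eq_abs,
    pow_add, pow_mul, mul_comm ((|t / 2| ^ 2) ^ l), mul_div_assoc]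
  refine mul_le_mul_of_nonneg_left ?_ (by positivity)
  gcongr
  exact le_mul_of_one_le_right (Nat.cast_nonneg _) (Nat.one_le_cast.2 (Nat.factorial_pos _))

theorem besselC_I_mul (n : ℕ) (t : ℝ) :
    besselC n ((t : ℂ) * Complex.I) = Complex.I ^ n * (besselI n t : ℂ) := by
  rw [besselC, besselI, Complex.ofReal_tsum, ← tsum_mul_left]
  refine tsum_congr fun l => ?_
  rw [show (t : ℂ) * Complex.I / 2 = ((t / 2 : ℝ) : ℂ) * Complex.I by push_cast; ring, mul_pow,
    pow_add Complex.I, pow_mul Complex.I, Complex.I_sq]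
  push_cast
  have h : ((-1 : ℂ) ^ l) * (-1) ^ l = 1 := by rw [← mul_pow]; simp
  linear_combination (((t : ℂ) / 2) ^ (2 * l + n) * Complex.I ^ n /
    ((l ! : ℂ) * ((l + n)! : ℂ))) * h

theorem besselI_pos {t : ℝ} (ht : 0 < t) (n : ℕ) : 0 < besselI n t :=
  (summable_besselI n t).tsum_pos (fun l => by positivity) 0 (by positivity)

theorem besselI_recurrence (n : ℕ) (t : ℝ) :
    t * besselI n t = 2 * ((n : ℝ) + 1) * besselI (n + 1) t + t * besselI (n + 2) t := by
  have h := besselC_recurrence n ((t : ℂ) * Complex.I)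
  rw [besselC_I_mul, besselC_I_mul, besselC_I_mul, pow_succ Complex.I (n + 1),
    pow_succ Complex.I n] at h
  apply Complex.ofReal_injective
  push_cast
  refine mul_left_cancel₀ (mul_ne_zero (pow_ne_zero n Complex.I_ne_zero) Complex.I_ne_zero) ?_
  linear_combination h - (Complex.I ^ n * Complex.I * (t : ℂ) * (besselI (n + 2) t : ℂ)) *
    Complex.I_mul_I

theorem transcendental_besselI_ratio {t : ℝ} (ht : IsAlgebraic ℚ t) (ht0 : t ≠ 0) :
    Transcendental ℚ (besselI 1 t / besselI 0 t) := by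
  intro hc
  set z := (t : ℂ) * Complex.I with hz
  have hI : IsAlgebraic ℚ Complex.I :=
    ⟨Polynomial.X ^ 2 + 1, Polynomial.Monic.ne_zero (by monicity!), by simp⟩
  have hz' : IsAlgebraic ℚ z := (ht.algHom (Complex.ofRealAm.restrictScalars ℚ)).mul hI
  have hz0 : z ≠ 0 := mul_ne_zero (Complex.ofReal_ne_zero.2 ht0) Complex.I_ne_zero
  have h0 : besselC 0 z ≠ 0 := fun h => transcendental_besselC 0 hz' hz0 (h ▸ isAlgebraic_zero)
  set c : ℂ := Complex.I * ((besselI 1 t / besselI 0 t : ℝ) : ℂ) with hc'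
  have hI0 : (besselI 0 t : ℂ) ≠ 0 := by
    rw [hz, besselC_I_mul, pow_zero, one_mul] at h0
    exact h0
  have h1 : besselC 1 z = c * besselC 0 z := by
    rw [hz, besselC_I_mul, besselC_I_mul, hc', pow_zero, pow_one, one_mul]
    push_cast
    rw [mul_assoc, div_mul_cancel₀ _ hI0]
  refine transcendental_combination (algebraicIndependent_cval hz' hz0) (a := c) (b := 1)
    (hI.mul (hc.algHom (Complex.ofRealAm.restrictScalars ℚ))) isAlgebraic_one (Or.inr one_ne_zero)
    ?_
  rw [besselC_zero, besselC_one] at h1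
  simp only [Matrix.cons_val_zero, Matrix.cons_val_one]
  rw [← h1, one_mul, neg_add_cancel]
  exact isAlgebraic_zero

/-- The partial quotients of `I₁ (2 / b) / I₀ (2 / b)`. -/
theorem quotients_besselI_ratio {b : ℕ} (hb : 0 < b) :
    Transcendental ℚ (besselI 1 (2 / (b : ℝ)) / besselI 0 (2 / (b : ℝ))) ∧
      (GenContFract.of (besselI 1 (2 / (b : ℝ)) / besselI 0 (2 / (b : ℝ)))).h = 0 ∧
      ∀ k : ℕ, (GenContFract.of (besselI 1 (2 / (b : ℝ)) / besselI 0 (2 / (b : ℝ)))).s.get? k =
        some ⟨1, ((k : ℝ) + 1) * b⟩ := by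
  set t : ℝ := 2 / (b : ℝ) with ht
  have hb' : (0 : ℝ) < b := Nat.cast_pos.2 hb
  have ht0 : 0 < t := div_pos two_pos hb'
  set r : ℕ → ℝ := fun n => besselI (n + 1) t / besselI n t with hr
  have hrpos : ∀ n, 0 < r n := fun n => div_pos (besselI_pos ht0 _) (besselI_pos ht0 _)
  have hrec : ∀ n, 1 / r n = ((n : ℝ) + 1) * b + r (n + 1) := fun n => by
    have h := besselI_recurrence n t
    have h1 := besselI_pos ht0 n
    have h2 := besselI_pos ht0 (n + 1)
    simp only [hr, one_div_div]
    rw [show n + 1 + 1 = n + 2 from rfl, eq_comm, ← sub_eq_zero]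
    have h3 : (t : ℝ) * (b : ℝ) = 2 := by rw [ht, div_mul_cancel₀ _ hb'.ne']
    field_simp
    refine mul_left_cancel₀ ht0.ne' ?_
    linear_combination -h + ((n : ℝ) + 1) * besselI (n + 1) t * h3
  have hone : ∀ n, 1 < 1 / r n := fun n => by
    rw [hrec]
    have hb1 : (1 : ℝ) ≤ b := Nat.one_le_cast.2 hb
    nlinarith [hrpos (n + 1), Nat.cast_nonneg (α := ℝ) n]
  have hr0 : digit (r 0) 0 = 0 ∧ cq (r 0) 1 = 1 / r 0 :=
    cq_step (hone 0) (by rw [cq, Int.cast_zero, zero_add, one_div_one_div])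
  have hcq : ∀ n, cq (r 0) (n + 1) = 1 / r n := fun n => by
    induction n with
    | zero => exact hr0.2
    | succ n ih =>
      exact (cq_step (a := (((n + 1) * b : ℕ) : ℤ)) (hone (n + 1)) (by
        rw [ih, hrec, one_div_one_div]
        push_cast
        ring)).2
  have hdig : ∀ n, digit (r 0) (n + 1) = (((n + 1) * b : ℕ) : ℤ) := fun n =>
    (cq_step (hone (n + 1)) (by
      rw [hcq n, hrec, one_div_one_div]
      push_cast
      ring)).1
  have htr : Transcendental ℚ (r 0) := transcendental_besselI_ratio (t := t) (by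
    rw [show t = algebraMap ℚ ℝ (2 / (b : ℚ)) by rw [eq_ratCast, ht]; push_cast; rfl]
    exact isAlgebraic_algebraMap _) ht0.ne'
  refine ⟨htr, ?_, fun k => ?_⟩
  · change (GenContFract.of (r 0)).h = 0
    rw [digit_zero, hr0.1, Int.cast_zero]
  · change (GenContFract.of (r 0)).s.get? k = _
    rw [get?_of htr.irrational, hdig]
    push_cast
    rfl

/-- **The continued fraction `[0; b, 2 b, 3 b, …]` is transcendental.** -/
theorem transcendental_of_arithmetic_quotients {b : ℕ} (hb : 0 < b) {x : ℝ}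
    (h0 : (GenContFract.of x).h = 0)
    (hs : ∀ k : ℕ, (GenContFract.of x).s.get? k = some ⟨1, ((k : ℝ) + 1) * b⟩) :
    Transcendental ℚ x := by
  obtain ⟨htr, hy0, hys⟩ := quotients_besselI_ratio hb
  have hx : Irrational x := by
    rintro ⟨q, rfl⟩
    obtain ⟨n, hn⟩ := (GenContFract.terminates_iff_rat (q : ℝ)).2 ⟨q, rfl⟩
    rw [Stream'.Seq.TerminatedAt, hs n] at hn
    exact Option.some_ne_none _ hn
  rw [eq_of_digit_eq hx htr.irrational fun n => ?_]
  · exact htr
  rcases n with _ | n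
  · rw [digit_zero] at h0 hy0
    exact_mod_cast h0.trans hy0.symm
  · have h := (hs n).trans (hys n).symm
    rw [get?_of hx, get?_of htr.irrational, Option.some_inj] at h
    have h' := congrArg GenContFract.Pair.b h
    simp only [Int.cast_inj] at h'
    exact h'

end FA.SiegelShidlovskii

end
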