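import Mathlib.Algebra.MvPolynomial.Derivation
import Fermat.Agent.SiegelShidlovskii.Bessel

/-!
# The relations of a solution of `X y'' + ν y' + X y = 0` and its derivative

The derivation `θ = X d/dX` of polynomials in `Y₂ = y'`, `Y₁ = y`, `X`, compatible with the
evaluation at a solution and with the grading in `Y₁`, `Y₂`.
-/

set_option autoImplicit false

noncomputable section

open Finset

namespace FA.SiegelShidlovskii

/-- The variables: `X 0` for `y'`, `X 1` for `y`, `X 2` for the argument. -/
abbrev RelRing : Type := MvPolynomial (Fin 3) ℚ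

/-- The derivation `X d/dX` on relations. -/
def relDeriv (ν : ℚ) : Derivation ℚ RelRing RelRing :=
  MvPolynomial.mkDerivation ℚ
    ![-(MvPolynomial.X 2 * MvPolynomial.X 1) - MvPolynomial.C ν * MvPolynomial.X 0,
      MvPolynomial.X 2 * MvPolynomial.X 0, MvPolynomial.X 2]

/-- The evaluation at `J'`, `J`, `X`. -/
def relEvalOf (J : PowerSeries ℚ) : RelRing →ₐ[ℚ] PowerSeries ℚ :=
  MvPolynomial.aeval ![PowerSeries.derivative ℚ J, J, PowerSeries.X]

theorem relEvalOf_relDeriv {ν : ℚ} {J : PowerSeries ℚ}
    (hJ : PowerSeries.X * PowerSeries.derivative ℚ (PowerSeries.derivative ℚ J) +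
      PowerSeries.C ν * PowerSeries.derivative ℚ J + PowerSeries.X * J = 0) (p : RelRing) :
    relEvalOf J (relDeriv ν p) = PowerSeries.X * PowerSeries.derivative ℚ (relEvalOf J p) := by
  induction p using MvPolynomial.induction_on with
  | C a => simp
  | add p q hp hq => simp only [map_add, hp, hq, mul_add]
  | mul_X p i hp =>
    have hi : relEvalOf J (relDeriv ν (MvPolynomial.X i)) =
        PowerSeries.X * PowerSeries.derivative ℚ (relEvalOf J (MvPolynomial.X i)) := by
      rw [relDeriv, MvPolynomial.mkDerivation_X]
      fin_cases i <;> simp [relEvalOf]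
      linear_combination -hJ
    rw [Derivation.leibniz, smul_eq_mul, smul_eq_mul, map_add, map_mul, map_mul, map_mul, hi, hp,
      Derivation.leibniz, smul_eq_mul, smul_eq_mul]
    ring

/-- The scaling `Y ↦ s Y`. -/
def scale : RelRing →ₐ[ℚ] Polynomial RelRing :=
  MvPolynomial.aeval ![Polynomial.C (MvPolynomial.X 0) * Polynomial.X,
    Polynomial.C (MvPolynomial.X 1) * Polynomial.X, Polynomial.C (MvPolynomial.X 2)]

theorem scale_eval_one (p : RelRing) : (scale p).eval 1 = p := by
  induction p using MvPolynomial.induction_on with
  | C a => simp [scale]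
  | add p q hp hq => simp [hp, hq]
  | mul_X p i hp =>
    rw [map_mul, Polynomial.eval_mul, hp]
    fin_cases i <;> simp [scale]

theorem coeff_scale_relDeriv ν (p : RelRing) (i : ℕ) :
    (scale (relDeriv ν p)).coeff i = relDeriv ν ((scale p).coeff i) := by
  induction p using MvPolynomial.induction_on generalizing i with
  | C a =>
    have : relDeriv ν (MvPolynomial.C a) = 0 := MvPolynomial.derivation_C _ _
    rw [this, map_zero, Polynomial.coeff_zero, scale, MvPolynomial.aeval_C,
      Polynomial.algebraMap_apply, Polynomial.coeff_C]
    split_ifs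
    · exact this.symm
    · rw [map_zero]
  | add p q hp hq => simp [hp, hq]
  | mul_X p j hp =>
    obtain ⟨w, hw1, hw2⟩ : ∃ w, scale (MvPolynomial.X j) =
        Polynomial.C (MvPolynomial.X j) * Polynomial.X ^ w ∧
        scale (relDeriv ν (MvPolynomial.X j)) =
          Polynomial.C (relDeriv ν (MvPolynomial.X j)) * Polynomial.X ^ w := by
      fin_cases j
      · refine ⟨1, by simp [scale], ?_⟩
        simp [scale, relDeriv, MvPolynomial.mkDerivation_X]
        ring
      · refine ⟨1, by simp [scale], ?_⟩
        simp [scale, relDeriv, MvPolynomial.mkDerivation_X]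
        ring
      · exact ⟨0, by simp [scale], by simp [scale, relDeriv, MvPolynomial.mkDerivation_X]⟩
    have hco : ∀ (u : Polynomial RelRing) (a : RelRing),
        (u * (Polynomial.C a * Polynomial.X ^ w)).coeff i =
          if w ≤ i then u.coeff (i - w) * a else 0 := fun u a => by
      rw [← mul_assoc, Polynomial.coeff_mul_X_pow', Polynomial.coeff_mul_C]
    rw [Derivation.leibniz, smul_eq_mul, smul_eq_mul, map_add, map_mul, map_mul, map_mul, hw1,
      hw2, Polynomial.coeff_add, mul_comm (Polynomial.C _ * _) (scale (relDeriv ν p)),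
      hco, hco, hco]
    split_ifs
    · rw [hp, Derivation.leibniz, smul_eq_mul, smul_eq_mul]
      ring
    · rw [map_zero, add_zero]

/-- Dehomogenisation `Y₁ ↦ 1`. -/
def dehom : RelRing →ₐ[ℚ] Polynomial (Polynomial ℚ) :=
  MvPolynomial.aeval ![Polynomial.X, 1, Polynomial.C Polynomial.X]

/-- Homogenisation in degree `i`. -/
def homogenise (i : ℕ) (q : Polynomial (Polynomial ℚ)) : RelRing :=
  ∑ e ∈ range (i + 1), Polynomial.aeval (MvPolynomial.X 2 : RelRing) (q.coeff e) *
    MvPolynomial.X 1 ^ (i - e) * MvPolynomial.X 0 ^ e

theorem scale_component (ν : ℚ) (p : RelRing) (i : ℕ) :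
    (dehom ((scale p).coeff i)).natDegree ≤ i ∧
      homogenise i (dehom ((scale p).coeff i)) = (scale p).coeff i ∧
      ∀ e, (dehom (relDeriv ν ((scale p).coeff i))).coeff e =
        Polynomial.X * Polynomial.derivative ((dehom ((scale p).coeff i)).coeff e) +
          ((if e = 0 then 0 else Polynomial.C ((i : ℚ) - e + 1) *
            (Polynomial.X * (dehom ((scale p).coeff i)).coeff (e - 1))) -
          Polynomial.C ((e : ℚ) + 1) * (Polynomial.X * (dehom ((scale p).coeff i)).coeff (e + 1))) -
          Polynomial.C ((e : ℚ) * ν) * (dehom ((scale p).coeff i)).coeff e := by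
  induction p using MvPolynomial.induction_on' with
  | monomial σ r =>
    have hmon : MvPolynomial.monomial σ r = MvPolynomial.C r * MvPolynomial.X 0 ^ σ 0 *
        MvPolynomial.X 1 ^ σ 1 * MvPolynomial.X 2 ^ σ 2 := by
      rw [MvPolynomial.monomial_eq, Finsupp.prod_fintype _ _ (by simp), Fin.prod_univ_three]
      simp only [← mul_assoc]
    rw [hmon]
    generalize σ 0 = a, σ 1 = b, σ 2 = c
    set M : RelRing := MvPolynomial.C r * MvPolynomial.X 0 ^ a *
        MvPolynomial.X 1 ^ b * MvPolynomial.X 2 ^ c with hM
    have hscale : scale M = Polynomial.C M * Polynomial.X ^ (a + b) := by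
      simp [hM, scale, mul_pow, pow_add]
      ring
    rw [hscale, Polynomial.coeff_C_mul_X_pow]
    split_ifs with hi
    swap
    · refine ⟨by simp, ?_, fun e => by simp⟩
      simp [homogenise]
    subst hi
    have hdehom : dehom M = Polynomial.monomial a (Polynomial.C r * Polynomial.X ^ c) := by
      simp [hM, dehom, ← Polynomial.C_mul_X_pow_eq_monomial]
      ring
    refine ⟨?_, ?_, fun e => ?_⟩
    · rw [hdehom]
      exact (Polynomial.natDegree_monomial_le _).trans (Nat.le_add_right _ _)
    · rw [hdehom, homogenise, Finset.sum_eq_single a]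
      · rw [Polynomial.coeff_monomial, if_pos rfl, Nat.add_sub_cancel_left, hM]
        simp
        ring
      · intro e _ he
        simp [Polynomial.coeff_monomial, Ne.symm he]
      · intro hn
        exact absurd (mem_range.2 (by omega)) hn
    · have hderiv : dehom (relDeriv ν M) =
          Polynomial.monomial a (Polynomial.C r * (Polynomial.C (c : ℚ) * Polynomial.X ^ c)) +
          Polynomial.monomial (a + 1)
            (Polynomial.C (b : ℚ) * (Polynomial.C r * Polynomial.X ^ (c + 1))) -
          (Polynomial.monomial (a - 1)
            (Polynomial.C (a : ℚ) * (Polynomial.C r * Polynomial.X ^ (c + 1))) +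
          Polynomial.monomial a
            (Polynomial.C ((a : ℚ) * ν) * (Polynomial.C r * Polynomial.X ^ c))) := by
        rw [hM]
        rcases a with _ | a <;> rcases c with _ | c <;>
          simp [relDeriv, dehom, Derivation.leibniz, Derivation.leibniz_pow,
            MvPolynomial.mkDerivation_X, ← Polynomial.C_mul_X_pow_eq_monomial] <;> ring
      have hX : Polynomial.X * Polynomial.derivative (Polynomial.C r * Polynomial.X ^ c) =
          Polynomial.C r * (Polynomial.C (c : ℚ) * Polynomial.X ^ c) := by
        rcases c with _ | c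
        · simp
        · simp; ring
      rw [hderiv, hdehom]
      simp only [Polynomial.coeff_add, Polynomial.coeff_sub, Polynomial.coeff_monomial]
      set u : Polynomial ℚ := Polynomial.C r * Polynomial.X ^ c with hu
      have hu1 : Polynomial.C r * Polynomial.X ^ (c + 1) = Polynomial.X * u := by rw [hu]; ring
      have T1 : (if a = e then Polynomial.C r * (Polynomial.C (c : ℚ) * Polynomial.X ^ c) else 0) =
          Polynomial.X * Polynomial.derivative (if a = e then u else 0) := by
        split_ifs
        · exact hX.symm
        · simp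
      have T2 : (if a + 1 = e then Polynomial.C (b : ℚ) * (Polynomial.X * u) else 0) =
          if e = 0 then 0 else Polynomial.C (((a + b : ℕ) : ℚ) - e + 1) *
            (Polynomial.X * if a = e - 1 then u else 0) := by
        rcases e with _ | e
        · simp
        · by_cases h : a = e
          · subst h; simp
          · simp [h]
      have T3 : (if a - 1 = e then Polynomial.C (a : ℚ) * (Polynomial.X * u) else 0) =
          Polynomial.C ((e : ℚ) + 1) * (Polynomial.X * if a = e + 1 then u else 0) := by
        by_cases h : a = e + 1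
        · subst h; simp
        · rcases Nat.eq_zero_or_pos a with rfl | ha
          · simp
          · rw [if_neg h, if_neg (by omega), mul_zero, mul_zero]
      have T4 : (if a = e then Polynomial.C ((a : ℚ) * ν) * u else 0) =
          Polynomial.C ((e : ℚ) * ν) * if a = e then u else 0 := by
        split_ifs with h
        · rw [h]
        · rw [mul_zero]
      rw [hu1, T1, T2, T3, T4]
      ring
  | add p q hp hq =>
    simp only [map_add, Polynomial.coeff_add]
    refine ⟨(Polynomial.natDegree_add_le _ _).trans (max_le hp.1 hq.1), ?_, fun e => ?_⟩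
    · rw [homogenise]
      simp only [Polynomial.coeff_add, map_add, add_mul, Finset.sum_add_distrib]
      exact congrArg₂ (· + ·) hp.2.1 hq.2.1
    · rw [hp.2.2 e, hq.2.2 e]
      split_ifs <;> simp only [mul_add, map_add] <;> ring

end FA.SiegelShidlovskii

end
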