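import Mathlib.Algebra.Polynomial.Derivative
import Mathlib.Algebra.Polynomial.BigOperators
import Mathlib.Data.Rat.Lemmas
import Mathlib.RingTheory.PowerSeries.Derivative
import Mathlib.Tactic

/-!
# Bessel's equation has no homogeneous Darboux polynomial

The form `∑ q e Y₁ ^ (d - e) Y₂ ^ e`, `Y₁ = y`, `Y₂ = y'`, read in `w = 1 / X` is a series solving
a recursion whose solutions form a line, as the rotation is skew-symmetric; so it is a power of the
formal quadratic invariant of `X y'' + c y' + X y = 0`, whose coefficients grow factorially unless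
`c` is an even integer, and no root of a polynomial has such coefficients.
-/

set_option autoImplicit false

noncomputable section

open Finset Polynomial
open scoped Nat

namespace FA.SiegelShidlovskii

/-- The rotation `Y₂ ∂₁ - Y₁ ∂₂` on the coefficients of a form of degree `d`. -/
def rot (d : ℕ) (y : ℕ → ℚ) (e : ℕ) : ℚ :=
  (if e = 0 then 0 else ((d : ℚ) - e + 1) * y (e - 1)) - ((e : ℚ) + 1) * y (e + 1)

/-- The weights making the rotation skew-symmetric. -/
def formWeight (d e : ℕ) : ℚ := (e ! : ℚ) * ((d - e)! : ℚ)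

theorem formWeight_pos (d e : ℕ) : 0 < formWeight d e := by
  rw [formWeight]; positivity

theorem sum_rot_skew (d : ℕ) (x y : ℕ → ℚ) (hx : x (d + 1) = 0) (hy : y (d + 1) = 0) :
    ∑ e ∈ range (d + 1), formWeight d e * x e * rot d y e =
      -∑ e ∈ range (d + 1), formWeight d e * rot d x e * y e := by
  have key : ∀ u v : ℕ → ℚ, v (d + 1) = 0 →
      ∑ e ∈ range (d + 1), formWeight d e * u e * rot d v e =
      ∑ e ∈ range d, ((e + 1)! : ℚ) * ((d - e)! : ℚ) * (u (e + 1) * v e) -
        ∑ e ∈ range d, ((e + 1)! : ℚ) * ((d - e)! : ℚ) * (u e * v (e + 1)) := by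
    intro u v hv
    simp only [rot, mul_sub, Finset.sum_sub_distrib]
    congr 1
    · rw [Finset.sum_range_succ']
      simp only [if_pos, mul_zero, add_zero, Nat.succ_ne_zero, if_false, Nat.add_sub_cancel]
      refine Finset.sum_congr rfl fun e he => ?_
      rw [mem_range] at he
      obtain ⟨r, rfl⟩ : ∃ r, d = e + 1 + r := ⟨d - (e + 1), by omega⟩
      rw [formWeight, Nat.add_sub_cancel_left, show e + 1 + r - e = r + 1 by omega,
        Nat.factorial_succ r]
      push_cast
      ring
    · rw [Finset.sum_range_succ, hv, mul_zero, mul_zero, add_zero]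
      refine Finset.sum_congr rfl fun e _ => ?_
      rw [formWeight, Nat.factorial_succ e]
      push_cast
      ring
  rw [key x y hy, show ∑ e ∈ range (d + 1), formWeight d e * rot d x e * y e =
    ∑ e ∈ range (d + 1), formWeight d e * y e * rot d x e from
      Finset.sum_congr rfl fun e _ => by ring, key y x hx, neg_sub]
  congr 1 <;> exact Finset.sum_congr rfl fun e _ => by ring

theorem coeff_X_mul_derivative (c : ℚ[X]) (j : ℕ) :
    (X * derivative c).coeff j = (j : ℚ) * c.coeff j := by
  rcases j with _ | j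
  · simp
  · rw [coeff_X_mul, coeff_derivative]
    push_cast
    ring

/-- A form of degree `d` with series coefficients solving the recursion of weight `κ`. -/
def IsFormalForm (d : ℕ) (c κ : ℚ) (h : ℕ → ℕ → ℚ) : Prop :=
  (∀ j e, d < e → h j e = 0) ∧ (∀ e ≤ d, rot d (h 0) e = 0) ∧
    ∀ j, ∀ e ≤ d, rot d (h (j + 1)) e = (κ + j + e * c) * h j e

theorem rot_kernel {d : ℕ} {t : ℕ → ℚ} (hout : ∀ e, d < e → t e = 0)
    (h : ∀ e ≤ d, rot d t e = 0) (h0 : t 0 = 0) : ∀ e, t e = 0 := by
  intro e
  induction e using Nat.strong_induction_on with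
  | _ e ih =>
    rcases Nat.lt_or_ge d e with hlt | hle
    · exact hout e hlt
    rcases e with _ | e
    · exact h0
    have h1 := h e (by omega)
    rw [rot] at h1
    have h2 : (e : ℚ) + 1 ≠ 0 := Nat.cast_add_one_ne_zero e
    have h3 : (if e = 0 then 0 else ((d : ℚ) - e + 1) * t (e - 1)) = 0 := by
      split_ifs
      · rfl
      · rw [ih (e - 1) (by omega), mul_zero]
    rw [h3, zero_sub, neg_eq_zero, mul_eq_zero] at h1
    exact h1.resolve_left h2

theorem rot_kernel_odd {d : ℕ} (hd : Odd d) {t : ℕ → ℚ} (hout : ∀ e, d < e → t e = 0)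
    (h : ∀ e ≤ d, rot d t e = 0) : t 0 = 0 := by
  obtain ⟨u, rfl⟩ := hd
  suffices ∀ i ≤ u, t (2 * (u - i)) = 0 by simpa using this u le_rfl
  intro i
  induction i with
  | zero =>
    intro _
    have h1 := h (2 * u + 1) le_rfl
    rw [rot, if_neg (by omega), hout (2 * u + 1 + 1) (by omega), mul_zero, sub_zero,
      Nat.add_sub_cancel] at h1
    simpa using h1
  | succ i ih =>
    intro hi
    have h1 := h (2 * (u - (i + 1)) + 1) (by omega)
    rw [rot, if_neg (by omega), Nat.add_sub_cancel,
      show 2 * (u - (i + 1)) + 1 + 1 = 2 * (u - i) by omega, ih (by omega), mul_zero,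
      sub_zero, mul_eq_zero] at h1
    refine h1.resolve_left ?_
    have : ((2 * (u - (i + 1)) + 1 : ℕ) : ℚ) ≤ ((2 * u + 1 : ℕ) : ℚ) := Nat.cast_le.2 (by omega)
    linarith

theorem rot_sub_smul (d : ℕ) (τ : ℚ) (x y : ℕ → ℚ) (e : ℕ) :
    rot d (fun i => x i - τ * y i) e = rot d x e - τ * rot d y e := by
  simp only [rot]
  split_ifs <;> ring

theorem weighted_sum_eq_zero {d : ℕ} {c κ : ℚ} {h : ℕ → ℕ → ℚ} (H : IsFormalForm d c κ h) (j : ℕ)
    {t : ℕ → ℚ} (ht : ∀ e ≤ d, rot d t e = 0) (hout : t (d + 1) = 0) :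
    ∑ e ∈ range (d + 1), formWeight d e * t e * ((κ + j + e * c) * h j e) = 0 := by
  have h1 := sum_rot_skew d t (h (j + 1)) hout (H.1 _ _ (Nat.lt_succ_self d))
  rw [Finset.sum_eq_zero (f := fun e => formWeight d e * rot d t e * h (j + 1) e) fun e he => by
    rw [ht e (Nat.lt_succ_iff.1 (mem_range.1 he))]; ring, neg_zero] at h1
  rw [← h1]
  exact Finset.sum_congr rfl fun e he => by
    rw [H.2.2 j e (Nat.lt_succ_iff.1 (mem_range.1 he))]

theorem weighted_square_pos {d : ℕ} {t : ℕ → ℚ} (ht : t 0 ≠ 0) :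
    0 < ∑ e ∈ range (d + 1), formWeight d e * t e * t e :=
  Finset.sum_pos' (fun e _ => by
    rw [mul_assoc]; exact mul_nonneg (formWeight_pos d e).le (mul_self_nonneg _))
    ⟨0, by simp, by rw [mul_assoc]; exact mul_pos (formWeight_pos d 0) (mul_self_pos.2 ht)⟩

/-- The formal forms with a nonzero first term make up a line. -/
theorem IsFormalForm.unique {d : ℕ} {c κ μ : ℚ} {h k : ℕ → ℕ → ℚ} (H : IsFormalForm d c κ h)
    (K : IsFormalForm d c μ k) (hh : h 0 0 ≠ 0) (hk : k 0 0 ≠ 0) :
    ∃ τ : ℚ, τ ≠ 0 ∧ ∀ j e, h j e = τ * k j e := by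
  set τ := h 0 0 / k 0 0 with hτ
  refine ⟨τ, div_ne_zero hh hk, ?_⟩
  have h00 : ∀ e, h 0 e = τ * k 0 e := fun e => sub_eq_zero.1 (rot_kernel
    (t := fun e => h 0 e - τ * k 0 e) (fun e he => by rw [H.1 0 e he, K.1 0 e he]; ring)
    (fun e he => by rw [rot_sub_smul, H.2.1 e he, K.2.1 e he]; ring)
    (by rw [hτ, div_mul_cancel₀ _ hk, sub_self]) e)
  have hout : k 0 (d + 1) = 0 := K.1 _ _ (Nat.lt_succ_self d)
  have hκ : κ = μ := by
    have h1 := weighted_sum_eq_zero H 0 K.2.1 hout
    have h2 := weighted_sum_eq_zero K 0 K.2.1 hout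
    have h3 : τ * (κ - μ) * ∑ e ∈ range (d + 1), formWeight d e * k 0 e * k 0 e = 0 := by
      refine Eq.trans ?_ (show (0 : ℚ) - τ * 0 = 0 by ring)
      nth_rw 1 [← h1]
      rw [← h2, Finset.mul_sum, Finset.mul_sum, ← Finset.sum_sub_distrib]
      refine Finset.sum_congr rfl fun e _ => ?_
      rw [h00 e]
      ring
    exact sub_eq_zero.1 ((mul_eq_zero.1 ((mul_eq_zero.1 h3).resolve_right
      (weighted_square_pos hk).ne')).resolve_left (div_ne_zero hh hk))
  subst hκ
  set u : ℕ → ℕ → ℚ := fun j e => h j e - τ * k j e with hu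
  have U : IsFormalForm d c κ u := by
    refine ⟨fun j e he => by simp only [hu, H.1 j e he, K.1 j e he]; ring, fun e he => ?_,
      fun j e he => ?_⟩
    · rw [hu, rot_sub_smul, H.2.1 e he, K.2.1 e he]; ring
    · simp only [hu]
      rw [rot_sub_smul, H.2.2 j e he, K.2.2 j e he]; ring
  suffices ∀ j e, u j e = 0 from fun j e => sub_eq_zero.1 (this j e)
  intro j
  induction j using Nat.strong_induction_on with
  | _ j ih =>
    rcases Nat.eq_zero_or_pos j with rfl | hj
    · exact fun e => by simp only [hu, h00 e]; ring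
    have hker : ∀ e ≤ d, rot d (u j) e = 0 := fun e he => by
      obtain ⟨j', rfl⟩ := Nat.exists_eq_succ_of_ne_zero hj.ne'
      rw [U.2.2 j' e he, ih j' (Nat.lt_succ_self j') e, mul_zero]
    set σ := u j 0 / k 0 0 with hσ
    have hj0 : ∀ e, u j e = σ * k 0 e := fun e => sub_eq_zero.1 (rot_kernel
      (t := fun e => u j e - σ * k 0 e) (fun e he => by rw [U.1 j e he, K.1 0 e he]; ring)
      (fun e he => by rw [rot_sub_smul, hker e he, K.2.1 e he]; ring)
      (by rw [hσ, div_mul_cancel₀ _ hk, sub_self]) e)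
    have h1 := weighted_sum_eq_zero U j K.2.1 hout
    have h2 := weighted_sum_eq_zero K 0 K.2.1 hout
    have h3 : σ * (j : ℚ) * ∑ e ∈ range (d + 1), formWeight d e * k 0 e * k 0 e = 0 := by
      refine Eq.trans ?_ (show (0 : ℚ) - σ * 0 = 0 by ring)
      nth_rw 1 [← h1]
      rw [← h2, Finset.mul_sum, Finset.mul_sum, ← Finset.sum_sub_distrib]
      refine Finset.sum_congr rfl fun e _ => ?_
      rw [hj0 e]
      push_cast
      ring
    have hσ0 : σ = 0 := (mul_eq_zero.1 ((mul_eq_zero.1 h3).resolve_right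
      (weighted_square_pos hk).ne')).resolve_right (Nat.cast_ne_zero.2 hj.ne')
    exact fun e => by rw [hj0 e, hσ0, zero_mul]

/-- The coefficients of the formal invariant of `X y'' + c y' + X y = 0`. -/
def invariantCoeff (c : ℚ) : ℕ → ℚ
  | 0 => 1
  | 1 => 0
  | m + 2 => (c - (m + 2)) * (m + 1) * (m + c) / (4 * (m + 2)) * invariantCoeff c m

/-- Derivation of the coefficients. -/
def coeffDeriv (P : Polynomial (PowerSeries ℚ)) : Polynomial (PowerSeries ℚ) :=
  ∑ e ∈ range (P.natDegree + 1), Polynomial.monomial e (PowerSeries.derivative ℚ (P.coeff e))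

theorem coeff_coeffDeriv (P : Polynomial (PowerSeries ℚ)) (e : ℕ) :
    (coeffDeriv P).coeff e = PowerSeries.derivative ℚ (P.coeff e) := by
  rw [coeffDeriv, Polynomial.finsetSum_coeff]
  rcases Nat.lt_or_ge P.natDegree e with h | h
  · rw [Polynomial.coeff_eq_zero_of_natDegree_lt h, map_zero]
    refine Finset.sum_eq_zero fun i hi => ?_
    rw [Polynomial.coeff_monomial, if_neg (by rw [mem_range] at hi; omega)]
  · rw [Finset.sum_eq_single e]
    · simp
    · intro i _ hi
      rw [Polynomial.coeff_monomial, if_neg hi]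
    · exact fun hn => absurd (mem_range.2 (by omega)) hn

theorem coeffDeriv_mul (P Q : Polynomial (PowerSeries ℚ)) :
    coeffDeriv (P * Q) = coeffDeriv P * Q + P * coeffDeriv Q := by
  refine Polynomial.ext fun e => ?_
  rw [coeff_coeffDeriv, Polynomial.coeff_add, Polynomial.coeff_mul, Polynomial.coeff_mul,
    Polynomial.coeff_mul, map_sum, ← Finset.sum_add_distrib]
  refine Finset.sum_congr rfl fun x _ => ?_
  rw [coeff_coeffDeriv, coeff_coeffDeriv, Derivation.leibniz, smul_eq_mul, smul_eq_mul]
  ring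

/-- The operator of forms of degree `d` and weight `κ` in the series variable. -/
def formOperator (d : ℕ) (c κ : ℚ) (P : Polynomial (PowerSeries ℚ)) :
    Polynomial (PowerSeries ℚ) :=
  (d : Polynomial (PowerSeries ℚ)) * (Polynomial.X * P) -
    (1 + Polynomial.X ^ 2) * Polynomial.derivative P -
    Polynomial.C (PowerSeries.X * PowerSeries.C κ) * P -
    Polynomial.C (PowerSeries.X * PowerSeries.C c) * (Polynomial.X * Polynomial.derivative P) -
    Polynomial.C (PowerSeries.X ^ 2) * coeffDeriv P

theorem formOperator_mul (d₁ d₂ : ℕ) (c κ₁ κ₂ : ℚ) (P Q : Polynomial (PowerSeries ℚ)) :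
    formOperator (d₁ + d₂) c (κ₁ + κ₂) (P * Q) =
      formOperator d₁ c κ₁ P * Q + P * formOperator d₂ c κ₂ Q := by
  simp only [formOperator, coeffDeriv_mul, Polynomial.derivative_mul, map_add, mul_add,
    Nat.cast_add]
  ring

theorem coeff_coeff_formOperator (d : ℕ) (c κ : ℚ) (P : Polynomial (PowerSeries ℚ)) (e j : ℕ) :
    PowerSeries.coeff j ((formOperator d c κ P).coeff e) =
      rot d (fun e => PowerSeries.coeff j (P.coeff e)) e -
        if j = 0 then 0 else (κ + (j - 1 : ℕ) + e * c) * PowerSeries.coeff (j - 1) (P.coeff e) := by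
  have hX2 : PowerSeries.coeff j ((Polynomial.C (PowerSeries.X ^ 2) * coeffDeriv P).coeff e) =
      if j = 0 then 0 else ((j - 1 : ℕ) : ℚ) * PowerSeries.coeff (j - 1) (P.coeff e) := by
    rw [Polynomial.coeff_C_mul, coeff_coeffDeriv]
    rcases j with _ | _ | j
    · simp
    · simp [sq, mul_assoc]
    · rw [if_neg (by omega), sq, mul_assoc, PowerSeries.coeff_succ_X_mul,
        PowerSeries.coeff_succ_X_mul, PowerSeries.coeff_derivative, Nat.add_sub_cancel]
      push_cast
      ring
  have hlow : ∀ (k : ℚ) (R : Polynomial (PowerSeries ℚ)),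
      PowerSeries.coeff j ((Polynomial.C (PowerSeries.X * PowerSeries.C k) * R).coeff e) =
      if j = 0 then 0 else k * PowerSeries.coeff (j - 1) (R.coeff e) := by
    intro k R
    rw [Polynomial.coeff_C_mul, mul_assoc]
    rcases j with _ | j
    · simp
    · rw [if_neg (by omega), PowerSeries.coeff_succ_X_mul, PowerSeries.coeff_C_mul,
        Nat.add_sub_cancel]
  have hxd : ∀ e : ℕ, (Polynomial.X * Polynomial.derivative P).coeff e =
      (e : PowerSeries ℚ) * P.coeff e := fun e => by
    rcases e with _ | e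
    · simp
    · rw [Polynomial.coeff_X_mul, Polynomial.coeff_derivative]
      push_cast
      ring
  have hnat : ∀ (k : ℕ) (x : PowerSeries ℚ) (i : ℕ),
      PowerSeries.coeff i ((k : PowerSeries ℚ) * x) = (k : ℚ) * PowerSeries.coeff i x :=
    fun k x i => by rw [← map_natCast (PowerSeries.C (R := ℚ)), PowerSeries.coeff_C_mul]
  have hrot : PowerSeries.coeff j (((d : Polynomial (PowerSeries ℚ)) * (Polynomial.X * P) -
      (1 + Polynomial.X ^ 2) * Polynomial.derivative P).coeff e) =
      rot d (fun e => PowerSeries.coeff j (P.coeff e)) e := by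
    rw [add_mul, one_mul, sq, mul_assoc, Polynomial.coeff_sub, Polynomial.coeff_natCast_mul,
      Polynomial.coeff_add, Polynomial.coeff_derivative, rot, map_sub, hnat, map_add,
      show ((e : PowerSeries ℚ) + 1) = ((e + 1 : ℕ) : PowerSeries ℚ) by push_cast; rfl,
      mul_comm (P.coeff (e + 1)), hnat]
    rcases e with _ | e
    · simp
    · rw [Polynomial.coeff_X_mul, Polynomial.coeff_X_mul, hxd, hnat, if_neg (by omega),
        Nat.add_sub_cancel]
      push_cast
      ring
  rw [formOperator, Polynomial.coeff_sub, Polynomial.coeff_sub, Polynomial.coeff_sub, map_sub,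
    map_sub, map_sub, hrot, hlow, hlow, hX2, hxd, hnat]
  split_ifs <;> ring

/-- The formal invariant as a form of degree two. -/
def invariantForm (c : ℚ) : Polynomial (PowerSeries ℚ) :=
  let r : PowerSeries ℚ := PowerSeries.mk (invariantCoeff c)
  let q : PowerSeries ℚ := PowerSeries.mk fun j => (j - 1 + c) * if j = 0 then 0 else
    invariantCoeff c (j - 1)
  let p : PowerSeries ℚ := PowerSeries.mk fun j => PowerSeries.coeff j r +
    ((j : ℚ) - 1) / 2 * if j = 0 then 0 else PowerSeries.coeff (j - 1) q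
  Polynomial.C p + Polynomial.C q * Polynomial.X + Polynomial.C r * Polynomial.X ^ 2

theorem formOperator_invariantForm (c : ℚ) : formOperator 2 c (-c) (invariantForm c) = 0 := by
  refine Polynomial.ext fun e => PowerSeries.ext fun j => ?_
  rw [coeff_coeff_formOperator, Polynomial.coeff_zero, map_zero]
  rcases e with _ | _ | _ | _ | e
  · rcases j with _ | _ | _ | j <;>
      simp [rot, invariantForm, invariantCoeff, Polynomial.coeff_X_pow, Polynomial.coeff_X,
        Polynomial.coeff_C]
    all_goals (field_simp; ring)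
  · rcases j with _ | _ | j <;>
      simp [rot, invariantForm, invariantCoeff, Polynomial.coeff_X_pow, Polynomial.coeff_X,
        Polynomial.coeff_C] <;> field_simp <;> ring
  · rcases j with _ | j <;>
      simp [rot, invariantForm, Polynomial.coeff_X_pow,
        Polynomial.coeff_C]
    all_goals (field_simp; ring)
  · simp [rot, invariantForm, Polynomial.coeff_X_pow]
    norm_num
  · simp [rot, invariantForm]

theorem natDegree_invariantForm_le (c : ℚ) : (invariantForm c).natDegree ≤ 2 := by
  rw [invariantForm]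
  compute_degree!

theorem formOperator_pow (c : ℚ) : ∀ h : ℕ,
    formOperator (2 * h) c ((h : ℚ) * -c) (invariantForm c ^ h) = 0
  | 0 => by
    refine Polynomial.ext fun e => PowerSeries.ext fun j => ?_
    rw [coeff_coeff_formOperator, pow_zero, Polynomial.coeff_zero, map_zero]
    rcases e with _ | _ | e <;> rcases j with _ | j <;>
      simp [rot, Polynomial.coeff_one, PowerSeries.coeff_one]
  | h + 1 => by
    rw [pow_succ, Nat.cast_succ, add_mul, one_mul, Nat.mul_succ, formOperator_mul,
      formOperator_pow c h, formOperator_invariantForm, zero_mul, mul_zero, add_zero]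

theorem invariantCoeff_ne_zero {c : ℚ} (hc : ∀ t : ℤ, c ≠ 2 * t) :
    ∀ k, invariantCoeff c (2 * k) ≠ 0
  | 0 => one_ne_zero
  | k + 1 => by
    rw [Nat.mul_succ, invariantCoeff]
    refine mul_ne_zero (div_ne_zero (mul_ne_zero (mul_ne_zero (fun h => hc (k + 1) ?_)
      (Nat.cast_add_one_ne_zero _)) fun h => hc (-k) ?_) (by positivity))
      (invariantCoeff_ne_zero hc k)
    · push_cast at h ⊢; linarith
    · push_cast at h ⊢; linarith

/-- A series with a polynomial power grows at most geometrically. -/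
theorem exists_geometric_bound {r : PowerSeries ℚ} (hr : PowerSeries.constantCoeff r = 1) {h : ℕ}
    (hh : 0 < h) {n : ℕ} (hn : ∀ j, n < j → PowerSeries.coeff j (r ^ h) = 0) :
    ∃ R : ℚ, 1 ≤ R ∧ ∀ j, |PowerSeries.coeff j r| ≤ R ^ j := by
  set F := r ^ h with hF
  set M : ℚ := ∑ i ∈ range (n + 1), |PowerSeries.coeff i F| with hM
  have hM0 : 0 ≤ M := Finset.sum_nonneg fun _ _ => abs_nonneg _
  set R : ℚ := 1 + (n + 2) * M with hR
  have hR1 : 1 ≤ R := le_add_of_nonneg_right (by positivity)
  have hsum : ∀ (m s : ℕ), ∑ i ∈ range m, |PowerSeries.coeff (i + s) F| ≤ M := fun m s => by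
    refine (Finset.sum_map _ (addRightEmbedding s)
      fun i => |PowerSeries.coeff i F|).symm.trans_le ?_
    rw [← Finset.sum_filter_ne_zero]
    refine Finset.sum_le_sum_of_subset_of_nonneg (fun i hi => ?_) fun _ _ _ => abs_nonneg _
    rw [mem_range, Nat.lt_succ_iff]
    by_contra hlt
    simp [hn i (by omega)] at hi
  refine ⟨R, hR1, fun j => ?_⟩
  induction j using Nat.strong_induction_on with
  | _ j ih =>
    rcases j with _ | j
    · rw [PowerSeries.coeff_zero_eq_constantCoeff, hr]; simp
    have hF0 : PowerSeries.constantCoeff F = 1 := by rw [hF, map_pow, hr, one_pow]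
    have hrel : PowerSeries.coeff j (PowerSeries.derivative ℚ F * r) =
        (h : ℚ) * PowerSeries.coeff j (F * PowerSeries.derivative ℚ r) := by
      rw [← PowerSeries.coeff_C_mul, map_natCast]
      congr 1
      rw [hF, Derivation.leibniz_pow, nsmul_eq_mul, smul_eq_mul]
      obtain ⟨h', rfl⟩ := Nat.exists_eq_succ_of_ne_zero hh.ne'
      rw [Nat.succ_sub_one, pow_succ]
      ring
    rw [PowerSeries.coeff_mul, PowerSeries.coeff_mul,
      Finset.Nat.sum_antidiagonal_eq_sum_range_succ_mk,
      Finset.Nat.sum_antidiagonal_eq_sum_range_succ_mk,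
      Finset.sum_range_succ' (fun i => PowerSeries.coeff i F *
        PowerSeries.coeff (j - i) (PowerSeries.derivative ℚ r)),
      PowerSeries.coeff_zero_eq_constantCoeff, hF0, one_mul, Nat.sub_zero] at hrel
    simp only [PowerSeries.coeff_derivative] at hrel
    have e1 : |∑ i ∈ range (j + 1), PowerSeries.coeff (i + 1) F * ((i : ℚ) + 1) *
        PowerSeries.coeff (j - i) r| ≤ (n + 1 : ℚ) * M * R ^ j := by
      refine (Finset.abs_sum_le_sum_abs _ _).trans ?_
      refine (Finset.sum_le_sum fun i hi => ?_ : _ ≤ ∑ i ∈ range (j + 1),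
        |PowerSeries.coeff (i + 1) F| * ((n + 1 : ℚ) * R ^ j)).trans ?_
      · rw [abs_mul, abs_mul, mul_assoc]
        rcases Nat.lt_or_ge n i with h1 | h1
        · simp [hn (i + 1) (by omega)]
        refine mul_le_mul_of_nonneg_left (mul_le_mul ?_ ?_ (abs_nonneg _) (by positivity))
          (abs_nonneg _)
        · rw [abs_of_nonneg (by positivity)]
          exact add_le_add_left (Nat.cast_le.2 h1) 1
        · exact (ih (j - i) (by omega)).trans (pow_le_pow_right₀ hR1 (Nat.sub_le _ _))
      · rw [← Finset.sum_mul]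
        refine (mul_le_mul_of_nonneg_right (hsum _ 1) (by positivity)).trans_eq ?_
        ring
    have e2 : |∑ i ∈ range j, PowerSeries.coeff (i + 1) F *
        (PowerSeries.coeff (j - (i + 1) + 1) r * ((((j - (i + 1) : ℕ)) : ℚ) + 1))| ≤
        ((j : ℚ) + 1) * M * R ^ j := by
      refine (Finset.abs_sum_le_sum_abs _ _).trans ?_
      refine (Finset.sum_le_sum fun i hi => ?_ : _ ≤ ∑ i ∈ range j,
        |PowerSeries.coeff (i + 1) F| * (R ^ j * ((j : ℚ) + 1))).trans ?_
      · rw [mem_range] at hi
        rw [abs_mul, abs_mul]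
        refine mul_le_mul_of_nonneg_left (mul_le_mul ?_ ?_ (abs_nonneg _) (by positivity))
          (abs_nonneg _)
        · exact (ih _ (by omega)).trans (pow_le_pow_right₀ hR1 (by omega))
        · rw [abs_of_nonneg (by positivity)]
          exact add_le_add_left (Nat.cast_le.2 (Nat.sub_le _ _)) 1
      · rw [← Finset.sum_mul]
        refine (mul_le_mul_of_nonneg_right (hsum _ 1) (by positivity)).trans_eq ?_
        ring
    have hh1 : (1 : ℚ) ≤ h := Nat.one_le_cast.2 hh
    have hj1 : (1 : ℚ) ≤ (j : ℚ) + 1 := le_add_of_nonneg_left (Nat.cast_nonneg j)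
    set S1 := ∑ i ∈ range (j + 1), PowerSeries.coeff (i + 1) F * ((i : ℚ) + 1) *
      PowerSeries.coeff (j - i) r with hS1
    set S2 := ∑ i ∈ range j, PowerSeries.coeff (i + 1) F *
      (PowerSeries.coeff (j - (i + 1) + 1) r * ((((j - (i + 1) : ℕ)) : ℚ) + 1)) with hS2
    have hkey : (h : ℚ) * ((j : ℚ) + 1) * PowerSeries.coeff (j + 1) r = S1 - h * S2 := by
      linear_combination -hrel
    have h5 : (h : ℚ) * ((j : ℚ) + 1) * |PowerSeries.coeff (j + 1) r| ≤
        (h : ℚ) * ((j : ℚ) + 1) * R ^ (j + 1) := by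
      rw [← abs_of_pos (show (0 : ℚ) < h * ((j : ℚ) + 1) by positivity), ← abs_mul, hkey,
        abs_of_pos (show (0 : ℚ) < h * ((j : ℚ) + 1) by positivity)]
      refine (abs_sub _ _).trans ?_
      rw [abs_mul, Nat.abs_cast]
      refine (add_le_add e1 (mul_le_mul_of_nonneg_left e2 (Nat.cast_nonneg h))).trans ?_
      rw [pow_succ' R, show R * R ^ j = R ^ j + ((n : ℚ) + 2) * M * R ^ j by rw [hR]; ring]
      have hp : 0 ≤ R ^ j := by positivity
      nlinarith [mul_nonneg (mul_nonneg (sub_nonneg.2 (one_le_mul_of_one_le_of_one_le hh1 hj1))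
        (by positivity : (0:ℚ) ≤ (n + 1 : ℚ))) (mul_nonneg hM0 hp),
        mul_nonneg (by positivity : (0:ℚ) ≤ h * ((j : ℚ) + 1)) hp]
    exact le_of_mul_le_mul_left h5 (by positivity)

/-- The invariant has no polynomial power. -/
theorem invariant_pow_not_polynomial {c : ℚ} (hc : ∀ t : ℤ, c ≠ 2 * t) {h : ℕ} (hh : 0 < h)
    {n : ℕ} (hn : ∀ j, n < j → PowerSeries.coeff j (PowerSeries.mk (invariantCoeff c) ^ h) = 0) :
    False := by
  obtain ⟨R, hR1, hR⟩ := exists_geometric_bound
    (by rw [← PowerSeries.coeff_zero_eq_constantCoeff_apply, PowerSeries.coeff_mk, invariantCoeff])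
    hh hn
  obtain ⟨k₀, hk₀⟩ := exists_nat_gt (128 * R ^ 2 + 2 * |c| + 2)
  have hgrow : ∀ i, |invariantCoeff c (2 * k₀)| * (4 * R ^ 2) ^ i ≤
      |invariantCoeff c (2 * (k₀ + i))| := by
    intro i
    induction i with
    | zero => simp
    | succ i ih =>
      rw [pow_succ, ← mul_assoc, show 2 * (k₀ + (i + 1)) = 2 * (k₀ + i) + 2 by ring,
        invariantCoeff, abs_mul, mul_comm]
      refine mul_le_mul ?_ ih (by positivity) (abs_nonneg _)
      set m : ℕ := 2 * (k₀ + i) with hm
      have h1 : 128 * R ^ 2 + 2 * |c| + 2 ≤ (m : ℚ) :=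
        hk₀.le.trans (Nat.cast_le.2 (by omega))
      have h2 := abs_le.1 (le_refl |c|)
      have hR2 : (1 : ℚ) ≤ R ^ 2 := one_le_pow₀ hR1
      rw [abs_div, abs_mul, abs_mul, abs_of_nonneg (show (0 : ℚ) ≤ (m : ℚ) + 1 by positivity),
        abs_of_pos (show (0 : ℚ) < 4 * ((m : ℚ) + 2) by positivity),
        abs_of_neg (show c - ((m : ℚ) + 2) < 0 by linarith),
        abs_of_pos (show 0 < (m : ℚ) + c by linarith), le_div_iff₀ (by positivity)]
      have h3 : (m : ℚ) / 2 ≤ -(c - ((m : ℚ) + 2)) := by linarith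
      have h4 : (m : ℚ) / 2 ≤ (m : ℚ) + c := by linarith
      have h5 : ((m : ℚ) + 2) / 2 ≤ (m : ℚ) + 1 := by linarith [Nat.cast_nonneg (α := ℚ) m]
      refine le_trans ?_ (mul_le_mul (mul_le_mul h3 h5 (by positivity) (by linarith)) h4
        (by positivity) (mul_nonneg (by linarith) (by positivity)))
      have h6 : 128 * R ^ 2 ≤ (m : ℚ) * m := by nlinarith
      nlinarith [mul_le_mul_of_nonneg_right h6 (show (0 : ℚ) ≤ (m : ℚ) + 2 by positivity)]
  have hpos : 0 < |invariantCoeff c (2 * k₀)| := abs_pos.2 (invariantCoeff_ne_zero hc k₀)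
  obtain ⟨i, hi⟩ := pow_unbounded_of_one_lt (R ^ (2 * k₀) / |invariantCoeff c (2 * k₀)|)
    (by norm_num : (1 : ℚ) < 4)
  rw [div_lt_iff₀ hpos] at hi
  have h1 := (hgrow i).trans (by simpa using hR (2 * (k₀ + i)))
  rw [mul_pow, ← pow_mul, Nat.mul_add, pow_add] at h1
  nlinarith [pow_pos (show 0 < R by linarith) (2 * i)]

/-- **No homogeneous Darboux polynomial of positive degree**, unless `c` is an even integer. -/
theorem darboux_degree_eq_zero {c : ℚ} (hc : ∀ t : ℤ, c ≠ 2 * t) {d : ℕ} {q : ℚ[X][X]}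
    (hq : q ≠ 0) (hd : q.natDegree ≤ d) {B : ℚ[X]} (h : ∀ e ≤ d, X * derivative (q.coeff e) +
      ((if e = 0 then 0 else C ((d : ℚ) - e + 1) * (X * q.coeff (e - 1))) -
        C ((e : ℚ) + 1) * (X * q.coeff (e + 1))) - C ((e : ℚ) * c) * q.coeff e =
      B * q.coeff e) :
    d = 0 := by
  classical
  by_contra hd0
  set a : ℕ → ℕ → ℚ := fun e j => (q.coeff e).coeff j with ha
  have hout : ∀ e j, d < e → a e j = 0 := fun e j he => by
    simp only [ha]
    rw [coeff_eq_zero_of_natDegree_lt (lt_of_le_of_lt hd he), coeff_zero]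
  have hzero : ∀ e ≤ d, -((e : ℚ) * c) * a e 0 = B.coeff 0 * a e 0 := by
    intro e he
    have h1 := congrArg (fun p : ℚ[X] => p.coeff 0) (h e he)
    simp only [coeff_add, coeff_sub, apply_ite (fun p : ℚ[X] => p.coeff 0), coeff_zero,
      mul_coeff_zero] at h1
    simpa [ha] using h1
  have hsucc : ∀ e ≤ d, ∀ j, ((j + 1 : ℕ) : ℚ) * a e (j + 1) + rot d (fun e => a e j) e -
      ((e : ℚ) * c) * a e (j + 1) = (B * q.coeff e).coeff (j + 1) := by
    intro e he j
    have h1 := congrArg (fun p : ℚ[X] => p.coeff (j + 1)) (h e he)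
    simp only [coeff_add, coeff_sub, coeff_X_mul_derivative] at h1
    simp only [apply_ite (fun p : ℚ[X] => p.coeff (j + 1)), coeff_zero, coeff_C_mul,
      coeff_X_mul] at h1
    exact h1
  -- the highest power
  set n := (range (d + 1)).sup fun e => (q.coeff e).natDegree with hn
  have hhigh : ∀ j, n < j → ∀ e, a e j = 0 := fun j hj e => by
    rcases le_or_gt e d with he | he
    · exact coeff_eq_zero_of_natDegree_lt (lt_of_le_of_lt
        (Finset.le_sup (f := fun e => (q.coeff e).natDegree) (mem_range.2 (by omega))) hj)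
    · exact hout e j he
  have hdeg : ∀ e ≤ d, (q.coeff e).natDegree ≤ n := fun e he =>
    Finset.le_sup (f := fun e => (q.coeff e).natDegree) (mem_range.2 (by omega))
  obtain ⟨em, hem, htne⟩ : ∃ em ≤ d, a em n ≠ 0 := by
    rcases Nat.eq_zero_or_pos n with h0 | h0
    · by_contra hall
      push Not at hall
      refine hq (Polynomial.ext fun e => Polynomial.ext fun j => ?_)
      rw [coeff_zero, coeff_zero]
      rcases Nat.eq_zero_or_pos j with rfl | hj
      · rcases le_or_gt e d with he | he
        · exact h0 ▸ hall e he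
        · exact hout e 0 he
      · exact hhigh j (by omega) e
    · obtain ⟨e, he, heq⟩ := Finset.exists_mem_eq_sup (range (d + 1)) ⟨0, by simp⟩
        fun e => (q.coeff e).natDegree
      rw [← hn] at heq
      refine ⟨e, Nat.lt_succ_iff.1 (mem_range.1 he), ?_⟩
      simp only [ha, heq]
      exact leadingCoeff_ne_zero.2 fun hz => by rw [hz, natDegree_zero] at heq; omega
  set t : ℕ → ℚ := fun e => a e n with ht
  have hBdeg : B.natDegree ≤ 1 := by
    by_contra hlt
    have h1 := hsucc em (by omega) (n + (B.natDegree - 1))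
    rw [hhigh _ (by omega) em, show n + (B.natDegree - 1) + 1 = B.natDegree + n by omega,
      coeff_mul_add_eq_of_natDegree_le le_rfl (hdeg em hem)] at h1
    rw [show rot d (fun e => a e (n + (B.natDegree - 1))) em = 0 by
      simp [rot, hhigh (n + (B.natDegree - 1)) (by omega)]] at h1
    simp only [mul_zero, add_zero, sub_zero] at h1
    exact mul_ne_zero (leadingCoeff_ne_zero.2 fun hz => by rw [hz, natDegree_zero] at hlt; omega)
      htne h1.symm
  have hRt : ∀ e ≤ d, rot d t e = B.coeff 1 * t e := fun e he => by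
    have h1 := hsucc e he n
    rw [hhigh (n + 1) (by omega) e, Nat.add_comm n 1, coeff_mul_add_eq_of_natDegree_le hBdeg
      (hdeg e he)] at h1
    linear_combination h1
  have htop : t (d + 1) = 0 := hout _ _ (by omega)
  have hsq : (0 : ℚ) < ∑ e ∈ range (d + 1), formWeight d e * t e * t e :=
    Finset.sum_pos' (fun e _ => by
      rw [mul_assoc]; exact mul_nonneg (formWeight_pos d e).le (mul_self_nonneg _))
      ⟨em, mem_range.2 (by omega), by
        rw [mul_assoc]; exact mul_pos (formWeight_pos d em) (mul_self_pos.2 htne)⟩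
  have hb1 : B.coeff 1 = 0 := by
    have h1 := sum_rot_skew d t t htop htop
    have h2 : ∑ e ∈ range (d + 1), formWeight d e * t e * rot d t e =
        B.coeff 1 * ∑ e ∈ range (d + 1), formWeight d e * t e * t e := by
      rw [Finset.mul_sum]
      refine Finset.sum_congr rfl fun e he => ?_
      rw [hRt e (Nat.lt_succ_iff.1 (mem_range.1 he))]
      ring
    have h3 : ∑ e ∈ range (d + 1), formWeight d e * rot d t e * t e =
        ∑ e ∈ range (d + 1), formWeight d e * t e * rot d t e :=
      Finset.sum_congr rfl fun e _ => by ring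
    rw [h3, h2] at h1
    exact (mul_eq_zero.1 (by linarith :
      B.coeff 1 * ∑ e ∈ range (d + 1), formWeight d e * t e * t e = 0)).resolve_right hsq.ne'
  have hB : B = C (B.coeff 0) := by
    refine eq_C_of_natDegree_eq_zero ?_
    by_contra hne
    exact leadingCoeff_ne_zero.2 (fun hz => hne (by rw [hz, natDegree_zero]))
      (show B.leadingCoeff = 0 by rw [Polynomial.leadingCoeff,
        show B.natDegree = 1 by omega, hb1])
  -- the form in `1 / X`
  set hs : ℕ → ℕ → ℚ := fun j e => if j ≤ n then a e (n - j) else 0 with hhs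
  have hs0 : hs 0 = t := funext fun e => by simp [hhs, ht]
  have H : IsFormalForm d c (B.coeff 0 - n) hs := by
    refine ⟨fun j e he => ?_, fun e he => ?_, fun j e he => ?_⟩
    · simp only [hhs]
      split_ifs
      · exact hout e _ he
      · rfl
    · rw [hs0, hRt e he, hb1, zero_mul]
    · rcases Nat.lt_trichotomy j n with hj | hj | hj
      · obtain ⟨i, hi⟩ : ∃ i, n = j + 1 + i := ⟨n - (j + 1), by omega⟩
        have h1 := hsucc e he i
        rw [hB, coeff_C_mul] at h1
        have e1 : hs (j + 1) = fun e => a e i := funext fun e => by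
          simp only [hhs]
          rw [if_pos (by omega), show n - (j + 1) = i by omega]
        rw [e1]
        simp only [hhs]
        rw [if_pos hj.le, show n - j = i + 1 by omega, hi]
        push_cast at h1 ⊢
        linear_combination h1
      · have h1 := hzero e he
        have e1 : hs (j + 1) = fun _ => 0 := funext fun e => by
          simp only [hhs]
          rw [if_neg (by omega)]
        rw [e1]
        simp only [hhs, rot, mul_zero, sub_zero, ite_self]
        rw [if_pos hj.le, show n - j = 0 by omega, hj]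
        linear_combination h1
      · simp only [hhs]
        rw [if_neg (by omega : ¬j ≤ n)]
        simp [rot, show ¬j + 1 ≤ n by omega]
  have hne : hs 0 0 ≠ 0 := fun h0 =>
    htne (by rw [← rot_kernel (H.1 0) H.2.1 h0 em, hs0])
  obtain ⟨h', hh'⟩ : ∃ h', d = 2 * h' := by
    rcases Nat.even_or_odd d with ⟨u, hu⟩ | hodd
    · exact ⟨u, by omega⟩
    · exact absurd (rot_kernel_odd hodd (H.1 0) H.2.1) hne
  set Ω := invariantForm c ^ h' with hΩ
  have hΩd : Ω.natDegree ≤ d := by
    rw [hΩ, hh', Nat.mul_comm]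
    exact Polynomial.natDegree_pow_le.trans (Nat.mul_le_mul_left _ (natDegree_invariantForm_le c))
  have K : IsFormalForm d c ((h' : ℚ) * -c) fun j e => PowerSeries.coeff j (Ω.coeff e) := by
    have h1 : ∀ j e, PowerSeries.coeff j ((formOperator d c ((h' : ℚ) * -c) Ω).coeff e) = 0 := by
      intro j e
      rw [hh', formOperator_pow, Polynomial.coeff_zero, map_zero]
    refine ⟨fun j e he => ?_, fun e _ => ?_, fun j e _ => ?_⟩
    · dsimp only
      rw [Polynomial.coeff_eq_zero_of_natDegree_lt (lt_of_le_of_lt hΩd he), map_zero]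
    · simpa [coeff_coeff_formOperator] using h1 0 e
    · have h2 := h1 (j + 1) e
      rw [coeff_coeff_formOperator, if_neg (by omega), Nat.add_sub_cancel] at h2
      linear_combination h2
  have hk : PowerSeries.coeff 0 (Ω.coeff 0) ≠ 0 := by
    rw [hΩ, Polynomial.coeff_zero_eq_eval_zero, Polynomial.eval_pow,
      PowerSeries.coeff_zero_eq_constantCoeff_apply, map_pow]
    refine pow_ne_zero _ ?_
    rw [← PowerSeries.coeff_zero_eq_constantCoeff_apply]
    simp [invariantForm, invariantCoeff]
  obtain ⟨τ, hτ, heq⟩ := H.unique K hne hk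
  refine invariant_pow_not_polynomial hc (h := h') (by omega) (n := n) fun j hj => ?_
  have h2 : Ω.coeff d = PowerSeries.mk (invariantCoeff c) ^ h' := by
    rw [hΩ, hh', Nat.mul_comm, Polynomial.coeff_pow_of_natDegree_le (natDegree_invariantForm_le c)]
    congr 1
    simp [invariantForm, Polynomial.coeff_X_pow]
  rw [← h2]
  have h3 := heq j d
  simp only [hhs] at h3
  rw [if_neg (by omega)] at h3
  exact (mul_eq_zero.1 h3.symm).resolve_left hτ

end FA.SiegelShidlovskii

end
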