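import Mathlib.Algebra.MvPolynomial.Equiv
import Mathlib.RingTheory.Polynomial.GaussLemma
import Mathlib.RingTheory.Polynomial.UniqueFactorization
import Mathlib.RingTheory.UniqueFactorizationDomain.GCDMonoid
import Fermat.Agent.SiegelShidlovskii.Darboux
import Fermat.Agent.SiegelShidlovskii.BesselRelations

/-!
# A stable prime ideal of relations is zero

A prime ideal of relations of `J₀`, `J₀'` which is stable and has no relation free of `Y₂` is
generated by a polynomial whose top form is a homogeneous Darboux polynomial; so it is zero.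
-/

set_option autoImplicit false

noncomputable section

open Finset

namespace FA.SiegelShidlovskii

theorem dvd_of_eval₂_eq_zero_aux {R S K L : Type*} [CommRing R] [IsDomain R] [IsGCDMonoid R]
    [Field K] [Algebra R K] [IsFractionRing R K] [CommRing S] [IsDomain S]
    [Field L] [Algebra S L] [IsFractionRing S L]
    {ρ : R →+* S} {y : S} (hρ : Function.Injective ρ)
    {P : Polynomial R} (hPirr : Irreducible P) (hPd : P.natDegree ≠ 0) (hP : P.eval₂ ρ y = 0)
    (hmin : ∀ q : Polynomial R, q.eval₂ ρ y = 0 → q.natDegree < P.natDegree → q = 0)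
    {q : Polynomial R} (hq : q.eval₂ ρ y = 0) : P ∣ q := by
  classical
  have hKi : Function.Injective (algebraMap R K) := IsFractionRing.injective R K
  refine (hPirr.isPrimitive hPd).dvd_of_fraction_map_dvd_fraction_map (K := K) ?_
  have hgi : Function.Injective ((algebraMap S L).comp ρ) :=
    (IsFractionRing.injective S L).comp hρ
  let g : K →+* L := IsFractionRing.lift hgi
  have hg : g.comp (algebraMap R K) = (algebraMap S L).comp ρ :=
    RingHom.ext fun t => IsFractionRing.lift_algebraMap hgi t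
  have hev : ∀ r : Polynomial R,
      (r.map (algebraMap R K)).eval₂ g (algebraMap S L y) = algebraMap S L (r.eval₂ ρ y) :=
    fun r => by rw [Polynomial.eval₂_map, hg, Polynomial.hom_eval₂]
  set Pf := P.map (algebraMap R K) with hPf
  set qf := q.map (algebraMap R K) with hqf
  set r := qf % Pf with hr
  have hr0 : r.eval₂ g (algebraMap S L y) = 0 := by
    have h1 := congrArg (Polynomial.eval₂ g (algebraMap S L y))
      (EuclideanDomain.div_add_mod qf Pf)
    rw [Polynomial.eval₂_add, Polynomial.eval₂_mul, hPf, hev, hP, map_zero, zero_mul,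
      zero_add, hqf, hev, hq, map_zero] at h1
    exact h1
  obtain ⟨b, hb, hbr⟩ := IsLocalization.integerNormalization_spec (nonZeroDivisors R) r
  rw [Algebra.smul_def, Polynomial.algebraMap_apply] at hbr
  have hb0 : algebraMap R K b ≠ 0 := (map_ne_zero_iff _ hKi).2 (nonZeroDivisors.ne_zero hb)
  have hrI : IsLocalization.integerNormalization (nonZeroDivisors R) r = 0 := by
    refine hmin _ ?_ ?_
    · refine IsFractionRing.injective S L ?_
      rw [map_zero, ← hev, hbr, Polynomial.eval₂_mul, hr0, mul_zero]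
    · rw [← Polynomial.natDegree_map_eq_of_injective hKi, hbr, Polynomial.natDegree_C_mul hb0]
      exact (Polynomial.natDegree_mod_lt qf (by
        rwa [hPf, Polynomial.natDegree_map_eq_of_injective hKi])
        ).trans_eq (Polynomial.natDegree_map_eq_of_injective hKi P)
  rw [hrI, Polynomial.map_zero, eq_comm, mul_eq_zero, Polynomial.C_eq_zero] at hbr
  exact EuclideanDomain.mod_eq_zero.1 (hbr.resolve_left hb0)

/-- A primitive relation of least degree divides all relations. -/
theorem dvd_of_eval₂_eq_zero {R S : Type*} [CommRing R] [IsDomain R] [IsGCDMonoid R]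
    [CommRing S] [IsDomain S]
    {ρ : R →+* S} {y : S} (hρ : Function.Injective ρ)
    {P : Polynomial R} (hPirr : Irreducible P) (hPd : P.natDegree ≠ 0) (hP : P.eval₂ ρ y = 0)
    (hmin : ∀ q : Polynomial R, q.eval₂ ρ y = 0 → q.natDegree < P.natDegree → q = 0)
    {q : Polynomial R} (hq : q.eval₂ ρ y = 0) : P ∣ q :=
  dvd_of_eval₂_eq_zero_aux (K := FractionRing R) (L := FractionRing S) hρ hPirr hPd hP hmin hq

/-- A stable prime ideal of relations without relations free of `Y₂` is zero. -/
theorem eq_zero_of_stable {ν : ℚ} (hν : ∀ t : ℤ, ν ≠ 2 * t) {S : Type*} [CommRing S] [IsDomain S]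
    (Φ : RelRing →+* S) (hst : ∀ p, Φ p = 0 → Φ (relDeriv ν p) = 0)
    (hinj : ∀ p : MvPolynomial (Fin 2) ℚ, Φ (MvPolynomial.rename Fin.succ p) = 0 → p = 0)
    {p₀ : RelRing} (hp₀ : Φ p₀ = 0) : p₀ = 0 := by
  classical
  by_contra hne
  set E := MvPolynomial.finSuccEquiv ℚ 2
  set Ψ : Polynomial (MvPolynomial (Fin 2) ℚ) →+* S := Φ.comp E.symm.toAlgHom.toRingHom with hΨ
  set ρ : MvPolynomial (Fin 2) ℚ →+* S :=
    Φ.comp (MvPolynomial.rename Fin.succ : _ →ₐ[ℚ] RelRing).toRingHom with hρ
  have hρi : Function.Injective ρ := (injective_iff_map_eq_zero _).2 hinj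
  have hΨC : Ψ = Polynomial.eval₂RingHom ρ (Φ (MvPolynomial.X 0)) := by
    refine Polynomial.ringHom_ext (fun a => ?_) ?_
    · rw [Polynomial.coe_eval₂RingHom, Polynomial.eval₂_C, hΨ, hρ]
      change Φ (E.symm (Polynomial.C a)) = Φ (MvPolynomial.rename Fin.succ a)
      congr 1
      rw [AlgEquiv.symm_apply_eq]
      have e : (E.toAlgHom.comp (MvPolynomial.rename Fin.succ)) =
          (Polynomial.CAlgHom : MvPolynomial (Fin 2) ℚ →ₐ[ℚ] _) := by
        refine MvPolynomial.algHom_ext fun j => ?_
        simp [E, MvPolynomial.finSuccEquiv_X_succ]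
      exact (AlgHom.congr_fun e a).symm
    · rw [Polynomial.coe_eval₂RingHom, Polynomial.eval₂_X, hΨ]
      change Φ (E.symm Polynomial.X) = Φ (MvPolynomial.X 0)
      congr 1
      rw [AlgEquiv.symm_apply_eq, MvPolynomial.finSuccEquiv_X_zero]
  -- an irreducible relation of least degree in `Y₂`
  have hex : ∃ n, ∃ q : Polynomial (MvPolynomial (Fin 2) ℚ), q ≠ 0 ∧ Ψ q = 0 ∧ q.natDegree = n :=
    ⟨_, E p₀, fun h => hne (E.injective (h.trans (map_zero E).symm)), by
      change Φ (E.symm (E p₀)) = 0
      rw [AlgEquiv.symm_apply_apply]; exact hp₀, rfl⟩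
  obtain ⟨P₁, hP₁0, hP₁, hP₁d⟩ := Nat.find_spec hex
  obtain ⟨P, hPirr, hP, hPle⟩ : ∃ P : Polynomial (MvPolynomial (Fin 2) ℚ), Irreducible P ∧
      Ψ P = 0 ∧ P.natDegree ≤ P₁.natDegree := by
    obtain ⟨fac, hfac, u, hu⟩ := UniqueFactorizationMonoid.exists_prime_factors P₁ hP₁0
    have h1 : Ψ fac.prod = 0 := by
      rw [← hu, map_mul, mul_eq_zero] at hP₁
      exact hP₁.resolve_right (u.isUnit.map Ψ).ne_zero
    rw [map_multiset_prod, Multiset.prod_eq_zero_iff, Multiset.mem_map] at h1
    obtain ⟨g, hg, hg0⟩ := h1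
    refine ⟨g, (hfac g hg).irreducible, hg0, Polynomial.natDegree_le_of_dvd ?_ hP₁0⟩
    rw [← hu]
    exact (Multiset.dvd_prod hg).mul_right _
  have hmin : ∀ q, Ψ q = 0 → q.natDegree < P.natDegree → q = 0 := fun q hq hlt => by
    by_contra hq0
    exact Nat.find_min hex (m := q.natDegree) (by omega) ⟨q, hq0, hq, rfl⟩
  have hPd : P.natDegree ≠ 0 := fun h0 => by
    rw [Polynomial.eq_C_of_natDegree_eq_zero h0, hΨC, Polynomial.coe_eval₂RingHom,
      Polynomial.eval₂_C] at hP
    have h1 := hρi (hP.trans (map_zero ρ).symm)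
    exact hPirr.ne_zero (by rw [Polynomial.eq_C_of_natDegree_eq_zero h0, h1, map_zero])
  have hdvd : ∀ q, Ψ q = 0 → P ∣ q := fun q hq => by
    rw [hΨC, Polynomial.coe_eval₂RingHom] at hP hq
    refine dvd_of_eval₂_eq_zero hρi hPirr hPd hP (fun t ht => hmin t ?_) hq
    rw [hΨC, Polynomial.coe_eval₂RingHom]; exact ht
  -- the generator in the ring of relations
  set p := E.symm P with hp
  have hpP : Φ p = 0 := hP
  have hp0 : p ≠ 0 := fun h => hPirr.ne_zero (E.symm.injective (h.trans (map_zero E.symm).symm))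
  obtain ⟨A', hA'⟩ : P ∣ E (relDeriv ν p) := hdvd _ (by
    change Φ (E.symm (E (relDeriv ν p))) = 0
    rw [AlgEquiv.symm_apply_apply]
    exact hst p hpP)
  set A := E.symm A' with hA
  have hpA : relDeriv ν p = p * A := E.injective (by rw [map_mul, hA', hp, hA,
    AlgEquiv.apply_symm_apply, AlgEquiv.apply_symm_apply])
  have hscale0 : ∀ q : RelRing, q ≠ 0 → scale q ≠ 0 := fun q hq h => hq (by
    rw [← scale_eval_one q, h, Polynomial.eval_zero])
  set d := (scale p).natDegree with hd
  have hA0 : (scale A).natDegree = 0 := by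
    by_contra hA1
    have hAne : A ≠ 0 := fun h => hA1 (by rw [h, map_zero, Polynomial.natDegree_zero])
    have h1 : (scale (relDeriv ν p)).natDegree ≤ d :=
      Polynomial.natDegree_le_iff_coeff_eq_zero.2 fun i hi => by
        rw [coeff_scale_relDeriv, Polynomial.coeff_eq_zero_of_natDegree_lt hi, map_zero]
    rw [hpA, map_mul, Polynomial.natDegree_mul (hscale0 p hp0) (hscale0 A hAne)] at h1
    omega
  have hAc : scale A = Polynomial.C A := by
    have h1 := Polynomial.eq_C_of_natDegree_eq_zero hA0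
    conv_rhs => rw [← scale_eval_one A, h1, Polynomial.eval_C]
    exact h1
  set H := (scale p).coeff d with hH
  have hH0 : H ≠ 0 := Polynomial.leadingCoeff_ne_zero.2 (hscale0 p hp0)
  have hθH : relDeriv ν H = H * A := by
    rw [hH, ← coeff_scale_relDeriv, hpA, map_mul, hAc, Polynomial.coeff_mul_C]
  obtain ⟨hqd, hqH, hqθ⟩ := scale_component ν p d
  rw [← hH] at hqd hqH hqθ
  obtain ⟨hAd, -, -⟩ := scale_component ν A 0
  have hA00 : (scale A).coeff 0 = A := by rw [hAc, Polynomial.coeff_C_zero]
  rw [hA00, Nat.le_zero] at hAd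
  set B := (dehom A).coeff 0
  have hB : dehom A = Polynomial.C B := Polynomial.eq_C_of_natDegree_eq_zero hAd
  have hq0 : dehom H ≠ 0 := fun h => hH0 (by rw [← hqH, h]; simp [homogenise])
  have hd0 : d = 0 := darboux_degree_eq_zero hν hq0 hqd (B := B) fun e _ => by
    rw [← hqθ e, hθH, map_mul, hB, Polynomial.coeff_mul_C, mul_comm]
  have hpH : p = H := by
    conv_lhs => rw [← scale_eval_one p, Polynomial.eq_C_of_natDegree_eq_zero hd0, Polynomial.eval_C]
    rw [hH, hd0]
  have hren : p = MvPolynomial.rename Fin.succ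
      (Polynomial.aeval (MvPolynomial.X 1 : MvPolynomial (Fin 2) ℚ) ((dehom H).coeff 0)) := by
    rw [← Polynomial.aeval_algHom_apply, MvPolynomial.rename_X, hpH]
    nth_rw 1 [← hqH]
    rw [hd0, homogenise, Finset.sum_range_one]
    simp
  refine hp0 ?_
  rw [hren] at hpP ⊢
  rw [hinj _ hpP, map_zero]

end FA.SiegelShidlovskii

end
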