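import Mathlib.RingTheory.Algebraic.Integral
import Fermat.Agent.SiegelShidlovskii.BesselStable

/-!
# `J₀` and `J₀'` are algebraically independent functions

If a solution `y` of `X y'' + ν y' + X y = 0` is transcendental over `ℚ(X)` its relations with `y'`
form a stable prime ideal; if it is algebraic so do those of `(s y, s y')`, `s` an indeterminate.
-/

set_option autoImplicit false

noncomputable section

open Finset

namespace FA.SiegelShidlovskii

/-- The coordinates of `ℚ[Y₁, X]`. -/
def pairEquiv : MvPolynomial (Fin 2) ℚ →ₐ[ℚ] Polynomial (Polynomial ℚ) :=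
  MvPolynomial.aeval ![Polynomial.X, Polynomial.C Polynomial.X]

theorem pairEquiv_eq_zero {p : MvPolynomial (Fin 2) ℚ} (h : pairEquiv p = 0) : p = 0 := by
  have key : ∀ q : MvPolynomial (Fin 2) ℚ, Polynomial.eval₂
      (Polynomial.aeval (MvPolynomial.X 1 : MvPolynomial (Fin 2) ℚ)).toRingHom
      (MvPolynomial.X 0) (pairEquiv q) = q := fun q => by
    induction q using MvPolynomial.induction_on with
    | C a => simp [pairEquiv]
    | add q r hq hr => rw [map_add, Polynomial.eval₂_add, hq, hr]
    | mul_X q i hq =>
      rw [map_mul, Polynomial.eval₂_mul, hq]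
      fin_cases i <;> simp [pairEquiv]
  rw [← key p, h, Polynomial.eval₂_zero]

/-- **A solution of `X y'' + ν y' + X y = 0` and its derivative are algebraically independent
over `ℚ(X)`**, unless `ν` is an even integer. -/
theorem relEvalOf_eq_zero {ν : ℚ} (hν : ∀ t : ℤ, ν ≠ 2 * t) {Y : PowerSeries ℚ} (hY0 : Y ≠ 0)
    (hY : PowerSeries.X * PowerSeries.derivative ℚ (PowerSeries.derivative ℚ Y) +
      PowerSeries.C ν * PowerSeries.derivative ℚ Y + PowerSeries.X * Y = 0)
    {p : RelRing} (hp : (relEvalOf Y) p = 0) : p = 0 := by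
  classical
  set ι : Polynomial ℚ →+* PowerSeries ℚ := Polynomial.coeToPowerSeries.ringHom with hι
  by_cases halg : ∃ q : Polynomial (Polynomial ℚ), q ≠ 0 ∧ q.eval₂ ι Y = 0
  · exfalso
    -- `J₀` algebraic: a homogeneous relation between `J₀` and `J₀'`
    let F := FractionRing (PowerSeries ℚ)
    let g : Polynomial ℚ →+* F := (algebraMap (PowerSeries ℚ) F).comp ι
    let _ : Algebra (Polynomial ℚ) F := g.toAlgebra
    set J := algebraMap (PowerSeries ℚ) F Y with hJ
    set J' := algebraMap (PowerSeries ℚ) F (PowerSeries.derivative ℚ Y) with hJ'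
    have hinjF : Function.Injective (algebraMap (PowerSeries ℚ) F) :=
      IsFractionRing.injective _ _
    have hev : ∀ q : Polynomial (Polynomial ℚ),
        Polynomial.aeval J q = algebraMap (PowerSeries ℚ) F (q.eval₂ ι Y) := fun q => by
      rw [Polynomial.aeval_def, Polynomial.hom_eval₂]
      rfl
    have hex : ∃ n, ∃ q : Polynomial (Polynomial ℚ), q ≠ 0 ∧ q.eval₂ ι Y = 0 ∧
        q.natDegree = n := by
      obtain ⟨q, hq0, hq⟩ := halg
      exact ⟨_, q, hq0, hq, rfl⟩
    obtain ⟨q, hq0, hq, hqd⟩ := Nat.find_spec hex
    have hJalg : IsAlgebraic (Polynomial ℚ) J := ⟨q, hq0, by rw [hev, hq, map_zero]⟩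
    have hqpos : q.natDegree ≠ 0 := fun h0 => by
      rw [Polynomial.eq_C_of_natDegree_eq_zero h0, Polynomial.eval₂_C] at hq
      have h1 : q.coeff 0 = 0 := Polynomial.coe_inj.1 (hq.trans Polynomial.coe_zero.symm)
      exact hq0 (by rw [Polynomial.eq_C_of_natDegree_eq_zero h0, h1, map_zero])
    have hD1 : (Polynomial.derivative q).eval₂ ι Y ≠ 0 := fun h0 => by
      refine Nat.find_min hex (m := (Polynomial.derivative q).natDegree) ?_
        ⟨_, fun hz => hqpos (Polynomial.derivative_eq_zero.1 hz), h0, rfl⟩
      rw [← hqd]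
      exact Polynomial.natDegree_derivative_lt hqpos
    -- differentiate the relation
    set qX : Polynomial (Polynomial ℚ) :=
      ∑ i ∈ q.support, Polynomial.monomial i (Polynomial.derivative (q.coeff i)) with hqX
    have hdiff : qX.eval₂ ι Y + PowerSeries.derivative ℚ Y *
        (Polynomial.derivative q).eval₂ ι Y = 0 := by
      have h1 := congrArg (PowerSeries.derivative ℚ) hq
      rw [map_zero] at h1
      have h2 : qX.eval₂ ι Y + PowerSeries.derivative ℚ Y *
          (Polynomial.derivative q).eval₂ ι Y =
          PowerSeries.derivative ℚ (q.eval₂ ι Y) := by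
        rw [Polynomial.eval₂_eq_sum (p := q), Polynomial.sum_def, map_sum,
          Polynomial.derivative_apply, Polynomial.sum_def, hqX, Polynomial.eval₂_finsetSum,
          Polynomial.eval₂_finsetSum, Finset.mul_sum, ← Finset.sum_add_distrib]
        refine Finset.sum_congr rfl fun i _ => ?_
        rw [Polynomial.eval₂_monomial, Polynomial.eval₂_mul, Polynomial.eval₂_C,
          Polynomial.eval₂_pow, Polynomial.eval₂_X, Derivation.leibniz, Derivation.leibniz_pow]
        simp only [smul_eq_mul, nsmul_eq_mul, map_mul, map_natCast, hι,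
          Polynomial.coeToPowerSeries.ringHom_apply, PowerSeries.derivative_coe]
        ring
      rw [h2, h1]
    have hJ'alg : IsAlgebraic (Polynomial ℚ) J' := by
      have hJmem : J ∈ Subalgebra.algebraicClosure (Polynomial ℚ) F := hJalg
      have hmem : ∀ r : Polynomial (Polynomial ℚ), IsAlgebraic (Polynomial ℚ)
          (Polynomial.aeval J r) := fun r => by
        rw [← Subalgebra.mem_algebraicClosure, Polynomial.aeval_eq_sum_range]
        exact Subalgebra.sum_mem _ fun i _ => Subalgebra.smul_mem _ (pow_mem hJmem i) _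
      have h1 : J' =
          -(Polynomial.aeval J qX) * (Polynomial.aeval J (Polynomial.derivative q))⁻¹ := by
        rw [eq_mul_inv_iff_mul_eq₀ (by rw [hev]; exact (map_ne_zero_iff _ hinjF).2 hD1), hev, hev,
          hJ', ← map_mul, ← map_neg]
        congr 1
        linear_combination hdiff
      rw [h1]
      exact (hmem qX).neg.mul (hmem _).inv
    have hJ0 : J ≠ 0 := (map_ne_zero_iff _ hinjF).2 hY0
    obtain ⟨r, hr0, hr⟩ := hJ'alg.mul hJalg.inv
    set n := r.natDegree
    set p₀ := homogenise n r with hp₀
    have hrr : dehom p₀ = r := by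
      rw [hp₀, homogenise, map_sum]
      conv_rhs => rw [r.as_sum_range_C_mul_X_pow]
      refine Finset.sum_congr rfl fun e _ => ?_
      have h1 : dehom (Polynomial.aeval (MvPolynomial.X 2 : RelRing) (r.coeff e)) =
          Polynomial.C (r.coeff e) := by
        have h2 : (dehom.comp (Polynomial.aeval (MvPolynomial.X 2 : RelRing))) =
            (Polynomial.CAlgHom : Polynomial ℚ →ₐ[ℚ] _) := by
          refine Polynomial.algHom_ext ?_
          simp [dehom]
        exact AlgHom.congr_fun h2 (r.coeff e)
      simp only [map_mul, map_pow, h1]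
      simp [dehom]
    have hscale : scale p₀ = Polynomial.C p₀ * Polynomial.X ^ n := by
      rw [hp₀, homogenise, map_sum, map_sum, Finset.sum_mul]
      refine Finset.sum_congr rfl fun e he => ?_
      rw [mem_range] at he
      have h1 : scale (Polynomial.aeval (MvPolynomial.X 2 : RelRing) (r.coeff e)) =
          Polynomial.C (Polynomial.aeval (MvPolynomial.X 2 : RelRing) (r.coeff e)) := by
        have h2 : (scale.comp (Polynomial.aeval (MvPolynomial.X 2 : RelRing))) =
            (Polynomial.CAlgHom : RelRing →ₐ[ℚ] _).comp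
              (Polynomial.aeval (MvPolynomial.X 2 : RelRing)) := by
          refine Polynomial.algHom_ext ?_
          simp [scale]
        exact AlgHom.congr_fun h2 (r.coeff e)
      conv_rhs => rw [show n = n - e + e by omega, pow_add]
      simp only [map_mul, map_pow, h1]
      simp [scale, mul_pow]
      ring
    have hev0 : (relEvalOf Y) p₀ = 0 := by
      refine hinjF ?_
      have e : algebraMap (PowerSeries ℚ) F ((relEvalOf Y) p₀) =
          J ^ n * Polynomial.aeval (J' * J⁻¹) r := by
        rw [hp₀, homogenise, map_sum, map_sum, Polynomial.aeval_eq_sum_range, Finset.mul_sum]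
        refine Finset.sum_congr rfl fun e he => ?_
        rw [mem_range] at he
        have h1 : (relEvalOf Y) (Polynomial.aeval (MvPolynomial.X 2 : RelRing) (r.coeff e)) =
            ι (r.coeff e) := by
          have h2 : ((relEvalOf Y).comp
              (Polynomial.aeval (MvPolynomial.X 2 : RelRing))).toRingHom = ι := by
            refine Polynomial.ringHom_ext (fun a => ?_) ?_
            · simp [relEvalOf, hι]
            · simp [relEvalOf, hι]
          exact RingHom.congr_fun h2 (r.coeff e)
        simp only [map_mul, map_pow, h1, Algebra.smul_def, RingHom.algebraMap_toAlgebra]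
        change g (r.coeff e) * _ * _ = J ^ n * (g (r.coeff e) * _)
        rw [show (relEvalOf Y) (MvPolynomial.X 1) = Y by simp [relEvalOf],
          show (relEvalOf Y) (MvPolynomial.X 0) = PowerSeries.derivative ℚ Y by simp [relEvalOf],
          ← hJ, ← hJ']
        conv_rhs => rw [show n = n - e + e by omega, pow_add]
        have hJe : J ^ e * J⁻¹ ^ e = 1 := by rw [← mul_pow, mul_inv_cancel₀ hJ0, one_pow]
        rw [mul_pow]
        linear_combination -(g (r.coeff e) * J ^ (n - e) * J' ^ e) * hJe
      rw [e, hr, mul_zero, map_zero]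
    refine hr0 ?_
    suffices hz : p₀ = 0 by rw [← hrr, hz, map_zero]
    refine eq_zero_of_stable hν (ν := ν)
      ((Polynomial.mapRingHom (relEvalOf Y).toRingHom).comp scale.toRingHom)
      (fun t ht => ?_) (fun t ht => ?_) ?_
    · refine Polynomial.ext fun i => ?_
      have h1 := congrArg (fun u : Polynomial (PowerSeries ℚ) => u.coeff i) ht
      simp only [RingHom.comp_apply, Polynomial.coe_mapRingHom, Polynomial.coeff_map,
        Polynomial.coeff_zero, AlgHom.toRingHom_eq_coe, RingHom.coe_coe] at h1 ⊢
      rw [coeff_scale_relDeriv ν, relEvalOf_relDeriv hY, h1, map_zero, mul_zero]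
    · refine pairEquiv_eq_zero (Polynomial.ext fun i => ?_)
      have h2 : ((Polynomial.mapRingHom (relEvalOf Y).toRingHom).comp scale.toRingHom).comp
          (MvPolynomial.rename Fin.succ : _ →ₐ[ℚ] RelRing).toRingHom =
          ((Polynomial.eval₂RingHom Polynomial.C (Polynomial.C Y * Polynomial.X)).comp
            (Polynomial.mapRingHom ι)).comp pairEquiv.toRingHom := by
        refine MvPolynomial.ringHom_ext (fun a => ?_) fun j => ?_
        · simp [pairEquiv, scale, relEvalOf, hι]
        · fin_cases j <;> simp [pairEquiv, scale, relEvalOf, hι]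
      have h3 := RingHom.congr_fun h2 t
      simp only [RingHom.comp_apply, Polynomial.coe_mapRingHom, AlgHom.toRingHom_eq_coe,
        RingHom.coe_coe, Polynomial.coe_eval₂RingHom] at h3 ht
      rw [ht, ← Polynomial.comp, eq_comm] at h3
      have h4 := congrArg (fun u : Polynomial (PowerSeries ℚ) => u.coeff i) h3
      simp only [Polynomial.comp_C_mul_X_coeff, Polynomial.coeff_map, Polynomial.coeff_zero,
        mul_eq_zero] at h4
      rw [Polynomial.coeff_zero]
      exact Polynomial.coe_inj.1 ((h4.resolve_right
        (pow_ne_zero _ hY0)).trans Polynomial.coe_zero.symm)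
    · simp only [RingHom.comp_apply, AlgHom.toRingHom_eq_coe, RingHom.coe_coe, hscale,
        Polynomial.coe_mapRingHom, Polynomial.map_mul, Polynomial.map_C, hev0]
      simp
  · -- `J₀` transcendental
    refine eq_zero_of_stable hν (ν := ν) (relEvalOf Y).toRingHom (fun t ht => ?_)
      (fun t ht => ?_) hp
    · simp only [AlgHom.toRingHom_eq_coe, RingHom.coe_coe] at ht ⊢
      rw [relEvalOf_relDeriv hY, ht, map_zero, mul_zero]
    · refine pairEquiv_eq_zero ?_
      by_contra hne
      refine halg ⟨pairEquiv t, hne, ?_⟩
      have h2 : (relEvalOf Y).toRingHom.comp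
            (MvPolynomial.rename Fin.succ : _ →ₐ[ℚ] RelRing).toRingHom =
          (Polynomial.eval₂RingHom ι Y).comp pairEquiv.toRingHom := by
        refine MvPolynomial.ringHom_ext (fun a => ?_) fun j => ?_
        · simp [pairEquiv, relEvalOf, hι]
        · fin_cases j <;> simp [pairEquiv, relEvalOf, hι]
      have h3 := RingHom.congr_fun h2 t
      simp only [RingHom.comp_apply, AlgHom.toRingHom_eq_coe, RingHom.coe_coe,
        Polynomial.coe_eval₂RingHom] at h3 ht
      rw [← h3, ht]

theorem one_ne_two_mul_int (t : ℤ) : (1 : ℚ) ≠ 2 * t := fun h => by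
  have h' : (1 : ℤ) = 2 * t := by exact_mod_cast h
  omega

/-- The evaluation at `J₀'`, `J₀`, `X`. -/
abbrev relEval : RelRing →ₐ[ℚ] PowerSeries ℚ := relEvalOf besselSeries

/-- **`J₀` and `J₀'` are algebraically independent over `ℚ(X)`.** -/
theorem relEval_eq_zero {p : RelRing} (hp : relEval p = 0) : p = 0 :=
  relEvalOf_eq_zero one_ne_two_mul_int besselSeries_ne_zero
    (by rw [map_one, one_mul]; exact besselSeries_equation) hp

end FA.SiegelShidlovskii

end
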