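import Mathlib.RingTheory.AlgebraicIndependent.Transcendental
import Fermat.Agent.SiegelShidlovskii.EFunctionMul
import Fermat.Agent.SiegelShidlovskii.BesselFunctional

/-!
# `J₀ α` and `J₀' α` are algebraically independent

The products `J₀ ^ i J₀' ^ k`, `i + k ≤ D`, are E-functions independent over `ℚ(X)` solving a
system singular only at the origin, so their values at a rational `α ≠ 0` are independent over `ℚ`.
-/

set_option autoImplicit false

noncomputable section

open Finset
open scoped Nat

namespace FA.SiegelShidlovskii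

/-- The exponents `(i, k)`, `i + k ≤ D`. -/
def monomialIndex (D : ℕ) : Finset (ℕ × ℕ) :=
  (range (D + 1) ×ˢ range (D + 1)).filter fun x => x.1 + x.2 ≤ D

theorem mem_monomialIndex {D : ℕ} {x : ℕ × ℕ} : x ∈ monomialIndex D ↔ x.1 + x.2 ≤ D := by
  simp only [monomialIndex, mem_filter, mem_product, mem_range]
  omega

/-- The product `J₀ ^ i J₀' ^ k`. -/
def besselMonomial (x : ℕ × ℕ) : PowerSeries ℚ :=
  besselSeries ^ x.1 * PowerSeries.derivative ℚ besselSeries ^ x.2

theorem isEFunction_besselMonomial (x : ℕ × ℕ) : IsEFunction (besselMonomial x) :=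
  (isEFunction_besselSeries.pow _).mul (isEFunction_besselSeries.derivative.pow _)

theorem mul_derivative_besselMonomial (i k : ℕ) :
    PowerSeries.X * PowerSeries.derivative ℚ (besselMonomial (i, k)) =
      (i : PowerSeries ℚ) * PowerSeries.X * besselMonomial (i - 1, k + 1) -
      (k : PowerSeries ℚ) * PowerSeries.X * besselMonomial (i + 1, k - 1) -
      (k : PowerSeries ℚ) * besselMonomial (i, k) := by
  have h := besselSeries_equation
  set J := besselSeries
  set J' := PowerSeries.derivative ℚ J
  simp only [besselMonomial, Derivation.leibniz, Derivation.leibniz_pow, smul_eq_mul,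
    nsmul_eq_mul]
  rcases k with _ | k
  · simp only [Nat.cast_zero, pow_zero, zero_mul, mul_zero, sub_zero, mul_one, zero_add,
      pow_one]
    ring
  · simp only [Nat.add_sub_cancel]
    push_cast
    linear_combination (J ^ i * ((k : PowerSeries ℚ) + 1) * J' ^ k) * h

/-- The matrix of the system of the products. -/
def monomialSystem {D m : ℕ} (e : Fin m ≃ monomialIndex D) :
    Matrix (Fin m) (Fin m) (Polynomial ℚ) := fun a b =>
  (if (e b : ℕ × ℕ) = ((e a : ℕ × ℕ).1 - 1, (e a : ℕ × ℕ).2 + 1) then
      ((e a : ℕ × ℕ).1 : Polynomial ℚ) * Polynomial.X else 0) -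
    (if (e b : ℕ × ℕ) = ((e a : ℕ × ℕ).1 + 1, (e a : ℕ × ℕ).2 - 1) then
      ((e a : ℕ × ℕ).2 : Polynomial ℚ) * Polynomial.X else 0) -
    (if (e b : ℕ × ℕ) = e a then ((e a : ℕ × ℕ).2 : Polynomial ℚ) else 0)

theorem isSolution_besselMonomial {D m : ℕ} (e : Fin m ≃ monomialIndex D) :
    IsSolution Polynomial.X (monomialSystem e) fun b => besselMonomial (e b) := by
  intro a
  obtain ⟨⟨i, k⟩, hik⟩ : ∃ x, x = (e a : ℕ × ℕ) := ⟨_, rfl⟩
  have hmem : i + k ≤ D := by
    have := mem_monomialIndex.1 (e a).2
    rw [← hik] at this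
    exact this
  have key : ∀ (y : ℕ × ℕ) (c : Polynomial ℚ), (c ≠ 0 → y.1 + y.2 ≤ D) →
      ∑ b, ((if (e b : ℕ × ℕ) = y then c else 0 : Polynomial ℚ) : PowerSeries ℚ) *
        besselMonomial (e b) = (c : PowerSeries ℚ) * besselMonomial y := by
    intro y c hc
    by_cases h0 : c = 0
    · simp [h0]
    rw [e.sum_comp (fun x : monomialIndex D =>
      ((if (x : ℕ × ℕ) = y then c else 0 : Polynomial ℚ) : PowerSeries ℚ) * besselMonomial x),
      Finset.sum_eq_single ⟨y, mem_monomialIndex.2 (hc h0)⟩]
    · simp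
    · intro x _ hx
      rw [if_neg fun h => hx (Subtype.ext h)]
      simp
    · exact fun h => absurd (mem_univ _) h
  change ((Polynomial.X : Polynomial ℚ) : PowerSeries ℚ) *
      PowerSeries.derivative ℚ (besselMonomial (e a)) =
    ∑ b, ((monomialSystem e a b : Polynomial ℚ) : PowerSeries ℚ) * besselMonomial (e b)
  simp only [monomialSystem, Polynomial.coe_sub, sub_mul, Finset.sum_sub_distrib]
  simp only [← hik, Polynomial.coe_X, mul_derivative_besselMonomial]
  rw [key, key, key]
  · simp [show ∀ n : ℕ, ((n : Polynomial ℚ) : PowerSeries ℚ) = n from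
      fun n => map_natCast Polynomial.coeToPowerSeries.ringHom n]
  · exact fun _ => hmem
  · intro hc
    have : k ≠ 0 := fun h => hc (by simp [h])
    simp only
    omega
  · intro hc
    have : i ≠ 0 := fun h => hc (by simp [h])
    simp only
    omega

theorem besselMonomial_independent {D m : ℕ} (e : Fin m ≃ monomialIndex D)
    (P : Fin m → Polynomial ℚ) (h : formSeries (fun b => besselMonomial (e b)) P = 0) : P = 0 := by
  classical
  set p : RelRing := ∑ b, Polynomial.aeval (MvPolynomial.X 2 : RelRing) (P b) *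
    MvPolynomial.X 1 ^ (e b : ℕ × ℕ).1 * MvPolynomial.X 0 ^ (e b : ℕ × ℕ).2 with hp
  have hev : relEval p = 0 := by
    rw [hp, map_sum, ← h, formSeries]
    refine Finset.sum_congr rfl fun b _ => ?_
    have h2 : (relEval.comp (Polynomial.aeval (MvPolynomial.X 2 : RelRing))).toRingHom =
        Polynomial.coeToPowerSeries.ringHom := by
      refine Polynomial.ringHom_ext (fun a => ?_) ?_
      · simp [relEval, relEvalOf]
      · simp [relEval, relEvalOf]
    have h3 : relEval (Polynomial.aeval (MvPolynomial.X 2 : RelRing) (P b)) =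
        (P b : PowerSeries ℚ) := RingHom.congr_fun h2 (P b)
    simp only [map_mul, map_pow, h3]
    simp [relEval, relEvalOf, besselMonomial, mul_assoc]
  set ev : RelRing →ₐ[ℚ] MvPolynomial (Fin 2) (Polynomial ℚ) := MvPolynomial.aeval
    ![MvPolynomial.X 1, MvPolynomial.X 0, MvPolynomial.C Polynomial.X] with hev'
  have h4 : ∀ q : Polynomial ℚ, ev (Polynomial.aeval (MvPolynomial.X 2 : RelRing) q) =
      MvPolynomial.C q := fun q => by
    have h2 : (ev.comp (Polynomial.aeval (MvPolynomial.X 2 : RelRing))).toRingHom =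
        MvPolynomial.C := by
      refine Polynomial.ringHom_ext (fun a => ?_) ?_
      · simp [hev']
      · simp [hev']
    exact RingHom.congr_fun h2 q
  have h5 : ev p = ∑ b, MvPolynomial.monomial
      (Finsupp.single 0 (e b : ℕ × ℕ).1 + Finsupp.single 1 (e b : ℕ × ℕ).2) (P b) := by
    rw [hp, map_sum]
    refine Finset.sum_congr rfl fun b _ => ?_
    simp only [map_mul, map_pow, h4]
    rw [MvPolynomial.monomial_eq, Finsupp.prod_fintype _ _ (by simp), Fin.prod_univ_two]
    simp [hev', mul_assoc]
  rw [relEval_eq_zero hev, map_zero] at h5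
  funext b
  have h6 := congrArg (MvPolynomial.coeff
    (Finsupp.single 0 (e b : ℕ × ℕ).1 + Finsupp.single 1 (e b : ℕ × ℕ).2)) h5
  rw [MvPolynomial.coeff_zero, MvPolynomial.coeff_sum, Finset.sum_eq_single b] at h6
  · simpa using h6.symm
  · intro c _ hc
    rw [MvPolynomial.coeff_monomial, if_neg]
    intro hs
    have e0 := DFunLike.congr_fun hs 0
    have e1 := DFunLike.congr_fun hs 1
    simp at e0 e1
    exact hc (e.injective (Subtype.ext (Prod.ext e0 e1)))
  · exact fun hn => absurd (mem_univ _) hn

/-- **Siegel**: `J₀ α` and `J₀' α` are algebraically independent for rational `α ≠ 0`. -/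
theorem algebraicIndependent_bessel {α : ℚ} (hα : α ≠ 0) :
    AlgebraicIndependent ℚ ![∑' l : ℕ, (-1) ^ l * ((α : ℝ) / 2) ^ (2 * l) / ((l ! : ℝ)) ^ 2,
      deriv (fun x : ℝ => ∑' l : ℕ, (-1) ^ l * (x / 2) ^ (2 * l) / ((l ! : ℝ)) ^ 2) α] := by
  classical
  have e0 : (fun x : ℝ => ∑' l : ℕ, (-1) ^ l * (x / 2) ^ (2 * l) / ((l ! : ℝ)) ^ 2) =
      val besselSeries := funext fun x => (val_besselSeries x).symm
  rw [← val_besselSeries, e0, (isEFunction_besselSeries.expGrowth.hasDerivAt _).deriv]
  rw [algebraicIndependent_iff]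
  intro p hp
  set D := p.totalDegree with hD
  obtain ⟨e⟩ : Nonempty (Fin (monomialIndex D).card ≃ monomialIndex D) :=
    ⟨(monomialIndex D).equivFin.symm⟩
  have hli := linearIndependent_values Polynomial.X (monomialSystem e)
    (isSolution_besselMonomial e) (fun b => isEFunction_besselMonomial _)
    (besselMonomial_independent e) hα (by simpa using hα)
  set σ : ℕ × ℕ → (Fin 2 →₀ ℕ) := fun x => Finsupp.single 0 x.1 + Finsupp.single 1 x.2 with hσ
  have hσ0 : ∀ x, σ x 0 = x.1 := fun x => by simp [hσ]
  have hσ1 : ∀ x, σ x 1 = x.2 := fun x => by simp [hσ]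
  have hsum : p = ∑ x ∈ monomialIndex D, MvPolynomial.monomial (σ x) (p.coeff (σ x)) := by
    ext τ
    rw [MvPolynomial.coeff_sum]
    have hτ : σ (τ 0, τ 1) = τ := by
      ext j
      fin_cases j
      · exact hσ0 _
      · exact hσ1 _
    rw [Finset.sum_eq_single (τ 0, τ 1)]
    · rw [MvPolynomial.coeff_monomial, if_pos hτ, hτ]
    · intro x _ hx
      rw [MvPolynomial.coeff_monomial, if_neg]
      intro h
      exact hx (by rw [← h, hσ0, hσ1])
    · intro hn
      rw [mem_monomialIndex] at hn
      rw [MvPolynomial.coeff_monomial, hτ, if_pos rfl]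
      refine MvPolynomial.coeff_eq_zero_of_totalDegree_lt ?_
      calc p.totalDegree < τ 0 + τ 1 := by simp only at hn; omega
        _ = ∑ i ∈ τ.support, τ i := by
          rw [Finset.sum_subset (subset_univ _) (fun x _ hx => Finsupp.notMem_support_iff.1 hx),
            Fin.sum_univ_two]
  have hval : ∀ x : ℕ × ℕ, val (besselMonomial x) α =
      val besselSeries α ^ x.1 * val (PowerSeries.derivative ℚ besselSeries) α ^ x.2 := fun x => by
    rw [besselMonomial, val_mul (isEFunction_besselSeries.pow _)
      (isEFunction_besselSeries.derivative.pow _), val_pow isEFunction_besselSeries,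
      val_pow isEFunction_besselSeries.derivative]
  have hzero : ∀ b, p.coeff (σ (e b)) = 0 := by
    refine Fintype.linearIndependent_iff.1 hli (fun b => p.coeff (σ (e b))) ?_
    rw [e.sum_comp (fun x : monomialIndex D => p.coeff (σ x) • val (besselMonomial x) α),
      Finset.sum_coe_sort (monomialIndex D)
        (fun x => p.coeff (σ x) • val (besselMonomial x) α)]
    rw [← hp]
    conv_rhs => rw [hsum, map_sum]
    refine Finset.sum_congr rfl fun x _ => ?_
    rw [MvPolynomial.aeval_monomial, Finsupp.prod_fintype _ _ (by simp), Fin.prod_univ_two,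
      hσ0, hσ1, hval, Algebra.smul_def]
    simp
  rw [hsum]
  refine Finset.sum_eq_zero fun x hx => ?_
  have := hzero (e.symm ⟨x, hx⟩)
  rw [Equiv.apply_symm_apply] at this
  simp [this]

/-- **`J₀ α` is transcendental** for rational `α ≠ 0`. -/
theorem transcendental_bessel {α : ℚ} (hα : α ≠ 0) :
    Transcendental ℚ (∑' l : ℕ, (-1) ^ l * ((α : ℝ) / 2) ^ (2 * l) / ((l ! : ℝ)) ^ 2) :=
  (algebraicIndependent_bessel hα).transcendental 0

end FA.SiegelShidlovskii

end
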