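import Fermat.Agent.SiegelShidlovskii.KFunction
import Fermat.Agent.SiegelShidlovskii.BesselOrders

/-!
# The values of Siegel's functions `K_λ`

If `λ` is rational, no negative integer and no half of an odd integer, then `K_λ` and `K_λ'` are
algebraically independent functions with algebraically independent values at algebraic `α ≠ 0`.
-/

set_option autoImplicit false

noncomputable section

open Finset
open scoped Nat

namespace FA.SiegelShidlovskii

theorem kSeries_coeff_two_mul (lam : ℚ) (l : ℕ) :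
    PowerSeries.coeff (2 * l) (kSeries lam) =
      (-1 : ℚ) ^ l / (4 ^ l * (l ! : ℚ) * risingProd lam l) := by
  simp [kSeries]

theorem cval_kSeries (lam : ℚ) (z : ℂ) :
    cval (kSeries lam) z = ∑' l : ℕ, (-1) ^ l * (z / 2) ^ (2 * l) /
      ((l ! : ℂ) * ∏ j ∈ Icc 1 l, ((lam : ℂ) + j)) := by
  refine ((mul_right_injective₀ (two_ne_zero : (2 : ℕ) ≠ 0)).tsum_eq ?_).symm.trans ?_
  · intro k hk
    rw [Function.mem_support] at hk
    by_contra hodd
    refine hk ?_
    have : ¬Even k := fun ⟨i, hi⟩ => hodd ⟨i, by simp only; omega⟩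
    simp [kSeries, this]
  · refine tsum_congr fun l => ?_
    rw [kSeries_coeff_two_mul, risingProd]
    push_cast
    rw [div_pow, pow_mul (2 : ℂ), show (2 : ℂ) ^ 2 = 4 by norm_num]
    ring

theorem cval_kSeries_zero (lam : ℚ) : cval (kSeries lam) 0 = 1 := by
  rw [cval, tsum_eq_single 0 fun k hk => by rw [zero_pow hk, mul_zero]]
  simp [kSeries, risingProd]

/-- `K_λ` and `K_λ'` are algebraically independent over `ℚ(X)`. -/
theorem relEvalOf_kSeries_eq_zero {lam : ℚ} (hlam : ∀ m : ℕ, lam ≠ -((m : ℚ) + 1))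
    (hhalf : ∀ t : ℤ, lam ≠ (t : ℚ) + 1 / 2) {p : RelRing}
    (hp : relEvalOf (kSeries lam) p = 0) : p = 0 :=
  relEvalOf_eq_zero (ν := 2 * lam + 1) (fun t h => hhalf (t - 1) (by push_cast; linarith))
    (kSeries_ne_zero lam) (kSeries_equation hlam) hp

theorem kSeries_eval₂_eq_zero {lam : ℚ} (hlam : ∀ m : ℕ, lam ≠ -((m : ℚ) + 1))
    (hhalf : ∀ t : ℤ, lam ≠ (t : ℚ) + 1 / 2) (p : MvPolynomial (Fin 2) (Polynomial ℚ))
    (hp : MvPolynomial.eval₂ Polynomial.coeToPowerSeries.ringHom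
      ![kSeries lam, PowerSeries.derivative ℚ (kSeries lam)] p = 0) : p = 0 :=
  eval₂_eq_zero_of_relEvalOf (fun _ => relEvalOf_kSeries_eq_zero hlam hhalf) p hp

theorem algebraicIndependent_kSeries {lam : ℚ} (hlam : ∀ m : ℕ, lam ≠ -((m : ℚ) + 1))
    (hhalf : ∀ t : ℤ, lam ≠ (t : ℚ) + 1 / 2) {α : ℂ} (hα : IsAlgebraic ℚ α) (hα0 : α ≠ 0) :
    AlgebraicIndependent ℚ
      ![cval (kSeries lam) α, cval (PowerSeries.derivative ℚ (kSeries lam)) α] := by
  have hE : ∀ i, IsEFunction (![kSeries lam, PowerSeries.derivative ℚ (kSeries lam)] i) := by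
    intro i
    fin_cases i
    · exact isEFunction_kSeries hlam
    · exact (isEFunction_kSeries hlam).derivative
  have h := algebraicIndependent_values Polynomial.X (fun _ : Fin 2 => 0)
    !![0, Polynomial.X; -Polynomial.X, -Polynomial.C (2 * lam + 1)]
    (f := ![kSeries lam, PowerSeries.derivative ℚ (kSeries lam)]) (fun i => ?_) hE
    (kSeries_eval₂_eq_zero hlam hhalf) hα hα0 (by simpa using hα0)
  · convert h using 1
    funext i
    fin_cases i <;> rfl
  · fin_cases i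
    · simp [Fin.sum_univ_two]
    · simp [Fin.sum_univ_two]
      have h := kSeries_equation hlam
      simp only [map_add, map_mul, map_one] at h
      linear_combination h

/-- **Siegel**: the values of `K_λ` and `K_λ'` at algebraic points. -/
theorem algebraicIndependent_kValues {lam : ℚ} (hlam : ∀ m : ℕ, lam ≠ -((m : ℚ) + 1))
    (hhalf : ∀ t : ℤ, lam ≠ (t : ℚ) + 1 / 2) {α : ℂ} (hα : IsAlgebraic ℚ α) (hα0 : α ≠ 0) :
    AlgebraicIndependent ℚ ![∑' l : ℕ, (-1) ^ l * (α / 2) ^ (2 * l) /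
        ((l ! : ℂ) * ∏ j ∈ Icc 1 l, ((lam : ℂ) + j)),
      deriv (fun z : ℂ => ∑' l : ℕ, (-1) ^ l * (z / 2) ^ (2 * l) /
        ((l ! : ℂ) * ∏ j ∈ Icc 1 l, ((lam : ℂ) + j))) α] := by
  have e : (fun z : ℂ => ∑' l : ℕ, (-1) ^ l * (z / 2) ^ (2 * l) /
      ((l ! : ℂ) * ∏ j ∈ Icc 1 l, ((lam : ℂ) + j))) = cval (kSeries lam) :=
    funext fun z => (cval_kSeries lam z).symm
  rw [← cval_kSeries, e, ((isEFunction_kSeries hlam).expGrowth.chasDerivAt α).deriv]
  exact algebraicIndependent_kSeries hlam hhalf hα hα0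

theorem transcendental_cval_kSeries {lam : ℚ} (hlam : ∀ m : ℕ, lam ≠ -((m : ℚ) + 1))
    (hhalf : ∀ t : ℤ, lam ≠ (t : ℚ) + 1 / 2) {α : ℂ} (hα : IsAlgebraic ℚ α) (hα0 : α ≠ 0) :
    Transcendental ℚ (cval (kSeries lam) α) :=
  (algebraicIndependent_kSeries hlam hhalf hα hα0).transcendental 0

/-- The logarithmic derivative of `K_λ` at algebraic points. -/
theorem transcendental_kSeries_logDeriv {lam : ℚ} (hlam : ∀ m : ℕ, lam ≠ -((m : ℚ) + 1))
    (hhalf : ∀ t : ℤ, lam ≠ (t : ℚ) + 1 / 2) {α : ℂ} (hα : IsAlgebraic ℚ α) (hα0 : α ≠ 0) :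
    Transcendental ℚ
      (cval (PowerSeries.derivative ℚ (kSeries lam)) α / cval (kSeries lam) α) := by
  intro hc
  have h0 : cval (kSeries lam) α ≠ 0 := fun h =>
    transcendental_cval_kSeries hlam hhalf hα hα0 (h ▸ isAlgebraic_zero)
  refine transcendental_combination (algebraicIndependent_kSeries hlam hhalf hα hα0) (b := -1)
    hc isAlgebraic_one.neg (Or.inr (neg_ne_zero.2 one_ne_zero)) ?_
  simp only [Matrix.cons_val_zero, Matrix.cons_val_one]
  rw [div_mul_cancel₀ _ h0, neg_one_mul, add_neg_cancel]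
  exact isAlgebraic_zero

/-- **Siegel**: the zeros of `K_λ` are transcendental. -/
theorem transcendental_kSeries_zero {lam : ℚ} (hlam : ∀ m : ℕ, lam ≠ -((m : ℚ) + 1))
    (hhalf : ∀ t : ℤ, lam ≠ (t : ℚ) + 1 / 2) {z : ℂ} (hz : cval (kSeries lam) z = 0) :
    Transcendental ℚ z := fun h => by
  have hz0 : z ≠ 0 := fun e => by
    rw [e, cval_kSeries_zero] at hz
    exact one_ne_zero hz
  exact transcendental_cval_kSeries hlam hhalf h hz0 (hz ▸ isAlgebraic_zero)

end FA.SiegelShidlovskii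

end
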