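import Mathlib.Analysis.SpecialFunctions.Trigonometric.DerivHyp
import Mathlib.Analysis.SpecialFunctions.Trigonometric.Series
import Fermat.Agent.Transcendence.HermiteLindemann
import Fermat.Agent.SiegelShidlovskii.BesselFraction
import Fermat.Agent.SiegelShidlovskii.KValues

/-!
# Every continued fraction in arithmetic progression is transcendental

`[a + d; a + 2 d, a + 3 d, …]` is a multiple of the ratio of `K_λ` and `K_(λ + 1)` at `2 i / d`,
`λ = a / d`; for `λ` half of an odd integer it reduces to the hyperbolic cotangent.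
-/

set_option autoImplicit false

noncomputable section

open Finset
open scoped Nat
open FA.PeriodicFractions

namespace FA.SiegelShidlovskii

theorem risingProd_shift (lam : ℚ) (n : ℕ) :
    risingProd lam (n + 1) = (lam + 1) * risingProd (lam + 1) n := by
  induction n with
  | zero => simp [risingProd]
  | succ n ih =>
    rw [risingProd_succ lam (n + 1), ih, risingProd_succ (lam + 1) n]
    push_cast
    ring

theorem ne_neg_nat_of_neg_one_lt {lam : ℚ} (h : -1 < lam) (m : ℕ) : lam ≠ -((m : ℚ) + 1) := by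
  intro e
  linarith [Nat.cast_nonneg (α := ℚ) m]

theorem risingProd_ge {lam : ℚ} (h : -1 < lam) : ∀ n, min 1 (lam + 1) ≤ risingProd lam n
  | 0 => by simp [risingProd]
  | 1 => by simp [risingProd]
  | n + 2 => by
    rw [risingProd_succ]
    refine (risingProd_ge h (n + 1)).trans (le_mul_of_one_le_right ?_ ?_)
    · exact (le_min zero_le_one (by linarith)).trans (risingProd_ge h (n + 1))
    · push_cast
      linarith [Nat.cast_nonneg (α := ℚ) n]

theorem risingProd_pos {lam : ℚ} (h : -1 < lam) (n : ℕ) : (0 : ℝ) < (risingProd lam n : ℝ) :=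
  Rat.cast_pos.2 ((lt_min one_pos (by linarith)).trans_le (risingProd_ge h n))

/-- The function `t ↦ K_λ (i t)` on the reals. -/
def kI (lam : ℚ) (t : ℝ) : ℝ :=
  ∑' l : ℕ, (t / 2) ^ (2 * l) / ((l ! : ℝ) * (risingProd lam l : ℝ))

theorem summable_kI {lam : ℚ} (h : -1 < lam) (t : ℝ) :
    Summable fun l : ℕ => (t / 2) ^ (2 * l) / ((l ! : ℝ) * (risingProd lam l : ℝ)) := by
  set c : ℝ := ((min 1 (lam + 1) : ℚ) : ℝ) with hc
  have hc0 : 0 < c := Rat.cast_pos.2 (lt_min one_pos (by linarith))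
  refine Summable.of_norm_bounded
    ((Real.summable_pow_div_factorial ((t / 2) ^ 2)).mul_left c⁻¹) fun l => ?_
  have hle : c ≤ (risingProd lam l : ℝ) := Rat.cast_le.2 (risingProd_ge h l)
  rw [Real.norm_eq_abs, abs_of_nonneg (div_nonneg (by rw [pow_mul]; positivity)
    (mul_nonneg (Nat.cast_nonneg _) (hc0.le.trans hle))), ← pow_mul, inv_mul_eq_div, div_div]
  gcongr
  rw [pow_mul]
  positivity

theorem kI_pos {lam : ℚ} (h : -1 < lam) (t : ℝ) : 0 < kI lam t :=
  (summable_kI h t).tsum_pos (fun l => div_nonneg (by rw [pow_mul]; positivity)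
    (mul_nonneg (Nat.cast_nonneg _) (risingProd_pos h l).le)) 0 (by simp [risingProd])

theorem kI_recurrence {lam : ℚ} (h : -1 < lam) (t : ℝ) :
    kI lam t - kI (lam + 1) t =
      t ^ 2 / (4 * ((lam : ℝ) + 1) * ((lam : ℝ) + 2)) * kI (lam + 2) t := by
  have hs := ((summable_kI h t).hasSum.sub
    (summable_kI (lam := lam + 1) (by linarith) t).hasSum)
  have hs' := (hasSum_nat_add_iff' 1).2 hs
  simp only [Finset.sum_range_one, risingProd, Icc_eq_empty_of_lt zero_lt_one, prod_empty,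
    sub_self, sub_zero] at hs'
  refine hs'.unique (((summable_kI (lam := lam + 2) (by linarith) t).hasSum.mul_left _).congr_fun
    fun l => ?_)
  change (t / 2) ^ (2 * (l + 1)) / (((l + 1)! : ℝ) * (risingProd lam (l + 1) : ℝ)) -
    (t / 2) ^ (2 * (l + 1)) / (((l + 1)! : ℝ) * (risingProd (lam + 1) (l + 1) : ℝ)) = _
  have h2 : risingProd lam (l + 1) = (lam + 1) * risingProd (lam + 1) l := risingProd_shift lam l
  have h3 : risingProd (lam + 1) (l + 1) = (lam + 2) * risingProd (lam + 2) l := by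
    rw [risingProd_shift, show lam + 1 + 1 = lam + 2 by ring]
  have h4 : risingProd (lam + 1) (l + 1) = risingProd (lam + 1) l * (lam + 1 + (l + 1 : ℕ)) :=
    risingProd_succ _ l
  have e := congrArg (fun x : ℚ => (x : ℝ)) (h4.symm.trans h3)
  rw [h2, h3, Nat.factorial_succ, show 2 * (l + 1) = 2 * l + 2 by ring, pow_add]
  push_cast at e ⊢
  have p1 := risingProd_pos (lam := lam + 1) (by linarith) l
  have p2 := risingProd_pos (lam := lam + 2) (by linarith) l
  have q1 : (0 : ℝ) < (lam : ℝ) + 1 := by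
    have := Rat.cast_pos (K := ℝ).2 (show (0 : ℚ) < lam + 1 by linarith)
    push_cast at this
    exact this
  have q2 : (0 : ℝ) < (lam : ℝ) + 2 := by linarith
  have : (l ! : ℝ) ≠ 0 := Nat.cast_ne_zero.2 (Nat.factorial_ne_zero _)
  have : ((l : ℝ) + 1) ≠ 0 := Nat.cast_add_one_ne_zero l
  set A := (t / 2) ^ (2 * l)
  set R₁ := (risingProd (lam + 1) l : ℝ)
  set R₂ := (risingProd (lam + 2) l : ℝ)
  have main : 1 / (((lam : ℝ) + 1) * R₁) - 1 / (((lam : ℝ) + 2) * R₂) =
      ((l : ℝ) + 1) / (((lam : ℝ) + 1) * ((lam : ℝ) + 2) * R₂) := by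
    field_simp
    linear_combination -e
  calc _ = A * (t / 2) ^ 2 / (((l : ℝ) + 1) * (l ! : ℝ)) *
        (1 / (((lam : ℝ) + 1) * R₁) - 1 / (((lam : ℝ) + 2) * R₂)) := by field_simp
    _ = _ := by
      rw [main]
      field_simp
      ring

theorem cval_kSeries_I_mul (lam : ℚ) (t : ℝ) :
    cval (kSeries lam) ((t : ℂ) * Complex.I) = (kI lam t : ℂ) := by
  rw [cval_kSeries, kI, Complex.ofReal_tsum]
  refine tsum_congr fun l => ?_
  rw [show (t : ℂ) * Complex.I / 2 = ((t / 2 : ℝ) : ℂ) * Complex.I by push_cast; ring, mul_pow,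
    pow_mul Complex.I, Complex.I_sq, risingProd]
  push_cast
  have h : ((-1 : ℂ) ^ l) * (-1) ^ l = 1 := by rw [← mul_pow]; simp
  linear_combination ((t : ℂ) / 2) ^ (2 * l) /
    ((l ! : ℂ) * ∏ j ∈ Icc 1 l, ((lam : ℂ) + j)) * h

theorem derivative_kSeries {lam : ℚ} (hlam : ∀ m : ℕ, lam ≠ -((m : ℚ) + 1)) :
    PowerSeries.derivative ℚ (kSeries lam) =
      (((Polynomial.C (-(1 / (2 * (lam + 1)))) * Polynomial.X : Polynomial ℚ)) : PowerSeries ℚ) *
        kSeries (lam + 1) := by
  ext k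
  rw [PowerSeries.coeff_derivative, Polynomial.coe_mul, Polynomial.coe_C, Polynomial.coe_X,
    mul_assoc, PowerSeries.coeff_C_mul]
  rcases k with _ | k
  · simp [kSeries, Nat.not_even_one]
  rw [PowerSeries.coeff_succ_X_mul]
  simp only [kSeries, PowerSeries.coeff_mk]
  rcases Nat.even_or_odd k with ⟨i, rfl⟩ | ⟨i, rfl⟩
  · rw [if_pos (show Even (i + i + 1 + 1) from ⟨i + 1, by omega⟩),
      if_pos (show Even (i + i) from ⟨i, rfl⟩),
      show (i + i + 1 + 1) / 2 = i + 1 by omega, show (i + i) / 2 = i by omega,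
      Nat.factorial_succ, pow_succ, pow_succ, risingProd_shift]
    push_cast
    have : (i ! : ℚ) ≠ 0 := Nat.cast_ne_zero.2 (Nat.factorial_ne_zero _)
    have : ((i : ℚ) + 1) ≠ 0 := Nat.cast_add_one_ne_zero i
    have hl : lam + 1 ≠ 0 := fun h => hlam 0 (by push_cast; linarith)
    have : risingProd (lam + 1) i ≠ 0 := risingProd_ne_zero (fun m h => hlam (m + 1)
      (by push_cast; linarith)) i
    field_simp
    ring
  · rw [if_neg (by rw [Nat.not_even_iff_odd]; exact ⟨i + 1, by omega⟩),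
      if_neg (by rw [Nat.not_even_iff_odd]; exact ⟨i, rfl⟩)]
    simp

/-- The complete quotient `(λ + 1) (2 / t) K_λ (i t) / K_(λ + 1) (i t)`. -/
def kQuot (lam : ℚ) (t : ℝ) : ℝ := ((lam : ℝ) + 1) * (2 / t) * (kI lam t / kI (lam + 1) t)

theorem kQuot_pos {lam : ℚ} (h : -1 < lam) {t : ℝ} (ht : 0 < t) : 0 < kQuot lam t := by
  have := kI_pos h t
  have := kI_pos (lam := lam + 1) (by linarith) t
  have h1 : (0 : ℝ) < (lam : ℝ) + 1 := by
    have := Rat.cast_pos (K := ℝ).2 (show (0 : ℚ) < lam + 1 by linarith)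
    push_cast at this
    exact this
  rw [kQuot]
  positivity

theorem kQuot_eq {lam : ℚ} (h : -1 < lam) {t : ℝ} (ht : 0 < t) :
    kQuot lam t = 2 * ((lam : ℝ) + 1) / t + 1 / kQuot (lam + 1) t := by
  have h1 := kI_recurrence h t
  have := kI_pos (lam := lam + 1) (by linarith) t
  have := kI_pos (lam := lam + 1 + 1) (by linarith) t
  have q1 : (0 : ℝ) < (lam : ℝ) + 1 := by
    have := Rat.cast_pos (K := ℝ).2 (show (0 : ℚ) < lam + 1 by linarith)
    push_cast at this
    exact this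
  rw [kQuot, kQuot, show lam + 1 + 1 = lam + 2 by ring] at *
  push_cast
  have q2 : (0 : ℝ) < (lam : ℝ) + 1 + 1 := by linarith
  have q3 : (0 : ℝ) < (lam : ℝ) + 2 := by linarith
  rw [show kI lam t = kI (lam + 1) t +
    t ^ 2 / (4 * ((lam : ℝ) + 1) * ((lam : ℝ) + 2)) * kI (lam + 2) t by rw [← h1]; ring]
  field_simp
  ring

theorem transcendental_kQuot_aux {lam : ℚ} (h : -1 < lam)
    (hhalf : ∀ s : ℤ, lam ≠ (s : ℚ) + 1 / 2) {t : ℝ} (ht : IsAlgebraic ℚ t) (ht0 : 0 < t) :
    Transcendental ℚ (kQuot lam t) := by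
  intro hc
  set z := (t : ℂ) * Complex.I with hz
  have hI : IsAlgebraic ℚ Complex.I :=
    ⟨Polynomial.X ^ 2 + 1, Polynomial.Monic.ne_zero (by monicity!), by simp⟩
  have up : ∀ {x : ℝ}, IsAlgebraic ℚ x → IsAlgebraic ℚ (x : ℂ) := fun hx =>
    hx.algHom (Complex.ofRealAm.restrictScalars ℚ)
  have hz' : IsAlgebraic ℚ z := (up ht).mul hI
  have hz0 : z ≠ 0 := mul_ne_zero (Complex.ofReal_ne_zero.2 ht0.ne') Complex.I_ne_zero
  refine transcendental_kSeries_logDeriv (ne_neg_nat_of_neg_one_lt h) hhalf hz' hz0 ?_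
  have hd : cval (PowerSeries.derivative ℚ (kSeries lam)) z =
      Polynomial.eval₂ (Rat.castHom ℂ) z (Polynomial.C (-(1 / (2 * (lam + 1)))) * Polynomial.X) *
        cval (kSeries (lam + 1)) z := by
    rw [derivative_kSeries (ne_neg_nat_of_neg_one_lt h)]
    have hlam' := ne_neg_nat_of_neg_one_lt (lam := lam + 1) (by linarith)
    exact (((isEFunction_kSeries hlam').expGrowth.chasVal z).polynomial_mul _).cval_eq
  rw [hd, hz, cval_kSeries_I_mul, cval_kSeries_I_mul, Polynomial.eval₂_mul, Polynomial.eval₂_C,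
    Polynomial.eval₂_X]
  have := kI_pos h t
  have := kI_pos (lam := lam + 1) (by linarith) t
  have q1 : (lam : ℂ) + 1 ≠ 0 := by
    rw [← Rat.cast_one, ← Rat.cast_add, Rat.cast_ne_zero]
    linarith
  have e : Rat.castHom ℂ (-(1 / (2 * (lam + 1)))) * ((t : ℂ) * Complex.I) *
      (kI (lam + 1) t : ℂ) / (kI lam t : ℂ) = -Complex.I * ((kQuot lam t : ℝ) : ℂ)⁻¹ := by
    simp only [kQuot, eq_ratCast]
    push_cast
    have : (t : ℂ) ≠ 0 := Complex.ofReal_ne_zero.2 ht0.ne'
    have : (kI lam t : ℂ) ≠ 0 := Complex.ofReal_ne_zero.2 (kI_pos h t).ne'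
    have : (kI (lam + 1) t : ℂ) ≠ 0 :=
      Complex.ofReal_ne_zero.2 (kI_pos (lam := lam + 1) (by linarith) t).ne'
    field_simp
  rw [e]
  exact hI.neg.mul (up hc).inv

theorem kI_neg_half (t : ℝ) : kI (-1 / 2) t = Real.cosh t := by
  refine (tsum_congr fun l => ?_).trans (Real.hasSum_cosh t).tsum_eq
  have e : (4 : ℚ) ^ l * (l ! : ℚ) * risingProd (-1 / 2) l = ((2 * l)! : ℚ) := by
    induction l with
    | zero => simp [risingProd]
    | succ l ih =>
      rw [show 2 * (l + 1) = 2 * l + 1 + 1 by ring, Nat.factorial_succ (2 * l + 1),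
        Nat.factorial_succ (2 * l), risingProd_succ, Nat.factorial_succ, pow_succ]
      push_cast
      rw [← ih]
      ring
  have e' := congrArg (fun x : ℚ => (x : ℝ)) e
  push_cast at e'
  rw [← e', div_pow, pow_mul (2 : ℝ), show (2 : ℝ) ^ 2 = 4 by norm_num, div_div]
  ring

theorem mul_kI_half (t : ℝ) : t * kI (1 / 2) t = Real.sinh t := by
  rw [kI, ← tsum_mul_left]
  refine (tsum_congr fun l => ?_).trans (Real.hasSum_sinh t).tsum_eq
  have e : (4 : ℚ) ^ l * (l ! : ℚ) * risingProd (1 / 2) l = ((2 * l + 1)! : ℚ) := by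
    induction l with
    | zero => simp [risingProd]
    | succ l ih =>
      rw [show 2 * (l + 1) + 1 = 2 * l + 1 + 1 + 1 by ring, Nat.factorial_succ (2 * l + 1 + 1),
        Nat.factorial_succ (2 * l + 1), risingProd_succ, Nat.factorial_succ, pow_succ]
      push_cast
      rw [← ih]
      ring
  have e' := congrArg (fun x : ℚ => (x : ℝ)) e
  push_cast at e'
  rw [← e', div_pow, pow_mul (2 : ℝ), show (2 : ℝ) ^ 2 = 4 by norm_num, pow_succ t]
  ring

theorem transcendental_kQuot_neg_half {t : ℝ} (ht : IsAlgebraic ℚ t) (ht0 : 0 < t) :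
    Transcendental ℚ (kQuot (-1 / 2) t) := by
  intro hc
  set c := kQuot (-1 / 2) t with hc'
  have hc1 : c = Real.cosh t / Real.sinh t := by
    rw [hc', kQuot, show (-1 / 2 : ℚ) + 1 = 1 / 2 by norm_num, kI_neg_half, ← mul_kI_half]
    have := kI_pos (lam := 1 / 2) (by norm_num) t
    push_cast
    field_simp
    norm_num
  have hs : 0 < Real.sinh t := Real.sinh_pos_iff.2 ht0
  have hne : c - 1 ≠ 0 := by
    rw [hc1, div_sub_one hs.ne', Real.cosh_sub_sinh]
    exact div_ne_zero (Real.exp_ne_zero _) hs.ne'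
  have he : Real.exp (2 * t) = (c + 1) / (c - 1) := by
    rw [eq_div_iff hne, hc1, div_add_one hs.ne', div_sub_one hs.ne', Real.cosh_sub_sinh,
      Real.cosh_add_sinh, mul_div_assoc', ← Real.exp_add, show 2 * t + -t = t by ring]
  have hup : ∀ {x : ℝ}, IsAlgebraic ℚ x → IsAlgebraic ℚ (x : ℂ) := fun hx =>
    hx.algHom (Complex.ofRealAm.restrictScalars ℚ)
  refine HermiteLindemann.transcendental_exp (a := ((2 * t : ℝ) : ℂ))
    (Complex.ofReal_ne_zero.2 (by positivity)) (hup ((isAlgebraic_natCast 2).mul ht)) ?_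
  rw [← Complex.ofReal_exp, he, div_eq_mul_inv]
  exact hup ((hc.add isAlgebraic_one).mul (hc.sub isAlgebraic_one).inv)

theorem transcendental_kQuot {lam : ℚ} (h : -1 < lam) {t : ℝ} (ht : IsAlgebraic ℚ t)
    (ht0 : 0 < t) : Transcendental ℚ (kQuot lam t) := by
  by_cases hhalf : ∀ s : ℤ, lam ≠ (s : ℚ) + 1 / 2
  · exact transcendental_kQuot_aux h hhalf ht ht0
  push Not at hhalf
  obtain ⟨s, rfl⟩ := hhalf
  obtain ⟨m, hm⟩ : ∃ m : ℕ, s = (m : ℤ) - 1 := by
    have h1 : ((-2 : ℤ) : ℚ) < ((s : ℤ) : ℚ) := by push_cast; linarith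
    rw [Int.cast_lt] at h1
    exact ⟨(s + 1).toNat, by omega⟩
  subst hm
  rw [show (((m : ℤ) - 1 : ℤ) : ℚ) + 1 / 2 = (m : ℚ) + -1 / 2 by push_cast; ring]
  clear h
  induction m with
  | zero => rw [Nat.cast_zero, zero_add]; exact transcendental_kQuot_neg_half ht ht0
  | succ m ih =>
    intro hc
    have h0 : (-1 : ℚ) < (m : ℚ) + -1 / 2 := by linarith [Nat.cast_nonneg (α := ℚ) m]
    refine ih ?_
    rw [kQuot_eq h0 ht0, show (m : ℚ) + -1 / 2 + 1 = ((m + 1 : ℕ) : ℚ) + -1 / 2 by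
      push_cast; ring, one_div]
    refine IsAlgebraic.add ?_ hc.inv
    rw [div_eq_mul_inv]
    refine ((isAlgebraic_natCast 2).mul (IsAlgebraic.add ?_ isAlgebraic_one)).mul ht.inv
    exact isAlgebraic_algebraMap (((m : ℚ) + -1 / 2 : ℚ))

/-- The partial quotients of `(λ + 1) d K_λ / K_(λ + 1)` at `2 i / d`, `λ = a / d`. -/
theorem quotients_kQuot {a : ℤ} {d : ℕ} (hd : 0 < d) (had : 0 < a + d) :
    Transcendental ℚ (kQuot ((a : ℚ) / d) (2 / (d : ℝ))) ∧
      (GenContFract.of (kQuot ((a : ℚ) / d) (2 / (d : ℝ)))).h = (a : ℝ) + d ∧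
      ∀ k : ℕ, (GenContFract.of (kQuot ((a : ℚ) / d) (2 / (d : ℝ)))).s.get? k =
        some ⟨1, (a : ℝ) + ((k : ℝ) + 2) * d⟩ := by
  set t : ℝ := 2 / (d : ℝ) with ht
  have hd' : (0 : ℝ) < d := Nat.cast_pos.2 hd
  have ht0 : 0 < t := div_pos two_pos hd'
  have hlam : ∀ n : ℕ, (-1 : ℚ) < (a : ℚ) / d + n := fun n => by
    have h1 : (0 : ℚ) < (a : ℚ) + d := by exact_mod_cast had
    have h2 : (-1 : ℚ) < (a : ℚ) / d := by
      rw [lt_div_iff₀ (Nat.cast_pos.2 hd)]
      linarith
    linarith [Nat.cast_nonneg (α := ℚ) n]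
  set x : ℕ → ℝ := fun n => kQuot ((a : ℚ) / d + n) t with hx
  have hrec : ∀ n : ℕ, x n = ((a + (n + 1) * d : ℤ) : ℝ) + 1 / x (n + 1) := fun n => by
    simp only [hx]
    rw [kQuot_eq (hlam n) ht0, show (a : ℚ) / d + (n : ℚ) + 1 = (a : ℚ) / d + ((n + 1 : ℕ) : ℚ) by
      push_cast; ring, ht]
    push_cast
    field_simp
    ring
  have hone : ∀ n : ℕ, 1 < x (n + 1) := fun n => by
    rw [hrec]
    have h1 : (1 : ℝ) ≤ ((a + ((n + 1 : ℕ) + 1) * d : ℤ) : ℝ) := by
      rw [← Int.cast_one, Int.cast_le]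
      nlinarith
    have h2 : 0 < 1 / x (n + 1 + 1) := one_div_pos.2 (kQuot_pos (hlam _) ht0)
    linarith
  have hcq : ∀ n, cq (x 0) n = x n := fun n => by
    induction n with
    | zero => rfl
    | succ n ih => exact (cq_step (hone n) (by rw [ih]; exact hrec n)).2
  have hdig : ∀ n : ℕ, digit (x 0) n = a + (n + 1) * d := fun n =>
    (cq_step (hone n) (by rw [hcq n]; exact hrec n)).1
  have hx0 : x 0 = kQuot ((a : ℚ) / d) t := by simp [hx]
  have htr : Transcendental ℚ (x 0) := transcendental_kQuot (hlam 0) (by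
    rw [show t = algebraMap ℚ ℝ (2 / (d : ℚ)) by rw [eq_ratCast, ht]; push_cast; rfl]
    exact isAlgebraic_algebraMap _) ht0
  rw [← hx0]
  refine ⟨htr, ?_, fun k => ?_⟩
  · rw [digit_zero, hdig]
    push_cast
    ring
  · rw [get?_of htr.irrational, hdig]
    push_cast
    ring_nf

/-- **Siegel**: every continued fraction whose partial quotients form a nonconstant arithmetic
progression is transcendental. -/
theorem transcendental_of_progression_quotients {a : ℤ} {d : ℕ} (hd : 0 < d) (had : 0 < a + d)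
    {x : ℝ} (h0 : (GenContFract.of x).h = (a : ℝ) + d)
    (hs : ∀ k : ℕ, (GenContFract.of x).s.get? k = some ⟨1, (a : ℝ) + ((k : ℝ) + 2) * d⟩) :
    Transcendental ℚ x := by
  obtain ⟨htr, hy0, hys⟩ := quotients_kQuot hd had
  have hx : Irrational x := by
    rintro ⟨q, rfl⟩
    obtain ⟨n, hn⟩ := (GenContFract.terminates_iff_rat (q : ℝ)).2 ⟨q, rfl⟩
    rw [Stream'.Seq.TerminatedAt, hs n] at hn
    exact Option.some_ne_none _ hn
  rw [eq_of_digit_eq hx htr.irrational fun n => ?_]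
  · exact htr
  rcases n with _ | n
  · rw [digit_zero] at h0 hy0
    exact_mod_cast h0.trans hy0.symm
  · have h := (hs n).trans (hys n).symm
    rw [get?_of hx, get?_of htr.irrational, Option.some_inj] at h
    have h' := congrArg GenContFract.Pair.b h
    simp only [Int.cast_inj] at h'
    exact h'

/-- A continued fraction with the quotients `a + d, a + 2 d, …` exists. -/
theorem exists_progression_fraction {a : ℤ} {d : ℕ} (hd : 0 < d) (had : 0 < a + d) :
    ∃ x : ℝ, (GenContFract.of x).h = (a : ℝ) + d ∧ ∀ k : ℕ,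
      (GenContFract.of x).s.get? k = some ⟨1, (a : ℝ) + ((k : ℝ) + 2) * d⟩ :=
  ⟨_, (quotients_kQuot hd had).2⟩

/-- **Siegel**: a number whose partial quotients are, from some point on, in nonconstant
arithmetic progression is transcendental. -/
theorem transcendental_of_eventually_progression {a : ℤ} {d : ℕ} (hd : 0 < d) {N : ℕ} {x : ℝ}
    (hs : ∀ k, N ≤ k → (GenContFract.of x).s.get? k = some ⟨1, (a : ℝ) + (k : ℝ) * d⟩) :
    Transcendental ℚ x := by
  have hx : Irrational x := by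
    rintro ⟨q, rfl⟩
    obtain ⟨n, hn⟩ := (GenContFract.terminates_iff_rat (q : ℝ)).2 ⟨q, rfl⟩
    have h := GenContFract.terminated_stable (le_max_right N n) hn
    rw [GenContFract.terminatedAt_iff_s_none, hs _ (le_max_left N n)] at h
    exact Option.some_ne_none _ h
  intro halg
  set M : ℕ := N + a.natAbs + 1 with hM
  have hcq : ∀ n, IsAlgebraic ℚ (cq x n) := fun n => by
    induction n with
    | zero => exact halg
    | succ n ih => exact ((ih.sub (isAlgebraic_intCast _)) : IsAlgebraic ℚ (Int.fract (cq x n))).inv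
  have hdig : ∀ n, (digit (cq x (M + 1)) n : ℝ) = (a : ℝ) + ((M + n : ℕ) : ℝ) * d := fun n => by
    have h := hs (M + n) (by omega)
    rw [get?_of hx, Option.some_inj] at h
    have h' := congrArg GenContFract.Pair.b h
    simp only at h'
    rw [← h', digit, digit, ← cq_add, add_right_comm]
  have hM' : (0 : ℤ) < a + (((M : ℕ) : ℤ) - 1) * d + d := by
    have : (M : ℤ) * 1 ≤ (M : ℤ) * d := mul_le_mul_of_nonneg_left (by omega) (Int.natCast_nonneg M)
    have := neg_abs_le a
    have : (M : ℤ) = N + |a| + 1 := by rw [hM]; push_cast; ring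
    nlinarith
  refine transcendental_of_progression_quotients hd hM' ?_ (fun k => ?_) (hcq (M + 1))
  · rw [digit_zero, hdig]
    push_cast
    ring
  · rw [get?_of (irrational_cq hx _), hdig]
    push_cast
    ring_nf

end FA.SiegelShidlovskii

end
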