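import Mathlib.Analysis.Complex.RealDeriv
import Mathlib.Analysis.SpecialFunctions.Pow.Deriv
import Mathlib.Analysis.SpecialFunctions.Trigonometric.Deriv
import Fermat.Agent.SiegelShidlovskii.IncompleteGammaIntegral
import Fermat.Agent.SiegelShidlovskii.KFraction

/-!
# The zeros of `K_λ`, `λ > -1`

Lommel: `t ^ (2 λ + 1) Im (conj g · g')` for `g t = K_λ (a t)` is monotone and
vanishes at `0` and at `1` if `a` is a zero, so `a ^ 2` is real. Hurwitz:
`x ^ (λ + 1 / 2) K_λ` is compared with a sine, so it changes sign in every interval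
of length `2 π` far enough out.
-/

set_option autoImplicit false

noncomputable section

open Finset
open scoped Nat ComplexConjugate

namespace FA.SiegelShidlovskii

theorem cval_conj (g : PowerSeries ℚ) (z : ℂ) : cval g (conj z) = conj (cval g z) := by
  rw [cval, cval, Complex.conj_tsum]
  exact tsum_congr fun k => by simp

theorem cval_kSeries_equation {lam : ℚ} (hlam : ∀ m : ℕ, lam ≠ -((m : ℚ) + 1)) (z : ℂ) :
    z * cval (PowerSeries.derivative ℚ (PowerSeries.derivative ℚ (kSeries lam))) z +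
      (2 * (lam : ℂ) + 1) * cval (PowerSeries.derivative ℚ (kSeries lam)) z +
      z * cval (kSeries lam) z = 0 := by
  have hg := (isEFunction_kSeries hlam).expGrowth
  have h := ((((hg.derivative.derivative.chasVal z).polynomial_mul Polynomial.X).add
    ((hg.derivative.chasVal z).polynomial_mul (Polynomial.C (2 * lam + 1)))).add
    ((hg.chasVal z).polynomial_mul Polynomial.X))
  rw [Polynomial.coe_X, Polynomial.coe_C, kSeries_equation hlam] at h
  have h0 : CHasVal (0 : PowerSeries ℚ) z 0 := by simp [CHasVal, hasSum_zero]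
  have h1 := h.unique h0
  simp only [Polynomial.eval₂_X, Polynomial.eval₂_C, eq_ratCast] at h1
  push_cast at h1
  exact h1

theorem val_kSeries_equation {lam : ℚ} (hlam : ∀ m : ℕ, lam ≠ -((m : ℚ) + 1)) (x : ℝ) :
    x * val (PowerSeries.derivative ℚ (PowerSeries.derivative ℚ (kSeries lam))) x +
      (2 * (lam : ℝ) + 1) * val (PowerSeries.derivative ℚ (kSeries lam)) x +
      x * val (kSeries lam) x = 0 := by
  have h := cval_kSeries_equation hlam (x : ℂ)
  simp only [cval_ofReal] at h
  exact_mod_cast h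

theorem cval_derivative_kSeries {lam : ℚ} (h : -1 < lam) (z : ℂ) :
    cval (PowerSeries.derivative ℚ (kSeries lam)) z =
      ((-(1 / (2 * (lam + 1))) : ℚ) : ℂ) * z * cval (kSeries (lam + 1)) z := by
  have hlam' := ne_neg_nat_of_neg_one_lt (lam := lam + 1) (by linarith)
  rw [derivative_kSeries (ne_neg_nat_of_neg_one_lt h),
    (((isEFunction_kSeries hlam').expGrowth.chasVal z).polynomial_mul _).cval_eq,
    Polynomial.eval₂_mul, Polynomial.eval₂_C, Polynomial.eval₂_X]
  rfl

theorem continuous_cval {g : PowerSeries ℚ} (hg : ExpGrowth g) : Continuous (cval g) :=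
  continuous_iff_continuousAt.2 fun z => (hg.chasDerivAt z).continuousAt

theorem ExpGrowth.hasDerivAt_comp_mul {g : PowerSeries ℚ} (hg : ExpGrowth g) (a : ℂ) (t : ℝ) :
    HasDerivAt (fun t : ℝ => cval g (a * t))
      (a * cval (PowerSeries.derivative ℚ g) (a * t)) t := by
  have h := ((hg.chasDerivAt (a * t)).comp (t : ℂ)
    ((hasDerivAt_id (t : ℂ)).const_mul a)).comp_ofReal
  simpa [mul_comm] using h

/-- **Lommel**: a zero of `K_λ` has real square. -/
theorem im_sq_eq_zero_of_kSeries_zero {lam : ℚ} (h : -1 < lam) {a : ℂ}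
    (ha : cval (kSeries lam) a = 0) : (a ^ 2).im = 0 := by
  by_contra hs
  set s := (a ^ 2).im with hsdef
  have hlam := ne_neg_nat_of_neg_one_lt h
  have hlam' := ne_neg_nat_of_neg_one_lt (lam := lam + 1) (by linarith)
  have hg := (isEFunction_kSeries hlam).expGrowth
  set ν : ℝ := 2 * (lam : ℝ) + 1 with hν
  have hν1 : 0 < ν + 1 := by
    have : (-1 : ℝ) < (lam : ℝ) := by exact_mod_cast h
    linarith
  set g : ℝ → ℂ := fun t => cval (kSeries lam) (a * t) with hgdef
  set g₁ : ℝ → ℂ := fun t => a * cval (PowerSeries.derivative ℚ (kSeries lam)) (a * t) with hg₁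
  set c : ℂ := ((-(1 / (2 * (lam + 1))) : ℚ) : ℂ) * a ^ 2 with hc
  set ψ : ℝ → ℝ := fun t => (conj (g t) * (c * cval (kSeries (lam + 1)) (a * t))).im with hψ
  have hφψ : ∀ t : ℝ, (conj (g t) * g₁ t).im = t * ψ t := fun t => by
    simp only [hψ, hg₁, cval_derivative_kSeries h, hc]
    rw [← Complex.im_ofReal_mul]
    congr 1
    ring
  set F : ℝ → ℝ := fun t => -(t ^ (ν + 1) * ψ t) / s with hF
  have hgc : Continuous g := (continuous_cval hg).comp (by fun_prop)
  have hFc : Continuous F := by
    refine Continuous.div_const (Continuous.neg ((Real.continuous_rpow_const hν1.le).mul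
      (Complex.continuous_im.comp ((Complex.continuous_conj.comp hgc).mul
        (continuous_const.mul ((continuous_cval (isEFunction_kSeries hlam').expGrowth).comp
          (by fun_prop))))))) _
  have hF' : ∀ t : ℝ, 0 < t → HasDerivAt F (t ^ ν * Complex.normSq (g t)) t := fun t ht => by
    have d1 := hg.hasDerivAt_comp_mul a t
    have d2 : HasDerivAt g₁ (a * (a * cval (PowerSeries.derivative ℚ
        (PowerSeries.derivative ℚ (kSeries lam))) (a * t))) t :=
      (hg.derivative.hasDerivAt_comp_mul a t).const_mul a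
    have d3 := Complex.imCLM.hasFDerivAt.comp_hasDerivAt t
      ((Complex.conjCLE.toContinuousLinearMap.hasFDerivAt.comp_hasDerivAt t d1).mul d2)
    have d4 := (((Real.hasDerivAt_rpow_const (p := ν) (Or.inl ht.ne')).mul d3).neg).div_const s
    have e : F =ᶠ[nhds t] fun u => -(u ^ ν * (conj (g u) * g₁ u).im) / s := by
      filter_upwards [lt_mem_nhds ht] with u hu
      rw [hφψ]
      simp only [hF]
      rw [Real.rpow_add_one hu.ne' ν, mul_assoc]
    refine HasDerivAt.congr_of_eventuallyEq (HasDerivAt.congr_deriv d4 ?_) e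
    have ode := congrArg (fun w => (conj (g t) * (a * w)).im)
      (cval_kSeries_equation hlam (a * t))
    simp only [mul_zero, Complex.zero_im] at ode
    simp only [Function.comp_apply, Pi.mul_apply, Complex.imCLM_apply,
      ContinuousLinearEquiv.coe_coe, Complex.conjCLE_apply]
    rw [div_eq_iff hs, Real.rpow_sub_one ht.ne']
    have expand : (conj (g t) * (a * (a * (t : ℂ) * cval (PowerSeries.derivative ℚ
        (PowerSeries.derivative ℚ (kSeries lam))) (a * t) + (2 * (lam : ℂ) + 1) *
          cval (PowerSeries.derivative ℚ (kSeries lam)) (a * t) +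
          a * (t : ℂ) * cval (kSeries lam) (a * t)))).im =
        t * (conj (a * cval (PowerSeries.derivative ℚ (kSeries lam)) (a * t)) * g₁ t +
          conj (g t) * (a * (a * cval (PowerSeries.derivative ℚ
            (PowerSeries.derivative ℚ (kSeries lam))) (a * t)))).im +
        ν * (conj (g t) * g₁ t).im + t * Complex.normSq (g t) * s := by
      have e1 : (conj (a * cval (PowerSeries.derivative ℚ (kSeries lam)) (a * t)) *
          g₁ t).im = 0 := by
        rw [hg₁, ← Complex.normSq_eq_conj_mul_self, Complex.ofReal_im]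
      rw [Complex.add_im, e1, zero_add, ← Complex.im_ofReal_mul, ← Complex.im_ofReal_mul, hsdef,
        ← Complex.im_ofReal_mul, ← Complex.add_im, ← Complex.add_im, Complex.ofReal_mul,
        Complex.normSq_eq_conj_mul_self, hν]
      congr 1
      simp only [hg₁, hgdef]
      push_cast
      ring
    rw [expand] at ode
    simp only [hg₁, hgdef] at ode ⊢
    set P := (conj (cval (kSeries lam) (a * t)) *
      (a * cval (PowerSeries.derivative ℚ (kSeries lam)) (a * t))).im
    set Q := (conj (a * cval (PowerSeries.derivative ℚ (kSeries lam)) (a * t)) *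
      (a * cval (PowerSeries.derivative ℚ (kSeries lam)) (a * t)) +
      conj (cval (kSeries lam) (a * t)) * (a * (a * cval (PowerSeries.derivative ℚ
        (PowerSeries.derivative ℚ (kSeries lam))) (a * t)))).im
    have ht' := ht.ne'
    field_simp
    linear_combination -ode
  have hmono : MonotoneOn F (Set.Icc 0 1) := by
    refine monotoneOn_of_hasDerivWithinAt_nonneg (f' := fun t => t ^ ν * Complex.normSq (g t))
      (convex_Icc _ _) hFc.continuousOn (fun t ht => ?_) fun t ht => ?_
    all_goals rw [interior_Icc] at ht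
    · exact (hF' t ht.1).hasDerivWithinAt
    · exact mul_nonneg (Real.rpow_nonneg ht.1.le _) (Complex.normSq_nonneg _)
  have hF0 : F 0 = 0 := by simp [hF, Real.zero_rpow hν1.ne']
  have hF1 : F 1 = 0 := by simp [hF, hψ, hgdef, ha]
  have hzero : ∀ t ∈ Set.Ioo (0 : ℝ) 1, g t = 0 := fun t ht => by
    have e : F =ᶠ[nhds t] fun _ => 0 := by
      filter_upwards [Ioo_mem_nhds ht.1 ht.2] with u hu
      exact le_antisymm
        ((hmono ⟨hu.1.le, hu.2.le⟩ (Set.right_mem_Icc.2 zero_le_one) hu.2.le).trans_eq hF1)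
        (hF0.symm.trans_le
          (hmono (Set.left_mem_Icc.2 zero_le_one) ⟨hu.1.le, hu.2.le⟩ hu.1.le))
    have := (hF' t ht.1).unique ((hasDerivAt_const t (0 : ℝ)).congr_of_eventuallyEq e)
    rw [mul_eq_zero, or_iff_right (Real.rpow_pos_of_pos ht.1 _).ne', Complex.normSq_eq_zero] at this
    exact this
  have h0 : g 0 = 0 := by
    have hcl : closure (Set.Ioo (0 : ℝ) 1) ⊆ g ⁻¹' {0} :=
      closure_minimal hzero (isClosed_singleton.preimage hgc)
    rw [closure_Ioo zero_ne_one] at hcl
    exact hcl (Set.left_mem_Icc.2 zero_le_one)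
  simp only [hgdef, Complex.ofReal_zero, mul_zero, cval_kSeries_zero] at h0
  exact one_ne_zero h0

/-- **Lommel**: for `λ > -1` every zero of `K_λ` is real. -/
theorem kSeries_zero_im {lam : ℚ} (h : -1 < lam) {a : ℂ} (ha : cval (kSeries lam) a = 0) :
    a.im = 0 := by
  have h1 := im_sq_eq_zero_of_kSeries_zero h ha
  rw [sq, Complex.mul_im] at h1
  rcases mul_eq_zero.1 (show a.re * a.im = 0 by linarith) with h2 | h2
  · exfalso
    rw [show a = (a.im : ℂ) * Complex.I from Complex.ext (by simpa using h2) (by simp),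
      cval_kSeries_I_mul] at ha
    exact (kI_pos h a.im).ne' (Complex.ofReal_eq_zero.1 ha)
  · exact h2

/-- The zeros of `K_λ` are simple. -/
theorem kSeries_zero_simple {lam : ℚ} (hlam : ∀ m : ℕ, lam ≠ -((m : ℚ) + 1)) {z : ℂ}
    (hz : cval (kSeries lam) z = 0) : cval (PowerSeries.derivative ℚ (kSeries lam)) z ≠ 0 := by
  intro hz'
  have hgr : ∀ j, ExpGrowth (![kSeries lam, PowerSeries.derivative ℚ (kSeries lam)] j) := by
    intro j
    fin_cases j
    · exact (isEFunction_kSeries hlam).expGrowth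
    · exact (isEFunction_kSeries hlam).derivative.expGrowth
  have hf : IsSolution Polynomial.X
      !![0, Polynomial.X; -Polynomial.X, -Polynomial.C (2 * lam + 1)]
      ![kSeries lam, PowerSeries.derivative ℚ (kSeries lam)] := by
    intro i
    fin_cases i
    · simp [Fin.sum_univ_two]
    · simp [Fin.sum_univ_two]
      have h := kSeries_equation hlam
      simp only [map_add, map_mul, map_one] at h
      linear_combination h
  have hz0 : z ≠ 0 := fun e => by
    rw [e, cval_kSeries_zero] at hz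
    exact one_ne_zero hz
  obtain ⟨j, hj⟩ := exists_cval_ne_zero hf hgr ⟨0, kSeries_ne_zero lam⟩ (z := z)
    (by simpa using hz0)
  fin_cases j
  · exact hj hz
  · exact hj hz'

/-- **Hurwitz**: `K_λ` has a zero in every interval of length `2 π` far enough out. -/
theorem exists_kSeries_zero_mem {lam : ℚ} (hlam : ∀ m : ℕ, lam ≠ -((m : ℚ) + 1)) {T : ℝ}
    (hT : 2 * (|(lam : ℝ)| + 1) ≤ T) :
    ∃ x ∈ Set.Icc T (T + 2 * Real.pi), val (kSeries lam) x = 0 := by
  by_contra hne
  push Not at hne
  have hg := (isEFunction_kSeries hlam).expGrowth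
  set k := val (kSeries lam) with hk
  set k₁ := val (PowerSeries.derivative ℚ (kSeries lam)) with hk₁
  have hkc : Continuous k := continuous_iff_continuousAt.2 fun y =>
    (hg.hasDerivAt_val y).continuousAt
  have hT0 : 0 < T := by linarith [abs_nonneg (lam : ℝ)]
  have hle : T ≤ T + 2 * Real.pi := by linarith [Real.pi_pos]
  obtain ⟨σ, hσ⟩ : ∃ σ : ℝ, ∀ x ∈ Set.Icc T (T + 2 * Real.pi), 0 < σ * k x := by
    refine ⟨k T, fun x hx => ?_⟩
    have hT' := hne T (Set.left_mem_Icc.2 hle)
    have hsub : Set.Icc T x ⊆ Set.Icc T (T + 2 * Real.pi) := Set.Icc_subset_Icc le_rfl hx.2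
    rcases lt_or_gt_of_ne hT' with h1 | h1 <;> rcases lt_or_gt_of_ne (hne x hx) with h2 | h2
    · exact mul_pos_of_neg_of_neg h1 h2
    · obtain ⟨y, hy, hy0⟩ := intermediate_value_Icc hx.1 hkc.continuousOn ⟨h1.le, h2.le⟩
      exact absurd hy0 (hne y (hsub hy))
    · obtain ⟨y, hy, hy0⟩ := intermediate_value_Icc' hx.1 hkc.continuousOn ⟨h2.le, h1.le⟩
      exact absurd hy0 (hne y (hsub hy))
    · exact mul_pos h1 h2
  set p : ℝ := (lam : ℝ) + 1 / 2 with hp
  set W : ℝ → ℝ := fun x => σ * x ^ p * ((k₁ x + p / x * k x) * Real.sin ((x - T) / 2) -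
    k x * (Real.cos ((x - T) / 2) / 2)) with hW
  have hW' : ∀ x, 0 < x → HasDerivAt W (σ * k x * x ^ p * Real.sin ((x - T) / 2) *
      (((lam : ℝ) ^ 2 - 1 / 4) / x ^ 2 - 3 / 4)) x := fun x hx => by
    have hv := ((hasDerivAt_id x).sub_const T).div_const 2
    have d := ((((Real.hasDerivAt_rpow_const (p := p) (Or.inl hx.ne')).const_mul σ)).mul
      ((((hg.derivative.hasDerivAt_val x).add
        (((hasDerivAt_inv hx.ne').const_mul p).mul (hg.hasDerivAt_val x))).mul hv.sin).sub
        ((hg.hasDerivAt_val x).mul (hv.cos.div_const 2))))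
    refine HasDerivAt.congr_deriv (d.congr_of_eventuallyEq ?_) ?_
    · exact Filter.Eventually.of_forall fun y => by simp [hW, hk, hk₁, div_eq_mul_inv]
    · have ode := val_kSeries_equation hlam x
      simp only [Pi.mul_apply, Pi.add_apply, Pi.sub_apply, id_eq]
      rw [Real.rpow_sub_one hx.ne', hk]
      rw [hp] at *
      field_simp
      linear_combination 16 * (σ * x * Real.sin ((x - T) / 2)) * ode
  have hanti : AntitoneOn W (Set.Icc T (T + 2 * Real.pi)) := by
    refine antitoneOn_of_hasDerivWithinAt_nonpos (convex_Icc _ _)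
      (fun x hx => (hW' x (hT0.trans_le hx.1)).continuousAt.continuousWithinAt)
      (fun x hx => (hW' x (hT0.trans_le (interior_subset hx).1)).hasDerivWithinAt) fun x hx => ?_
    have hx' := interior_subset hx
    refine mul_nonpos_of_nonneg_of_nonpos (mul_nonneg (mul_nonneg (hσ x hx').le
      (Real.rpow_nonneg (hT0.trans_le hx'.1).le _))
      (Real.sin_nonneg_of_nonneg_of_le_pi (by linarith [hx'.1]) (by linarith [hx'.2]))) ?_
    rw [sub_nonpos, div_le_iff₀ (pow_pos (hT0.trans_le hx'.1) 2)]
    have h1 : (lam : ℝ) ^ 2 ≤ (T / 2) ^ 2 := by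
      rw [← sq_abs (lam : ℝ)]
      exact pow_le_pow_left₀ (abs_nonneg _) (by linarith) 2
    have h2 : T ^ 2 ≤ x ^ 2 := pow_le_pow_left₀ hT0.le hx'.1 2
    nlinarith
  have h1 := hanti (Set.left_mem_Icc.2 hle) (Set.right_mem_Icc.2 hle) hle
  simp only [hW, sub_self, zero_div, Real.sin_zero, Real.cos_zero, add_sub_cancel_left,
    show 2 * Real.pi / 2 = Real.pi by ring, Real.sin_pi, Real.cos_pi, mul_zero, zero_sub] at h1
  nlinarith [mul_pos (hσ T (Set.left_mem_Icc.2 hle)) (Real.rpow_pos_of_pos hT0 p),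
    mul_pos (hσ _ (Set.right_mem_Icc.2 hle))
      (Real.rpow_pos_of_pos (show 0 < T + 2 * Real.pi by linarith [Real.pi_pos]) p)]

theorem infinite_kSeries_zeros {lam : ℚ} (hlam : ∀ m : ℕ, lam ≠ -((m : ℚ) + 1)) :
    {x : ℝ | 0 < x ∧ cval (kSeries lam) (x : ℂ) = 0}.Infinite :=
  Set.infinite_of_forall_exists_gt fun R => by
    obtain ⟨x, hx, hx0⟩ := exists_kSeries_zero_mem hlam
      (T := 2 * (|(lam : ℝ)| + 1) + |R| + 1) (by linarith [abs_nonneg R])
    exact ⟨x, ⟨by linarith [abs_nonneg (lam : ℝ), abs_nonneg R, hx.1],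
      by rw [cval_ofReal, hx0, Complex.ofReal_zero]⟩,
      by linarith [le_abs_self R, abs_nonneg (lam : ℝ), hx.1]⟩

theorem besselC_eq_kSeries (n : ℕ) (z : ℂ) :
    besselC n z = (z / 2) ^ n / (n ! : ℂ) * cval (kSeries (n : ℚ)) z := by
  rw [besselC, cval_kSeries, ← tsum_mul_left]
  refine tsum_congr fun l => ?_
  have h : ∀ l : ℕ, (∏ j ∈ Icc 1 l, ((n : ℂ) + j)) * (n ! : ℂ) = ((l + n)! : ℂ) := fun l => by
    induction l with
    | zero => simp
    | succ l ih =>
      rw [Finset.prod_Icc_succ_top (by omega), show l + 1 + n = (l + n) + 1 by ring,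
        Nat.factorial_succ (l + n), Nat.cast_mul, ← ih]
      push_cast
      ring
  rw [Rat.cast_natCast, ← h l, pow_add]
  have h1 : (n ! : ℂ) ≠ 0 := Nat.cast_ne_zero.2 (Nat.factorial_ne_zero _)
  have h2 : ∏ j ∈ Icc 1 l, ((n : ℂ) + j) ≠ 0 :=
    Finset.prod_ne_zero_iff.2 fun j hj => by
      rw [← Nat.cast_add, Nat.cast_ne_zero]
      have := (mem_Icc.1 hj).1
      omega
  field_simp

theorem natCast_ne_int_add_half (n : ℕ) (t : ℤ) : (n : ℚ) ≠ (t : ℚ) + 1 / 2 := fun h => by
  have : ((2 * n : ℤ) : ℚ) = ((2 * t + 1 : ℤ) : ℚ) := by push_cast; linarith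
  rw [Int.cast_inj] at this
  omega

/-- **`J_n` has only real zeros, infinitely many of them positive and transcendental.** -/
theorem besselC_zeros (n : ℕ) :
    (∀ z : ℂ, besselC n z = 0 → z.im = 0) ∧
      {x : ℝ | 0 < x ∧ Transcendental ℚ x ∧ besselC n (x : ℂ) = 0}.Infinite := by
  have hn : (-1 : ℚ) < (n : ℚ) := by linarith [Nat.cast_nonneg (α := ℚ) n]
  have hlam := ne_neg_nat_of_neg_one_lt hn
  refine ⟨fun z hz => ?_, (infinite_kSeries_zeros hlam).mono ?_⟩
  · rw [besselC_eq_kSeries, mul_eq_zero] at hz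
    rcases hz with hz | hz
    · rw [div_eq_zero_iff, or_iff_left (Nat.cast_ne_zero.2 (Nat.factorial_ne_zero _))] at hz
      have := eq_zero_of_pow_eq_zero hz
      rw [div_eq_zero_iff, or_iff_left two_ne_zero] at this
      rw [this, Complex.zero_im]
    · exact kSeries_zero_im hn hz
  rintro x ⟨hx, hx0⟩
  refine ⟨hx, fun h => ?_, by rw [besselC_eq_kSeries, hx0, mul_zero]⟩
  exact transcendental_kSeries_zero hlam (natCast_ne_int_add_half n) hx0
    (isAlgebraic_ofReal_iff'.2 h)

end FA.SiegelShidlovskii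

end
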