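import Fermat.Agent.SiegelShidlovskii.IncompleteGamma
import Fermat.Agent.SiegelShidlovskii.SecondTheorem

/-!
# The dependent functions `exp z`, `exp (2 z)`

Both sides of the second fundamental theorem are `1` for them.
-/

set_option autoImplicit false

noncomputable section

open Finset

namespace FA.SiegelShidlovskii

theorem trdeg_exp_pair {α : ℂ} (hα : IsAlgebraic ℚ α) (hα0 : α ≠ 0) :
    Algebra.trdeg (Polynomial ℚ) (Algebra.adjoin (Polynomial ℚ)
        (Set.range ![PowerSeries.exp ℚ, PowerSeries.exp ℚ * PowerSeries.exp ℚ])) = 1 ∧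
      Algebra.trdeg ℚ (Algebra.adjoin ℚ
        (Set.range ![Complex.exp α, Complex.exp (2 * α)])) = 1 := by
  set f := ![PowerSeries.exp ℚ, PowerSeries.exp ℚ * PowerSeries.exp ℚ] with hf
  have hE : ∀ i, IsEFunction (f i) := by
    intro i
    fin_cases i
    · exact isEFunction_exp
    · exact isEFunction_exp.mul isEFunction_exp
  have hv : (fun i => cval (f i) α) = ![Complex.exp α, Complex.exp (2 * α)] := by
    funext i
    fin_cases i
    · simp [hf, cval_exp]
    · simp [hf, cval_mul isEFunction_exp isEFunction_exp, cval_exp, two_mul, Complex.exp_add]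
  have hsys := trdeg_values_eq (f := f) 1 0 !![1, 0; 0, 2] (fun i => by
    fin_cases i
    · simp [hf, Fin.sum_univ_two, PowerSeries.derivative_exp]
    · simp [hf, Fin.sum_univ_two, Derivation.leibniz, PowerSeries.derivative_exp,
        show ((2 : Polynomial ℚ) : PowerSeries ℚ) = 2 from
          map_ofNat Polynomial.coeToPowerSeries.ringHom 2]
      ring) hE hα hα0 (by simp)
  rw [hv] at hsys
  suffices h : Algebra.trdeg ℚ (Algebra.adjoin ℚ
      (Set.range ![Complex.exp α, Complex.exp (2 * α)])) = 1 from ⟨hsys ▸ h, h⟩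
  obtain ⟨U, hU, -, hUeq, hUmax⟩ :=
    exists_card_eq_trdeg_adjoin (R := ℚ) ![Complex.exp α, Complex.exp (2 * α)]
  rw [hUeq, ← Nat.cast_one, Nat.cast_inj]
  refine le_antisymm ?_ ?_
  · by_contra h
    have h2 : U.card = 2 := le_antisymm ((Finset.card_le_univ U).trans_eq (by simp)) (by omega)
    have hall : ∀ i, i ∈ U := fun i => by
      rw [(Finset.card_eq_iff_eq_univ U).1 (by simpa using h2)]
      exact mem_univ i
    have hind : AlgebraicIndependent ℚ ![Complex.exp α, Complex.exp (2 * α)] :=
      hU.comp (fun i => ⟨i, hall i⟩) fun i j hij => congrArg Subtype.val hij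
    have h0 := algebraicIndependent_iff.1 hind
      (MvPolynomial.X 1 - MvPolynomial.X 0 ^ 2) (by simp [two_mul, Complex.exp_add, sq])
    have h1 := congrArg (MvPolynomial.eval ![0, 1]) h0
    simp at h1
  · have h := algebraicIndependent_phiSeries (lam := 1 / 2) (fun t ht => by
      have h' : ((2 * t : ℤ) : ℚ) = ((1 : ℤ) : ℚ) := by push_cast; linarith
      rw [Int.cast_inj] at h'
      omega) hα hα0
    refine le_trans (le_of_eq (Finset.card_singleton (0 : Fin 2)).symm) (hUmax {0} ?_)
    have h' := h.comp (fun _ : (({0} : Finset (Fin 2)) : Set (Fin 2)) => (1 : Fin 2))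
      (fun i j _ => Subtype.ext
        ((Finset.mem_singleton.1 i.2).trans (Finset.mem_singleton.1 j.2).symm))
    unfold AlgebraicIndepOn
    convert h' using 1
    funext i
    obtain ⟨i, hi⟩ := i
    obtain rfl := Finset.mem_singleton.1 hi
    rfl

end FA.SiegelShidlovskii

end
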